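import Mathlib
import Fermat.Agent.ES1.Group
import Fermat.Agent.S41.Cores

/-!
# K-machine, piece K5 (automorphic modules): definitions

`Γ_H = gammaH L M H = {γ ∈ Γ₀(L) ∩ Γ₀(M) : γ₀₀ mod M ∈ ±H}` (`ES1/Group.lean`), `M ∣ L`.
* `HomS Γ A = Hom(Γ, A)`; `resS`, `coresS` (transfer) for `Γ' ≤ Γ`; `conjS g` (conjugation);
* `inclH`, `conjDH : Γ_H(L ℓ) → Γ_H(L)` (inclusion, `γ ↦ δ γ δ⁻¹`, `δ = diag(ℓ, 1)`);
* the Hecke operator `tS ℓ = cores_δ ∘ res` on `Hom(Γ_H(L), A)` (for `H = ⊤` this is `S41.Tc`, by `S41.stmtC2`).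
-/

set_option autoImplicit false

noncomputable section

namespace Fermat.Agent.RT.K5

open CongruenceSubgroup Matrix
open scoped MatrixGroups
open Fermat.Agent.ES1 (gammaH diamHom pmH)

/-- `Hom(Γ, A)`. -/
abbrev HomS (Γ : Subgroup SL(2, ℤ)) (A : Type*) [AddCommGroup A] : Type _ := Additive Γ →+ A

section general

variable {Γ' Γ : Subgroup SL(2, ℤ)} (A : Type*) [AddCommGroup A]

/-- restriction `Hom(Γ, A) → Hom(Γ', A)`. -/
def resS (h : Γ' ≤ Γ) : HomS Γ A →+ HomS Γ' A where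
  toFun φ := φ.comp (MonoidHom.toAdditive (Subgroup.inclusion h))
  map_zero' := rfl
  map_add' _ _ := rfl

@[simp] theorem resS_apply (h : Γ' ≤ Γ) (φ : HomS Γ A) (γ : Γ') :
    resS A h φ (Additive.ofMul γ) = φ (Additive.ofMul (Subgroup.inclusion h γ)) := rfl

/-- corestriction (transfer) `Hom(Γ', A) → Hom(Γ, A)`. -/
def coresS (h : Γ' ≤ Γ) [(Subgroup.inclusion h).range.FiniteIndex] : HomS Γ' A →+ HomS Γ A where
  toFun := S41.transferAlong A (Subgroup.inclusion h) (Subgroup.inclusion_injective h)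
  map_zero' := S41.transferAlong_zero A _ _
  map_add' := S41.transferAlong_add A _ _

/-- conjugation `γ ↦ g⁻¹ γ g` on a subgroup normalised by `g`. -/
def conjHom (g : SL(2, ℤ)) (hg : ∀ γ ∈ Γ, g⁻¹ * γ * g ∈ Γ) : Γ →* Γ where
  toFun γ := ⟨g⁻¹ * γ * g, hg γ γ.2⟩
  map_one' := by apply Subtype.ext; simp
  map_mul' a b := by apply Subtype.ext; simp [mul_assoc]

/-- the action of `g` (normalising `Γ`) on `Hom(Γ, A)`: `(g · φ)(γ) = φ(g⁻¹ γ g)`. -/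
def conjS (g : SL(2, ℤ)) (hg : ∀ γ ∈ Γ, g⁻¹ * γ * g ∈ Γ) : HomS Γ A →+ HomS Γ A where
  toFun φ := φ.comp (MonoidHom.toAdditive (conjHom g hg))
  map_zero' := rfl
  map_add' _ _ := rfl

@[simp] theorem conjS_apply (g : SL(2, ℤ)) (hg : ∀ γ ∈ Γ, g⁻¹ * γ * g ∈ Γ) (φ : HomS Γ A)
    (γ : Γ) : conjS A g hg φ (Additive.ofMul γ) = φ (Additive.ofMul (conjHom g hg γ)) := rfl

end general

section level

variable (L M ℓ : ℕ) (H : Subgroup (ZMod M)ˣ)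

theorem gammaH_mul_le : gammaH (L * ℓ) M H ≤ gammaH L M H :=
  Fermat.Agent.ES1.gammaH_mono_level (dvd_mul_right L ℓ) M H

/-- the inclusion `Γ_H(L ℓ) → Γ_H(L)`. -/
def inclH : gammaH (L * ℓ) M H →* gammaH L M H := Subgroup.inclusion (gammaH_mul_le L M ℓ H)

theorem inclH_injective : Function.Injective (inclH L M ℓ H) :=
  Subgroup.inclusion_injective _

theorem mem_gamma0_mul {γ : SL(2, ℤ)} (hγ : γ ∈ gammaH (L * ℓ) M H) : γ ∈ Gamma0 (L * ℓ) := hγ.1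

theorem conjDSL_mem_gammaH [NeZero ℓ] (hML : M ∣ L) (γ : gammaH (L * ℓ) M H) :
    S41.conjDSL L ℓ ⟨γ, γ.2.1⟩ ∈ gammaH L M H := by
  have h0 : S41.conjDSL L ℓ ⟨γ, γ.2.1⟩ ∈ Gamma0 L := S41.conjDSL_mem L ℓ ⟨γ, γ.2.1⟩
  have hM : S41.conjDSL L ℓ ⟨γ, γ.2.1⟩ ∈ Gamma0 M := by
    rw [Gamma0_mem, ZMod.intCast_zmod_eq_zero_iff_dvd]
    exact (Int.natCast_dvd_natCast.mpr hML).trans (S41.dvd_of_mem_Gamma0 h0)
  obtain ⟨hγM, hH⟩ := γ.2.2
  refine ⟨h0, hM, ?_⟩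
  have : diamHom M ⟨S41.conjDSL L ℓ ⟨γ, γ.2.1⟩, hM⟩ = diamHom M ⟨γ, hγM⟩ := by
    ext
    rw [Fermat.Agent.ES1.coe_diamHom, Fermat.Agent.ES1.coe_diamHom]
    rfl
  rw [this]; exact hH

/-- conjugation by `δ = diag(ℓ, 1)`: `Γ_H(L ℓ) → Γ_H(L)`, `[[a, b], [c, d]] ↦ [[a, ℓ b], [c / ℓ, d]]`. -/
def conjDH [NeZero ℓ] (hML : M ∣ L) : gammaH (L * ℓ) M H →* gammaH L M H where
  toFun γ := ⟨S41.conjDSL L ℓ ⟨γ, γ.2.1⟩, conjDSL_mem_gammaH L M ℓ H hML γ⟩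
  map_one' := by
    apply Subtype.ext
    have := congrArg (fun x : Gamma0 L => (x : SL(2, ℤ))) (map_one (S41.conjD L ℓ))
    exact this
  map_mul' a b := by
    apply Subtype.ext
    have := congrArg (fun x : Gamma0 L => (x : SL(2, ℤ)))
      (map_mul (S41.conjD L ℓ) ⟨a, a.2.1⟩ ⟨b, b.2.1⟩)
    exact this

theorem conjDH_coe [NeZero ℓ] (hML : M ∣ L) (γ : gammaH (L * ℓ) M H) :
    ((conjDH L M ℓ H hML γ : gammaH L M H) : SL(2, ℤ)) = S41.conjD L ℓ ⟨γ, γ.2.1⟩ := rfl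

theorem conjDH_injective [NeZero ℓ] (hML : M ∣ L) : Function.Injective (conjDH L M ℓ H hML) := by
  intro a b h
  have h1 : (S41.conjD L ℓ ⟨a, a.2.1⟩ : Gamma0 L) = S41.conjD L ℓ ⟨b, b.2.1⟩ := by
    apply Subtype.ext
    have := congrArg (fun x : gammaH L M H => (x : SL(2, ℤ))) h
    exact this
  have h2 := S41.conjD_injective L ℓ h1
  apply Subtype.ext
  exact congrArg (fun x : Gamma0 (L * ℓ) => (x : SL(2, ℤ))) h2

end level

end Fermat.Agent.RT.K5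

namespace Fermat.Agent.RT.K5

open CongruenceSubgroup Matrix
open scoped MatrixGroups
open Fermat.Agent.ES1 (gammaH diamHom pmH)

section finiteIndex

variable (L M ℓ : ℕ) (H : Subgroup (ZMod M)ˣ)

theorem Gamma_le_gammaH (hML : M ∣ L) : Gamma L ≤ gammaH L M H := by
  intro γ hγ
  have hγ' := Gamma_mem.mp hγ
  have h0 : γ ∈ Gamma0 L := Gamma0_mem.mpr hγ'.2.2.1
  have hM : γ ∈ Gamma0 M := by
    rw [Gamma0_mem, ZMod.intCast_zmod_eq_zero_iff_dvd]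
    exact (Int.natCast_dvd_natCast.mpr hML).trans (S41.dvd_of_mem_Gamma0 h0)
  refine ⟨h0, hM, ?_⟩
  have h1 : diamHom M ⟨γ, hM⟩ = 1 := by
    ext
    rw [Fermat.Agent.ES1.coe_diamHom]
    have h00 : (((γ 0 0 : ℤ) : ZMod L)) = 1 := hγ'.1
    have h2 : (L : ℤ) ∣ γ 0 0 - 1 := by
      rw [← ZMod.intCast_zmod_eq_zero_iff_dvd]; push_cast; rw [h00]; ring
    have h3 : (M : ℤ) ∣ γ 0 0 - 1 := (Int.natCast_dvd_natCast.mpr hML).trans h2
    have h4 : (((γ 0 0 - 1 : ℤ)) : ZMod M) = 0 := (ZMod.intCast_zmod_eq_zero_iff_dvd _ _).mpr h3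
    push_cast at h4
    simpa [sub_eq_zero] using h4
  rw [h1]; exact one_mem _

instance gammaH_finiteIndex [NeZero L] [Fact (M ∣ L)] : (gammaH L M H).FiniteIndex :=
  Subgroup.finiteIndex_of_le (Gamma_le_gammaH L M H Fact.out)

instance inclH_range_finiteIndex [NeZero L] [NeZero ℓ] [Fact (M ∣ L)] :
    (inclH L M ℓ H).range.FiniteIndex := by
  haveI : Fact (M ∣ L * ℓ) := ⟨(Fact.out : M ∣ L).trans (dvd_mul_right L ℓ)⟩
  rw [inclH, Subgroup.inclusion_range]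
  infer_instance

instance inclusion_range_finiteIndex [NeZero L] [Fact (M ∣ L)] {H' H : Subgroup (ZMod M)ˣ}
    (h : gammaH L M H' ≤ gammaH L M H) : (Subgroup.inclusion h).range.FiniteIndex := by
  rw [Subgroup.inclusion_range]
  infer_instance

/-- `Γ(L ℓ) ∩ Γ_H(L)` is contained in the image of `conjDH`. -/
theorem Gamma_subgroupOf_le_conjDH_range [NeZero L] [NeZero ℓ] (hML : M ∣ L) :
    (Gamma (L * ℓ)).subgroupOf (gammaH L M H) ≤ (conjDH L M ℓ H hML).range := by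
  intro γ hγ
  rw [Subgroup.mem_subgroupOf] at hγ
  -- use the `Γ₀`-statement of S41
  have h0 : (γ : SL(2, ℤ)) ∈ Gamma0 L := γ.2.1
  have h1 : (⟨(γ : SL(2, ℤ)), h0⟩ : Gamma0 L) ∈ (Gamma (L * ℓ)).subgroupOf (Gamma0 L) := by
    rw [Subgroup.mem_subgroupOf]; exact hγ
  obtain ⟨g, hg⟩ := S41.Gamma_subgroupOf_le_conjD_range L ℓ h1
  have hgM : (g : SL(2, ℤ)) ∈ Gamma0 M := by
    rw [Gamma0_mem, ZMod.intCast_zmod_eq_zero_iff_dvd]
    exact (Int.natCast_dvd_natCast.mpr (hML.trans (dvd_mul_right L ℓ))).trans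
      (S41.dvd_of_mem_Gamma0 g.2)
  have hentry : ((g : SL(2, ℤ)) 0 0 : ℤ) = (γ : SL(2, ℤ)) 0 0 := by
    have := congrArg (fun x : Gamma0 L => ((x : SL(2, ℤ)) : Matrix (Fin 2) (Fin 2) ℤ) 0 0) hg
    simpa [S41.conjD_coe, S41.conjDMat] using this
  obtain ⟨hγM, hH⟩ := γ.2.2
  have hgH : (g : SL(2, ℤ)) ∈ gammaH (L * ℓ) M H := by
    refine ⟨g.2, hgM, ?_⟩
    have : diamHom M ⟨(g : SL(2, ℤ)), hgM⟩ = diamHom M ⟨(γ : SL(2, ℤ)), hγM⟩ := by
      ext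
      rw [Fermat.Agent.ES1.coe_diamHom, Fermat.Agent.ES1.coe_diamHom]
      exact congrArg _ hentry
    rw [this]; exact hH
  refine ⟨⟨(g : SL(2, ℤ)), hgH⟩, ?_⟩
  apply Subtype.ext
  rw [conjDH_coe]
  exact congrArg (fun x : Gamma0 L => (x : SL(2, ℤ))) hg

instance conjDH_range_finiteIndex [NeZero L] [NeZero ℓ] [hML : Fact (M ∣ L)] :
    (conjDH L M ℓ H hML.out).range.FiniteIndex := by
  haveI : NeZero (L * ℓ) := inferInstance
  haveI : ((Gamma (L * ℓ)).subgroupOf (gammaH L M H)).FiniteIndex := inferInstance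
  exact Subgroup.finiteIndex_of_le (Gamma_subgroupOf_le_conjDH_range L M ℓ H hML.out)

end finiteIndex

section hecke

variable (L M ℓ : ℕ) [NeZero L] [NeZero ℓ] [hML : Fact (M ∣ L)] (H : Subgroup (ZMod M)ˣ)
  (A : Type*) [AddCommGroup A]

/-- restriction along the inclusion `Γ_H(L ℓ) ≤ Γ_H(L)`. -/
def resH : HomS (gammaH L M H) A →+ HomS (gammaH (L * ℓ) M H) A :=
  resS A (gammaH_mul_le L M ℓ H)

/-- restriction along `γ ↦ δ γ δ⁻¹`. -/
def resDH : HomS (gammaH L M H) A →+ HomS (gammaH (L * ℓ) M H) A where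
  toFun φ := φ.comp (MonoidHom.toAdditive (conjDH L M ℓ H hML.out))
  map_zero' := rfl
  map_add' _ _ := rfl

/-- corestriction along the inclusion `Γ_H(L ℓ) ≤ Γ_H(L)`. -/
def coresH : HomS (gammaH (L * ℓ) M H) A →+ HomS (gammaH L M H) A where
  toFun := S41.transferAlong A (inclH L M ℓ H) (inclH_injective L M ℓ H)
  map_zero' := S41.transferAlong_zero A _ _
  map_add' := S41.transferAlong_add A _ _

/-- corestriction along `γ ↦ δ γ δ⁻¹`. -/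
def coresDH : HomS (gammaH (L * ℓ) M H) A →+ HomS (gammaH L M H) A where
  toFun := S41.transferAlong A (conjDH L M ℓ H hML.out) (conjDH_injective L M ℓ H hML.out)
  map_zero' := S41.transferAlong_zero A _ _
  map_add' := S41.transferAlong_add A _ _

/-- **The Hecke operator `T_ℓ`** on `Hom(Γ_H(L), A)`, `ℓ` prime, `ℓ ∤ L`: `cores_δ ∘ res`.
For `H = ⊤` (i.e. `Γ₀(L)`) this is `S41.Tc ℓ` (`S41.stmtC2`). -/
def tS : HomS (gammaH L M H) A →+ HomS (gammaH L M H) A :=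
  (coresDH L M ℓ H A).comp (resH L M ℓ H A)

end hecke

end Fermat.Agent.RT.K5
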