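import Fermat.Agent.RT.K5.Comm

/-!
# RT-K5, piece CC (helper40): the Hecke operators commute, `stmtCommT : StmtCommT`

`T_ℓ T_ℓ' = cores_{δ δ'} ∘ res` to level `L ℓ ℓ'` (`k5cc_tS_tS`): base change
(`k5c_transfer_basechange`) in the square
`(Γ_H(L ℓ ℓ') → Γ_H(L ℓ), Γ_H(L ℓ') → Γ_H(L))` over `conj_δ'` / the inclusions, which is cartesian
with one double coset (`k5cc_square`: `Γ_H(L) = Γ₁(L ℓ) · δ' Γ_H(L ℓ') δ'⁻¹`, by `k5cc_arith`),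
then transitivity of the transfer.  The right hand side is symmetric in `ℓ, ℓ'` (`k5cc_congr`).
-/

set_option autoImplicit false
set_option linter.style.haveILetI false
set_option linter.unusedSectionVars false
set_option linter.unusedVariables false

noncomputable section

namespace Fermat.Agent.RT.K5

open CongruenceSubgroup Matrix
open scoped MatrixGroups
open Fermat.Agent.ES1 (gammaH diamHom pmH)

/-- arithmetic core of the double coset decomposition -/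
theorem k5cc_arith (N : ℕ) {r : ℕ} (hr : r.Prime) (hN : ¬ r ∣ N) (a b c d : ℤ)
    (hdet : a * d - b * c = 1) :
    ∃ s t : ℤ, (r : ℤ) ∣ (1 + N * s * t) * b - t * d := by
  have hrp : Prime (r : ℤ) := Nat.prime_iff_prime_int.mp hr
  have key : ∃ s : ℤ, ¬ (r : ℤ) ∣ d - N * s * b := by
    by_cases hd : (r : ℤ) ∣ d
    · refine ⟨1, fun h => ?_⟩
      have h1 : (r : ℤ) ∣ (N : ℤ) * b := by
        have : (N : ℤ) * b = d - (d - N * 1 * b) := by ring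
        rw [this]; exact dvd_sub hd h
      rcases hrp.dvd_or_dvd h1 with h2 | h2
      · exact hN (Int.natCast_dvd_natCast.mp h2)
      · have h3 : (r : ℤ) ∣ a * d - b * c := dvd_sub (hd.mul_left a) (h2.mul_right c)
        rw [hdet] at h3
        exact hrp.not_dvd_one h3
    · exact ⟨0, by simpa using hd⟩
  obtain ⟨s, hs⟩ := key
  have hcop : IsCoprime (r : ℤ) (d - N * s * b) := (Prime.coprime_iff_not_dvd hrp).mpr hs
  obtain ⟨u, v, huv⟩ := hcop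
  refine ⟨s, b * v, ⟨b * u, ?_⟩⟩
  linear_combination (-b) * huv

/-- the matrix `[[1, t], [N s, 1 + N s t]] ∈ Γ₁(N)` -/
def k5ccX (N : ℕ) (s t : ℤ) : SL(2, ℤ) :=
  ⟨!![1, t; (N : ℤ) * s, 1 + (N : ℤ) * s * t], by rw [Matrix.det_fin_two_of]; ring⟩

theorem k5ccX_mem (N M : ℕ) (hMN : M ∣ N) (H : Subgroup (ZMod M)ˣ) (s t : ℤ) :
    k5ccX N s t ∈ gammaH N M H := by
  have h10 : (k5ccX N s t) 1 0 = (N : ℤ) * s := by simp [k5ccX]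
  have h00 : (k5ccX N s t) 0 0 = 1 := by simp [k5ccX]
  have hN : k5ccX N s t ∈ Gamma0 N := by
    apply S41.mem_Gamma0_of_dvd
    rw [h10]; exact dvd_mul_right _ _
  have hM : k5ccX N s t ∈ Gamma0 M := by
    apply S41.mem_Gamma0_of_dvd
    rw [h10]; exact (Int.natCast_dvd_natCast.mpr hMN).mul_right _
  refine ⟨hN, hM, ?_⟩
  have : diamHom M ⟨k5ccX N s t, hM⟩ = 1 := by
    ext
    rw [Fermat.Agent.ES1.coe_diamHom, h00]
    simp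
  rw [this]; exact one_mem _

theorem k5ccX_inv_mul_01 (N : ℕ) (s t : ℤ) (γ : SL(2, ℤ)) :
    (((k5ccX N s t)⁻¹ * γ : SL(2, ℤ)) : Matrix (Fin 2) (Fin 2) ℤ) 0 1 =
      (1 + N * s * t) * γ 0 1 - t * γ 1 1 := by
  rw [Matrix.SpecialLinearGroup.coe_mul, Matrix.SpecialLinearGroup.coe_inv,
    Matrix.adjugate_fin_two, Matrix.mul_apply, Fin.sum_univ_two]
  simp [k5ccX]
  ring

section square

variable (L M ℓ ℓ' : ℕ) [NeZero L] [NeZero ℓ] [NeZero ℓ'] [hML : Fact (M ∣ L)]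
  (H : Subgroup (ZMod M)ˣ)

theorem k5cc_dvd_mul : M ∣ L * ℓ := hML.out.trans (dvd_mul_right L ℓ)

/-- the inclusion `Γ_H(L ℓ ℓ') → Γ_H(L ℓ')` -/
def k5ccJK : gammaH (L * ℓ * ℓ') M H →* gammaH (L * ℓ') M H :=
  Subgroup.inclusion (Fermat.Agent.ES1.gammaH_mono_level
    (show L * ℓ' ∣ L * ℓ * ℓ' from ⟨ℓ, by ring⟩) M H)

/-- `conj_δ'` at level `L ℓ` -/
def k5ccF' : gammaH (L * ℓ * ℓ') M H →* gammaH (L * ℓ) M H :=
  conjDH (L * ℓ) M ℓ' H (k5cc_dvd_mul L M ℓ)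

theorem k5ccF'_injective : Function.Injective (k5ccF' L M ℓ ℓ' H) :=
  conjDH_injective (L * ℓ) M ℓ' H (k5cc_dvd_mul L M ℓ)

instance k5ccF'_finiteIndex : (k5ccF' L M ℓ ℓ' H).range.FiniteIndex :=
  haveI : Fact (M ∣ L * ℓ) := ⟨k5cc_dvd_mul L M ℓ⟩
  conjDH_range_finiteIndex (L * ℓ) M ℓ' H

theorem k5cc_square (hℓ : ℓ.Prime) (hℓ' : ℓ'.Prime) (hne : ℓ ≠ ℓ') (hℓ'L : ¬ ℓ' ∣ L) :
    (∀ k : gammaH (L * ℓ * ℓ') M H, conjDH L M ℓ' H hML.out (k5ccJK L M ℓ ℓ' H k)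
        = inclH L M ℓ H (k5ccF' L M ℓ ℓ' H k)) ∧
    (∀ x : gammaH (L * ℓ) M H, inclH L M ℓ H x ∈ (conjDH L M ℓ' H hML.out).range →
        x ∈ (k5ccF' L M ℓ ℓ' H).range) ∧
    (∀ γ : gammaH L M H, ∃ x : gammaH (L * ℓ) M H,
        (inclH L M ℓ H x)⁻¹ * γ ∈ (conjDH L M ℓ' H hML.out).range) := by
  have hℓ'0 : (ℓ' : ℤ) ≠ 0 := by exact_mod_cast NeZero.ne ℓ'
  refine ⟨fun k => Subtype.ext rfl, ?_, ?_⟩
  · rintro x ⟨z, hz⟩
    have he : ((conjDH L M ℓ' H hML.out z : gammaH L M H) : SL(2, ℤ)) = (x : SL(2, ℤ)) :=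
      congrArg (fun y : gammaH L M H => (y : SL(2, ℤ))) hz
    have he10 : ((x : SL(2, ℤ)) : Matrix (Fin 2) (Fin 2) ℤ) 1 0 =
        ((z : SL(2, ℤ)) : Matrix (Fin 2) (Fin 2) ℤ) 1 0 / ℓ' := by
      rw [← he, conjDH_coe, S41.conjD_coe]
      simp [S41.conjDMat]
    obtain ⟨c, hc⟩ : (ℓ' : ℤ) ∣ ((z : SL(2, ℤ)) : Matrix (Fin 2) (Fin 2) ℤ) 1 0 := by
      have h1 := S41.dvd_of_mem_Gamma0 z.2.1
      exact (Dvd.intro_left _ (by push_cast; rfl)).trans h1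
    rw [hc, Int.mul_ediv_cancel_left _ hℓ'0] at he10
    obtain ⟨c', hc'⟩ := S41.dvd_of_mem_Gamma0 x.2.1
    have hmem : (z : SL(2, ℤ)) ∈ gammaH (L * ℓ * ℓ') M H := by
      refine ⟨?_, z.2.2⟩
      apply S41.mem_Gamma0_of_dvd
      rw [hc, ← he10, hc']
      exact ⟨c', by push_cast; ring⟩
    refine ⟨⟨(z : SL(2, ℤ)), hmem⟩, ?_⟩
    apply Subtype.ext
    rw [← he]
    rfl
  · intro γ
    have hnd : ¬ ℓ' ∣ L * ℓ := fun h => by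
      rcases (Nat.Prime.dvd_mul hℓ').mp h with h1 | h1
      · exact hℓ'L h1
      · exact hne ((Nat.prime_dvd_prime_iff_eq hℓ' hℓ).mp h1).symm
    have hdet : ((γ : SL(2, ℤ)) : Matrix (Fin 2) (Fin 2) ℤ) 0 0 * (γ : SL(2, ℤ)) 1 1
        - (γ : SL(2, ℤ)) 0 1 * (γ : SL(2, ℤ)) 1 0 = 1 := by
      have := (γ : SL(2, ℤ)).2
      rw [Matrix.det_fin_two] at this
      exact this
    obtain ⟨s, t, hst⟩ := k5cc_arith (L * ℓ) hℓ' hnd _ _ _ _ hdet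
    have hxK : k5ccX (L * ℓ) s t ∈ gammaH (L * ℓ) M H :=
      k5ccX_mem (L * ℓ) M (k5cc_dvd_mul L M ℓ) H s t
    have hxΓ : k5ccX (L * ℓ) s t ∈ gammaH L M H := gammaH_mul_le L M ℓ H hxK
    have hg : (k5ccX (L * ℓ) s t)⁻¹ * (γ : SL(2, ℤ)) ∈ gammaH L M H :=
      mul_mem (inv_mem hxΓ) γ.2
    have h01 : (ℓ' : ℤ) ∣ (((k5ccX (L * ℓ) s t)⁻¹ * (γ : SL(2, ℤ)) : SL(2, ℤ)) :
        Matrix (Fin 2) (Fin 2) ℤ) 0 1 := by
      rw [k5ccX_inv_mul_01]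
      exact hst
    obtain ⟨z, hz, hz00⟩ := k5e_exists_conjD_preimage L ℓ' ⟨_, hg.1⟩ h01
    have hzL : (z : SL(2, ℤ)) ∈ Gamma0 L := by
      apply S41.mem_Gamma0_of_dvd
      exact (Int.natCast_dvd_natCast.mpr (dvd_mul_right L ℓ')).trans (S41.dvd_of_mem_Gamma0 z.2)
    have hzM : (z : SL(2, ℤ)) ∈ Gamma0 M := k5i_mem_Gamma0M L M hzL
    have hmem : (z : SL(2, ℤ)) ∈ gammaH (L * ℓ') M H := by
      refine ⟨z.2, hzM, ?_⟩
      rw [k5e_diam_eq_of_entry _ _ hzM hg.2.1 hz00]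
      exact hg.2.2
    refine ⟨⟨_, hxK⟩, ⟨(z : SL(2, ℤ)), hmem⟩, ?_⟩
    apply Subtype.ext
    rw [conjDH_coe]
    have : (⟨(z : SL(2, ℤ)), hmem.1⟩ : Gamma0 (L * ℓ')) = z := rfl
    rw [this, hz]
    rfl

end square

section assembly

variable (L M ℓ ℓ' : ℕ) [NeZero L] [NeZero ℓ] [NeZero ℓ'] [hML : Fact (M ∣ L)]
  (H : Subgroup (ZMod M)ˣ) (A : Type) [AddCommGroup A]

/-- the composite `conj_δ ∘ conj_δ' : Γ_H(L ℓ ℓ') → Γ_H(L)` -/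
def k5ccF : gammaH (L * ℓ * ℓ') M H →* gammaH L M H :=
  (conjDH L M ℓ H hML.out).comp (k5ccF' L M ℓ ℓ' H)

theorem k5ccF_injective : Function.Injective (k5ccF L M ℓ ℓ' H) :=
  (conjDH_injective L M ℓ H hML.out).comp (k5ccF'_injective L M ℓ ℓ' H)

instance k5ccF_finiteIndex : (k5ccF L M ℓ ℓ' H).range.FiniteIndex :=
  k5c_comp_finiteIndex (k5ccF' L M ℓ ℓ' H) (conjDH L M ℓ H hML.out)
    (conjDH_injective L M ℓ H hML.out)

/-- the inclusion `Γ_H(L ℓ ℓ') → Γ_H(L)` -/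
def k5ccI : gammaH (L * ℓ * ℓ') M H →* gammaH L M H :=
  Subgroup.inclusion (Fermat.Agent.ES1.gammaH_mono_level
    (show L ∣ L * ℓ * ℓ' from ⟨ℓ * ℓ', by ring⟩) M H)

/-- `T_ℓ T_ℓ' = cores_{δ δ'} ∘ res` -/
theorem k5cc_tS_tS (hℓ : ℓ.Prime) (hℓ' : ℓ'.Prime) (hne : ℓ ≠ ℓ') (hℓ'L : ¬ ℓ' ∣ L)
    (φ : HomS (gammaH L M H) A) :
    tS L M ℓ H A (tS L M ℓ' H A φ) =
      S41.transferAlong A (k5ccF L M ℓ ℓ' H) (k5ccF_injective L M ℓ ℓ' H)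
        (φ.comp (MonoidHom.toAdditive (k5ccI L M ℓ ℓ' H))) := by
  obtain ⟨h1, h2, h3⟩ := k5cc_square L M ℓ ℓ' H hℓ hℓ' hne hℓ'L
  have hA := k5c_transfer_basechange (conjDH L M ℓ' H hML.out)
    (conjDH_injective L M ℓ' H hML.out) (inclH L M ℓ H) (k5ccF' L M ℓ ℓ' H)
    (k5ccF'_injective L M ℓ ℓ' H) (k5ccJK L M ℓ ℓ' H) A h1 h2 h3
    (φ.comp (MonoidHom.toAdditive (inclH L M ℓ' H)))
  haveI : ((conjDH L M ℓ H hML.out).comp (k5ccF' L M ℓ ℓ' H)).range.FiniteIndex :=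
    k5ccF_finiteIndex L M ℓ ℓ' H
  have hB := k5c_transfer_trans (k5ccF' L M ℓ ℓ' H) (k5ccF'_injective L M ℓ ℓ' H)
    (conjDH L M ℓ H hML.out) (conjDH_injective L M ℓ H hML.out) A
    ((φ.comp (MonoidHom.toAdditive (inclH L M ℓ' H))).comp
      (MonoidHom.toAdditive (k5ccJK L M ℓ ℓ' H)))
  show S41.transferAlong A (conjDH L M ℓ H hML.out) (conjDH_injective L M ℓ H hML.out)
      ((S41.transferAlong A (conjDH L M ℓ' H hML.out) (conjDH_injective L M ℓ' H hML.out)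
        (φ.comp (MonoidHom.toAdditive (inclH L M ℓ' H)))).comp
          (MonoidHom.toAdditive (inclH L M ℓ H))) = _
  rw [hA, ← hB]
  rfl

end assembly

theorem k5cc_congr {G : Type*} [Group G] (M : ℕ) (H : Subgroup (ZMod M)ˣ) (A : Type*)
    [AddCommGroup A] {n₁ n₂ : ℕ} (h : n₁ = n₂)
    (F₁ : gammaH n₁ M H →* G) (F₂ : gammaH n₂ M H →* G) (hF₁ : Function.Injective F₁)
    (hF₂ : Function.Injective F₂) [F₁.range.FiniteIndex] [F₂.range.FiniteIndex]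
    (ψ₁ : Additive (gammaH n₁ M H) →+ A) (ψ₂ : Additive (gammaH n₂ M H) →+ A)
    (hF : ∀ (k₁ : gammaH n₁ M H) (k₂ : gammaH n₂ M H),
      (k₁ : SL(2, ℤ)) = (k₂ : SL(2, ℤ)) → F₁ k₁ = F₂ k₂)
    (hψ : ∀ (k₁ : gammaH n₁ M H) (k₂ : gammaH n₂ M H),
      (k₁ : SL(2, ℤ)) = (k₂ : SL(2, ℤ)) → ψ₁ (Additive.ofMul k₁) = ψ₂ (Additive.ofMul k₂)) :
    S41.transferAlong A F₁ hF₁ ψ₁ = S41.transferAlong A F₂ hF₂ ψ₂ := by
  subst h
  have e1 : F₁ = F₂ := MonoidHom.ext fun k => hF k k rfl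
  have e2 : ψ₁ = ψ₂ :=
    AddMonoidHom.ext fun k => hψ (Additive.toMul k) (Additive.toMul k) rfl
  subst e1 e2
  rfl

/-- **K5-CC** -/
theorem stmtCommT : StmtCommT := by
  intro L M ℓ ℓ' _ _ _ hML H A _ hℓ hℓ' hℓL hℓ'L φ
  by_cases hne : ℓ = ℓ'
  · subst hne
    rfl
  · rw [k5cc_tS_tS L M ℓ ℓ' H A hℓ hℓ' hne hℓ'L φ,
      k5cc_tS_tS L M ℓ' ℓ H A hℓ' hℓ (Ne.symm hne) hℓL φ]
    have hℓ0 : (ℓ : ℤ) ≠ 0 := by exact_mod_cast hℓ.ne_zero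
    have hℓ'0 : (ℓ' : ℤ) ≠ 0 := by exact_mod_cast hℓ'.ne_zero
    refine k5cc_congr M H A (show L * ℓ * ℓ' = L * ℓ' * ℓ by ring) _ _ _ _ _ _
      (fun k₁ k₂ hk => ?_) (fun k₁ k₂ hk => ?_)
    · apply Subtype.ext
      apply Subtype.ext
      show S41.conjDMat ℓ (S41.conjDMat ℓ' ((k₁ : SL(2, ℤ)) : Matrix (Fin 2) (Fin 2) ℤ)) =
        S41.conjDMat ℓ' (S41.conjDMat ℓ ((k₂ : SL(2, ℤ)) : Matrix (Fin 2) (Fin 2) ℤ))
      rw [hk]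
      ext i j
      fin_cases i <;> fin_cases j
      · simp [S41.conjDMat]
      · simp only [S41.conjDMat, Matrix.of_apply, Matrix.cons_val_zero, Matrix.cons_val_one,
          Fin.zero_eta, Fin.mk_one]
        ring
      · simp only [S41.conjDMat, Matrix.of_apply, Matrix.cons_val_zero, Matrix.cons_val_one,
          Fin.zero_eta, Fin.mk_one]
        rw [Int.ediv_ediv_of_nonneg (Int.natCast_nonneg ℓ'),
          Int.ediv_ediv_of_nonneg (Int.natCast_nonneg ℓ), mul_comm (ℓ' : ℤ) (ℓ : ℤ)]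
      · simp [S41.conjDMat]
    · show φ (Additive.ofMul (k5ccI L M ℓ ℓ' H k₁)) = φ (Additive.ofMul (k5ccI L M ℓ' ℓ H k₂))
      congr 2
      exact Subtype.ext hk

end Fermat.Agent.RT.K5
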