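import Fermat.Agent.RT.K5.Plan

/-!
# K-machine, piece K5-G (helper40): the diamond character is onto, with `g ≡ 1 mod ℓ`

`stmtGen : StmtGen`: for `M ∣ L`, `ℓ` prime to `L` and `u ∈ (ℤ/M)ˣ` there is
`g = [[a, ℓ t], [L ℓ, d]] ∈ Γ₀(L) ∩ Γ₀(M) ∩ Γ(ℓ)` with `a ≡ u mod M`
(`a ≡ ũ mod L`, `a ≡ 1 mod ℓ²` by the Chinese remainder theorem, `a d − ℓ² L t = 1` by Bézout).
-/

set_option autoImplicit false

noncomputable section

namespace Fermat.Agent.RT.K5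

open CongruenceSubgroup Matrix
open scoped MatrixGroups
open Fermat.Agent.ES1 (gammaH diamHom pmH)

/-- the arithmetic core: `a ≡ ũ mod L`, `a ≡ 1 mod ℓ²`, `a d + y L ℓ² = 1` -/
theorem k5g_exists_entries {L ℓ : ℕ} [NeZero L] (hcop : Nat.Coprime ℓ L) (ũ : (ZMod L)ˣ) :
    ∃ (a : ℕ) (d y : ℤ), ((a : ℕ) : ZMod L) = (ũ : ZMod L) ∧ a ≡ 1 [MOD ℓ ^ 2] ∧
      (a : ℤ) * d + y * ((L : ℤ) * (ℓ : ℤ) ^ 2) = 1 := by
  have hcop2 : Nat.Coprime L (ℓ ^ 2) := (Nat.Coprime.pow_left 2 hcop).symm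
  obtain ⟨a, ha1, ha2⟩ := Nat.chineseRemainder hcop2 (ũ : ZMod L).val 1
  have hunit : Nat.Coprime (ũ : ZMod L).val L := ZMod.val_coe_unit_coprime ũ
  have haL : Nat.Coprime a L := by
    have h1 : Nat.gcd a L = Nat.gcd (ũ : ZMod L).val L := Nat.ModEq.gcd_eq ha1
    rw [Nat.Coprime, h1]
    exact hunit
  have haℓ : Nat.Coprime a (ℓ ^ 2) := by
    have h1 : Nat.gcd a (ℓ ^ 2) = Nat.gcd 1 (ℓ ^ 2) := Nat.ModEq.gcd_eq ha2
    rw [Nat.Coprime, h1]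
    exact Nat.gcd_one_left _
  have hco : Nat.Coprime a (L * ℓ ^ 2) := Nat.Coprime.mul_right haL haℓ
  obtain ⟨x, y, hxy⟩ := Nat.Coprime.isCoprime hco
  refine ⟨a, x, y, ?_, ha2, ?_⟩
  · have h1 : ((a : ℕ) : ZMod L) = (((ũ : ZMod L).val : ℕ) : ZMod L) :=
      (ZMod.natCast_eq_natCast_iff a _ L).mpr ha1
    rw [h1, ZMod.natCast_zmod_val]
  · push_cast at hxy
    linear_combination hxy

theorem stmtGen : StmtGen := by
  intro L M ℓ _ _ hML hcop u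
  have hML' : M ∣ L := hML.out
  obtain ⟨ũ, hũ⟩ := ZMod.unitsMap_surjective hML' u
  obtain ⟨a, d, y, haL, haℓ, hdet⟩ := k5g_exists_entries hcop ũ
  have hdet' : (!![(a : ℤ), -((ℓ : ℤ) * y); (L : ℤ) * (ℓ : ℤ), d]).det = 1 := by
    rw [Matrix.det_fin_two_of]
    linear_combination hdet
  obtain ⟨g, hg⟩ : ∃ g : SL(2, ℤ), (g : Matrix (Fin 2) (Fin 2) ℤ) =
      !![(a : ℤ), -((ℓ : ℤ) * y); (L : ℤ) * (ℓ : ℤ), d] := ⟨⟨_, hdet'⟩, rfl⟩
  have h00 : g 0 0 = (a : ℤ) := by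
    have := congrFun (congrFun hg 0) 0
    simpa using this
  have h01 : g 0 1 = -((ℓ : ℤ) * y) := by
    have := congrFun (congrFun hg 0) 1
    simpa using this
  have h10 : g 1 0 = (L : ℤ) * (ℓ : ℤ) := by
    have := congrFun (congrFun hg 1) 0
    simpa using this
  have h11 : g 1 1 = d := by
    have := congrFun (congrFun hg 1) 1
    simpa using this
  have hgL : g ∈ Gamma0 L := by
    rw [Gamma0_mem, h10]; simp
  have hgM : g ∈ Gamma0 M := by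
    rw [Gamma0_mem, ZMod.intCast_zmod_eq_zero_iff_dvd, h10]
    exact (Int.natCast_dvd_natCast.mpr hML').mul_right _
  refine ⟨g, hgL, hgM, ?_, ?_⟩
  · ext
    rw [Fermat.Agent.ES1.coe_diamHom, h00]
    have h1 : (u : ZMod M) = ZMod.castHom hML' (ZMod M) (ũ : ZMod L) := by
      rw [← hũ]; rfl
    rw [h1, ← haL]
    simp
  · -- `g ≡ 1 mod ℓ`
    have ha1 : ((a : ℤ) : ZMod ℓ) = 1 := by
      have h1 : a ≡ 1 [MOD ℓ] := haℓ.of_dvd (Dvd.intro_left (ℓ ^ 1) (by ring))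
      have h2 : ((a : ℕ) : ZMod ℓ) = ((1 : ℕ) : ZMod ℓ) :=
        (ZMod.natCast_eq_natCast_iff a 1 ℓ).mpr h1
      push_cast at h2 ⊢
      exact h2
    have hd1 : ((d : ℤ) : ZMod ℓ) = 1 := by
      have h1 : ((((a : ℤ) * d + y * ((L : ℤ) * (ℓ : ℤ) ^ 2) : ℤ)) : ZMod ℓ) =
          ((1 : ℤ) : ZMod ℓ) := by rw [hdet]
      have ha1' : ((a : ℕ) : ZMod ℓ) = 1 := by
        have := ha1
        push_cast at this
        exact this
      push_cast at h1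
      rw [ha1'] at h1
      simpa using h1
    rw [Gamma_mem]
    refine ⟨?_, ?_, ?_, ?_⟩
    · show ((g 0 0 : ℤ) : ZMod ℓ) = 1
      rw [h00]; exact ha1
    · show ((g 0 1 : ℤ) : ZMod ℓ) = 0
      rw [h01]; simp
    · show ((g 1 0 : ℤ) : ZMod ℓ) = 0
      rw [h10]; simp
    · show ((g 1 1 : ℤ) : ZMod ℓ) = 1
      rw [h11]; exact hd1

end Fermat.Agent.RT.K5
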