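import Fermat.Agent.RT.K5.Plan2
import Fermat.Agent.RT.K5.Gen

/-!
# RT-K5, piece UQ1: `tS ℓ` (every `ℓ ≥ 1`) and `tSadj ℓ` commute with `res`, `cores` (change of
`H`) and with the diamonds — `stmtCommU`, `stmtCommUAdj`

As `Comm.lean`; the generator of given diamond is taken in `Γ₀(L ℓ) ∩ Γ⁰(ℓ)` (`k5u_gen`).
-/

set_option autoImplicit false
set_option linter.style.haveILetI false
set_option linter.unusedSectionVars false
set_option linter.unusedVariables false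

noncomputable section

namespace Fermat.Agent.RT.K5

open CongruenceSubgroup Matrix
open scoped MatrixGroups
open Fermat.Agent.ES1 (gammaH diamHom pmH)

section gen

variable (L M ℓ : ℕ) [NeZero L] [NeZero ℓ] [hML : Fact (M ∣ L)]

/-- every diamond is the diamond of some `g ∈ Γ₀(L ℓ)` with `ℓ ∣ g₀₁` -/
theorem k5u_gen (u : (ZMod M)ˣ) :
    ∃ (g : SL(2, ℤ)) (_ : g ∈ Gamma0 (L * ℓ)) (hgM : g ∈ Gamma0 M),
      diamHom M ⟨g, hgM⟩ = u ∧ (ℓ : ℤ) ∣ (g : Matrix (Fin 2) (Fin 2) ℤ) 0 1 := by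
  haveI : NeZero (L * ℓ * ℓ) := inferInstance
  haveI : Fact (M ∣ L * ℓ * ℓ) :=
    ⟨(hML.out.trans (dvd_mul_right L ℓ)).trans (dvd_mul_right (L * ℓ) ℓ)⟩
  haveI : NeZero (1 : ℕ) := ⟨one_ne_zero⟩
  obtain ⟨g', hgL', hgM', hgd, -⟩ := stmtGen (L * ℓ * ℓ) M 1 (Nat.coprime_one_left _) u
  have hmem : ((S41.conjD (L * ℓ) ℓ ⟨g', hgL'⟩ : Gamma0 (L * ℓ)) : SL(2, ℤ)) ∈ Gamma0 (L * ℓ) :=
    (S41.conjD (L * ℓ) ℓ ⟨g', hgL'⟩).2
  have hM : ((S41.conjD (L * ℓ) ℓ ⟨g', hgL'⟩ : Gamma0 (L * ℓ)) : SL(2, ℤ)) ∈ Gamma0 M := by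
    apply S41.mem_Gamma0_of_dvd
    exact (Int.natCast_dvd_natCast.mpr (hML.out.trans (dvd_mul_right L ℓ))).trans
      (S41.dvd_of_mem_Gamma0 hmem)
  refine ⟨_, hmem, hM, ?_, ?_⟩
  · rw [← hgd]
    apply k5e_diam_eq_of_entry
    rw [S41.conjD_coe]
    simp [S41.conjDMat]
  · rw [S41.conjD_coe]
    simp [S41.conjDMat]

end gen

section squares

variable (L M ℓ : ℕ) [NeZero L] [NeZero ℓ] [hML : Fact (M ∣ L)] (H' H : Subgroup (ZMod M)ˣ)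
  (hle : H' ≤ H)

/-- every class of `Γ_H(L)` modulo `Γ_{H'}(L)` contains an element of `Γ₀(L ℓ) ∩ Γ⁰(ℓ)` -/
theorem k5u_exists (γ : gammaH L M H) :
    ∃ x : gammaH L M H', ∃ g : SL(2, ℤ), g ∈ gammaH L M H ∧ g ∈ Gamma0 (L * ℓ) ∧
      (ℓ : ℤ) ∣ (g : Matrix (Fin 2) (Fin 2) ℤ) 0 1 ∧
      ((x : SL(2, ℤ)))⁻¹ * (γ : SL(2, ℤ)) = g := by
  have hγM : (γ : SL(2, ℤ)) ∈ Gamma0 M := γ.2.2.1
  obtain ⟨g, hgLℓ, hgM, hgd, hg01⟩ := k5u_gen L M ℓ (diamHom M ⟨γ, hγM⟩)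
  have hgL : g ∈ Gamma0 L := S41.Gamma0_mul_le L ℓ hgLℓ
  have h1 : (g⁻¹)⁻¹ * (γ : SL(2, ℤ))⁻¹ ∈ gammaH L M H' := by
    refine k5e_inv_mul_mem H' (inv_mem hgL) (inv_mem hgM) (inv_mem γ.2.1) (inv_mem hγM) ?_
    rw [k5e_diam_inv _ hgM, k5e_diam_inv _ hγM, hgd]
  have h2 : (γ : SL(2, ℤ)) * g⁻¹ ∈ gammaH L M H' := by
    have : (γ : SL(2, ℤ)) * g⁻¹ = ((g⁻¹)⁻¹ * (γ : SL(2, ℤ))⁻¹)⁻¹ := by group
    rw [this]; exact inv_mem h1
  refine ⟨⟨_, h2⟩, g, ⟨hgL, hgM, ?_⟩, hgLℓ, hg01, by group⟩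
  rw [hgd]; exact γ.2.2.2

/-- the square over `conj_δ` -/
theorem k5u_square_conj :
    (∀ k : gammaH (L * ℓ) M H', conjDH L M ℓ H hML.out
        (Subgroup.inclusion (Fermat.Agent.ES1.gammaH_mono hle) k)
        = k5c_j L M H' H hle (conjDH L M ℓ H' hML.out k)) ∧
    (∀ x : gammaH L M H', k5c_j L M H' H hle x ∈ (conjDH L M ℓ H hML.out).range →
        x ∈ (conjDH L M ℓ H' hML.out).range) ∧
    (∀ γ : gammaH L M H, ∃ x : gammaH L M H',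
        (k5c_j L M H' H hle x)⁻¹ * γ ∈ (conjDH L M ℓ H hML.out).range) := by
  refine ⟨fun k => Subtype.ext rfl, ?_, ?_⟩
  · rintro x ⟨z, hz⟩
    have he : ((conjDH L M ℓ H hML.out z : gammaH L M H) : SL(2, ℤ)) = (x : SL(2, ℤ)) :=
      congrArg (fun y : gammaH L M H => (y : SL(2, ℤ))) hz
    have hentry := k5c_entry_conjDH L M ℓ H z
    rw [he] at hentry
    have hmem : (z : SL(2, ℤ)) ∈ gammaH (L * ℓ) M H' := by
      refine ⟨z.2.1, z.2.2.1, ?_⟩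
      rw [k5e_diam_eq_of_entry _ _ z.2.2.1 x.2.2.1 hentry]
      exact x.2.2.2
    refine ⟨⟨(z : SL(2, ℤ)), hmem⟩, ?_⟩
    apply Subtype.ext
    rw [← he]
    rfl
  · intro γ
    obtain ⟨x, g, hgΓ, hgLℓ, hg01, hxg⟩ := k5u_exists L M ℓ H' H γ
    obtain ⟨z, hz, hz00⟩ := k5e_exists_conjD_preimage L ℓ ⟨g, hgΓ.1⟩ hg01
    have hzL : (z : SL(2, ℤ)) ∈ Gamma0 L := by
      apply S41.mem_Gamma0_of_dvd
      exact (Int.natCast_dvd_natCast.mpr (dvd_mul_right L ℓ)).trans (S41.dvd_of_mem_Gamma0 z.2)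
    have hzM : (z : SL(2, ℤ)) ∈ Gamma0 M := k5i_mem_Gamma0M L M hzL
    have hmem : (z : SL(2, ℤ)) ∈ gammaH (L * ℓ) M H := by
      refine ⟨z.2, hzM, ?_⟩
      rw [k5e_diam_eq_of_entry _ _ hzM hgΓ.2.1 hz00]
      exact hgΓ.2.2
    refine ⟨x, ⟨(z : SL(2, ℤ)), hmem⟩, ?_⟩
    apply Subtype.ext
    rw [conjDH_coe]
    have : (⟨(z : SL(2, ℤ)), hmem.1⟩ : Gamma0 (L * ℓ)) = z := rfl
    rw [this, hz]
    exact hxg.symm

/-- the square over the inclusion -/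
theorem k5u_square_incl :
    (∀ k : gammaH (L * ℓ) M H', k5c_j L M H' H hle (inclH L M ℓ H' k)
        = inclH L M ℓ H (Subgroup.inclusion (Fermat.Agent.ES1.gammaH_mono hle) k)) ∧
    (∀ x : gammaH (L * ℓ) M H, inclH L M ℓ H x ∈ (k5c_j L M H' H hle).range →
        x ∈ (Subgroup.inclusion (Fermat.Agent.ES1.gammaH_mono hle) :
          gammaH (L * ℓ) M H' →* gammaH (L * ℓ) M H).range) ∧
    (∀ γ : gammaH L M H, ∃ x : gammaH (L * ℓ) M H,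
        (inclH L M ℓ H x)⁻¹ * γ ∈ (k5c_j L M H' H hle).range) := by
  refine ⟨fun k => Subtype.ext rfl, ?_, ?_⟩
  · rintro x ⟨y, hy⟩
    have he : (y : SL(2, ℤ)) = (x : SL(2, ℤ)) :=
      congrArg (fun y : gammaH L M H => (y : SL(2, ℤ))) hy
    have hmem : (x : SL(2, ℤ)) ∈ gammaH (L * ℓ) M H' := by
      refine ⟨x.2.1, ?_⟩
      rw [← he]; exact y.2.2
    exact ⟨⟨(x : SL(2, ℤ)), hmem⟩, Subtype.ext rfl⟩
  · intro γ
    obtain ⟨x, g, hgΓ, hgLℓ, hg01, hxg⟩ := k5u_exists L M ℓ H' H γ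
    have hgK : g ∈ gammaH (L * ℓ) M H := ⟨hgLℓ, hgΓ.2.1, hgΓ.2.2⟩
    have hmem : g⁻¹ * (γ : SL(2, ℤ)) ∈ gammaH L M H' := by
      have e : g⁻¹ * (γ : SL(2, ℤ)) = g⁻¹ * (x : SL(2, ℤ)) * g := by
        rw [← hxg]; group
      rw [e]
      exact normalizes_gammaH hgΓ.1 hgΓ.2.1 _ x.2
    exact ⟨⟨g, hgK⟩, ⟨_, hmem⟩, Subtype.ext rfl⟩

/-- the transposed square over the inclusion (transfer along `Γ_H(L ℓ) → Γ_H(L)`) -/
theorem k5u_square_inclT :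
    (∀ k : gammaH (L * ℓ) M H', inclH L M ℓ H
        (Subgroup.inclusion (Fermat.Agent.ES1.gammaH_mono hle) k)
        = k5c_j L M H' H hle (inclH L M ℓ H' k)) ∧
    (∀ x : gammaH L M H', k5c_j L M H' H hle x ∈ (inclH L M ℓ H).range →
        x ∈ (inclH L M ℓ H').range) ∧
    (∀ γ : gammaH L M H, ∃ x : gammaH L M H',
        (k5c_j L M H' H hle x)⁻¹ * γ ∈ (inclH L M ℓ H).range) := by
  refine ⟨fun k => Subtype.ext rfl, ?_, ?_⟩
  · rintro x ⟨z, hz⟩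
    have he : (z : SL(2, ℤ)) = (x : SL(2, ℤ)) :=
      congrArg (fun y : gammaH L M H => (y : SL(2, ℤ))) hz
    have hmem : (x : SL(2, ℤ)) ∈ gammaH (L * ℓ) M H' := by
      refine ⟨?_, x.2.2⟩
      rw [← he]; exact z.2.1
    exact ⟨⟨(x : SL(2, ℤ)), hmem⟩, Subtype.ext rfl⟩
  · intro γ
    obtain ⟨x, g, hgΓ, hgLℓ, hg01, hxg⟩ := k5u_exists L M ℓ H' H γ
    have hgK : g ∈ gammaH (L * ℓ) M H := ⟨hgLℓ, hgΓ.2.1, hgΓ.2.2⟩
    refine ⟨x, ⟨g, hgK⟩, ?_⟩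
    apply Subtype.ext
    exact hxg.symm

/-- the transposed square over `conj_δ` (transfer along `Γ_{H'}(L) → Γ_H(L)`) -/
theorem k5u_square_conjT :
    (∀ k : gammaH (L * ℓ) M H', k5c_j L M H' H hle (conjDH L M ℓ H' hML.out k)
        = conjDH L M ℓ H hML.out (Subgroup.inclusion (Fermat.Agent.ES1.gammaH_mono hle) k)) ∧
    (∀ x : gammaH (L * ℓ) M H, conjDH L M ℓ H hML.out x ∈ (k5c_j L M H' H hle).range →
        x ∈ (Subgroup.inclusion (Fermat.Agent.ES1.gammaH_mono hle) :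
          gammaH (L * ℓ) M H' →* gammaH (L * ℓ) M H).range) ∧
    (∀ γ : gammaH L M H, ∃ x : gammaH (L * ℓ) M H,
        (conjDH L M ℓ H hML.out x)⁻¹ * γ ∈ (k5c_j L M H' H hle).range) := by
  refine ⟨fun k => Subtype.ext rfl, ?_, ?_⟩
  · rintro x ⟨y, hy⟩
    have he : (y : SL(2, ℤ)) = ((conjDH L M ℓ H hML.out x : gammaH L M H) : SL(2, ℤ)) :=
      congrArg (fun y : gammaH L M H => (y : SL(2, ℤ))) hy
    have hentry := k5c_entry_conjDH L M ℓ H x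
    rw [← he] at hentry
    have hmem : (x : SL(2, ℤ)) ∈ gammaH (L * ℓ) M H' := by
      refine ⟨x.2.1, x.2.2.1, ?_⟩
      rw [k5e_diam_eq_of_entry _ _ x.2.2.1 y.2.2.1 hentry]
      exact y.2.2.2
    exact ⟨⟨(x : SL(2, ℤ)), hmem⟩, Subtype.ext rfl⟩
  · intro γ
    obtain ⟨x, g, hgΓ, hgLℓ, hg01, hxg⟩ := k5u_exists L M ℓ H' H γ⁻¹
    -- `γ⁻¹ = x g`, so `γ = g⁻¹ x⁻¹`
    have hg01' : (ℓ : ℤ) ∣ ((g⁻¹ : SL(2, ℤ)) : Matrix (Fin 2) (Fin 2) ℤ) 0 1 := by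
      rw [Matrix.SpecialLinearGroup.coe_inv, Matrix.adjugate_fin_two]
      simpa using hg01
    obtain ⟨z, hz, hz00⟩ := k5e_exists_conjD_preimage L ℓ ⟨g⁻¹, inv_mem hgΓ.1⟩ hg01'
    have hzL : (z : SL(2, ℤ)) ∈ Gamma0 L := by
      apply S41.mem_Gamma0_of_dvd
      exact (Int.natCast_dvd_natCast.mpr (dvd_mul_right L ℓ)).trans (S41.dvd_of_mem_Gamma0 z.2)
    have hzM : (z : SL(2, ℤ)) ∈ Gamma0 M := k5i_mem_Gamma0M L M hzL
    have hginv : g⁻¹ ∈ gammaH L M H := inv_mem hgΓ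
    have hmem : (z : SL(2, ℤ)) ∈ gammaH (L * ℓ) M H := by
      refine ⟨z.2, hzM, ?_⟩
      rw [k5e_diam_eq_of_entry _ _ hzM hginv.2.1 hz00]
      exact hginv.2.2
    have hconj : ((conjDH L M ℓ H hML.out ⟨(z : SL(2, ℤ)), hmem⟩ : gammaH L M H) : SL(2, ℤ))
        = g⁻¹ := by
      rw [conjDH_coe]
      have : (⟨(z : SL(2, ℤ)), hmem.1⟩ : Gamma0 (L * ℓ)) = z := rfl
      rw [this, hz]
    refine ⟨⟨(z : SL(2, ℤ)), hmem⟩, ⟨x⁻¹, ?_⟩⟩
    apply Subtype.ext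
    show ((x⁻¹ : gammaH L M H') : SL(2, ℤ))
      = ((conjDH L M ℓ H hML.out ⟨(z : SL(2, ℤ)), hmem⟩ : gammaH L M H) : SL(2, ℤ))⁻¹
        * (γ : SL(2, ℤ))
    rw [hconj, inv_inv, ← hxg]
    show ((x : SL(2, ℤ)))⁻¹ = (x : SL(2, ℤ))⁻¹ * ((γ⁻¹ : gammaH L M H) : SL(2, ℤ)) * (γ : SL(2, ℤ))
    show ((x : SL(2, ℤ)))⁻¹ = (x : SL(2, ℤ))⁻¹ * (γ : SL(2, ℤ))⁻¹ * (γ : SL(2, ℤ))
    group

end squares

section clauses

variable (L M ℓ : ℕ) [NeZero L] [NeZero ℓ] [hML : Fact (M ∣ L)] (H' H : Subgroup (ZMod M)ˣ)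
  (hle : H' ≤ H) (A : Type) [AddCommGroup A]

/-- clause 1: `res` commutes with `tS ℓ` -/
theorem k5u_res_comm (φ : HomS (gammaH L M H) A) :
    resS A (Fermat.Agent.ES1.gammaH_mono hle) (tS L M ℓ H A φ) =
      tS L M ℓ H' A (resS A (Fermat.Agent.ES1.gammaH_mono hle) φ) := by
  obtain ⟨h1, h2, h3⟩ := k5u_square_conj L M ℓ H' H hle
  exact k5c_transfer_basechange (conjDH L M ℓ H hML.out) (conjDH_injective L M ℓ H hML.out)
    (k5c_j L M H' H hle) (conjDH L M ℓ H' hML.out) (conjDH_injective L M ℓ H' hML.out)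
    (Subgroup.inclusion (Fermat.Agent.ES1.gammaH_mono hle)) A h1 h2 h3
    (φ.comp (MonoidHom.toAdditive (inclH L M ℓ H)))

/-- clause 2: `cores` commutes with `tS ℓ` -/
theorem k5u_cores_comm (ψ : HomS (gammaH L M H') A) :
    coresS A (Fermat.Agent.ES1.gammaH_mono hle) (tS L M ℓ H' A ψ) =
      tS L M ℓ H A (coresS A (Fermat.Agent.ES1.gammaH_mono hle) ψ) := by
  haveI : NeZero (L * ℓ) := inferInstance
  haveI : Fact (M ∣ L * ℓ) := ⟨hML.out.trans (dvd_mul_right L ℓ)⟩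
  obtain ⟨h1, h2, h3⟩ := k5u_square_incl L M ℓ H' H hle
  let jK : gammaH (L * ℓ) M H' →* gammaH (L * ℓ) M H :=
    Subgroup.inclusion (Fermat.Agent.ES1.gammaH_mono hle)
  have hjK : Function.Injective jK := Subgroup.inclusion_injective _
  haveI : jK.range.FiniteIndex :=
    inclusion_range_finiteIndex (L * ℓ) M (Fermat.Agent.ES1.gammaH_mono hle)
  have hA : (S41.transferAlong A (k5c_j L M H' H hle) (k5c_j_injective L M H' H hle) ψ).comp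
      (MonoidHom.toAdditive (inclH L M ℓ H))
      = S41.transferAlong A jK hjK (ψ.comp (MonoidHom.toAdditive (inclH L M ℓ H'))) :=
    k5c_transfer_basechange (k5c_j L M H' H hle) (k5c_j_injective L M H' H hle)
      (inclH L M ℓ H) jK hjK (inclH L M ℓ H') A h1 h2 h3 ψ
  haveI : ((conjDH L M ℓ H hML.out).comp jK).range.FiniteIndex :=
    k5c_comp_finiteIndex jK (conjDH L M ℓ H hML.out) (conjDH_injective L M ℓ H hML.out)
  haveI : ((k5c_j L M H' H hle).comp (conjDH L M ℓ H' hML.out)).range.FiniteIndex :=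
    k5c_comp_finiteIndex (conjDH L M ℓ H' hML.out) (k5c_j L M H' H hle)
      (k5c_j_injective L M H' H hle)
  have hB := k5c_transfer_trans jK hjK (conjDH L M ℓ H hML.out)
    (conjDH_injective L M ℓ H hML.out) A (ψ.comp (MonoidHom.toAdditive (inclH L M ℓ H')))
  have hC := k5c_transfer_trans (conjDH L M ℓ H' hML.out) (conjDH_injective L M ℓ H' hML.out)
    (k5c_j L M H' H hle) (k5c_j_injective L M H' H hle) A
    (ψ.comp (MonoidHom.toAdditive (inclH L M ℓ H')))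
  have hD : (k5c_j L M H' H hle).comp (conjDH L M ℓ H' hML.out)
      = (conjDH L M ℓ H hML.out).comp jK := by
    ext k; rfl
  show S41.transferAlong A (k5c_j L M H' H hle) (k5c_j_injective L M H' H hle)
      (S41.transferAlong A (conjDH L M ℓ H' hML.out) (conjDH_injective L M ℓ H' hML.out)
        (ψ.comp (MonoidHom.toAdditive (inclH L M ℓ H'))))
    = S41.transferAlong A (conjDH L M ℓ H hML.out) (conjDH_injective L M ℓ H hML.out)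
      ((S41.transferAlong A (k5c_j L M H' H hle) (k5c_j_injective L M H' H hle) ψ).comp
        (MonoidHom.toAdditive (inclH L M ℓ H)))
  rw [hA, ← hB, ← hC]
  exact k5c_transfer_congr hD _ _ _

/-- clause 3 for `g ∈ Γ₀(L ℓ)` with `ℓ ∣ g₀₁` -/
theorem k5u_diam_comm_of_mem (g : SL(2, ℤ)) (hgL : g ∈ Gamma0 L) (hgM : g ∈ Gamma0 M)
    (hg01 : (ℓ : ℤ) ∣ (g : Matrix (Fin 2) (Fin 2) ℤ) 0 1) (ψ : HomS (gammaH L M H') A) :
    diamS H' A g hgL hgM (tS L M ℓ H' A ψ) = tS L M ℓ H' A (diamS H' A g hgL hgM ψ) := by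
  obtain ⟨z, hz, hz00⟩ := k5e_exists_conjD_preimage L ℓ ⟨g, hgL⟩ hg01
  have hzL : (z : SL(2, ℤ)) ∈ Gamma0 L := by
    apply S41.mem_Gamma0_of_dvd
    exact (Int.natCast_dvd_natCast.mpr (dvd_mul_right L ℓ)).trans (S41.dvd_of_mem_Gamma0 z.2)
  have hzM : (z : SL(2, ℤ)) ∈ Gamma0 M := k5i_mem_Gamma0M L M hzL
  have hd : diamHom M ⟨g, hgM⟩ = diamHom M ⟨(z : SL(2, ℤ)), hzM⟩ :=
    (k5e_diam_eq_of_entry _ _ hzM hgM hz00).symm
  let aH : gammaH (L * ℓ) M H' →* gammaH (L * ℓ) M H' :=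
    conjHom (z : SL(2, ℤ)) (normalizes_gammaH z.2 hzM)
  have hsurj : Function.Surjective aH := by
    intro k
    refine ⟨⟨(z : SL(2, ℤ)) * k * (z : SL(2, ℤ))⁻¹,
      Fermat.Agent.ES1.conj_mem_gammaH z.2 hzM k.2⟩, ?_⟩
    apply Subtype.ext
    show (z : SL(2, ℤ))⁻¹ * ((z : SL(2, ℤ)) * k * (z : SL(2, ℤ))⁻¹) * (z : SL(2, ℤ)) = k
    group
  have hcomp : ∀ h : gammaH (L * ℓ) M H',
      k5c_conjEquiv L M H' g hgL hgM (conjDH L M ℓ H' hML.out h)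
        = conjDH L M ℓ H' hML.out (aH h) := by
    intro h
    apply Subtype.ext
    show g⁻¹ * ((conjDH L M ℓ H' hML.out h : gammaH L M H') : SL(2, ℤ)) * g
      = ((conjDH L M ℓ H' hML.out (aH h) : gammaH L M H') : SL(2, ℤ))
    rw [conjDH_coe, conjDH_coe]
    have e : (⟨((aH h : gammaH (L * ℓ) M H') : SL(2, ℤ)), (aH h).2.1⟩ : Gamma0 (L * ℓ))
        = z⁻¹ * ⟨(h : SL(2, ℤ)), h.2.1⟩ * z := rfl
    rw [e, map_mul, map_mul, map_inv, hz]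
    rfl
  have hE := S41.transferAlong_equivariant (conjDH L M ℓ H' hML.out)
    (conjDH_injective L M ℓ H' hML.out) A aH (k5c_conjEquiv L M H' g hgL hgM) hcomp hsurj
    (ψ.comp (MonoidHom.toAdditive (inclH L M ℓ H')))
  have hL : (ψ.comp (MonoidHom.toAdditive (inclH L M ℓ H'))).comp (MonoidHom.toAdditive aH)
      = (diamS H' A g hgL hgM ψ).comp (MonoidHom.toAdditive (inclH L M ℓ H')) := by
    refine AddMonoidHom.ext fun k => ?_
    obtain ⟨k, rfl⟩ : ∃ k' : gammaH (L * ℓ) M H', Additive.ofMul k' = k :=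
      ⟨Additive.toMul k, rfl⟩
    show ψ (Additive.ofMul ⟨(z : SL(2, ℤ))⁻¹ * k * (z : SL(2, ℤ)), _⟩)
      = ψ (Additive.ofMul ⟨g⁻¹ * k * g, _⟩)
    exact k5c_inner ψ g (z : SL(2, ℤ)) (k : SL(2, ℤ)) _ _
      (k5e_inv_mul_mem H' hgL hgM hzL hzM hd)
  show (S41.transferAlong A (conjDH L M ℓ H' hML.out) (conjDH_injective L M ℓ H' hML.out)
      (ψ.comp (MonoidHom.toAdditive (inclH L M ℓ H')))).comp
        (MonoidHom.toAdditive (conjHom g (normalizes_gammaH hgL hgM)))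
    = S41.transferAlong A (conjDH L M ℓ H' hML.out) (conjDH_injective L M ℓ H' hML.out)
      ((diamS H' A g hgL hgM ψ).comp (MonoidHom.toAdditive (inclH L M ℓ H')))
  rw [← hL, hE]
  rfl

/-! ### the adjoint operator -/

/-- clause 1 for `tSadj` -/
theorem k5u_adj_res_comm (φ : HomS (gammaH L M H) A) :
    resS A (Fermat.Agent.ES1.gammaH_mono hle) (tSadj L M ℓ H A φ) =
      tSadj L M ℓ H' A (resS A (Fermat.Agent.ES1.gammaH_mono hle) φ) := by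
  obtain ⟨h1, h2, h3⟩ := k5u_square_inclT L M ℓ H' H hle
  exact k5c_transfer_basechange (inclH L M ℓ H) (inclH_injective L M ℓ H)
    (k5c_j L M H' H hle) (inclH L M ℓ H') (inclH_injective L M ℓ H')
    (Subgroup.inclusion (Fermat.Agent.ES1.gammaH_mono hle)) A h1 h2 h3
    (φ.comp (MonoidHom.toAdditive (conjDH L M ℓ H hML.out)))

/-- clause 2 for `tSadj` -/
theorem k5u_adj_cores_comm (ψ : HomS (gammaH L M H') A) :
    coresS A (Fermat.Agent.ES1.gammaH_mono hle) (tSadj L M ℓ H' A ψ) =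
      tSadj L M ℓ H A (coresS A (Fermat.Agent.ES1.gammaH_mono hle) ψ) := by
  haveI : NeZero (L * ℓ) := inferInstance
  haveI : Fact (M ∣ L * ℓ) := ⟨hML.out.trans (dvd_mul_right L ℓ)⟩
  obtain ⟨h1, h2, h3⟩ := k5u_square_conjT L M ℓ H' H hle
  let jK : gammaH (L * ℓ) M H' →* gammaH (L * ℓ) M H :=
    Subgroup.inclusion (Fermat.Agent.ES1.gammaH_mono hle)
  have hjK : Function.Injective jK := Subgroup.inclusion_injective _
  haveI : jK.range.FiniteIndex :=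
    inclusion_range_finiteIndex (L * ℓ) M (Fermat.Agent.ES1.gammaH_mono hle)
  have hA : (S41.transferAlong A (k5c_j L M H' H hle) (k5c_j_injective L M H' H hle) ψ).comp
      (MonoidHom.toAdditive (conjDH L M ℓ H hML.out))
      = S41.transferAlong A jK hjK (ψ.comp (MonoidHom.toAdditive (conjDH L M ℓ H' hML.out))) :=
    k5c_transfer_basechange (k5c_j L M H' H hle) (k5c_j_injective L M H' H hle)
      (conjDH L M ℓ H hML.out) jK hjK (conjDH L M ℓ H' hML.out) A h1 h2 h3 ψ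
  haveI : ((inclH L M ℓ H).comp jK).range.FiniteIndex :=
    k5c_comp_finiteIndex jK (inclH L M ℓ H) (inclH_injective L M ℓ H)
  haveI : ((k5c_j L M H' H hle).comp (inclH L M ℓ H')).range.FiniteIndex :=
    k5c_comp_finiteIndex (inclH L M ℓ H') (k5c_j L M H' H hle)
      (k5c_j_injective L M H' H hle)
  have hB := k5c_transfer_trans jK hjK (inclH L M ℓ H)
    (inclH_injective L M ℓ H) A (ψ.comp (MonoidHom.toAdditive (conjDH L M ℓ H' hML.out)))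
  have hC := k5c_transfer_trans (inclH L M ℓ H') (inclH_injective L M ℓ H')
    (k5c_j L M H' H hle) (k5c_j_injective L M H' H hle) A
    (ψ.comp (MonoidHom.toAdditive (conjDH L M ℓ H' hML.out)))
  have hD : (k5c_j L M H' H hle).comp (inclH L M ℓ H')
      = (inclH L M ℓ H).comp jK := by
    ext k; rfl
  show S41.transferAlong A (k5c_j L M H' H hle) (k5c_j_injective L M H' H hle)
      (S41.transferAlong A (inclH L M ℓ H') (inclH_injective L M ℓ H')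
        (ψ.comp (MonoidHom.toAdditive (conjDH L M ℓ H' hML.out))))
    = S41.transferAlong A (inclH L M ℓ H) (inclH_injective L M ℓ H)
      ((S41.transferAlong A (k5c_j L M H' H hle) (k5c_j_injective L M H' H hle) ψ).comp
        (MonoidHom.toAdditive (conjDH L M ℓ H hML.out)))
  rw [hA, ← hB, ← hC]
  exact k5c_transfer_congr hD _ _ _

/-- clause 3 for `tSadj`, `g ∈ Γ₀(L ℓ)` -/
theorem k5u_adj_diam_comm_of_mem (g : SL(2, ℤ)) (hgL : g ∈ Gamma0 L) (hgM : g ∈ Gamma0 M)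
    (hgLℓ : g ∈ Gamma0 (L * ℓ)) (ψ : HomS (gammaH L M H') A) :
    diamS H' A g hgL hgM (tSadj L M ℓ H' A ψ) = tSadj L M ℓ H' A (diamS H' A g hgL hgM ψ) := by
  let aH : gammaH (L * ℓ) M H' →* gammaH (L * ℓ) M H' :=
    conjHom g (normalizes_gammaH hgLℓ hgM)
  have hsurj : Function.Surjective aH := by
    intro k
    refine ⟨⟨g * k * g⁻¹, Fermat.Agent.ES1.conj_mem_gammaH hgLℓ hgM k.2⟩, ?_⟩
    apply Subtype.ext
    show g⁻¹ * (g * k * g⁻¹) * g = k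
    group
  have hcomp : ∀ h : gammaH (L * ℓ) M H',
      k5c_conjEquiv L M H' g hgL hgM (inclH L M ℓ H' h) = inclH L M ℓ H' (aH h) := by
    intro h
    apply Subtype.ext
    rfl
  have hE := S41.transferAlong_equivariant (inclH L M ℓ H')
    (inclH_injective L M ℓ H') A aH (k5c_conjEquiv L M H' g hgL hgM) hcomp hsurj
    (ψ.comp (MonoidHom.toAdditive (conjDH L M ℓ H' hML.out)))
  -- `δ g δ⁻¹`
  have hcL : ((S41.conjD L ℓ ⟨g, hgLℓ⟩ : Gamma0 L) : SL(2, ℤ)) ∈ Gamma0 L :=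
    (S41.conjD L ℓ ⟨g, hgLℓ⟩).2
  have hcM : ((S41.conjD L ℓ ⟨g, hgLℓ⟩ : Gamma0 L) : SL(2, ℤ)) ∈ Gamma0 M :=
    k5i_mem_Gamma0M L M hcL
  have hd : diamHom M ⟨g, hgM⟩
      = diamHom M ⟨((S41.conjD L ℓ ⟨g, hgLℓ⟩ : Gamma0 L) : SL(2, ℤ)), hcM⟩ := by
    apply k5e_diam_eq_of_entry
    rw [S41.conjD_coe]
    simp [S41.conjDMat]
  have hL : (ψ.comp (MonoidHom.toAdditive (conjDH L M ℓ H' hML.out))).comp
        (MonoidHom.toAdditive aH)
      = (diamS H' A g hgL hgM ψ).comp (MonoidHom.toAdditive (conjDH L M ℓ H' hML.out)) := by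
    refine AddMonoidHom.ext fun k => ?_
    obtain ⟨k, rfl⟩ : ∃ k' : gammaH (L * ℓ) M H', Additive.ofMul k' = k :=
      ⟨Additive.toMul k, rfl⟩
    show ψ (Additive.ofMul (conjDH L M ℓ H' hML.out (aH k)))
      = ψ (Additive.ofMul ⟨g⁻¹ * ((conjDH L M ℓ H' hML.out k : gammaH L M H') : SL(2, ℤ)) * g, _⟩)
    have e : conjDH L M ℓ H' hML.out (aH k)
        = ⟨((S41.conjD L ℓ ⟨g, hgLℓ⟩ : Gamma0 L) : SL(2, ℤ))⁻¹
            * ((conjDH L M ℓ H' hML.out k : gammaH L M H') : SL(2, ℤ))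
            * ((S41.conjD L ℓ ⟨g, hgLℓ⟩ : Gamma0 L) : SL(2, ℤ)),
          normalizes_gammaH hcL hcM _ (conjDH L M ℓ H' hML.out k).2⟩ := by
      apply Subtype.ext
      have e' : (⟨((aH k : gammaH (L * ℓ) M H') : SL(2, ℤ)), (aH k).2.1⟩ : Gamma0 (L * ℓ))
          = (⟨g, hgLℓ⟩ : Gamma0 (L * ℓ))⁻¹ * ⟨(k : SL(2, ℤ)), k.2.1⟩ * ⟨g, hgLℓ⟩ := rfl
      show ((S41.conjD L ℓ ⟨((aH k : gammaH (L * ℓ) M H') : SL(2, ℤ)), (aH k).2.1⟩ : Gamma0 L) :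
          SL(2, ℤ))
        = ((S41.conjD L ℓ ⟨g, hgLℓ⟩ : Gamma0 L) : SL(2, ℤ))⁻¹
          * ((S41.conjD L ℓ ⟨(k : SL(2, ℤ)), k.2.1⟩ : Gamma0 L) : SL(2, ℤ))
          * ((S41.conjD L ℓ ⟨g, hgLℓ⟩ : Gamma0 L) : SL(2, ℤ))
      rw [e', map_mul, map_mul, map_inv]
      rfl
    rw [e]
    exact k5c_inner ψ g ((S41.conjD L ℓ ⟨g, hgLℓ⟩ : Gamma0 L) : SL(2, ℤ))
      ((conjDH L M ℓ H' hML.out k : gammaH L M H') : SL(2, ℤ)) _ _
      (k5e_inv_mul_mem H' hgL hgM hcL hcM hd)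
  show (S41.transferAlong A (inclH L M ℓ H') (inclH_injective L M ℓ H')
      (ψ.comp (MonoidHom.toAdditive (conjDH L M ℓ H' hML.out)))).comp
        (MonoidHom.toAdditive (conjHom g (normalizes_gammaH hgL hgM)))
    = S41.transferAlong A (inclH L M ℓ H') (inclH_injective L M ℓ H')
      ((diamS H' A g hgL hgM ψ).comp (MonoidHom.toAdditive (conjDH L M ℓ H' hML.out)))
  rw [← hL, hE]
  rfl

end clauses

/-- **K5-UQ1** -/
theorem stmtCommU : StmtCommU := by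
  intro L M ℓ _ _ hML H' H hle A _
  refine ⟨k5u_res_comm L M ℓ H' H hle A, k5u_cores_comm L M ℓ H' H hle A, ?_⟩
  intro g hgL hgM ψ
  obtain ⟨g', hgLℓ', hgM', hgd, hg01⟩ := k5u_gen L M ℓ (diamHom M ⟨g, hgM⟩)
  have hgL' : g' ∈ Gamma0 L := S41.Gamma0_mul_le L ℓ hgLℓ'
  rw [k5c_diam_congr L M H' A g g' hgL hgM hgL' hgM' hgd.symm,
    k5c_diam_congr L M H' A g g' hgL hgM hgL' hgM' hgd.symm]
  exact k5u_diam_comm_of_mem L M ℓ H' A g' hgL' hgM' hg01 ψ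

/-- **K5-UQ1′** -/
theorem stmtCommUAdj : StmtCommUAdj := by
  intro L M ℓ _ _ hML H' H hle A _
  refine ⟨k5u_adj_res_comm L M ℓ H' H hle A, k5u_adj_cores_comm L M ℓ H' H hle A, ?_⟩
  intro g hgL hgM ψ
  obtain ⟨g', hgLℓ', hgM', hgd, hg01⟩ := k5u_gen L M ℓ (diamHom M ⟨g, hgM⟩)
  have hgL' : g' ∈ Gamma0 L := S41.Gamma0_mul_le L ℓ hgLℓ'
  rw [k5c_diam_congr L M H' A g g' hgL hgM hgL' hgM' hgd.symm,
    k5c_diam_congr L M H' A g g' hgL hgM hgL' hgM' hgd.symm]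
  exact k5u_adj_diam_comm_of_mem L M ℓ H' A g' hgL' hgM' hgLℓ' ψ

end Fermat.Agent.RT.K5
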