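import Fermat.Agent.RT.K5.Plan2

/-!
# RT-K5, piece NAT: naturality in the coefficient group — `stmtNat : StmtNat`
-/

set_option autoImplicit false
set_option linter.style.haveILetI false
set_option linter.unusedSectionVars false
set_option linter.unusedVariables false

noncomputable section

namespace Fermat.Agent.RT.K5

open CongruenceSubgroup Matrix
open scoped MatrixGroups
open Fermat.Agent.ES1 (gammaH diamHom pmH)

/-- the transfer is natural in the coefficient group -/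
theorem k5nat_transfer {G H : Type*} [Group G] [Group H] (f : H →* G)
    (hf : Function.Injective f) [f.range.FiniteIndex] {A B : Type*} [AddCommGroup A]
    [AddCommGroup B] (u : A →+ B) (ψ : Additive H →+ A) :
    u.comp (S41.transferAlong A f hf ψ) = S41.transferAlong B f hf (u.comp ψ) := by
  refine AddMonoidHom.ext fun g => ?_
  obtain ⟨g, rfl⟩ : ∃ g' : G, Additive.ofMul g' = g := ⟨Additive.toMul g, rfl⟩
  rw [AddMonoidHom.comp_apply, S41.transferAlong_eq_sum, S41.transferAlong_eq_sum, map_sum]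
  rfl

section level

variable (L M : ℕ) [NeZero L] [hML : Fact (M ∣ L)] {A B : Type} [AddCommGroup A] [AddCommGroup B]
  (f : A →+ B)

theorem k5nat_res {Γ' Γ : Subgroup SL(2, ℤ)} (h : Γ' ≤ Γ) (φ : HomS Γ A) :
    mapS f (resS A h φ) = resS B h (mapS f φ) := rfl

theorem k5nat_cores {Γ' Γ : Subgroup SL(2, ℤ)} (h : Γ' ≤ Γ)
    [(Subgroup.inclusion h).range.FiniteIndex] (ψ : HomS Γ' A) :
    mapS f (coresS A h ψ) = coresS B h (mapS f ψ) :=
  k5nat_transfer (Subgroup.inclusion h) (Subgroup.inclusion_injective h) f ψ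

theorem k5nat_diam (H : Subgroup (ZMod M)ˣ) (g : SL(2, ℤ)) (hgL : g ∈ Gamma0 L)
    (hgM : g ∈ Gamma0 M) (ψ : HomS (gammaH L M H) A) :
    mapS f (diamS H A g hgL hgM ψ) = diamS H B g hgL hgM (mapS f ψ) := rfl

theorem k5nat_resH (ℓ : ℕ) [NeZero ℓ] (H : Subgroup (ZMod M)ˣ) (φ : HomS (gammaH L M H) A) :
    mapS f (resH L M ℓ H A φ) = resH L M ℓ H B (mapS f φ) := rfl

theorem k5nat_resDH (ℓ : ℕ) [NeZero ℓ] (H : Subgroup (ZMod M)ˣ) (φ : HomS (gammaH L M H) A) :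
    mapS f (resDH L M ℓ H A φ) = resDH L M ℓ H B (mapS f φ) := rfl

theorem k5nat_coresH (ℓ : ℕ) [NeZero ℓ] (H : Subgroup (ZMod M)ˣ)
    (ψ : HomS (gammaH (L * ℓ) M H) A) :
    mapS f (coresH L M ℓ H A ψ) = coresH L M ℓ H B (mapS f ψ) :=
  k5nat_transfer (inclH L M ℓ H) (inclH_injective L M ℓ H) f ψ

theorem k5nat_coresDH (ℓ : ℕ) [NeZero ℓ] (H : Subgroup (ZMod M)ˣ)
    (ψ : HomS (gammaH (L * ℓ) M H) A) :
    mapS f (coresDH L M ℓ H A ψ) = coresDH L M ℓ H B (mapS f ψ) :=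
  k5nat_transfer (conjDH L M ℓ H hML.out) (conjDH_injective L M ℓ H hML.out) f ψ

theorem k5nat_tS (ℓ : ℕ) [NeZero ℓ] (H : Subgroup (ZMod M)ˣ) (φ : HomS (gammaH L M H) A) :
    mapS f (tS L M ℓ H A φ) = tS L M ℓ H B (mapS f φ) := by
  show mapS f (coresDH L M ℓ H A (resH L M ℓ H A φ)) = coresDH L M ℓ H B (resH L M ℓ H B (mapS f φ))
  rw [k5nat_coresDH, k5nat_resH]

theorem k5nat_tSadj (ℓ : ℕ) [NeZero ℓ] (H : Subgroup (ZMod M)ˣ) (φ : HomS (gammaH L M H) A) :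
    mapS f (tSadj L M ℓ H A φ) = tSadj L M ℓ H B (mapS f φ) := by
  show mapS f (coresH L M ℓ H A (resDH L M ℓ H A φ)) = coresH L M ℓ H B (resDH L M ℓ H B (mapS f φ))
  rw [k5nat_coresH, k5nat_resDH]

theorem k5nat_etaS (ℓ : ℕ) [NeZero ℓ] (H : Subgroup (ZMod M)ˣ) (φ : HomS (gammaH L M H) A) :
    mapS f (etaS L M ℓ H A φ) = etaS L M ℓ H B (mapS f φ) := by
  show mapS f (tS L M ℓ H A φ - (ℓ + 1) • φ) = tS L M ℓ H B (mapS f φ) - (ℓ + 1) • mapS f φ
  rw [map_sub, map_nsmul, k5nat_tS]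

end level

/-- **K5-NAT** -/
theorem stmtNat : StmtNat := by
  intro L M _ hML A B _ _ f
  refine ⟨fun H' H hle φ => rfl, fun H' H hle ψ => ?_, fun H g hgL hgM ψ => rfl,
    fun ℓ _ H φ => ⟨k5nat_tS L M f ℓ H φ, k5nat_tSadj L M f ℓ H φ⟩⟩
  exact k5nat_cores f (Fermat.Agent.ES1.gammaH_mono hle) ψ

end Fermat.Agent.RT.K5
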