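import Fermat.Agent.RT.K5.FreeGen
import Fermat.Agent.RT.K5.CommU
import Fermat.Agent.RT.K5.Nat

/-!
# RT-K5, piece ACT: the diamond action of `(ℤ/M)ˣ` on `Hom(Γ_{H'}(L), A)`

* `diamU L M H' A : (ZMod M)ˣ →* AddMonoid.End (HomS (gammaH L M H') A)`, the diamond action as a
  monoid homomorphism (a representative `g ∈ Γ₀(L) ∩ Γ₀(M)` of the class is chosen by `stmtGen`;
  the operator does not depend on it by `k5c_diam_congr`);
* `k5act_diamU_diamHom` : `diamU (diamHom M ⟨g, hgM⟩) = diamS H' A g hgL hgM`;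
* `k5act_diamU_of_mem` : `diamU u = 1` for `u ∈ pmH H'`;
* `k5act_comm` : every `CompatFam` operator commutes with `diamU`;
* `k5act_res`, `k5act_tS`, `k5act_tSadj`, `k5act_mapS`, `k5act_isInv_iff`, `k5act_etaPart`.
-/

set_option autoImplicit false
set_option linter.unusedSectionVars false
set_option linter.unusedVariables false

noncomputable section

namespace Fermat.Agent.RT.K5

open CongruenceSubgroup Matrix
open scoped MatrixGroups
open Fermat.Agent.ES1 (gammaH diamHom pmH)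

section rep

variable (L M : ℕ) [NeZero L] [hML : Fact (M ∣ L)]

/-- every class of `(ℤ/M)ˣ` is the diamond of some `g ∈ Γ₀(L) ∩ Γ₀(M)` -/
theorem k5act_exists (u : (ZMod M)ˣ) :
    ∃ g : SL(2, ℤ), ∃ (_ : g ∈ Gamma0 L) (hgM : g ∈ Gamma0 M), diamHom M ⟨g, hgM⟩ = u := by
  have : NeZero (1 : ℕ) := ⟨one_ne_zero⟩
  obtain ⟨g, hgL, hgM, h, -⟩ := stmtGen L M 1 (Nat.coprime_one_left L) u
  exact ⟨g, hgL, hgM, h⟩

/-- a chosen representative of the diamond class `u` -/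
def k5act_rep (u : (ZMod M)ˣ) : SL(2, ℤ) := (k5act_exists L M u).choose

theorem k5act_rep_memL (u : (ZMod M)ˣ) : k5act_rep L M u ∈ Gamma0 L :=
  (k5act_exists L M u).choose_spec.choose

theorem k5act_rep_memM (u : (ZMod M)ˣ) : k5act_rep L M u ∈ Gamma0 M :=
  (k5act_exists L M u).choose_spec.choose_spec.choose

theorem k5act_rep_diam (u : (ZMod M)ˣ) :
    diamHom M ⟨k5act_rep L M u, k5act_rep_memM L M u⟩ = u :=
  (k5act_exists L M u).choose_spec.choose_spec.choose_spec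

end rep

section act

variable (L M : ℕ) [NeZero L] [hML : Fact (M ∣ L)] (H' : Subgroup (ZMod M)ˣ)
  (A : Type) [AddCommGroup A]

/-- `diamS` is multiplicative: `(g g') · ψ = g · (g' · ψ)` -/
theorem k5act_diamS_mul (g g' : SL(2, ℤ)) (hgL : g ∈ Gamma0 L) (hgM : g ∈ Gamma0 M)
    (hgL' : g' ∈ Gamma0 L) (hgM' : g' ∈ Gamma0 M) (ψ : HomS (gammaH L M H') A) :
    diamS H' A (g * g') (mul_mem hgL hgL') (mul_mem hgM hgM') ψ
      = diamS H' A g hgL hgM (diamS H' A g' hgL' hgM' ψ) := by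
  refine AddMonoidHom.ext fun γ => ?_
  obtain ⟨γ, rfl⟩ : ∃ γ' : gammaH L M H', Additive.ofMul γ' = γ := ⟨Additive.toMul γ, rfl⟩
  show ψ (Additive.ofMul ⟨(g * g')⁻¹ * γ * (g * g'), _⟩)
    = ψ (Additive.ofMul ⟨g'⁻¹ * (g⁻¹ * γ * g) * g', _⟩)
  congr 2
  apply Subtype.ext
  show (g * g')⁻¹ * (γ : SL(2, ℤ)) * (g * g') = g'⁻¹ * (g⁻¹ * γ * g) * g'
  group

/-- `diamS g` is trivial for `g ∈ Γ_{H'}(L)` (inner automorphisms act trivially) -/
theorem k5act_diamS_of_mem (g : SL(2, ℤ)) (hg : g ∈ gammaH L M H')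
    (ψ : HomS (gammaH L M H') A) : diamS H' A g hg.1 hg.2.1 ψ = ψ := by
  refine AddMonoidHom.ext fun γ => ?_
  obtain ⟨γ, rfl⟩ : ∃ γ' : gammaH L M H', Additive.ofMul γ' = γ := ⟨Additive.toMul γ, rfl⟩
  show ψ (Additive.ofMul ⟨g⁻¹ * γ * g, _⟩) = ψ (Additive.ofMul γ)
  have e : (⟨g⁻¹ * γ * g, normalizes_gammaH hg.1 hg.2.1 γ γ.2⟩ : gammaH L M H')
      = (⟨g, hg⟩ : gammaH L M H')⁻¹ * γ * ⟨g, hg⟩ := rfl
  rw [e, ofMul_mul, ofMul_mul, ofMul_inv, map_add, map_add, map_neg]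
  abel

/-- **the diamond action** of `(ℤ/M)ˣ` on `Hom(Γ_{H'}(L), A)` -/
def diamU : (ZMod M)ˣ →* AddMonoid.End (HomS (gammaH L M H') A) where
  toFun u := diamS H' A (k5act_rep L M u) (k5act_rep_memL L M u) (k5act_rep_memM L M u)
  map_one' := by
    refine AddMonoidHom.ext fun ψ => ?_
    have hd : diamHom M ⟨k5act_rep L M (1 : (ZMod M)ˣ), k5act_rep_memM L M 1⟩
        = diamHom M ⟨(1 : SL(2, ℤ)), one_mem _⟩ := by
      rw [k5act_rep_diam]
      have : (⟨(1 : SL(2, ℤ)), one_mem _⟩ : Gamma0 M) = 1 := rfl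
      rw [this, map_one]
    have h1 := k5c_diam_congr L M H' A (k5act_rep L M 1) 1 (k5act_rep_memL L M 1)
      (k5act_rep_memM L M 1) (one_mem _) (one_mem _) hd ψ
    show diamS H' A (k5act_rep L M 1) _ _ ψ = ψ
    rw [h1]
    exact k5f_diam_one ψ
  map_mul' u v := by
    refine AddMonoidHom.ext fun ψ => ?_
    show diamS H' A (k5act_rep L M (u * v)) _ _ ψ
      = diamS H' A (k5act_rep L M u) (k5act_rep_memL L M u) (k5act_rep_memM L M u)
          (diamS H' A (k5act_rep L M v) (k5act_rep_memL L M v) (k5act_rep_memM L M v) ψ)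
    rw [← k5act_diamS_mul]
    refine k5c_diam_congr L M H' A _ _ _ _ _ _ ?_ ψ
    rw [k5act_rep_diam, k5e_diam_mul _ _ (k5act_rep_memM L M u) (k5act_rep_memM L M v),
      k5act_rep_diam, k5act_rep_diam]

theorem k5act_diamU_apply (u : (ZMod M)ˣ) (ψ : HomS (gammaH L M H') A) :
    diamU L M H' A u ψ
      = diamS H' A (k5act_rep L M u) (k5act_rep_memL L M u) (k5act_rep_memM L M u) ψ := rfl

/-- `diamU` at the diamond of `g` is `diamS g` -/
theorem k5act_diamU_diamHom_apply (g : SL(2, ℤ)) (hgL : g ∈ Gamma0 L) (hgM : g ∈ Gamma0 M)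
    (ψ : HomS (gammaH L M H') A) :
    diamU L M H' A (diamHom M ⟨g, hgM⟩) ψ = diamS H' A g hgL hgM ψ :=
  k5c_diam_congr L M H' A _ g (k5act_rep_memL L M _) (k5act_rep_memM L M _) hgL hgM
    (k5act_rep_diam L M _) ψ

/-- `diamU` at the diamond of `g` is `diamS g` -/
theorem k5act_diamU_diamHom (g : SL(2, ℤ)) (hgL : g ∈ Gamma0 L) (hgM : g ∈ Gamma0 M) :
    diamU L M H' A (diamHom M ⟨g, hgM⟩)
      = (show AddMonoid.End (HomS (gammaH L M H') A) from diamS H' A g hgL hgM) :=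
  AddMonoidHom.ext fun ψ => k5act_diamU_diamHom_apply L M H' A g hgL hgM ψ

/-- the representative of a class in `±H'` lies in `Γ_{H'}(L)` -/
theorem k5act_rep_mem_gammaH {u : (ZMod M)ˣ} (hu : u ∈ pmH H') :
    k5act_rep L M u ∈ gammaH L M H' :=
  ⟨k5act_rep_memL L M u, k5act_rep_memM L M u, by rw [k5act_rep_diam]; exact hu⟩

/-- `±H'` acts trivially -/
theorem k5act_diamU_of_mem {u : (ZMod M)ˣ} (hu : u ∈ pmH H') : diamU L M H' A u = 1 :=
  AddMonoidHom.ext fun ψ =>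
    k5act_diamS_of_mem L M H' A (k5act_rep L M u) (k5act_rep_mem_gammaH L M H' hu) ψ

theorem k5act_diamU_of_mem_apply {u : (ZMod M)ˣ} (hu : u ∈ pmH H')
    (ψ : HomS (gammaH L M H') A) : diamU L M H' A u ψ = ψ := by
  rw [k5act_diamU_of_mem L M H' A hu]; rfl

/-- `diamU` only depends on the class modulo `±H'` -/
theorem k5act_diamU_congr {u v : (ZMod M)ˣ} (h : u⁻¹ * v ∈ pmH H') :
    diamU L M H' A u = diamU L M H' A v := by
  have h1 : v = u * (u⁻¹ * v) := by group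
  rw [h1, map_mul, k5act_diamU_of_mem L M H' A h, mul_one]

/-- **every `CompatFam` operator commutes with `diamU`** -/
theorem k5act_comm (𝔲 : CompatFam L M A) (K : Subgroup (ZMod M)ˣ) (u : (ZMod M)ˣ)
    (ψ : HomS (gammaH L M K) A) :
    diamU L M K A u (𝔲.op K ψ) = 𝔲.op K (diamU L M K A u ψ) :=
  𝔲.diam_comm K _ (k5act_rep_memL L M u) (k5act_rep_memM L M u) ψ

/-- `res` commutes with `diamU` -/
theorem k5act_res {H' H : Subgroup (ZMod M)ˣ} (hle : H' ≤ H) (u : (ZMod M)ˣ)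
    (φ : HomS (gammaH L M H) A) :
    resS A (Fermat.Agent.ES1.gammaH_mono hle) (diamU L M H A u φ)
      = diamU L M H' A u (resS A (Fermat.Agent.ES1.gammaH_mono hle) φ) :=
  k5f_res_diam hle _ (k5act_rep_memL L M u) (k5act_rep_memM L M u) φ

/-- `tS ℓ` (every `ℓ ≥ 1`, also `U_q`) commutes with `diamU` -/
theorem k5act_tS (ℓ : ℕ) [NeZero ℓ] (u : (ZMod M)ˣ) (ψ : HomS (gammaH L M H') A) :
    diamU L M H' A u (tS L M ℓ H' A ψ) = tS L M ℓ H' A (diamU L M H' A u ψ) :=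
  (stmtCommU L M ℓ H' H' le_rfl A).2.2 _ (k5act_rep_memL L M u) (k5act_rep_memM L M u) ψ

/-- `tSadj ℓ` commutes with `diamU` -/
theorem k5act_tSadj (ℓ : ℕ) [NeZero ℓ] (u : (ZMod M)ˣ) (ψ : HomS (gammaH L M H') A) :
    diamU L M H' A u (tSadj L M ℓ H' A ψ) = tSadj L M ℓ H' A (diamU L M H' A u ψ) :=
  (stmtCommUAdj L M ℓ H' H' le_rfl A).2.2 _ (k5act_rep_memL L M u) (k5act_rep_memM L M u) ψ

/-- `etaS ℓ` commutes with `diamU` -/
theorem k5act_etaS (ℓ : ℕ) [NeZero ℓ] (u : (ZMod M)ˣ) (ψ : HomS (gammaH L M H') A) :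
    diamU L M H' A u (etaS L M ℓ H' A ψ) = etaS L M ℓ H' A (diamU L M H' A u ψ) := by
  show diamU L M H' A u (tS L M ℓ H' A ψ - (ℓ + 1) • ψ)
    = tS L M ℓ H' A (diamU L M H' A u ψ) - (ℓ + 1) • diamU L M H' A u ψ
  rw [map_sub, map_nsmul, k5act_tS]

/-- `diamU` is natural in the coefficients -/
theorem k5act_mapS {B : Type} [AddCommGroup B] (f : A →+ B) (u : (ZMod M)ˣ)
    (ψ : HomS (gammaH L M H') A) :
    mapS f (diamU L M H' A u ψ) = diamU L M H' B u (mapS f ψ) := rfl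

/-- invariance under `Γ_H(L)` in terms of `diamU` -/
theorem k5act_isInv_iff (H : Subgroup (ZMod M)ˣ) (ψ : HomS (gammaH L M H') A) :
    IsInv H' H ψ ↔ ∀ u ∈ pmH H, diamU L M H' A u ψ = ψ := by
  constructor
  · intro h u hu
    exact h (k5act_rep L M u) (k5act_rep_mem_gammaH L M H hu)
  · intro h g hg
    rw [← k5act_diamU_diamHom_apply L M H' A g hg.1 hg.2.1 ψ]
    exact h _ hg.2.2

/-- a `diamU`-stable subgroup: the bijective part of an operator commuting with the diamonds -/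
theorem k5act_etaPart (θ : HomS (gammaH L M H') A →+ HomS (gammaH L M H') A)
    (hθ : ∀ (u : (ZMod M)ˣ) (ψ : HomS (gammaH L M H') A),
      diamU L M H' A u (θ ψ) = θ (diamU L M H' A u ψ))
    (u : (ZMod M)ˣ) {ψ : HomS (gammaH L M H') A} (hψ : ψ ∈ etaPart θ) :
    diamU L M H' A u ψ ∈ etaPart θ :=
  k5s_intertwine_mem θ θ (diamU L M H' A u) (fun x => hθ u x) hψ

/-- the `Θ`-part of a `CompatFam` is stable under `diamU` -/
theorem k5act_thetaS_mem (𝔲 : CompatFam L M A) (ℓ₀ : ℕ) [NeZero ℓ₀] (u : (ZMod M)ˣ)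
    {ψ : HomS (gammaH L M H') A} (hψ : ψ ∈ etaPart (thetaS 𝔲 ℓ₀ H')) :
    diamU L M H' A u ψ ∈ etaPart (thetaS 𝔲 ℓ₀ H') := by
  refine k5act_etaPart L M H' A _ (fun v x => ?_) u hψ
  show diamU L M H' A v (𝔲.op H' (etaS L M ℓ₀ H' A x))
    = 𝔲.op H' (etaS L M ℓ₀ H' A (diamU L M H' A v x))
  rw [k5act_comm, k5act_etaS]

end act

end Fermat.Agent.RT.K5
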