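/-
K-machine, piece K5-OF (helper9), abstract part (Mathlib only): Fitting decomposition of an
endomorphism `θ` of a finite free module `V` over a complete Noetherian local ring `𝒪` with
finite residue field.

`k5of_main` : there are `m > 0` and an idempotent `e ∈ End_𝒪(V)` commuting with everything that
commutes with `θ`, with `θ^m ≡ e` modulo `𝔪`.  Construction: `θ̄^m` is idempotent on `V/𝔪V`
(finite monoid), Newton iteration `z ↦ 3z² − 2z³` on polynomials in `θ`, limit in the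
`𝔪`-adically complete module `V`.
Consequences: `k5of_theta_bij` (`θ` is bijective on `e V`), `k5of_range_le` (`e V ⊆ θⁿ V`),
`k5of_fix` (`⋂ θⁿ V ⊆ e V`), `k5of_nil` (`θ` is topologically nilpotent on `(1 − e) V`),
`k5of_lift` (lifting from finite quotients).
-/
import Mathlib

set_option autoImplicit false
set_option linter.unusedSectionVars false
set_option linter.style.haveILetI false

noncomputable section

namespace Fermat.Agent.RT.K5

open Polynomial

section General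

variable {R : Type*} [CommRing R] {M M' : Type*} [AddCommGroup M] [Module R M]
  [AddCommGroup M'] [Module R M']

/-- linear maps preserve `I • ⊤` -/
theorem k5of_map_mem (I : Ideal R) (t : M →ₗ[R] M') {x : M}
    (hx : x ∈ I • (⊤ : Submodule R M)) : t x ∈ I • (⊤ : Submodule R M') := by
  have h1 : t x ∈ (I • (⊤ : Submodule R M)).map t := Submodule.mem_map_of_mem hx
  rw [Submodule.map_smul''] at h1
  exact Submodule.smul_mono le_rfl le_top h1

/-- a linear map with values in `I • ⊤` maps `J • ⊤` into `(J * I) • ⊤` -/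
theorem k5of_map_mem_mul (I J : Ideal R) (t : M →ₗ[R] M')
    (ht : ∀ v, t v ∈ I • (⊤ : Submodule R M')) {x : M}
    (hx : x ∈ J • (⊤ : Submodule R M)) : t x ∈ (J * I) • (⊤ : Submodule R M') := by
  have h1 : t x ∈ (J • (⊤ : Submodule R M)).map t := Submodule.mem_map_of_mem hx
  rw [Submodule.map_smul''] at h1
  have h2 : (⊤ : Submodule R M).map t ≤ I • (⊤ : Submodule R M') := by
    rintro _ ⟨v, -, rfl⟩
    exact ht v
  have h3 := Submodule.smul_mono (le_refl J) h2 h1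
  rwa [← Submodule.mul_smul] at h3

theorem k5of_pow_mono (I : Ideal R) {m n : ℕ} (h : m ≤ n) {x : M}
    (hx : x ∈ I ^ n • (⊤ : Submodule R M)) : x ∈ I ^ m • (⊤ : Submodule R M) :=
  Submodule.smul_mono (Ideal.pow_le_pow_right h) le_rfl hx

/-- a finite free module over an `I`-adically precomplete ring is `I`-adically precomplete -/
theorem k5of_isPrecomplete (I : Ideal R) [IsPrecomplete I R] [Module.Finite R M]
    [Module.Free R M] : IsPrecomplete I M := by
  classical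
  let b := Module.Free.chooseBasis R M
  refine ⟨fun f hf => ?_⟩
  have hc : ∀ i, ∃ a : R, ∀ n, b.repr (f n) i ≡ a [SMOD (I ^ n • ⊤ : Submodule R R)] := by
    intro i
    refine IsPrecomplete.prec ‹IsPrecomplete I R› (f := fun n => b.repr (f n) i) ?_
    intro m n hmn
    have h1 := hf hmn
    rw [SModEq.sub_mem] at h1 ⊢
    have h2 := k5of_map_mem (I ^ m) (b.coord i) h1
    rw [map_sub] at h2
    exact h2
  choose a ha using hc
  refine ⟨∑ i, a i • b i, fun n => ?_⟩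
  rw [SModEq.sub_mem]
  have h1 : f n - ∑ i, a i • b i = ∑ i, (b.repr (f n) i - a i) • b i := by
    simp only [sub_smul, Finset.sum_sub_distrib]
    rw [b.sum_repr]
  rw [h1]
  refine Submodule.sum_mem _ fun i _ => ?_
  have h2 := ha i n
  rw [SModEq.sub_mem, smul_eq_mul, Ideal.mul_top] at h2
  exact Submodule.smul_mem_smul h2 Submodule.mem_top

/-- in a finite monoid some positive power of every element is idempotent -/
theorem k5of_exists_idem_pow {N : Type*} [Monoid N] [Finite N] (x : N) :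
    ∃ m : ℕ, 0 < m ∧ x ^ m * x ^ m = x ^ m := by
  obtain ⟨a, b, hab, h⟩ := Finite.exists_ne_map_eq_of_infinite (fun n : ℕ => x ^ (n + 1))
  wlog hlt : a < b generalizing a b
  · exact this b a hab.symm h.symm (lt_of_le_of_ne (not_lt.mp hlt) hab.symm)
  obtain ⟨d, rfl⟩ : ∃ d, b = a + d := ⟨b - a, by omega⟩
  have hd : 0 < d := by omega
  change x ^ (a + 1) = x ^ (a + d + 1) at h
  have h1 : ∀ n, a + 1 ≤ n → x ^ (n + d) = x ^ n := by
    intro n hn
    obtain ⟨k, rfl⟩ : ∃ k, n = (a + 1) + k := ⟨n - (a + 1), by omega⟩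
    have h2 : a + 1 + k + d = (a + d + 1) + k := by ring
    rw [h2, pow_add, ← h, ← pow_add]
  have h2 : ∀ j n, a + 1 ≤ n → x ^ (n + j * d) = x ^ n := by
    intro j
    induction j with
    | zero => intro n _; simp
    | succ j ih =>
      intro n hn
      have h3 : n + (j + 1) * d = (n + j * d) + d := by ring
      rw [h3, h1 _ (by omega), ih n hn]
  refine ⟨(a + 1) * d, Nat.mul_pos (Nat.succ_pos a) hd, ?_⟩
  rw [← pow_add]
  exact h2 (a + 1) ((a + 1) * d) (Nat.le_mul_of_pos_right _ hd)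

/-- Newton step for idempotents -/
def k5ofStep {S : Type*} [CommRing S] (z : S) : S := 3 * z ^ 2 - 2 * z ^ 3

theorem k5of_step_idem {S : Type*} [CommRing S] (z : S) :
    k5ofStep z * k5ofStep z - k5ofStep z =
      (4 * (z * z - z) - 3) * ((z * z - z) * (z * z - z)) := by
  unfold k5ofStep
  ring

theorem k5of_step_sub {S : Type*} [CommRing S] (z : S) :
    k5ofStep z - z = (1 - 2 * z) * (z * z - z) := by
  unfold k5ofStep
  ring

/-- an endomorphism commuting with `θ` commutes with polynomials in `θ` -/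
theorem k5of_commute_aeval (t θ : Module.End R M) (h : t * θ = θ * t) (f : R[X]) :
    t * aeval θ f = aeval θ f * t := by
  have hc : Commute t θ := h
  induction f using Polynomial.induction_on' with
  | add p q hp hq => rw [map_add, mul_add, add_mul, hp, hq]
  | monomial n a =>
    rw [aeval_monomial]
    have h1 : Commute t (θ ^ n) := hc.pow_right n
    have h2 : Commute t (algebraMap R (Module.End R M) a) := (Algebra.commutes a t).symm
    exact (h2.mul_right h1).eq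

end General

section Main

open IsLocalRing

variable {𝒪 : Type*} [CommRing 𝒪] [IsLocalRing 𝒪] [IsNoetherianRing 𝒪]
  {V : Type*} [AddCommGroup V] [Module 𝒪 V] [Module.Finite 𝒪 V]

/-- `g` maps `V` into `𝔪ⁿ V` -/
def K5ofDeep (n : ℕ) (g : Module.End 𝒪 V) : Prop :=
  ∀ v : V, g v ∈ (maximalIdeal 𝒪 ^ n • ⊤ : Submodule 𝒪 V)

theorem k5of_deep_mul_left {n : ℕ} {g : Module.End 𝒪 V} (hg : K5ofDeep n g)
    (t : Module.End 𝒪 V) : K5ofDeep n (t * g) :=
  fun v => k5of_map_mem _ t (hg v)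

theorem k5of_deep_mul {a b : ℕ} {f g : Module.End 𝒪 V} (hf : K5ofDeep a f)
    (hg : K5ofDeep b g) : K5ofDeep (a + b) (f * g) := by
  intro v
  have h := k5of_map_mem_mul (maximalIdeal 𝒪 ^ a) (maximalIdeal 𝒪 ^ b) f hf (hg v)
  rwa [← pow_add, add_comm] at h

theorem k5of_deep_mono {a b : ℕ} (h : a ≤ b) {f : Module.End 𝒪 V} (hf : K5ofDeep b f) :
    K5ofDeep a f :=
  fun v => k5of_pow_mono _ h (hf v)

/-- some positive power of `θ` is idempotent modulo `𝔪` -/
theorem k5of_exists_pow [Finite (ResidueField 𝒪)] (θ : Module.End 𝒪 V) :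
    ∃ m : ℕ, 0 < m ∧ K5ofDeep 1 (θ ^ m * θ ^ m - θ ^ m) := by
  set P : Submodule 𝒪 V := maximalIdeal 𝒪 • ⊤ with hP
  have hle : P ≤ P.comap θ := fun x hx => k5of_map_mem (maximalIdeal 𝒪) θ hx
  haveI : Finite (𝒪 ⧸ maximalIdeal 𝒪) := ‹Finite (ResidueField 𝒪)›
  haveI : Finite (V ⧸ P) :=
    Submodule.finite_quotient_smul (maximalIdeal 𝒪) (Module.Finite.fg_top)
  haveI : Finite (Module.End 𝒪 (V ⧸ P)) :=
    Finite.of_injective (fun f : Module.End 𝒪 (V ⧸ P) => (f : V ⧸ P → V ⧸ P))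
      DFunLike.coe_injective
  obtain ⟨m, hm, h⟩ := k5of_exists_idem_pow (P.mapQ P θ hle)
  refine ⟨m, hm, fun v => ?_⟩
  have hle' : P ≤ P.comap (θ ^ m) := fun x hx => k5of_map_mem (maximalIdeal 𝒪) (θ ^ m) hx
  have hpw : P.mapQ P θ hle ^ m = P.mapQ P (θ ^ m) hle' := (Submodule.mapQ_pow P hle m hle').symm
  rw [hpw] at h
  have h1 := LinearMap.congr_fun h (Submodule.Quotient.mk v)
  rw [Module.End.mul_apply, Submodule.mapQ_apply, Submodule.mapQ_apply] at h1
  rw [← sub_eq_zero, ← Submodule.Quotient.mk_sub, Submodule.Quotient.mk_eq_zero] at h1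
  show (θ ^ m * θ ^ m - θ ^ m) v ∈ (maximalIdeal 𝒪 ^ 1 • ⊤ : Submodule 𝒪 V)
  rw [pow_one, LinearMap.sub_apply, Module.End.mul_apply]
  exact h1

/-- the Newton sequence of polynomials starting at `X ^ m` -/
def k5ofZ (𝒪 : Type*) [CommRing 𝒪] (m : ℕ) : ℕ → 𝒪[X]
  | 0 => X ^ m
  | n + 1 => k5ofStep (k5ofZ 𝒪 m n)

theorem k5of_Z_idem (θ : Module.End 𝒪 V) (m : ℕ)
    (hm : K5ofDeep 1 (θ ^ m * θ ^ m - θ ^ m)) (n : ℕ) :
    K5ofDeep (n + 1) (aeval θ (k5ofZ 𝒪 m n * k5ofZ 𝒪 m n - k5ofZ 𝒪 m n)) := by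
  induction n with
  | zero =>
    have h1 : aeval θ (k5ofZ 𝒪 m 0 * k5ofZ 𝒪 m 0 - k5ofZ 𝒪 m 0) = θ ^ m * θ ^ m - θ ^ m := by
      simp [k5ofZ]
    rw [h1]
    exact hm
  | succ n ih =>
    have h1 : k5ofZ 𝒪 m (n + 1) * k5ofZ 𝒪 m (n + 1) - k5ofZ 𝒪 m (n + 1) =
        (4 * (k5ofZ 𝒪 m n * k5ofZ 𝒪 m n - k5ofZ 𝒪 m n) - 3) *
          ((k5ofZ 𝒪 m n * k5ofZ 𝒪 m n - k5ofZ 𝒪 m n) *
            (k5ofZ 𝒪 m n * k5ofZ 𝒪 m n - k5ofZ 𝒪 m n)) :=
      k5of_step_idem _
    rw [h1, map_mul, map_mul (aeval θ)]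
    refine k5of_deep_mul_left ?_ _
    exact k5of_deep_mono (by omega) (k5of_deep_mul ih ih)

theorem k5of_Z_sub (θ : Module.End 𝒪 V) (m : ℕ)
    (hm : K5ofDeep 1 (θ ^ m * θ ^ m - θ ^ m)) (n : ℕ) :
    K5ofDeep (n + 1) (aeval θ (k5ofZ 𝒪 m (n + 1)) - aeval θ (k5ofZ 𝒪 m n)) := by
  have h1 : k5ofZ 𝒪 m (n + 1) - k5ofZ 𝒪 m n =
      (1 - 2 * k5ofZ 𝒪 m n) * (k5ofZ 𝒪 m n * k5ofZ 𝒪 m n - k5ofZ 𝒪 m n) :=
    k5of_step_sub _
  rw [← map_sub, h1, map_mul]
  exact k5of_deep_mul_left (k5of_Z_idem θ m hm n) _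

/-- **Fitting idempotent.** -/
theorem k5of_main [IsPrecomplete (maximalIdeal 𝒪) 𝒪] [Finite (ResidueField 𝒪)]
    [Module.Free 𝒪 V] (θ : Module.End 𝒪 V) :
    ∃ (m : ℕ) (e : Module.End 𝒪 V), 0 < m ∧ e * e = e ∧
      (∀ t : Module.End 𝒪 V, t * θ = θ * t → t * e = e * t) ∧
      ∀ v : V, (θ ^ m) v - e v ∈ (maximalIdeal 𝒪 • ⊤ : Submodule 𝒪 V) := by
  obtain ⟨m, hm, hpow⟩ := k5of_exists_pow θ
  haveI hprec : IsPrecomplete (maximalIdeal 𝒪) V := k5of_isPrecomplete _
  have hhaus : IsHausdorff (maximalIdeal 𝒪) V := inferInstance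
  set y : ℕ → Module.End 𝒪 V := fun n => aeval θ (k5ofZ 𝒪 m n) with hy
  have hA : ∀ n, K5ofDeep (n + 1) (y n * y n - y n) := fun n => by
    have := k5of_Z_idem θ m hpow n
    rwa [map_sub, map_mul] at this
  have hB : ∀ n, K5ofDeep (n + 1) (y (n + 1) - y n) := fun n => k5of_Z_sub θ m hpow n
  have hstep : ∀ (v : V) (a k : ℕ),
      y (a + k) v - y a v ∈ (maximalIdeal 𝒪 ^ a • ⊤ : Submodule 𝒪 V) := by
    intro v a k
    induction k with
    | zero => simp
    | succ k ih =>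
      have h1 : y (a + (k + 1)) v - y a v =
          (y (a + k + 1) - y (a + k)) v + (y (a + k) v - y a v) := by
        rw [LinearMap.sub_apply, ← add_assoc]
        abel
      rw [h1]
      exact add_mem (k5of_pow_mono _ (by omega) (hB (a + k) v)) ih
  have hcau : ∀ v : V, ∀ {a b : ℕ}, a ≤ b →
      y a v ≡ y b v [SMOD (maximalIdeal 𝒪 ^ a • ⊤ : Submodule 𝒪 V)] := by
    intro v a b hab
    obtain ⟨k, rfl⟩ : ∃ k, b = a + k := ⟨b - a, by omega⟩
    rw [SModEq.sub_mem]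
    have h1 := hstep v a k
    have h2 : y a v - y (a + k) v = -(y (a + k) v - y a v) := by abel
    rw [h2]
    exact neg_mem h1
  choose e₀ he₀ using fun v => IsPrecomplete.prec hprec (f := fun n => y n v) (hcau v)
  have hE : ∀ n v, y n v - e₀ v ∈ (maximalIdeal 𝒪 ^ n • ⊤ : Submodule 𝒪 V) :=
    fun n v => SModEq.sub_mem.1 (he₀ v n)
  have hzero : ∀ x : V, (∀ n, x ∈ (maximalIdeal 𝒪 ^ n • ⊤ : Submodule 𝒪 V)) → x = 0 :=
    fun x hx => IsHausdorff.haus hhaus x fun n => SModEq.zero.2 (hx n)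
  have hadd : ∀ v w, e₀ (v + w) = e₀ v + e₀ w := by
    intro v w
    rw [← sub_eq_zero]
    refine hzero _ fun n => ?_
    have h1 : e₀ (v + w) - (e₀ v + e₀ w) =
        (y n v - e₀ v) + (y n w - e₀ w) - (y n (v + w) - e₀ (v + w)) := by
      rw [map_add]
      abel
    rw [h1]
    exact sub_mem (add_mem (hE n v) (hE n w)) (hE n (v + w))
  have hsmul : ∀ (c : 𝒪) (v : V), e₀ (c • v) = c • e₀ v := by
    intro c v
    rw [← sub_eq_zero]
    refine hzero _ fun n => ?_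
    have h1 : e₀ (c • v) - c • e₀ v = c • (y n v - e₀ v) - (y n (c • v) - e₀ (c • v)) := by
      rw [map_smul, smul_sub]
      abel
    rw [h1]
    exact sub_mem (Submodule.smul_mem _ c (hE n v)) (hE n (c • v))
  let e : Module.End 𝒪 V :=
    { toFun := e₀
      map_add' := hadd
      map_smul' := hsmul }
  have he : ∀ v, e v = e₀ v := fun v => rfl
  refine ⟨m, e, hm, ?_, ?_, ?_⟩
  · apply LinearMap.ext
    intro v
    rw [Module.End.mul_apply, ← sub_eq_zero]
    refine hzero _ fun n => ?_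
    have h1 : e (e v) - e v =
        (y n * y n - y n) v + (y n v - e₀ v) - (y n (e v) - e₀ (e v)) -
          y n (y n v - e₀ v) := by
      rw [LinearMap.sub_apply, Module.End.mul_apply, map_sub]
      show e₀ (e₀ v) - e₀ v = (y n (y n v) - y n v) + (y n v - e₀ v) -
        (y n (e₀ v) - e₀ (e₀ v)) - (y n (y n v) - y n (e₀ v))
      abel
    rw [h1]
    exact sub_mem (sub_mem (add_mem (k5of_pow_mono _ (by omega) (hA n v)) (hE n v))
      (hE n (e v))) (k5of_map_mem _ (y n) (hE n v))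
  · intro t ht
    apply LinearMap.ext
    intro v
    rw [Module.End.mul_apply, Module.End.mul_apply, ← sub_eq_zero]
    refine hzero _ fun n => ?_
    have hc : t (y n v) = y n (t v) := by
      have := k5of_commute_aeval t θ ht (k5ofZ 𝒪 m n)
      exact LinearMap.congr_fun this v
    have h1 : t (e v) - e (t v) = (y n (t v) - e₀ (t v)) - t (y n v - e₀ v) := by
      rw [map_sub, hc]
      show t (e₀ v) - e₀ (t v) = (y n (t v) - e₀ (t v)) - (y n (t v) - t (e₀ v))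
      abel
    rw [h1]
    exact sub_mem (hE n (t v)) (k5of_map_mem _ t (hE n v))
  · intro v
    have h0 : y 0 = θ ^ m := by
      simp [hy, k5ofZ]
    have h1 : (θ ^ m) v - e v = (y 1 v - e₀ v) - (y (0 + 1) - y 0) v := by
      rw [LinearMap.sub_apply, h0]
      show (θ ^ m) v - e₀ v = (y 1 v - e₀ v) - (y (0 + 1) v - (θ ^ m) v)
      abel
    rw [h1]
    have h2 := hE 1 v
    have h3 := hB 0 v
    rw [pow_one] at h2
    rw [zero_add, pow_one] at h3
    exact sub_mem h2 h3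

end Main

section Conseq

open IsLocalRing

variable {𝒪 : Type*} [CommRing 𝒪] [IsLocalRing 𝒪] [IsNoetherianRing 𝒪]
  {V : Type*} [AddCommGroup V] [Module 𝒪 V] [Module.Finite 𝒪 V]

/-- the stable image `⋂ₙ θⁿ V` -/
def K5ofEta (θ : Module.End 𝒪 V) (w : V) : Prop := ∀ n : ℕ, ∃ u : V, (θ ^ n) u = w

/-- the output of `k5of_main` -/
structure K5ofFit (θ e : Module.End 𝒪 V) (m : ℕ) : Prop where
  pos : 0 < m
  idem : e * e = e
  comm : e * θ = θ * e
  cong : ∀ v : V, (θ ^ m) v - e v ∈ (maximalIdeal 𝒪 • ⊤ : Submodule 𝒪 V)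

variable {θ e : Module.End 𝒪 V} {m : ℕ}

theorem k5of_e_e (h : K5ofFit θ e m) (v : V) : e (e v) = e v := by
  rw [← Module.End.mul_apply, h.idem]

theorem k5of_e_pow (h : K5ofFit θ e m) (n : ℕ) (v : V) : e ((θ ^ n) v) = (θ ^ n) (e v) := by
  have h1 : Commute e (θ ^ n) := (show Commute e θ from h.comm).pow_right n
  exact LinearMap.congr_fun h1.eq v

theorem k5of_T_bij (h : K5ofFit θ e m) :
    Function.Bijective (θ ^ m * e + (1 - e) : Module.End 𝒪 V) := by
  set T : Module.End 𝒪 V := θ ^ m * e + (1 - e) with hT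
  have hTv : ∀ v, T v = (θ ^ m) (e v) + (v - e v) := fun v => by
    rw [hT, LinearMap.add_apply, Module.End.mul_apply, LinearMap.sub_apply, Module.End.one_apply]
  have h1 : ∀ v, T v - v ∈ (maximalIdeal 𝒪 • ⊤ : Submodule 𝒪 V) := by
    intro v
    have h2 : T v - v = (θ ^ m) (e v) - e (e v) := by
      rw [hTv, k5of_e_e h]
      abel
    rw [h2]
    exact h.cong (e v)
  have h3 : (⊤ : Submodule 𝒪 V) ≤ LinearMap.range T ⊔ maximalIdeal 𝒪 • ⊤ := by
    intro v _
    have h4 : v = T v + -(T v - v) := by abel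
    rw [h4]
    exact Submodule.add_mem_sup (LinearMap.mem_range_self T v) (neg_mem (h1 v))
  have h5 : (⊤ : Submodule 𝒪 V) ≤ LinearMap.range T :=
    Submodule.le_of_le_smul_of_le_jacobson_bot Module.Finite.fg_top
      (IsLocalRing.maximalIdeal_le_jacobson ⊥) h3
  have hsurj : Function.Surjective T := LinearMap.range_eq_top.1 (top_le_iff.1 h5)
  haveI : IsNoetherian 𝒪 V := isNoetherian_of_isNoetherianRing_of_finite 𝒪 V
  exact ⟨IsNoetherian.injective_of_surjective_endomorphism T hsurj, hsurj⟩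

/-- `θ^m` is surjective on `e V` -/
theorem k5of_pow_surj (h : K5ofFit θ e m) {w : V} (hw : e w = w) :
    ∃ u : V, e u = u ∧ (θ ^ m) u = w := by
  obtain ⟨u₀, hu₀⟩ := (k5of_T_bij h).2 w
  refine ⟨e u₀, k5of_e_e h u₀, ?_⟩
  have h1 : e w = (θ ^ m) (e u₀) := by
    rw [← hu₀, LinearMap.add_apply, Module.End.mul_apply, LinearMap.sub_apply,
      Module.End.one_apply, map_add, map_sub, k5of_e_pow h, k5of_e_e h, sub_self, add_zero]
  rw [← h1, hw]

/-- `θ` is injective on `e V` -/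
theorem k5of_theta_inj (h : K5ofFit θ e m) {w : V} (hw : e w = w) (h0 : θ w = 0) : w = 0 := by
  obtain ⟨m', rfl⟩ : ∃ m', m = m' + 1 := ⟨m - 1, by have := h.pos; omega⟩
  have h1 : (θ ^ (m' + 1)) w = 0 := by
    rw [pow_succ, Module.End.mul_apply, h0, map_zero]
  apply (k5of_T_bij h).1
  rw [map_zero, LinearMap.add_apply, Module.End.mul_apply, LinearMap.sub_apply,
    Module.End.one_apply, hw, h1, sub_self, add_zero]

/-- `e V ⊆ θⁿ (e V)` -/
theorem k5of_range_le (h : K5ofFit θ e m) (n : ℕ) {w : V} (hw : e w = w) :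
    ∃ u : V, e u = u ∧ (θ ^ n) u = w := by
  induction n generalizing w with
  | zero => exact ⟨w, hw, by rw [pow_zero, Module.End.one_apply]⟩
  | succ n ih =>
    obtain ⟨u₀, hu₀e, hu₀⟩ := k5of_pow_surj h hw
    obtain ⟨m', hm'⟩ : ∃ m', m = m' + 1 := ⟨m - 1, by have := h.pos; omega⟩
    have hw₁ : e ((θ ^ m') u₀) = (θ ^ m') u₀ := by rw [k5of_e_pow h, hu₀e]
    obtain ⟨u₁, hu₁e, hu₁⟩ := ih hw₁
    refine ⟨u₁, hu₁e, ?_⟩
    rw [pow_succ', Module.End.mul_apply, hu₁, ← Module.End.mul_apply, ← pow_succ', ← hm', hu₀]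

theorem k5of_e_mem (h : K5ofFit θ e m) (v : V) : K5ofEta θ (e v) := fun n => by
  obtain ⟨u, _, hu⟩ := k5of_range_le h n (k5of_e_e h v)
  exact ⟨u, hu⟩

/-- `θ` is topologically nilpotent on `(1 - e) V` -/
theorem k5of_nil (h : K5ofFit θ e m) (k : ℕ) (u : V) :
    (θ ^ (m * k)) u - e ((θ ^ (m * k)) u) ∈ (maximalIdeal 𝒪 ^ k • ⊤ : Submodule 𝒪 V) := by
  induction k with
  | zero =>
    rw [pow_zero, Ideal.one_eq_top, Submodule.top_smul]
    exact Submodule.mem_top
  | succ k ih =>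
    set N : Module.End 𝒪 V := (1 - e) * θ ^ m with hN
    have hN1 : ∀ v, N v ∈ (maximalIdeal 𝒪 • ⊤ : Submodule 𝒪 V) := by
      intro v
      have h1 : N v = (1 - e) ((θ ^ m) v - e v) := by
        rw [hN, Module.End.mul_apply, map_sub, LinearMap.sub_apply, LinearMap.sub_apply,
          Module.End.one_apply, Module.End.one_apply, k5of_e_e h]
        abel
      rw [h1]
      exact k5of_map_mem _ _ (h.cong v)
    have h2 := k5of_map_mem_mul (maximalIdeal 𝒪) (maximalIdeal 𝒪 ^ k) N hN1 ih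
    rw [← pow_succ] at h2
    have h3 : N ((θ ^ (m * k)) u - e ((θ ^ (m * k)) u)) =
        (θ ^ (m * (k + 1))) u - e ((θ ^ (m * (k + 1))) u) := by
      have h4 : (θ ^ (m * (k + 1))) u = (θ ^ m) ((θ ^ (m * k)) u) := by
        rw [← Module.End.mul_apply, ← pow_add]
        congr 2
        ring
      rw [h4, hN, Module.End.mul_apply, LinearMap.sub_apply, Module.End.one_apply, map_sub,
        map_sub, k5of_e_pow h m, k5of_e_pow h m, k5of_e_e h]
      abel
    rwa [h3] at h2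

/-- `⋂ θⁿ V ⊆ e V` -/
theorem k5of_fix (h : K5ofFit θ e m) {w : V} (hw : K5ofEta θ w) : e w = w := by
  have hhaus : IsHausdorff (maximalIdeal 𝒪) V := inferInstance
  have h1 : w - e w = 0 := by
    refine IsHausdorff.haus hhaus _ fun k => SModEq.zero.2 ?_
    obtain ⟨u, hu⟩ := hw (m * k)
    have h2 := k5of_nil h k u
    rwa [hu] at h2
  exact (sub_eq_zero.1 h1).symm

theorem k5of_eta_inj (h : K5ofFit θ e m) {w : V} (hw : K5ofEta θ w) (h0 : θ w = 0) : w = 0 :=
  k5of_theta_inj h (k5of_fix h hw) h0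

theorem k5of_eta_surj (h : K5ofFit θ e m) {w : V} (hw : K5ofEta θ w) :
    ∃ w', K5ofEta θ w' ∧ θ w' = w := by
  obtain ⟨u, hue, hu⟩ := k5of_range_le h 1 (k5of_fix h hw)
  refine ⟨u, ?_, by rwa [pow_one] at hu⟩
  rw [← hue]
  exact k5of_e_mem h u

/-- a finite module is killed by a power of the maximal ideal -/
theorem k5of_exists_pow_smul_eq_bot (V' : Type*) [AddCommGroup V'] [Module 𝒪 V'] [Finite V'] :
    ∃ K : ℕ, (maximalIdeal 𝒪 ^ K • ⊤ : Submodule 𝒪 V') = ⊥ := by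
  haveI : Module.Finite 𝒪 V' := Module.Finite.of_finite
  haveI : IsNoetherian 𝒪 V' := isNoetherian_of_isNoetherianRing_of_finite 𝒪 V'
  haveI : IsArtinian 𝒪 V' := inferInstance
  let f : ℕ →o (Submodule 𝒪 V')ᵒᵈ :=
    ⟨fun k => OrderDual.toDual (maximalIdeal 𝒪 ^ k • ⊤ : Submodule 𝒪 V'), fun a b hab =>
      OrderDual.toDual_le_toDual.2 (Submodule.smul_mono_left (Ideal.pow_le_pow_right hab))⟩
  obtain ⟨K, hK⟩ := IsArtinian.monotone_stabilizes f
  refine ⟨K, ?_⟩
  have h1 : (maximalIdeal 𝒪 ^ K • ⊤ : Submodule 𝒪 V') = maximalIdeal 𝒪 ^ (K + 1) • ⊤ :=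
    congrArg OrderDual.ofDual (hK (K + 1) (Nat.le_succ K))
  refine Submodule.eq_bot_of_le_smul_of_le_jacobson_bot (maximalIdeal 𝒪) _
    (IsNoetherian.noetherian _) ?_ (IsLocalRing.maximalIdeal_le_jacobson ⊥)
  rw [pow_succ', mul_smul] at h1
  exact h1.le

theorem k5of_intertwine_pow {V' : Type*} [AddCommGroup V'] [Module 𝒪 V']
    (r : V →ₗ[𝒪] V') (θ' : Module.End 𝒪 V') (hr : ∀ v, r (θ v) = θ' (r v)) (n : ℕ) (v : V) :
    r ((θ ^ n) v) = (θ' ^ n) (r v) := by
  induction n generalizing v with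
  | zero => rw [pow_zero, pow_zero, Module.End.one_apply, Module.End.one_apply]
  | succ n ih => rw [pow_succ, pow_succ, Module.End.mul_apply, Module.End.mul_apply, ih, hr]

/-- lifting the stable image from a finite quotient -/
theorem k5of_lift (h : K5ofFit θ e m) {V' : Type*} [AddCommGroup V'] [Module 𝒪 V'] [Finite V']
    (r : V →ₗ[𝒪] V') (θ' : Module.End 𝒪 V') (hsurj : Function.Surjective r)
    (hr : ∀ v, r (θ v) = θ' (r v)) {w' : V'} (hw' : ∀ n : ℕ, ∃ u' : V', (θ' ^ n) u' = w') :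
    ∃ w : V, K5ofEta θ w ∧ r w = w' := by
  obtain ⟨K, hK⟩ := k5of_exists_pow_smul_eq_bot (𝒪 := 𝒪) V'
  obtain ⟨u', hu'⟩ := hw' (m * K)
  obtain ⟨u, rfl⟩ := hsurj u'
  refine ⟨e ((θ ^ (m * K)) u), k5of_e_mem h _, ?_⟩
  have h1 : r ((θ ^ (m * K)) u - e ((θ ^ (m * K)) u)) ∈
      (maximalIdeal 𝒪 ^ K • ⊤ : Submodule 𝒪 V') := k5of_map_mem _ r (k5of_nil h K u)
  rw [hK, Submodule.mem_bot, map_sub, sub_eq_zero] at h1
  rw [← h1, k5of_intertwine_pow r θ' hr, hu']

/-- **Fitting decomposition over a complete Noetherian local ring with finite residue field.** -/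
theorem k5of_final [IsPrecomplete (maximalIdeal 𝒪) 𝒪] [Finite (ResidueField 𝒪)]
    [Module.Free 𝒪 V] (θ : Module.End 𝒪 V) :
    (∃ e : Module.End 𝒪 V, e * e = e ∧ (∀ v, K5ofEta θ (e v)) ∧
      (∀ v, K5ofEta θ v → e v = v) ∧ ∀ t : Module.End 𝒪 V, t * θ = θ * t → t * e = e * t) ∧
    (∀ w, K5ofEta θ w → θ w = 0 → w = 0) ∧
    (∀ w, K5ofEta θ w → ∃ w', K5ofEta θ w' ∧ θ w' = w) ∧
    (∀ (V' : Type) [AddCommGroup V'] [Module 𝒪 V'] [Finite V'] (r : V →ₗ[𝒪] V')
      (θ' : Module.End 𝒪 V'), Function.Surjective r → (∀ v, r (θ v) = θ' (r v)) →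
      ∀ w' : V', (∀ n : ℕ, ∃ u' : V', (θ' ^ n) u' = w') → ∃ w : V, K5ofEta θ w ∧ r w = w') := by
  obtain ⟨m, e, hm, he, hc, hE⟩ := k5of_main θ
  have h : K5ofFit θ e m := ⟨hm, he, (hc θ rfl).symm, hE⟩
  exact ⟨⟨e, he, k5of_e_mem h, fun v hv => k5of_fix h hv, hc⟩, fun w hw => k5of_eta_inj h hw,
    fun w hw => k5of_eta_surj h hw, fun V' _ _ _ r θ' hsurj hr w' hw' =>
      k5of_lift h r θ' hsurj hr hw'⟩

end Conseq


end Fermat.Agent.RT.K5

end
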