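import Fermat.Agent.RT.K5.Defs
import Fermat.Agent.S41.PD.Defs
import Fermat.Agent.S41.Plan

/-!
# K-machine, piece K5 (automorphic modules): interface — one `Prop` per piece

Sub-captain helper7, `NOTES/RT-K5.md`.  A piece is DONE when `theorem stmt… : Stmt…` is landed
(sorry-free, std axioms) in its own file `Fermat/Agent/RT/K5/<Name>.lean`, names prefixed `k5<x>_`.

`Γ = gammaH L M H ⊇ Γ' = gammaH L M H'` (`H' ≤ H ≤ (ℤ/M)ˣ`, `M ∣ L`), `Δ = Γ/Γ' = ±H/±H'`.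
`tS L M ℓ H A` is the Hecke operator `T_ℓ` on `Hom(Γ, A)`.

GOAL (`StmtFree`): for `η = T_ℓ₀ − (ℓ₀ + 1)` and `𝔽` a finite field of characteristic `p` (odd),
the `η`-bijective part `W'` of `Hom(Γ', 𝔽)` has dimension `[Γ : Γ'] · dim W` and `res : W ≅ (W')^Δ`
when `[Γ : Γ']` is a power of `p`.  (Then `W'` is free over `𝔽[Δ]` by `StmtAlgFree`, every Hecke
direct summand of it is free, and a finite free `𝒪`-module with free reduction is free: `StmtAlgLift`.)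
-/

set_option autoImplicit false

noncomputable section

namespace Fermat.Agent.RT.K5

open CongruenceSubgroup Matrix
open scoped MatrixGroups
open Fermat.Agent.ES1 (gammaH diamHom pmH)

/-! ## diamond (conjugation) action -/

theorem normalizes_gammaH {L M : ℕ} {H : Subgroup (ZMod M)ˣ} {g : SL(2, ℤ)}
    (hgL : g ∈ Gamma0 L) (hgM : g ∈ Gamma0 M) :
    ∀ γ ∈ gammaH L M H, g⁻¹ * γ * g ∈ gammaH L M H := fun γ hγ => by
  simpa using Fermat.Agent.ES1.conj_mem_gammaH (inv_mem hgL) (inv_mem hgM) hγ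

/-- the action of `g ∈ Γ₀(L) ∩ Γ₀(M)` on `Hom(Γ_H, A)`: `(g · φ)(γ) = φ(g⁻¹ γ g)`. -/
def diamS {L M : ℕ} (H : Subgroup (ZMod M)ˣ) (A : Type*) [AddCommGroup A] (g : SL(2, ℤ))
    (hgL : g ∈ Gamma0 L) (hgM : g ∈ Gamma0 M) :
    HomS (gammaH L M H) A →+ HomS (gammaH L M H) A :=
  conjS A g (normalizes_gammaH hgL hgM)

/-- `φ` is invariant under conjugation by `Γ = gammaH L M H` -/
def IsInv {L M : ℕ} (H' H : Subgroup (ZMod M)ˣ) {A : Type*} [AddCommGroup A]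
    (ψ : HomS (gammaH L M H') A) : Prop :=
  ∀ (g : SL(2, ℤ)) (hg : g ∈ gammaH L M H), diamS H' A g hg.1 hg.2.1 ψ = ψ

/-- the `η`-bijective part: `⋂ₙ ηⁿ V` -/
def etaPart {V : Type*} [AddCommGroup V] (η : V →+ V) : AddSubgroup V :=
  ⨅ n : ℕ, AddMonoidHom.range (((show AddMonoid.End V from η) ^ n : AddMonoid.End V) : V →+ V)

/-- `η = T_ℓ − (ℓ + 1)` on `Hom(Γ_H(L), A)` -/
def etaS (L M ℓ : ℕ) [NeZero L] [NeZero ℓ] [Fact (M ∣ L)] (H : Subgroup (ZMod M)ˣ)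
    (A : Type*) [AddCommGroup A] : HomS (gammaH L M H) A →+ HomS (gammaH L M H) A :=
  tS L M ℓ H A - (ℓ + 1) • AddMonoidHom.id _

/-! ## K5-IDX, K5-C, K5-RC : formal properties of `T_ℓ`, `res`, `cores` -/

/-- **K5-IDX** `cores_δ ∘ res_δ = ℓ + 1 = cores ∘ res`. -/
def StmtIdx : Prop :=
  ∀ (L M ℓ : ℕ) [NeZero L] [NeZero ℓ] [Fact (M ∣ L)] (H : Subgroup (ZMod M)ˣ)
    (A : Type) [AddCommGroup A], ℓ.Prime → ¬ ℓ ∣ L →
    ∀ φ : HomS (gammaH L M H) A,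
      coresDH L M ℓ H A (resDH L M ℓ H A φ) = (ℓ + 1) • φ ∧
      coresH L M ℓ H A (resH L M ℓ H A φ) = (ℓ + 1) • φ

/-- **K5-TOP** for `H = ⊤` the operator `tS` is `S41.Tc` (so everything known at level `Γ₀(L)`
applies): under the identification `gammaH L M ⊤ = Γ₀(L)`. -/
def StmtTop : Prop :=
  ∀ (L M ℓ : ℕ) [NeZero L] [NeZero ℓ] [Fact (M ∣ L)] [Fact ℓ.Prime] (hℓ : ¬ ℓ ∣ L)
    (A : Type) [AddCommGroup A]
    (e : gammaH L M (⊤ : Subgroup (ZMod M)ˣ) ≃* Gamma0 L),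
    (∀ γ, ((e γ : Gamma0 L) : SL(2, ℤ)) = γ) →
    ∀ φ : S41.HomG L A,
      tS L M ℓ ⊤ A (φ.comp (MonoidHom.toAdditive e.toMonoidHom)) =
        (S41.Tc ℓ hℓ φ).comp (MonoidHom.toAdditive e.toMonoidHom)

/-- **K5-C** `T_ℓ` commutes with `res`, `cores` (change of `H`) and with the diamond action. -/
def StmtComm : Prop :=
  ∀ (L M ℓ : ℕ) [NeZero L] [NeZero ℓ] [Fact (M ∣ L)] (H' H : Subgroup (ZMod M)ˣ) (hle : H' ≤ H)
    (A : Type) [AddCommGroup A], ℓ.Prime → ¬ ℓ ∣ L →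
    (∀ φ : HomS (gammaH L M H) A,
      resS A (Fermat.Agent.ES1.gammaH_mono hle) (tS L M ℓ H A φ) =
        tS L M ℓ H' A (resS A (Fermat.Agent.ES1.gammaH_mono hle) φ)) ∧
    (∀ ψ : HomS (gammaH L M H') A,
      coresS A (Fermat.Agent.ES1.gammaH_mono hle) (tS L M ℓ H' A ψ) =
        tS L M ℓ H A (coresS A (Fermat.Agent.ES1.gammaH_mono hle) ψ)) ∧
    (∀ (g : SL(2, ℤ)) (hgL : g ∈ Gamma0 L) (hgM : g ∈ Gamma0 M) (ψ : HomS (gammaH L M H') A),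
      diamS H' A g hgL hgM (tS L M ℓ H' A ψ) = tS L M ℓ H' A (diamS H' A g hgL hgM ψ))

/-- **K5-CC** the `T_ℓ` commute with each other. -/
def StmtCommT : Prop :=
  ∀ (L M ℓ ℓ' : ℕ) [NeZero L] [NeZero ℓ] [NeZero ℓ'] [Fact (M ∣ L)] (H : Subgroup (ZMod M)ˣ)
    (A : Type) [AddCommGroup A], ℓ.Prime → ℓ'.Prime → ¬ ℓ ∣ L → ¬ ℓ' ∣ L →
    ∀ φ : HomS (gammaH L M H) A,
      tS L M ℓ H A (tS L M ℓ' H A φ) = tS L M ℓ' H A (tS L M ℓ H A φ)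

/-- **K5-RC** `res ∘ cores` is the norm: if `g₀` generates `Γ/Γ'` and has order `m` there, then
`res (cores ψ) = Σ_{i < m} g₀ⁱ · ψ`; and `cores ∘ res = m`. -/
def StmtResCores : Prop :=
  ∀ (L M : ℕ) [NeZero L] [Fact (M ∣ L)] (H' H : Subgroup (ZMod M)ˣ) (hle : H' ≤ H)
    (A : Type) [AddCommGroup A] (m : ℕ) (g₀ : SL(2, ℤ)) (hg₀ : g₀ ∈ gammaH L M H),
    (∀ γ ∈ gammaH L M H, ∃ k : ℕ, γ * g₀ ^ k ∈ gammaH L M H') →
    (∀ k : ℤ, g₀ ^ k ∈ gammaH L M H' ↔ (m : ℤ) ∣ k) → 0 < m →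
    (∀ ψ : HomS (gammaH L M H') A,
      resS A (Fermat.Agent.ES1.gammaH_mono hle) (coresS A (Fermat.Agent.ES1.gammaH_mono hle) ψ) =
        ∑ i ∈ Finset.range m,
          (((show AddMonoid.End (HomS (gammaH L M H') A) from diamS H' A g₀ hg₀.1 hg₀.2.1) ^ i :
            AddMonoid.End (HomS (gammaH L M H') A)) : _ →+ _) ψ) ∧
    (∀ φ : HomS (gammaH L M H) A,
      coresS A (Fermat.Agent.ES1.gammaH_mono hle) (resS A (Fermat.Agent.ES1.gammaH_mono hle) φ) =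
        m • φ)

/-! ## K5-E1, K5-E2 : kernel and cokernel of `res` into the invariants are Eisenstein -/

/-- **K5-E1** the kernel of `res` is killed by `T_ℓ − (ℓ + 1)`. -/
def StmtE1 : Prop :=
  ∀ (L M ℓ : ℕ) [NeZero L] [NeZero ℓ] [Fact (M ∣ L)] (H' H : Subgroup (ZMod M)ˣ) (hle : H' ≤ H)
    (A : Type) [AddCommGroup A], ℓ.Prime → ¬ ℓ ∣ L →
    ∀ φ : HomS (gammaH L M H) A, resS A (Fermat.Agent.ES1.gammaH_mono hle) φ = 0 →
      tS L M ℓ H A φ = (ℓ + 1) • φ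

/-- **K5-E2** (`Γ/Γ'` cyclic of order `m`, `m A = 0`): `T_ℓ − (ℓ + 1)` maps the `Γ`-invariants
of `Hom(Γ', A)` into the image of `res`.  (Transgression `τ(ψ) = ψ(g₀ᵐ)`:
`τ(T_ℓ ψ) = (ℓ + 1) τ(ψ)`, and an invariant `ψ` with `τ(ψ) = 0` extends to `Γ`.) -/
def StmtE2 : Prop :=
  ∀ (L M ℓ : ℕ) [NeZero L] [NeZero ℓ] [Fact (M ∣ L)] (H' H : Subgroup (ZMod M)ˣ) (hle : H' ≤ H)
    (A : Type) [AddCommGroup A], ℓ.Prime → ¬ ℓ ∣ L →
    ∀ (m : ℕ) (g₀ : SL(2, ℤ)), g₀ ∈ gammaH L M H →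
    (∀ γ ∈ gammaH L M H, ∃ k : ℕ, γ * g₀ ^ k ∈ gammaH L M H') →
    (∀ k : ℤ, g₀ ^ k ∈ gammaH L M H' ↔ (m : ℤ) ∣ k) → 0 < m →
    (∀ a : A, m • a = 0) →
    ∀ ψ : HomS (gammaH L M H') A, IsInv H' H ψ →
      ∃ φ : HomS (gammaH L M H) A,
        resS A (Fermat.Agent.ES1.gammaH_mono hle) φ = tS L M ℓ H' A ψ - (ℓ + 1) • ψ

/-! ## K5-S, K5-L : `H²` vanishes (cocycle extension `S41.PD.stmtCocExt`) -/

/-- the torsion hypothesis: `A` has no 2-torsion, and either no 3-torsion or `Γ` has no element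
of order 3 modulo `±1` (no conjugate of `U = S T` lies in `Γ`). -/
def NoTors (Γ : Subgroup SL(2, ℤ)) (A : Type*) [AddCommGroup A] : Prop :=
  (∀ a : A, 2 • a = 0 → a = 0) ∧
    ((∀ a : A, 3 • a = 0 → a = 0) ∨ ∀ g : SL(2, ℤ), g⁻¹ * S41.PD.U * g ∉ Γ)

/-- **K5-S** `cores : Hom(Γ', A) → Hom(Γ, A)` is surjective. -/
def StmtCoresSurj : Prop :=
  ∀ (L M : ℕ) [NeZero L] [Fact (M ∣ L)] (H' H : Subgroup (ZMod M)ˣ) (hle : H' ≤ H)
    (A : Type) [AddCommGroup A], NoTors (gammaH L M H) A →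
    ∀ φ : HomS (gammaH L M H) A,
      ∃ ψ : HomS (gammaH L M H') A, coresS A (Fermat.Agent.ES1.gammaH_mono hle) ψ = φ

/-- **K5-L** homomorphisms lift along surjections of coefficient groups. -/
def StmtLift : Prop :=
  ∀ (L M : ℕ) [NeZero L] [Fact (M ∣ L)] (H : Subgroup (ZMod M)ˣ)
    (A B : Type) [AddCommGroup A] [AddCommGroup B] (f : A →+ B), Function.Surjective f →
    NoTors (gammaH L M H) B →
    ∀ φ : HomS (gammaH L M H) B, ∃ φ' : HomS (gammaH L M H) A, f.comp φ' = φ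

/-! ## K5-A : algebra (Mathlib only) -/

/-- **K5-A1** a finite-dimensional representation `W` of a finite `p`-group `P` in characteristic
`p` has `dim W ≤ |P| · dim W^P`, with equality iff `W` is free over `𝔽[P]`. -/
def StmtAlgFree : Prop :=
  ∀ (p : ℕ) [Fact p.Prime] (P : Type) [Group P] [Fintype P] (F : Type) [Field F] [CharP F p]
    (W : Type) [AddCommGroup W] [Module F W] [Module.Finite F W] (ρ : P →* (W →ₗ[F] W)),
    IsPGroup p P →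
    Module.finrank F W ≤
      Fintype.card P * Module.finrank F ↥(⨅ g : P, LinearMap.ker (ρ g - 1)) ∧
    (Module.finrank F W =
        Fintype.card P * Module.finrank F ↥(⨅ g : P, LinearMap.ker (ρ g - 1)) →
      ∃ (n : ℕ) (b : Fin n → W), Function.Bijective
        (fun c : Fin n × P → F => ∑ x : Fin n × P, c x • ρ x.2 (b x.1)))

/-- **K5-A2** (cyclic step) `δ` of order dividing `m = pᵏ` on a finite-dimensional `W` in
characteristic `p`: if every `δ`-invariant is a norm then `dim W = m · dim W^δ`.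
(`N = (δ − 1)^(m−1)`; the dimensions of `ker (δ−1)^(j+1) / ker (δ−1)^j` decrease.) -/
def StmtAlgCyc : Prop :=
  ∀ (p : ℕ) [Fact p.Prime] (F : Type) [Field F] [CharP F p]
    (W : Type) [AddCommGroup W] [Module F W] [Module.Finite F W]
    (δ : W →ₗ[F] W) (k : ℕ), δ ^ (p ^ k) = 1 →
    (∀ w : W, δ w = w → ∃ v : W, w = ∑ i ∈ Finset.range (p ^ k), (δ ^ i) v) →
    Module.finrank F W = p ^ k * Module.finrank F ↥(LinearMap.ker (δ - 1))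

/-- **K5-A3** (Fitting) for an endomorphism `η` of a finite-dimensional `V`:
`V = etaPart ⊕ ⋃ ker ηⁿ`, `η` is bijective on the first summand. -/
def StmtAlgFitting : Prop :=
  ∀ (F : Type) [Field F] (V : Type) [AddCommGroup V] [Module F V] [Module.Finite F V]
    (η : V →ₗ[F] V),
    (∀ v : V, ∃ w ∈ etaPart η.toAddMonoidHom, ∃ n : ℕ, (η ^ n) (v - w) = 0) ∧
    (∀ w ∈ etaPart η.toAddMonoidHom, η w = 0 → w = 0) ∧
    (∀ w ∈ etaPart η.toAddMonoidHom, ∃ w' ∈ etaPart η.toAddMonoidHom, η w' = w)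

/-- **K5-A4** (lift to `𝒪`) a finitely generated torsion-free module over a discrete valuation
ring `𝒪` with an action of a finite `p`-group whose reduction is free over `𝔽[P]` is free over
`𝒪[P]`. -/
def StmtAlgLift : Prop :=
  ∀ (𝒪 : Type) [CommRing 𝒪] [IsDomain 𝒪] [IsDiscreteValuationRing 𝒪]
    (P : Type) [Group P] [Fintype P]
    (W : Type) [AddCommGroup W] [Module 𝒪 W] [Module.Finite 𝒪 W] [Module.IsTorsionFree 𝒪 W]
    (ρ : P →* (W →ₗ[𝒪] W)) (n : ℕ) (b : Fin n → W),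
    (∀ w : W, ∃ c : Fin n × P → 𝒪,
      w - ∑ x : Fin n × P, c x • ρ x.2 (b x.1) ∈
        (IsLocalRing.maximalIdeal 𝒪) • (⊤ : Submodule 𝒪 W)) →
    (∀ c : Fin n × P → 𝒪,
      ∑ x : Fin n × P, c x • ρ x.2 (b x.1) ∈ (IsLocalRing.maximalIdeal 𝒪) • (⊤ : Submodule 𝒪 W) →
      ∀ x, c x ∈ IsLocalRing.maximalIdeal 𝒪) →
    Function.Bijective (fun c : Fin n × P → 𝒪 => ∑ x : Fin n × P, c x • ρ x.2 (b x.1))

/-! ## K5-G, K5-STEP, K5-FREE : assembly -/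

/-- **K5-G** the diamond character `Γ₀(L) ∩ Γ₀(M) → (ℤ/M)ˣ` is onto (`M ∣ L`): every class is
the class of some `g ∈ Γ₀(L)`; moreover `g` can be taken `≡ 1 mod ℓ` for a given `ℓ` prime to
`L`. -/
def StmtGen : Prop :=
  ∀ (L M ℓ : ℕ) [NeZero L] [NeZero ℓ] [Fact (M ∣ L)], Nat.Coprime ℓ L → ∀ u : (ZMod M)ˣ,
    ∃ (g : SL(2, ℤ)) (_ : g ∈ Gamma0 L) (hgM : g ∈ Gamma0 M),
      diamHom M ⟨g, hgM⟩ = u ∧ g ∈ Gamma ℓ

/-- **K5-STEP** (one cyclic step, `𝔽` of characteristic `p`, `[Γ : Γ'] = pᵏ`, `Γ/Γ'` generated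
by `g₀`): with `W = etaPart (T_ℓ₀ − ℓ₀ − 1)` at both levels,
`res : W(Γ) → W(Γ')` is injective with image the `g₀`-invariants of `W(Γ')`, and every
invariant of `W(Γ')` is a norm `Σ_{i < pᵏ} g₀ⁱ · v` with `v ∈ W(Γ')`.
(From E1, E2, S, RC, C and Fitting.) -/
def StmtStep : Prop :=
  ∀ (p : ℕ) [Fact p.Prime] (L M ℓ₀ : ℕ) [NeZero L] [NeZero ℓ₀] [Fact (M ∣ L)]
    (H' H : Subgroup (ZMod M)ˣ) (hle : H' ≤ H) (F : Type) [Field F] [CharP F p] [Finite F],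
    p ≠ 2 → ℓ₀.Prime → ¬ ℓ₀ ∣ L → NoTors (gammaH L M H) F →
    ∀ (k : ℕ) (g₀ : SL(2, ℤ)) (hg₀ : g₀ ∈ gammaH L M H),
    (∀ γ ∈ gammaH L M H, ∃ j : ℕ, γ * g₀ ^ j ∈ gammaH L M H') →
    (∀ j : ℤ, g₀ ^ j ∈ gammaH L M H' ↔ ((p ^ k : ℕ) : ℤ) ∣ j) →
    (∀ φ ∈ etaPart (etaS L M ℓ₀ H F),
        resS F (Fermat.Agent.ES1.gammaH_mono hle) φ ∈ etaPart (etaS L M ℓ₀ H' F) ∧
        (resS F (Fermat.Agent.ES1.gammaH_mono hle) φ = 0 → φ = 0)) ∧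
    (∀ ψ ∈ etaPart (etaS L M ℓ₀ H' F), diamS H' F g₀ hg₀.1 hg₀.2.1 ψ = ψ →
        (∃ φ ∈ etaPart (etaS L M ℓ₀ H F), resS F (Fermat.Agent.ES1.gammaH_mono hle) φ = ψ) ∧
        ∃ v ∈ etaPart (etaS L M ℓ₀ H' F), ψ = ∑ i ∈ Finset.range (p ^ k),
          (((show AddMonoid.End (HomS (gammaH L M H') F) from diamS H' F g₀ hg₀.1 hg₀.2.1) ^ i :
            AddMonoid.End (HomS (gammaH L M H') F)) : _ →+ _) v)

/-- **K5-FREE** (the goal, in cardinalities; `𝔽` finite of characteristic `p`, `±H/±H'` a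
`p`-group of order `pᵏ`): `#W(Γ') = #W(Γ)^(pᵏ)`, and `res` identifies `W(Γ)` with the
`Γ`-invariants of `W(Γ')`.  With `StmtAlgFree` this says: `W(Γ')` is free over `𝔽[Γ/Γ']` of rank
`dim W(Γ)`. -/
def StmtFree : Prop :=
  ∀ (p : ℕ) [Fact p.Prime] (L M ℓ₀ : ℕ) [NeZero L] [NeZero ℓ₀] [Fact (M ∣ L)]
    (H' H : Subgroup (ZMod M)ˣ) (hle : H' ≤ H) (F : Type) [Field F] [CharP F p] [Finite F],
    p ≠ 2 → ℓ₀.Prime → ¬ ℓ₀ ∣ L → NoTors (gammaH L M H) F →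
    ∀ k : ℕ, ((pmH H').subgroupOf (pmH H)).index = p ^ k →
    Nat.card ↥(etaPart (etaS L M ℓ₀ H' F)) = Nat.card ↥(etaPart (etaS L M ℓ₀ H F)) ^ (p ^ k) ∧
    (∀ φ ∈ etaPart (etaS L M ℓ₀ H F),
        resS F (Fermat.Agent.ES1.gammaH_mono hle) φ ∈ etaPart (etaS L M ℓ₀ H' F) ∧
        (resS F (Fermat.Agent.ES1.gammaH_mono hle) φ = 0 → φ = 0)) ∧
    (∀ ψ ∈ etaPart (etaS L M ℓ₀ H' F), IsInv H' H ψ →
        ∃ φ ∈ etaPart (etaS L M ℓ₀ H F), resS F (Fermat.Agent.ES1.gammaH_mono hle) φ = ψ)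

end Fermat.Agent.RT.K5
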