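/-
# RT / K5-TOP (helper56)

`stmtTop : StmtTop`: for `H = ⊤` the operator `tS` is `S41.Tc` under `gammaH L M ⊤ = Γ₀(L)`
(`S41.stmtC2`: `coresD ∘ res = Tc`; the transfer is transported along the equality of subgroups).
-/
import Fermat.Agent.RT.K5.Plan
import Fermat.Agent.S41.AlphaTAlpha

set_option autoImplicit false

noncomputable section

namespace Fermat.Agent.RT.K5

open CongruenceSubgroup Matrix
open scoped MatrixGroups
open Fermat.Agent.ES1 (gammaH diamHom pmH)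

/-- the transfer does not see the name of a subgroup of `SL(2, ℤ)` -/
theorem k5top_aux {A : Type*} [AddCommGroup A] (Γ₁ Γ₂ Δ₁ Δ₂ : Subgroup SL(2, ℤ))
    (h₁ : Γ₁ = Δ₁) (h₂ : Γ₂ = Δ₂)
    (f : Γ₁ →* Γ₂) (g : Δ₁ →* Δ₂) (hf : Function.Injective f) (hg : Function.Injective g)
    [f.range.FiniteIndex] [g.range.FiniteIndex]
    (e₁ : Γ₁ ≃* Δ₁) (he₁ : ∀ γ, ((e₁ γ : Δ₁) : SL(2, ℤ)) = γ)
    (e₂ : Γ₂ ≃* Δ₂) (he₂ : ∀ γ, ((e₂ γ : Δ₂) : SL(2, ℤ)) = γ)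
    (hfg : ∀ γ : Γ₁, ((f γ : Γ₂) : SL(2, ℤ)) = ((g (e₁ γ) : Δ₂) : SL(2, ℤ)))
    (ψ : Additive Δ₁ →+ A) :
    S41.transferAlong A f hf (ψ.comp (MonoidHom.toAdditive e₁.toMonoidHom)) =
      (S41.transferAlong A g hg ψ).comp (MonoidHom.toAdditive e₂.toMonoidHom) := by
  subst h₁
  subst h₂
  obtain rfl : e₁ = MulEquiv.refl _ := by
    apply MulEquiv.ext
    intro γ
    exact Subtype.ext (he₁ γ)
  obtain rfl : e₂ = MulEquiv.refl _ := by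
    apply MulEquiv.ext
    intro γ
    exact Subtype.ext (he₂ γ)
  obtain rfl : f = g := by
    apply MonoidHom.ext
    intro γ
    exact Subtype.ext (hfg γ)
  rfl

/-- **K5-TOP.** -/
theorem stmtTop : StmtTop := by
  intro L M ℓ _ _ hML _ hℓ A _ e he φ
  have hML' : M ∣ L * ℓ := (hML.out).trans (dvd_mul_right L ℓ)
  have h₁ : gammaH (L * ℓ) M ⊤ = Gamma0 (L * ℓ) := Fermat.Agent.ES1.gammaH_top_of_dvd hML'
  have h₂ : gammaH L M ⊤ = Gamma0 L := Fermat.Agent.ES1.gammaH_top_of_dvd hML.out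
  let e₁ : gammaH (L * ℓ) M ⊤ ≃* Gamma0 (L * ℓ) := MulEquiv.subgroupCongr h₁
  have he₁ : ∀ γ, ((e₁ γ : Gamma0 (L * ℓ)) : SL(2, ℤ)) = γ := fun γ => rfl
  have key := k5top_aux (A := A) _ _ _ _ h₁ h₂ (conjDH L M ℓ ⊤ hML.out) (S41.conjD L ℓ)
    (conjDH_injective L M ℓ ⊤ hML.out) (S41.conjD_injective L ℓ) e₁ he₁ e he (fun γ => rfl)
    (S41.res L ℓ A φ)
  have hC2 : S41.coresD L ℓ A (S41.res L ℓ A φ) = S41.Tc ℓ hℓ φ := (S41.stmtC2 L ℓ A hℓ φ).2.2.2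
  have hres : resH L M ℓ ⊤ A (φ.comp (MonoidHom.toAdditive e.toMonoidHom)) =
      (S41.res L ℓ A φ).comp (MonoidHom.toAdditive e₁.toMonoidHom) := by
    refine AddMonoidHom.ext fun γ => ?_
    obtain ⟨γ, rfl⟩ : ∃ γ' : gammaH (L * ℓ) M ⊤, Additive.ofMul γ' = γ := ⟨Additive.toMul γ, rfl⟩
    show φ (Additive.ofMul (e (inclH L M ℓ ⊤ γ))) = φ (Additive.ofMul (S41.incl L ℓ (e₁ γ)))
    congr 2
    apply Subtype.ext
    rw [he]
    rfl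
  rw [← hC2]
  show S41.transferAlong A (conjDH L M ℓ ⊤ hML.out) _
    (resH L M ℓ ⊤ A (φ.comp (MonoidHom.toAdditive e.toMonoidHom))) = _
  rw [hres]
  exact key

end Fermat.Agent.RT.K5
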