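import Fermat.Agent.RT.K5.FreeGen
import Fermat.Agent.RT.K5.CommT
import Fermat.Agent.RT.K5.Top
import Fermat.Agent.S41.NewUKer

/-!
# K-machine, piece K5, second interface: `U_q`, the Taylor–Wiles step, coefficients `𝒪`

Sub-captain helper7, `NOTES/RT-K5.md` (§ Plan2).  Rules as in `Plan.lean`: one `Prop` per piece,
a piece is DONE when `theorem stmt… : Stmt…` is landed in its own file.

* `tS L M ℓ H A = cores_δ ∘ res` makes sense for EVERY `ℓ ≥ 1`; for a prime `q ∣ L` it is `U_q`.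
  `tSadj = cores ∘ res_δ` is the adjoint operator.
* K5-UQ1 `StmtCommU`, `StmtCommUAdj` : they commute with `res`, `cores` (change of `H`), diamonds;
* K5-UQ2 `StmtCommTU` : all `tS ℓ` (`ℓ` prime) commute with each other;
* K5-UQ4 `StmtDegComm` : `tS ℓ'` commutes with the four degeneracy maps at a prime `ℓ ≠ ℓ'`, `ℓ ∤ L`;
* K5-TOPU `StmtTopU` : for `H = ⊤` and `q ∣ L`, `tS q` is `S41.heckeU`;
* K5-NAT `StmtNat` : everything is natural in the coefficient group;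
* K5-OF `StmtFitO` : Fitting decomposition over a complete discrete valuation ring.
-/

set_option autoImplicit false

noncomputable section

namespace Fermat.Agent.RT.K5

open CongruenceSubgroup Matrix
open scoped MatrixGroups
open Fermat.Agent.ES1 (gammaH diamHom pmH)

/-- the adjoint Hecke operator `cores ∘ res_δ` -/
def tSadj (L M ℓ : ℕ) [NeZero L] [NeZero ℓ] [Fact (M ∣ L)] (H : Subgroup (ZMod M)ˣ)
    (A : Type*) [AddCommGroup A] : HomS (gammaH L M H) A →+ HomS (gammaH L M H) A :=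
  (coresH L M ℓ H A).comp (resDH L M ℓ H A)

/-- change of coefficients `Hom(Γ, A) → Hom(Γ, B)` -/
def mapS {Γ : Subgroup SL(2, ℤ)} {A B : Type*} [AddCommGroup A] [AddCommGroup B] (f : A →+ B) :
    HomS Γ A →+ HomS Γ B where
  toFun φ := f.comp φ
  map_zero' := by ext; simp
  map_add' φ ψ := by ext; simp

@[simp] theorem mapS_apply {Γ : Subgroup SL(2, ℤ)} {A B : Type*} [AddCommGroup A]
    [AddCommGroup B] (f : A →+ B) (φ : HomS Γ A) (γ : Additive Γ) : mapS f φ γ = f (φ γ) := rfl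

/-! ## K5-UQ : `U_q` as a formal double coset operator -/

/-- **K5-UQ1** `tS ℓ` (any `ℓ ≥ 1`; `U_q` for a prime `q ∣ L`) commutes with `res`, `cores`
(change of `H`) and with the diamonds.  [As `Comm.lean`, with a generator `g ∈ Γ₀(L ℓ)`,
`ℓ ∣ g₀₁` of given diamond: `stmtGen (L ℓ ℓ) M 1` and `conj_δ`.] -/
def StmtCommU : Prop :=
  ∀ (L M ℓ : ℕ) [NeZero L] [NeZero ℓ] [Fact (M ∣ L)] (H' H : Subgroup (ZMod M)ˣ) (hle : H' ≤ H)
    (A : Type) [AddCommGroup A],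
    (∀ φ : HomS (gammaH L M H) A,
      resS A (Fermat.Agent.ES1.gammaH_mono hle) (tS L M ℓ H A φ) =
        tS L M ℓ H' A (resS A (Fermat.Agent.ES1.gammaH_mono hle) φ)) ∧
    (∀ ψ : HomS (gammaH L M H') A,
      coresS A (Fermat.Agent.ES1.gammaH_mono hle) (tS L M ℓ H' A ψ) =
        tS L M ℓ H A (coresS A (Fermat.Agent.ES1.gammaH_mono hle) ψ)) ∧
    (∀ (g : SL(2, ℤ)) (hgL : g ∈ Gamma0 L) (hgM : g ∈ Gamma0 M) (ψ : HomS (gammaH L M H') A),
      diamS H' A g hgL hgM (tS L M ℓ H' A ψ) = tS L M ℓ H' A (diamS H' A g hgL hgM ψ))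

/-- **K5-UQ1′** the same for the adjoint operators. -/
def StmtCommUAdj : Prop :=
  ∀ (L M ℓ : ℕ) [NeZero L] [NeZero ℓ] [Fact (M ∣ L)] (H' H : Subgroup (ZMod M)ˣ) (hle : H' ≤ H)
    (A : Type) [AddCommGroup A],
    (∀ φ : HomS (gammaH L M H) A,
      resS A (Fermat.Agent.ES1.gammaH_mono hle) (tSadj L M ℓ H A φ) =
        tSadj L M ℓ H' A (resS A (Fermat.Agent.ES1.gammaH_mono hle) φ)) ∧
    (∀ ψ : HomS (gammaH L M H') A,
      coresS A (Fermat.Agent.ES1.gammaH_mono hle) (tSadj L M ℓ H' A ψ) =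
        tSadj L M ℓ H A (coresS A (Fermat.Agent.ES1.gammaH_mono hle) ψ)) ∧
    (∀ (g : SL(2, ℤ)) (hgL : g ∈ Gamma0 L) (hgM : g ∈ Gamma0 M) (ψ : HomS (gammaH L M H') A),
      diamS H' A g hgL hgM (tSadj L M ℓ H' A ψ) = tSadj L M ℓ H' A (diamS H' A g hgL hgM ψ))

/-- **K5-UQ2** all `tS ℓ`, `ℓ` prime (dividing the level or not), commute with each other; the
same for the adjoint operators.  [As `CommT.lean`; for `ℓ' ∣ L` the double coset decomposition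
`Γ_H(L) = Γ₁(L ℓ) · (Γ_H(L) ∩ Γ⁰(ℓ'))` is elementary: `d` is a unit modulo `ℓ'`.] -/
def StmtCommTU : Prop :=
  ∀ (L M ℓ ℓ' : ℕ) [NeZero L] [NeZero ℓ] [NeZero ℓ'] [Fact (M ∣ L)] (H : Subgroup (ZMod M)ˣ)
    (A : Type) [AddCommGroup A], ℓ.Prime → ℓ'.Prime →
    ∀ φ : HomS (gammaH L M H) A,
      tS L M ℓ H A (tS L M ℓ' H A φ) = tS L M ℓ' H A (tS L M ℓ H A φ) ∧
      tSadj L M ℓ H A (tSadj L M ℓ' H A φ) = tSadj L M ℓ' H A (tSadj L M ℓ H A φ)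

/-- **K5-UQ4** the four degeneracy maps at a prime `ℓ ∤ L` commute with `tS ℓ'` for every prime
`ℓ' ≠ ℓ` (in particular with `U_q'`, `q' ∣ L`).  [Base change in the four squares over
`(incl_ℓ | conj_δ_ℓ) × conj_δ_ℓ'`, `(incl_ℓ | conj_δ_ℓ) × incl_ℓ'`, as `CommT.lean`.] -/
def StmtDegComm : Prop :=
  ∀ (L M ℓ ℓ' : ℕ) [NeZero L] [NeZero ℓ] [NeZero ℓ'] [hML : Fact (M ∣ L)]
    (H : Subgroup (ZMod M)ˣ) (A : Type) [AddCommGroup A], ℓ.Prime → ℓ'.Prime → ℓ ≠ ℓ' → ¬ ℓ ∣ L →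
    haveI : Fact (M ∣ L * ℓ) := ⟨hML.out.trans (dvd_mul_right L ℓ)⟩
    (∀ φ : HomS (gammaH L M H) A,
      resH L M ℓ H A (tS L M ℓ' H A φ) = tS (L * ℓ) M ℓ' H A (resH L M ℓ H A φ)) ∧
    (∀ φ : HomS (gammaH L M H) A,
      resDH L M ℓ H A (tS L M ℓ' H A φ) = tS (L * ℓ) M ℓ' H A (resDH L M ℓ H A φ)) ∧
    (∀ ψ : HomS (gammaH (L * ℓ) M H) A,
      coresH L M ℓ H A (tS (L * ℓ) M ℓ' H A ψ) = tS L M ℓ' H A (coresH L M ℓ H A ψ)) ∧
    (∀ ψ : HomS (gammaH (L * ℓ) M H) A,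
      coresDH L M ℓ H A (tS (L * ℓ) M ℓ' H A ψ) = tS L M ℓ' H A (coresDH L M ℓ H A ψ))

/-- **K5-TOPU** for `H = ⊤` and `q ∣ L` the operator `tS q` is `S41.heckeU` (coset
representatives `[[1, x], [0, 1]]`, `x` modulo `q`, of `Γ₀(L) ∩ Γ⁰(q)` in `Γ₀(L)`). -/
def StmtTopU : Prop :=
  ∀ (L M q : ℕ) [NeZero L] [NeZero q] [Fact (M ∣ L)] (hqL : q ∣ L)
    (A : Type) [AddCommGroup A]
    (e : gammaH L M (⊤ : Subgroup (ZMod M)ˣ) ≃* Gamma0 L),
    (∀ γ, ((e γ : Gamma0 L) : SL(2, ℤ)) = γ) →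
    ∀ φ : S41.HomG L A,
      tS L M q ⊤ A (φ.comp (MonoidHom.toAdditive e.toMonoidHom)) =
        (S41.heckeU hqL φ).comp (MonoidHom.toAdditive e.toMonoidHom)

/-! ## K5-NAT : naturality in the coefficients -/

/-- **K5-NAT** `res`, `cores`, diamonds, `tS`, `tSadj` commute with a change of coefficients. -/
def StmtNat : Prop :=
  ∀ (L M : ℕ) [NeZero L] [Fact (M ∣ L)] (A B : Type) [AddCommGroup A] [AddCommGroup B]
    (f : A →+ B),
    (∀ (H' H : Subgroup (ZMod M)ˣ) (hle : H' ≤ H) (φ : HomS (gammaH L M H) A),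
      mapS f (resS A (Fermat.Agent.ES1.gammaH_mono hle) φ) =
        resS B (Fermat.Agent.ES1.gammaH_mono hle) (mapS f φ)) ∧
    (∀ (H' H : Subgroup (ZMod M)ˣ) (hle : H' ≤ H) (ψ : HomS (gammaH L M H') A),
      mapS f (coresS A (Fermat.Agent.ES1.gammaH_mono hle) ψ) =
        coresS B (Fermat.Agent.ES1.gammaH_mono hle) (mapS f ψ)) ∧
    (∀ (H : Subgroup (ZMod M)ˣ) (g : SL(2, ℤ)) (hgL : g ∈ Gamma0 L) (hgM : g ∈ Gamma0 M)
      (ψ : HomS (gammaH L M H) A),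
      mapS f (diamS H A g hgL hgM ψ) = diamS H B g hgL hgM (mapS f ψ)) ∧
    (∀ (ℓ : ℕ) [NeZero ℓ] (H : Subgroup (ZMod M)ˣ) (φ : HomS (gammaH L M H) A),
      mapS f (tS L M ℓ H A φ) = tS L M ℓ H B (mapS f φ) ∧
      mapS f (tSadj L M ℓ H A φ) = tSadj L M ℓ H B (mapS f φ))

/-! ## K5-OF : Fitting over a complete discrete valuation ring (Mathlib only) -/

/-- **K5-OF** `𝒪` a complete discrete valuation ring with finite residue field, `V` a finite free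
`𝒪`-module, `θ ∈ End_𝒪(V)`.  Then `etaPart θ = ⋂ θⁿ V` is the image of an idempotent `e` which
commutes with everything that commutes with `θ`; `θ` is bijective on it; and it maps ONTO the
`θ'`-bijective part of every finite quotient `(V', θ')` of `(V, θ)`.
[`e = lim θ^(m pⁿ)`: in a finite commutative ring some power `x^m` is idempotent, and if `y` is
idempotent modulo `I ∋ p` then `y^(pⁿ)` is idempotent modulo `I^(n+1)`.] -/
def StmtFitO : Prop :=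
  ∀ (𝒪 : Type) [CommRing 𝒪] [IsDomain 𝒪] [IsDiscreteValuationRing 𝒪]
    [IsAdicComplete (IsLocalRing.maximalIdeal 𝒪) 𝒪] [Finite (IsLocalRing.ResidueField 𝒪)]
    (V : Type) [AddCommGroup V] [Module 𝒪 V] [Module.Finite 𝒪 V] [Module.Free 𝒪 V]
    (θ : V →ₗ[𝒪] V),
    (∃ e : V →ₗ[𝒪] V, e ∘ₗ e = e ∧ (∀ v, e v ∈ etaPart θ.toAddMonoidHom) ∧
      (∀ v ∈ etaPart θ.toAddMonoidHom, e v = v) ∧
      ∀ t : V →ₗ[𝒪] V, t ∘ₗ θ = θ ∘ₗ t → t ∘ₗ e = e ∘ₗ t) ∧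
    (∀ w ∈ etaPart θ.toAddMonoidHom, θ w = 0 → w = 0) ∧
    (∀ w ∈ etaPart θ.toAddMonoidHom, ∃ w' ∈ etaPart θ.toAddMonoidHom, θ w' = w) ∧
    (∀ (V' : Type) [AddCommGroup V'] [Module 𝒪 V'] [Finite V'] (r : V →ₗ[𝒪] V')
      (θ' : V' →ₗ[𝒪] V'), Function.Surjective r → r ∘ₗ θ = θ' ∘ₗ r →
      ∀ w' ∈ etaPart θ'.toAddMonoidHom, ∃ w ∈ etaPart θ.toAddMonoidHom, r w = w')

end Fermat.Agent.RT.K5
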