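import Fermat.Agent.RT.K5.AlgFitting

/-!
# RT-K5, piece STEP (abstract part)

Fitting decomposition for an additive endomorphism of a finite `p`-torsion group, and the
abstract form of the cyclic step: from the formal properties of `res`, `cores`, `η`
(`h1`–`h6` below) to `res : W ≅ (W')^δ` and "every invariant of `W'` is a norm".
-/

set_option autoImplicit false
set_option linter.style.haveILetI false
set_option linter.unusedSectionVars false
set_option linter.unusedVariables false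

noncomputable section

namespace Fermat.Agent.RT.K5

section etaPart

variable {V V' : Type*} [AddCommGroup V] [AddCommGroup V']

/-- `ηⁿ` as an additive map -/
def k5s_pow (η : V →+ V) (n : ℕ) : V →+ V :=
  (((show AddMonoid.End V from η) ^ n : AddMonoid.End V) : V →+ V)

theorem k5s_pow_zero (η : V →+ V) (x : V) : k5s_pow η 0 x = x := rfl

theorem k5s_pow_succ (η : V →+ V) (n : ℕ) (x : V) : k5s_pow η (n + 1) x = k5s_pow η n (η x) := by
  unfold k5s_pow
  rw [pow_succ]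
  rfl

theorem k5s_pow_succ' (η : V →+ V) (n : ℕ) (x : V) :
    k5s_pow η (n + 1) x = η (k5s_pow η n x) := by
  unfold k5s_pow
  rw [pow_succ']
  rfl

theorem k5s_mem_etaPart (η : V →+ V) (w : V) :
    w ∈ etaPart η ↔ ∀ n : ℕ, ∃ u : V, k5s_pow η n u = w := by
  unfold etaPart
  rw [AddSubgroup.mem_iInf]
  rfl

theorem k5s_etaPart_stable (η : V →+ V) {w : V} (hw : w ∈ etaPart η) : η w ∈ etaPart η := by
  rw [k5s_mem_etaPart] at hw ⊢
  intro n
  obtain ⟨u, hu⟩ := hw n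
  exact ⟨η u, by rw [← k5s_pow_succ, k5s_pow_succ', hu]⟩

theorem k5s_pow_mem_etaPart (η : V →+ V) {w : V} (hw : w ∈ etaPart η) (n : ℕ) :
    k5s_pow η n w ∈ etaPart η := by
  induction n with
  | zero => exact hw
  | succ n ih => rw [k5s_pow_succ']; exact k5s_etaPart_stable η ih

/-- an intertwiner maps `etaPart` to `etaPart` -/
theorem k5s_intertwine_pow (η : V →+ V) (η' : V' →+ V') (f : V →+ V')
    (h : ∀ x, f (η x) = η' (f x)) (n : ℕ) (x : V) : f (k5s_pow η n x) = k5s_pow η' n (f x) := by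
  induction n generalizing x with
  | zero => rfl
  | succ n ih => rw [k5s_pow_succ, ih, h, ← k5s_pow_succ]

theorem k5s_intertwine_mem (η : V →+ V) (η' : V' →+ V') (f : V →+ V')
    (h : ∀ x, f (η x) = η' (f x)) {w : V} (hw : w ∈ etaPart η) : f w ∈ etaPart η' := by
  rw [k5s_mem_etaPart] at hw ⊢
  intro n
  obtain ⟨u, hu⟩ := hw n
  exact ⟨f u, by rw [← k5s_intertwine_pow η η' f h, hu]⟩

theorem k5s_pow_injOn (η : V →+ V) (hinj : ∀ w ∈ etaPart η, η w = 0 → w = 0) (n : ℕ)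
    {w : V} (hw : w ∈ etaPart η) (h0 : k5s_pow η n w = 0) : w = 0 := by
  induction n generalizing w with
  | zero => exact h0
  | succ n ih =>
    rw [k5s_pow_succ] at h0
    exact hinj w hw (ih (k5s_etaPart_stable η hw) h0)

end etaPart

/-- **Fitting** for an additive endomorphism of a finite `p`-torsion group. -/
theorem k5s_fitting (p : ℕ) [Fact p.Prime] {V : Type} [AddCommGroup V] [Finite V]
    (hp : ∀ v : V, p • v = 0) (η : V →+ V) :
    (∀ v : V, ∃ w ∈ etaPart η, ∃ n : ℕ, k5s_pow η n (v - w) = 0) ∧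
    (∀ w ∈ etaPart η, η w = 0 → w = 0) ∧
    (∀ w ∈ etaPart η, ∃ w' ∈ etaPart η, η w' = w) := by
  letI inst1 : Module (ZMod p) V := AddCommGroup.zmodModule hp
  haveI inst2 : Module.Finite (ZMod p) V := Module.Finite.of_finite
  have key := stmtAlgFitting
  unfold StmtAlgFitting at key
  obtain ⟨h1, h2, h3⟩ := @key (ZMod p) _ V _ inst1 inst2 (η.toZModLinearMap p)
  refine ⟨?_, h2, h3⟩
  intro v
  obtain ⟨w, hw, n, hn⟩ := h1 v
  refine ⟨w, hw, n, ?_⟩
  rw [← hn]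
  exact k5a3_pow_apply (η.toZModLinearMap p) n (v - w)

/-- **The cyclic step, abstractly.** -/
theorem k5s_step_abs (p : ℕ) [Fact p.Prime] {V V' : Type} [AddCommGroup V] [AddCommGroup V']
    [Finite V] [Finite V'] (hpV : ∀ v : V, p • v = 0) (hpV' : ∀ v : V', p • v = 0)
    (η : V →+ V) (η' : V' →+ V') (res : V →+ V') (cores : V' →+ V) (δ Nm : V' →+ V')
    (h1 : ∀ φ, res (η φ) = η' (res φ))
    (h2 : ∀ ψ, cores (η' ψ) = η (cores ψ))
    (h3 : ∀ φ, res φ = 0 → η φ = 0)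
    (h4 : ∀ ψ, δ ψ = ψ → ∃ φ, res φ = η' ψ)
    (h5 : Function.Surjective cores)
    (h6 : ∀ ψ, res (cores ψ) = Nm ψ) :
    (∀ φ ∈ etaPart η, res φ ∈ etaPart η' ∧ (res φ = 0 → φ = 0)) ∧
    (∀ ψ ∈ etaPart η', δ ψ = ψ →
      (∃ φ ∈ etaPart η, res φ = ψ) ∧ ∃ v ∈ etaPart η', ψ = Nm v) := by
  obtain ⟨f1, f2, f3⟩ := k5s_fitting p hpV η
  obtain ⟨f1', f2', f3'⟩ := k5s_fitting p hpV' η'
  have hb1 : ∀ ψ ∈ etaPart η', δ ψ = ψ → ∃ φ ∈ etaPart η, res φ = ψ := by
    intro ψ hψ hδ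
    obtain ⟨φ₀, hφ₀⟩ := h4 ψ hδ
    obtain ⟨w, hw, n, hn⟩ := f1 φ₀
    have hresw : res w ∈ etaPart η' := k5s_intertwine_mem η η' res h1 hw
    have hηψ : η' ψ ∈ etaPart η' := k5s_etaPart_stable η' hψ
    have hdiff : η' ψ - res w ∈ etaPart η' := (etaPart η').sub_mem hηψ hresw
    have hkill : k5s_pow η' n (η' ψ - res w) = 0 := by
      rw [← hφ₀, ← map_sub, ← k5s_intertwine_pow η η' res h1, hn, map_zero]
    have h0 := k5s_pow_injOn η' f2' n hdiff hkill
    obtain ⟨w', hw', hηw'⟩ := f3 w hw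
    refine ⟨w', hw', ?_⟩
    have hresw' : res w' ∈ etaPart η' := k5s_intertwine_mem η η' res h1 hw'
    have h7 : η' (res w' - ψ) = 0 := by
      rw [map_sub, ← h1, hηw']
      rw [sub_eq_zero] at h0 ⊢
      exact h0.symm
    have h8 := f2' _ ((etaPart η').sub_mem hresw' hψ) h7
    exact sub_eq_zero.mp h8
  refine ⟨fun φ hφ => ⟨k5s_intertwine_mem η η' res h1 hφ, fun h0 => f2 φ hφ (h3 φ h0)⟩, ?_⟩
  intro ψ hψ hδ
  obtain ⟨φ, hφ, hφψ⟩ := hb1 ψ hψ hδ
  refine ⟨⟨φ, hφ, hφψ⟩, ?_⟩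
  obtain ⟨v₀, hv₀⟩ := h5 φ
  obtain ⟨v, hv, n, hn⟩ := f1' v₀
  refine ⟨v, hv, ?_⟩
  have hcv : cores v ∈ etaPart η := k5s_intertwine_mem η' η cores h2 hv
  have hdiff : φ - cores v ∈ etaPart η := (etaPart η).sub_mem hφ hcv
  have hkill : k5s_pow η n (φ - cores v) = 0 := by
    rw [← hv₀, ← map_sub, ← k5s_intertwine_pow η' η cores h2, hn, map_zero]
  have h0 := k5s_pow_injOn η f2 n hdiff hkill
  rw [← hφψ, sub_eq_zero.mp h0, h6]

end Fermat.Agent.RT.K5
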