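/-
K-machine, piece K5-OF (helper9): `stmtFitO : StmtFitO`, the Fitting decomposition of an
endomorphism of a finite free module over a complete discrete valuation ring with finite
residue field.  The mathematics is in `FitOAbs.lean` (`k5of_final`); this file translates it to
the interface of `Plan2.lean` (`etaPart`, `∘ₗ`).
-/
import Fermat.Agent.RT.K5.Plan2
import Fermat.Agent.RT.K5.StepAbs
import Fermat.Agent.RT.K5.FitOAbs

set_option autoImplicit false
set_option linter.style.haveILetI false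

noncomputable section

namespace Fermat.Agent.RT.K5

theorem k5of_pow_apply {R : Type*} [CommRing R] {V : Type*} [AddCommGroup V] [Module R V]
    (θ : V →ₗ[R] V) (n : ℕ) (x : V) : k5s_pow θ.toAddMonoidHom n x = (θ ^ n) x := by
  induction n generalizing x with
  | zero => rfl
  | succ n ih =>
    rw [k5s_pow_succ, ih, pow_succ, Module.End.mul_apply]
    rfl

theorem k5of_mem_etaPart {R : Type*} [CommRing R] {V : Type*} [AddCommGroup V] [Module R V]
    (θ : V →ₗ[R] V) (w : V) :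
    w ∈ etaPart θ.toAddMonoidHom ↔ ∀ n : ℕ, ∃ u : V, (θ ^ n) u = w := by
  rw [k5s_mem_etaPart]
  simp only [k5of_pow_apply]

/-- **K5-OF** -/
theorem stmtFitO : StmtFitO := by
  intro 𝒪 _ _ _ _ _ V _ _ _ _ θ
  haveI : IsPrecomplete (IsLocalRing.maximalIdeal 𝒪) 𝒪 := inferInstance
  obtain ⟨⟨e, he, h1, h2, h3⟩, hinj, hsurj, hlift⟩ := k5of_final (𝒪 := 𝒪) (V := V) θ
  refine ⟨⟨e, he, fun v => (k5of_mem_etaPart θ _).2 (h1 v),
    fun v hv => h2 v ((k5of_mem_etaPart θ v).1 hv), fun t ht => h3 t ht⟩,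
    fun w hw => hinj w ((k5of_mem_etaPart θ w).1 hw), ?_, ?_⟩
  · intro w hw
    obtain ⟨w', hw', h⟩ := hsurj w ((k5of_mem_etaPart θ w).1 hw)
    exact ⟨w', (k5of_mem_etaPart θ w').2 hw', h⟩
  · intro V' _ _ _ r θ' hr hrθ w' hw'
    obtain ⟨w, hw, h⟩ := hlift V' r θ' hr (fun v => LinearMap.congr_fun hrθ v) w'
      ((k5of_mem_etaPart θ' w').1 hw')
    exact ⟨w, (k5of_mem_etaPart θ w).2 hw, h⟩

end Fermat.Agent.RT.K5

end
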