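import Fermat.Agent.RT.K5.Plan2

/-!
# K-machine, piece K5-UQ (U2–U4): `U_q` against the degeneracy maps at `q` — interface

`q` prime, `q ∤ L`, `M ∣ L`, `H ≤ (ℤ/M)ˣ` ARBITRARY.  `Γ = Γ_H(L) ⊃ K = Γ_H(L q)`.
* `res = resH L M q H A`, `res_δ = resDH …` : `Hom(Γ, A) → Hom(K, A)`;
  `cores = coresH …`, `cores_δ = coresDH …` : `Hom(K, A) → Hom(Γ, A)`;
* `T = tS L M q H A = cores_δ ∘ res`, `T* = tSadj L M q H A = cores ∘ res_δ` on `Hom(Γ, A)`;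
* `U = tS (L * q) M q H A` on `Hom(K, A)`  (`U_q`, `q ∣ L q`);
* `⟨q⟩ = diamS H A g …` for ANY `g ∈ Γ₀(level) ∩ Γ₀(M)` with `g₀₀ ≡ q mod M` (`IsDiamQ`).

`StmtUQMix` (R1–R5):
  `U (res_δ φ) = q • res φ`,                `U (res φ) = res (T φ) − res_δ (⟨q⟩ φ)`,
  `cores (U ψ) = q • cores_δ ψ`,            `cores_δ (U ψ) = T (cores_δ ψ) − ⟨q⟩ (cores ψ)`,
  `T = T* ∘ ⟨q⟩`.
`StmtUQNew` (R6): `cores ψ = 0`, `cores_δ ψ = 0` ⇒ `U (U ψ) = ⟨q⟩ ψ`.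
`StmtUQTop`: the same for `H = ⊤` (level `Γ₀`), where all diamonds are trivial:
  `U (res φ) = res (T φ) − res_δ φ`, `cores_δ (U ψ) = T (cores_δ ψ) − cores ψ`, `T = T*`,
  `U² = 1` on `ker cores ∩ ker cores_δ`.
`StmtUQOld`: `tr ∘ i = [[q + 1, T*], [T, q + 1]]`.

Proofs: `UQMackey.lean` (abstract Mackey formula with two double cosets), `UQFlip.lean`
(the Atkin–Lehner conjugation `ν`), `UQMix.lean`.  Owner helper88.
-/

set_option autoImplicit false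

noncomputable section

namespace Fermat.Agent.RT.K5

open CongruenceSubgroup Matrix
open scoped MatrixGroups
open Fermat.Agent.ES1 (gammaH diamHom pmH)

/-- `g ∈ Γ₀(M)` has diamond `q`: `g₀₀ ≡ q mod M` -/
def IsDiamQ (M q : ℕ) (g : SL(2, ℤ)) (hgM : g ∈ Gamma0 M) : Prop :=
  ((diamHom M ⟨g, hgM⟩ : (ZMod M)ˣ) : ZMod M) = (q : ZMod M)

/-- **K5-UQ (R1–R5)** `U_q` and the four degeneracy maps at `q`. -/
def StmtUQMix : Prop :=
  ∀ (L M q : ℕ) [NeZero L] [NeZero q] [hML : Fact (M ∣ L)] (H : Subgroup (ZMod M)ˣ)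
    (A : Type) [AddCommGroup A], q.Prime → ¬ q ∣ L →
    haveI : Fact (M ∣ L * q) := ⟨hML.out.trans (dvd_mul_right L q)⟩
    ∀ (g : SL(2, ℤ)) (hgL : g ∈ Gamma0 L) (hgM : g ∈ Gamma0 M), IsDiamQ M q g hgM →
    (∀ φ : HomS (gammaH L M H) A,
      tS (L * q) M q H A (resDH L M q H A φ) = q • resH L M q H A φ) ∧
    (∀ φ : HomS (gammaH L M H) A,
      tS (L * q) M q H A (resH L M q H A φ) =
        resH L M q H A (tS L M q H A φ) - resDH L M q H A (diamS H A g hgL hgM φ)) ∧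
    (∀ ψ : HomS (gammaH (L * q) M H) A,
      coresH L M q H A (tS (L * q) M q H A ψ) = q • coresDH L M q H A ψ) ∧
    (∀ ψ : HomS (gammaH (L * q) M H) A,
      coresDH L M q H A (tS (L * q) M q H A ψ) =
        tS L M q H A (coresDH L M q H A ψ) - diamS H A g hgL hgM (coresH L M q H A ψ)) ∧
    (∀ φ : HomS (gammaH L M H) A,
      tS L M q H A φ = tSadj L M q H A (diamS H A g hgL hgM φ))

/-- **K5-UQ (R6)** `U_q² = ⟨q⟩` on the `q`-new part `ker cores ∩ ker cores_δ`. -/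
def StmtUQNew : Prop :=
  ∀ (L M q : ℕ) [NeZero L] [NeZero q] [hML : Fact (M ∣ L)] (H : Subgroup (ZMod M)ˣ)
    (A : Type) [AddCommGroup A], q.Prime → ¬ q ∣ L →
    haveI : Fact (M ∣ L * q) := ⟨hML.out.trans (dvd_mul_right L q)⟩
    ∀ (g : SL(2, ℤ)) (hgL : g ∈ Gamma0 (L * q)) (hgM : g ∈ Gamma0 M), IsDiamQ M q g hgM →
    ∀ ψ : HomS (gammaH (L * q) M H) A,
      coresH L M q H A ψ = 0 → coresDH L M q H A ψ = 0 →
      tS (L * q) M q H A (tS (L * q) M q H A ψ) = diamS H A g hgL hgM ψ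

/-- **K5-UQ, `tr ∘ i`** `= [[q + 1, T*], [T, q + 1]]` (from K5-IDX). -/
def StmtUQOld : Prop :=
  ∀ (L M q : ℕ) [NeZero L] [NeZero q] [Fact (M ∣ L)] (H : Subgroup (ZMod M)ˣ)
    (A : Type) [AddCommGroup A], q.Prime → ¬ q ∣ L →
    ∀ φ : HomS (gammaH L M H) A,
      coresH L M q H A (resH L M q H A φ) = (q + 1) • φ ∧
      coresDH L M q H A (resDH L M q H A φ) = (q + 1) • φ ∧
      coresDH L M q H A (resH L M q H A φ) = tS L M q H A φ ∧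
      coresH L M q H A (resDH L M q H A φ) = tSadj L M q H A φ

/-- **K5-UQ for `H = ⊤`** (levels `Γ₀(L) ⊃ Γ₀(L q)`): no diamonds. -/
def StmtUQTop : Prop :=
  ∀ (L M q : ℕ) [NeZero L] [NeZero q] [hML : Fact (M ∣ L)]
    (A : Type) [AddCommGroup A], q.Prime → ¬ q ∣ L →
    haveI : Fact (M ∣ L * q) := ⟨hML.out.trans (dvd_mul_right L q)⟩
    (∀ φ : HomS (gammaH L M (⊤ : Subgroup (ZMod M)ˣ)) A,
      tS (L * q) M q ⊤ A (resDH L M q ⊤ A φ) = q • resH L M q ⊤ A φ) ∧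
    (∀ φ : HomS (gammaH L M (⊤ : Subgroup (ZMod M)ˣ)) A,
      tS (L * q) M q ⊤ A (resH L M q ⊤ A φ) =
        resH L M q ⊤ A (tS L M q ⊤ A φ) - resDH L M q ⊤ A φ) ∧
    (∀ ψ : HomS (gammaH (L * q) M (⊤ : Subgroup (ZMod M)ˣ)) A,
      coresH L M q ⊤ A (tS (L * q) M q ⊤ A ψ) = q • coresDH L M q ⊤ A ψ) ∧
    (∀ ψ : HomS (gammaH (L * q) M (⊤ : Subgroup (ZMod M)ˣ)) A,
      coresDH L M q ⊤ A (tS (L * q) M q ⊤ A ψ) =
        tS L M q ⊤ A (coresDH L M q ⊤ A ψ) - coresH L M q ⊤ A ψ) ∧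
    (∀ φ : HomS (gammaH L M (⊤ : Subgroup (ZMod M)ˣ)) A,
      tS L M q ⊤ A φ = tSadj L M q ⊤ A φ) ∧
    (∀ ψ : HomS (gammaH (L * q) M (⊤ : Subgroup (ZMod M)ˣ)) A,
      coresH L M q ⊤ A ψ = 0 → coresDH L M q ⊤ A ψ = 0 →
      tS (L * q) M q ⊤ A (tS (L * q) M q ⊤ A ψ) = ψ)

end Fermat.Agent.RT.K5
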