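import Fermat.Agent.RT.K5.Plan4
import Fermat.Agent.RT.K5.Act
import Fermat.Agent.RT.K5.UQPlan

/-!
# K-machine, piece K5, FINAL interface: what K5 delivers

`𝒪` a discrete valuation ring with finite residue field of characteristic `p ≠ 2`, `𝔪` its
maximal ideal, `A_n = 𝒪 ⧸ 𝔪 ^ n`; `𝔲 : NatFam 𝒪 L M` a Hecke operator (natural in the
coefficients; `NatFam.hecke ℓ` is `T_ℓ` resp. `U_ℓ`), `Θ = 𝔲 ∘ (T_ℓ₀ − ℓ₀ − 1)`,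
`X_n(K) = etaPart (thetaN 𝔲 ℓ₀ A_n K) ⊆ Hom(Γ_K(L), A_n)`; `H' ≤ H`, `[±H : ±H'] = p ^ k`.

* `StmtFreeF`   : level `n = 1`: `X₁(H')` is spanned by the `diamU u (b i)`, `u ∈ ±H`, `i < r`,
                  where `#X₁(H) = #F ^ r`  (hence free over `F[±H/±H']` by `k5g_main`);
* `StmtFreeFin` : every level `n`: `X_n(H')` is free over `A_n[±H/±H']` with basis `b i` (`i < r`,
                  `r` independent of `n`), and the `cores (b i)` are an `A_n`-basis of `X_n(H)`;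
* `StmtFreeO`   : the same over `𝒪` (complete), compatible with all the reductions;
* `DegFam`, `StmtTWStep` : the Taylor–Wiles step `Γ₀(L) ⊃ Γ₀(L q)`:
                  `(res, res_δ) : X(L)² ≅ ` the `Θ ∘ (U_q² − 1)`-part of level `L q`.
-/

set_option autoImplicit false

noncomputable section

namespace Fermat.Agent.RT.K5

open CongruenceSubgroup Matrix
open scoped MatrixGroups
open Fermat.Agent.ES1 (gammaH diamHom pmH)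

/-- the hypotheses on `𝒪`, the level and the groups -/
structure FreeHyp (p : ℕ) (𝒪 : Type) [CommRing 𝒪] [IsLocalRing 𝒪] (L M ℓ₀ : ℕ)
    (H' H : Subgroup (ZMod M)ˣ) (k : ℕ) : Prop where
  p_ne_two : p ≠ 2
  p_mem : (p : 𝒪) ∈ IsLocalRing.maximalIdeal 𝒪
  prime : ℓ₀.Prime
  not_dvd : ¬ ℓ₀ ∣ L
  le : H' ≤ H
  index : ((pmH H').subgroupOf (pmH H)).index = p ^ k
  noTors : ∀ n : ℕ, NoTors (gammaH L M H) (𝒪 ⧸ IsLocalRing.maximalIdeal 𝒪 ^ n)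

/-- `u` is a system of representatives of `±H` modulo `±H'` -/
def IsTransversal {M : ℕ} (H' H : Subgroup (ZMod M)ˣ) {m : ℕ} (u : Fin m → (ZMod M)ˣ) : Prop :=
  (∀ j, u j ∈ pmH H) ∧ ∀ v ∈ pmH H, ∃! j, (u j)⁻¹ * v ∈ pmH H'

/-- `b` is a basis of the `Θ`-part `X(H')` over `R[±H/±H']` and `cores b` is an `R`-basis of
`X(H)`; `R` a ring acting on the coefficients `A`. -/
def IsFreeBasis {L M : ℕ} [NeZero L] [Fact (M ∣ L)] (H' H : Subgroup (ZMod M)ˣ) (hle : H' ≤ H)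
    (R A : Type) [CommRing R] [AddCommGroup A] [Module R A]
    (θ' : HomS (gammaH L M H') A →+ HomS (gammaH L M H') A)
    (θ : HomS (gammaH L M H) A →+ HomS (gammaH L M H) A)
    {r : ℕ} (b : Fin r → HomS (gammaH L M H') A) : Prop :=
  (∀ i, b i ∈ etaPart θ') ∧
  (∀ (m : ℕ) (u : Fin m → (ZMod M)ˣ), IsTransversal H' H u →
    Function.Injective (fun c : Fin r × Fin m → R =>
      ∑ x : Fin r × Fin m, c x • diamU L M H' A (u x.2) (b x.1)) ∧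
    ∀ ψ ∈ etaPart θ', ∃ c : Fin r × Fin m → R,
      ψ = ∑ x : Fin r × Fin m, c x • diamU L M H' A (u x.2) (b x.1)) ∧
  Function.Injective (fun c : Fin r → R =>
      ∑ i : Fin r, c i • coresS A (Fermat.Agent.ES1.gammaH_mono hle) (b i)) ∧
  ∀ φ ∈ etaPart θ, ∃ c : Fin r → R,
      φ = ∑ i : Fin r, c i • coresS A (Fermat.Agent.ES1.gammaH_mono hle) (b i)

/-- **K5-FREE-F** (level `1`). -/
def StmtFreeF : Prop :=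
  ∀ (p : ℕ) [Fact p.Prime] (𝒪 : Type) [CommRing 𝒪] [IsDomain 𝒪] [IsDiscreteValuationRing 𝒪]
    [Finite (IsLocalRing.ResidueField 𝒪)]
    (L M ℓ₀ : ℕ) [NeZero L] [NeZero ℓ₀] [Fact (M ∣ L)] (H' H : Subgroup (ZMod M)ˣ) (k : ℕ),
    FreeHyp p 𝒪 L M ℓ₀ H' H k → ∀ 𝔲 : NatFam 𝒪 L M,
    ∃ (r : ℕ) (b : Fin r → HomS (gammaH L M H') (𝒪 ⧸ IsLocalRing.maximalIdeal 𝒪 ^ 1)),
      (∀ i, b i ∈ etaPart (thetaN 𝔲 ℓ₀ (𝒪 ⧸ IsLocalRing.maximalIdeal 𝒪 ^ 1) H')) ∧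
      Nat.card (etaPart (thetaN 𝔲 ℓ₀ (𝒪 ⧸ IsLocalRing.maximalIdeal 𝒪 ^ 1) H)) =
        Nat.card (𝒪 ⧸ IsLocalRing.maximalIdeal 𝒪 ^ 1) ^ r ∧
      Nat.card (etaPart (thetaN 𝔲 ℓ₀ (𝒪 ⧸ IsLocalRing.maximalIdeal 𝒪 ^ 1) H')) =
        Nat.card (𝒪 ⧸ IsLocalRing.maximalIdeal 𝒪 ^ 1) ^ (r * p ^ k) ∧
      ∀ ψ ∈ etaPart (thetaN 𝔲 ℓ₀ (𝒪 ⧸ IsLocalRing.maximalIdeal 𝒪 ^ 1) H'),
        ψ ∈ Submodule.span 𝒪 {χ | ∃ i, ∃ u ∈ pmH H,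
          χ = diamU L M H' (𝒪 ⧸ IsLocalRing.maximalIdeal 𝒪 ^ 1) u (b i)}

/-- **K5-FREE-fin** (every level `n`; the rank `r` does not depend on `n`). -/
def StmtFreeFin : Prop :=
  ∀ (p : ℕ) [Fact p.Prime] (𝒪 : Type) [CommRing 𝒪] [IsDomain 𝒪] [IsDiscreteValuationRing 𝒪]
    [Finite (IsLocalRing.ResidueField 𝒪)]
    (L M ℓ₀ : ℕ) [NeZero L] [NeZero ℓ₀] [Fact (M ∣ L)] (H' H : Subgroup (ZMod M)ˣ) (k : ℕ)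
    (hyp : FreeHyp p 𝒪 L M ℓ₀ H' H k) (𝔲 : NatFam 𝒪 L M),
    ∃ r : ℕ, ∀ n : ℕ,
      ∃ b : Fin r → HomS (gammaH L M H') (𝒪 ⧸ IsLocalRing.maximalIdeal 𝒪 ^ n),
        IsFreeBasis H' H hyp.le (𝒪 ⧸ IsLocalRing.maximalIdeal 𝒪 ^ n)
          (𝒪 ⧸ IsLocalRing.maximalIdeal 𝒪 ^ n)
          (thetaN 𝔲 ℓ₀ (𝒪 ⧸ IsLocalRing.maximalIdeal 𝒪 ^ n) H')
          (thetaN 𝔲 ℓ₀ (𝒪 ⧸ IsLocalRing.maximalIdeal 𝒪 ^ n) H) b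

/-- **K5-FREE-O** (`𝒪` complete): a basis over `𝒪[±H/±H']` whose reductions are bases at every
finite level; the reduction of the `Θ`-part is onto the `Θ`-part, with kernel `𝔪ⁿ ·`. -/
def StmtFreeO : Prop :=
  ∀ (p : ℕ) [Fact p.Prime] (𝒪 : Type) [CommRing 𝒪] [IsDomain 𝒪] [IsDiscreteValuationRing 𝒪]
    [IsAdicComplete (IsLocalRing.maximalIdeal 𝒪) 𝒪] [Finite (IsLocalRing.ResidueField 𝒪)]
    (L M ℓ₀ : ℕ) [NeZero L] [NeZero ℓ₀] [Fact (M ∣ L)] (H' H : Subgroup (ZMod M)ˣ) (k : ℕ)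
    (hyp : FreeHyp p 𝒪 L M ℓ₀ H' H k) (𝔲 : NatFam 𝒪 L M),
    ∃ (r : ℕ) (b : Fin r → HomS (gammaH L M H') 𝒪),
      IsFreeBasis H' H hyp.le 𝒪 𝒪 (thetaN 𝔲 ℓ₀ 𝒪 H') (thetaN 𝔲 ℓ₀ 𝒪 H) b ∧
      (∀ n : ℕ, IsFreeBasis H' H hyp.le (𝒪 ⧸ IsLocalRing.maximalIdeal 𝒪 ^ n)
          (𝒪 ⧸ IsLocalRing.maximalIdeal 𝒪 ^ n)
          (thetaN 𝔲 ℓ₀ (𝒪 ⧸ IsLocalRing.maximalIdeal 𝒪 ^ n) H')
          (thetaN 𝔲 ℓ₀ (𝒪 ⧸ IsLocalRing.maximalIdeal 𝒪 ^ n) H)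
          (fun i => mapS (Submodule.mkQ (IsLocalRing.maximalIdeal 𝒪 ^ n)).toAddMonoidHom (b i))) ∧
      (∀ (n : ℕ) (K : Subgroup (ZMod M)ˣ), K = H' ∨ K = H →
        (∀ w ∈ etaPart (thetaN 𝔲 ℓ₀ (𝒪 ⧸ IsLocalRing.maximalIdeal 𝒪 ^ n) K),
          ∃ v ∈ etaPart (thetaN 𝔲 ℓ₀ 𝒪 K),
            mapS (Submodule.mkQ (IsLocalRing.maximalIdeal 𝒪 ^ n)).toAddMonoidHom v = w) ∧
        (∀ v ∈ etaPart (thetaN 𝔲 ℓ₀ 𝒪 K),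
          mapS (Submodule.mkQ (IsLocalRing.maximalIdeal 𝒪 ^ n)).toAddMonoidHom v = 0 →
          ∃ c ∈ IsLocalRing.maximalIdeal 𝒪 ^ n, ∃ v' ∈ etaPart (thetaN 𝔲 ℓ₀ 𝒪 K), v = c • v'))

/-! ## the Taylor–Wiles step -/

/-- a pair of Hecke operators on the levels `L` and `L q`, commuting with the four degeneracy
maps at `q`, with `T_q` (level `L`) and with `U_q` (level `L q`) -/
structure DegFam (𝒪 : Type) [CommRing 𝒪] (L M q : ℕ) [NeZero L] [NeZero q] [Fact (M ∣ L)]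
    [Fact (M ∣ L * q)] where
  /-- the operator at level `L` -/
  lo : NatFam 𝒪 L M
  /-- the operator at level `L q` -/
  hi : NatFam 𝒪 (L * q) M
  res_comm : ∀ (A : Type) [AddCommGroup A] [Module 𝒪 A] (H : Subgroup (ZMod M)ˣ)
    (φ : HomS (gammaH L M H) A),
    resH L M q H A ((lo.fam A).op H φ) = (hi.fam A).op H (resH L M q H A φ)
  resD_comm : ∀ (A : Type) [AddCommGroup A] [Module 𝒪 A] (H : Subgroup (ZMod M)ˣ)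
    (φ : HomS (gammaH L M H) A),
    resDH L M q H A ((lo.fam A).op H φ) = (hi.fam A).op H (resDH L M q H A φ)
  cores_comm : ∀ (A : Type) [AddCommGroup A] [Module 𝒪 A] (H : Subgroup (ZMod M)ˣ)
    (ψ : HomS (gammaH (L * q) M H) A),
    coresH L M q H A ((hi.fam A).op H ψ) = (lo.fam A).op H (coresH L M q H A ψ)
  coresD_comm : ∀ (A : Type) [AddCommGroup A] [Module 𝒪 A] (H : Subgroup (ZMod M)ˣ)
    (ψ : HomS (gammaH (L * q) M H) A),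
    coresDH L M q H A ((hi.fam A).op H ψ) = (lo.fam A).op H (coresDH L M q H A ψ)
  t_comm : ∀ (A : Type) [AddCommGroup A] [Module 𝒪 A] (H : Subgroup (ZMod M)ˣ)
    (φ : HomS (gammaH L M H) A),
    tS L M q H A ((lo.fam A).op H φ) = (lo.fam A).op H (tS L M q H A φ)
  u_comm : ∀ (A : Type) [AddCommGroup A] [Module 𝒪 A] (H : Subgroup (ZMod M)ˣ)
    (ψ : HomS (gammaH (L * q) M H) A),
    tS (L * q) M q H A ((hi.fam A).op H ψ) = (hi.fam A).op H (tS (L * q) M q H A ψ)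

/-- the operator `U_q² − 1` at level `L q` -/
def usqFam (𝒪 : Type) [CommRing 𝒪] (L M q : ℕ) [NeZero L] [NeZero q] [Fact (M ∣ L * q)] :
    NatFam 𝒪 (L * q) M :=
  ((NatFam.hecke 𝒪 (L * q) M q).comp (NatFam.hecke 𝒪 (L * q) M q)).add
    (NatFam.coeff 𝒪 (L * q) M (-1))

/-- **K5-TWSTEP** the Taylor–Wiles step at `H = ⊤` (`Γ₀(L) ⊃ Γ₀(L q)`), `A` finite:
if `(q + 1)² − T_q²` is injective on the `Θ`-part `X(L)` then `(φ₁, φ₂) ↦ res φ₁ + res_δ φ₂` is a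
bijection of `X(L)²` onto the `Θ ∘ (U_q² − 1)`-part of level `L q`, and
`(cores, cores_δ)` is a bijection back. -/
def StmtTWStep : Prop :=
  ∀ (𝒪 : Type) [CommRing 𝒪] (L M q ℓ₀ : ℕ) [NeZero L] [NeZero q] [NeZero ℓ₀] [Fact (M ∣ L)]
    [Fact (M ∣ L * q)] (𝔡 : DegFam 𝒪 L M q) (A : Type) [AddCommGroup A] [Module 𝒪 A] [Finite A],
    q.Prime → ¬ q ∣ L → ℓ₀.Prime → ¬ ℓ₀ ∣ L → ℓ₀ ≠ q →
    (∀ φ ∈ etaPart (thetaN 𝔡.lo ℓ₀ A ⊤),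
      (q + 1) • (q + 1) • φ - tS L M q ⊤ A (tS L M q ⊤ A φ) = 0 → φ = 0) →
    (∀ φ₁ ∈ etaPart (thetaN 𝔡.lo ℓ₀ A ⊤), ∀ φ₂ ∈ etaPart (thetaN 𝔡.lo ℓ₀ A ⊤),
      resH L M q ⊤ A φ₁ + resDH L M q ⊤ A φ₂
          ∈ etaPart (thetaN (𝔡.hi.comp (usqFam 𝒪 L M q)) ℓ₀ A ⊤) ∧
      (resH L M q ⊤ A φ₁ + resDH L M q ⊤ A φ₂ = 0 → φ₁ = 0 ∧ φ₂ = 0)) ∧
    (∀ ψ ∈ etaPart (thetaN (𝔡.hi.comp (usqFam 𝒪 L M q)) ℓ₀ A ⊤),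
      ∃ φ₁ ∈ etaPart (thetaN 𝔡.lo ℓ₀ A ⊤), ∃ φ₂ ∈ etaPart (thetaN 𝔡.lo ℓ₀ A ⊤),
        ψ = resH L M q ⊤ A φ₁ + resDH L M q ⊤ A φ₂) ∧
    Nat.card (etaPart (thetaN (𝔡.hi.comp (usqFam 𝒪 L M q)) ℓ₀ A ⊤))
      = Nat.card (etaPart (thetaN 𝔡.lo ℓ₀ A ⊤)) ^ 2

/-- **K5-DEGFAM** the constructors of `DegFam`: `T_ℓ'` / `U_ℓ'` for every prime `ℓ' ≠ q`
(`stmtDegComm`, `stmtCommTU`), scalars, sums, composites. -/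
def StmtDegFam : Prop :=
  ∀ (𝒪 : Type) [CommRing 𝒪] (L M q : ℕ) [NeZero L] [NeZero q] [Fact (M ∣ L)]
    [Fact (M ∣ L * q)], q.Prime → ¬ q ∣ L →
    (∀ (ℓ' : ℕ) [NeZero ℓ'], ℓ'.Prime → ℓ' ≠ q →
      ∃ 𝔡 : DegFam 𝒪 L M q, 𝔡.lo = NatFam.hecke 𝒪 L M ℓ' ∧ 𝔡.hi = NatFam.hecke 𝒪 (L * q) M ℓ') ∧
    (∀ c : 𝒪, ∃ 𝔡 : DegFam 𝒪 L M q,
      𝔡.lo = NatFam.coeff 𝒪 L M c ∧ 𝔡.hi = NatFam.coeff 𝒪 (L * q) M c) ∧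
    (∀ 𝔡₁ 𝔡₂ : DegFam 𝒪 L M q, ∃ 𝔡 : DegFam 𝒪 L M q,
      𝔡.lo = 𝔡₁.lo.add 𝔡₂.lo ∧ 𝔡.hi = 𝔡₁.hi.add 𝔡₂.hi) ∧
    (∀ 𝔡₁ 𝔡₂ : DegFam 𝒪 L M q, ∃ 𝔡 : DegFam 𝒪 L M q,
      𝔡.lo = 𝔡₁.lo.comp 𝔡₂.lo ∧ 𝔡.hi = 𝔡₁.hi.comp 𝔡₂.hi)

end Fermat.Agent.RT.K5
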