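import Mathlib
import Fermat.Agent.S41.TransferFormula
import Fermat.Agent.S41.NewU

/-!
# RT-K5, piece C (abstract part): transitivity and base change of the transfer

* `k5c_transfer_trans`      : `transfer_{g ∘ f} = transfer_g ∘ transfer_f`;
* `k5c_transfer_basechange` : for a cartesian square with ONE double coset
  (`Γ' ∩ f H = f' K'`, `G = Γ' · f H`): `(transfer_f ψ) ∘ j = transfer_{f'} (ψ ∘ jK)`.
-/

set_option autoImplicit false
set_option linter.style.haveILetI false
set_option linter.unusedSectionVars false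
set_option linter.unusedVariables false

noncomputable section

namespace Fermat.Agent.RT.K5

open Fermat.Agent

section basechange

variable {G H Γ' K' : Type*} [Group G] [Group H] [Group Γ'] [Group K']
  (f : H →* G) (hf : Function.Injective f) [f.range.FiniteIndex]
  (j : Γ' →* G) (f' : K' →* Γ') (hf' : Function.Injective f') [f'.range.FiniteIndex]
  (jK : K' →* H) (A : Type*) [AddCommGroup A]

theorem k5c_reps_bijective (hcomm : ∀ k, f (jK k) = j (f' k))
    (hcart : ∀ x : Γ', j x ∈ f.range → x ∈ f'.range)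
    (hdc : ∀ γ : G, ∃ x : Γ', (j x)⁻¹ * γ ∈ f.range) :
    Function.Bijective fun q : Γ' ⧸ f'.range =>
      (QuotientGroup.mk (j (S41.tRep f' q)) : G ⧸ f.range) := by
  constructor
  · intro q q' h
    simp only [] at h
    rw [QuotientGroup.eq, ← map_inv, ← map_mul] at h
    have h2 := hcart _ h
    have h3 : (QuotientGroup.mk (S41.tRep f' q) : Γ' ⧸ f'.range)
        = QuotientGroup.mk (S41.tRep f' q') := QuotientGroup.eq.mpr h2
    rwa [S41.tRep_mk, S41.tRep_mk] at h3
  · intro y
    obtain ⟨γ, rfl⟩ := QuotientGroup.mk_surjective y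
    obtain ⟨x, hx⟩ := hdc γ
    refine ⟨QuotientGroup.mk x, ?_⟩
    simp only []
    rw [QuotientGroup.eq]
    -- `tRep (mk x) = x * f' k`
    have h1 : (QuotientGroup.mk (S41.tRep f' (QuotientGroup.mk x)) : Γ' ⧸ f'.range)
        = QuotientGroup.mk x := S41.tRep_mk f' _
    have h2 : (S41.tRep f' (QuotientGroup.mk x))⁻¹ * x ∈ f'.range := QuotientGroup.eq.mp h1
    obtain ⟨k, hk⟩ := h2
    have h3 : (j (S41.tRep f' (QuotientGroup.mk x)))⁻¹ * γ
        = f (jK k) * ((j x)⁻¹ * γ) := by
      rw [hcomm, hk, map_mul, map_inv]; group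
    rw [h3]
    exact mul_mem ⟨jK k, rfl⟩ hx

/-- **Base change** (Mackey formula with one double coset). -/
theorem k5c_transfer_basechange (hcomm : ∀ k, f (jK k) = j (f' k))
    (hcart : ∀ x : Γ', j x ∈ f.range → x ∈ f'.range)
    (hdc : ∀ γ : G, ∃ x : Γ', (j x)⁻¹ * γ ∈ f.range) (ψ : Additive H →+ A) :
    (S41.transferAlong A f hf ψ).comp (MonoidHom.toAdditive j)
      = S41.transferAlong A f' hf' (ψ.comp (MonoidHom.toAdditive jK)) := by
  classical
  letI := f'.range.fintypeQuotientOfFiniteIndex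
  refine AddMonoidHom.ext fun x => ?_
  obtain ⟨x, rfl⟩ : ∃ x' : Γ', Additive.ofMul x' = x := ⟨Additive.toMul x, rfl⟩
  show S41.transferAlong A f hf ψ (Additive.ofMul (j x)) = _
  rw [S41.transferAlong_eq_sum f' hf' A,
    S41.transferAlong_eq_sum_of_reps f hf A (fun q : Γ' ⧸ f'.range => j (S41.tRep f' q))
      (k5c_reps_bijective f j f' jK hcomm hcart hdc) (j x) (fun q => x⁻¹ • q)
      (fun q => jK (S41.tCoc f' hf' q x)) ?_ ψ]
  · rfl
  · intro q
    rw [hcomm, S41.f_tCoc, ← map_mul, ← map_mul]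
    congr 1
    group

end basechange

section trans

variable {G H K : Type*} [Group G] [Group H] [Group K]
  (f : K →* H) (hf : Function.Injective f) [f.range.FiniteIndex]
  (g : H →* G) (hg : Function.Injective g) [g.range.FiniteIndex]
  (A : Type*) [AddCommGroup A]

include hg in
theorem k5c_trans_reps_bijective :
    Function.Bijective fun ab : (G ⧸ g.range) × (H ⧸ f.range) =>
      (QuotientGroup.mk (S41.tRep g ab.1 * g (S41.tRep f ab.2)) : G ⧸ (g.comp f).range) := by
  constructor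
  · rintro ⟨a, b⟩ ⟨a', b'⟩ h
    simp only [] at h
    rw [QuotientGroup.eq] at h
    obtain ⟨k, hk⟩ := h
    have hk' : g (f k) = (S41.tRep g a * g (S41.tRep f b))⁻¹ * (S41.tRep g a' * g (S41.tRep f b')) :=
      hk
    -- first components
    have h1 : (S41.tRep g a)⁻¹ * S41.tRep g a' ∈ g.range := by
      refine ⟨S41.tRep f b * f k * (S41.tRep f b')⁻¹, ?_⟩
      rw [map_mul, map_mul, map_inv, hk']; group
    have h2 : (QuotientGroup.mk (S41.tRep g a) : G ⧸ g.range) = QuotientGroup.mk (S41.tRep g a') :=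
      QuotientGroup.eq.mpr h1
    rw [S41.tRep_mk, S41.tRep_mk] at h2
    subst h2
    have h3 : g (f k) = g ((S41.tRep f b)⁻¹ * S41.tRep f b') := by
      rw [hk', map_mul, map_inv]; group
    have h4 := hg h3
    have h5 : (QuotientGroup.mk (S41.tRep f b) : H ⧸ f.range) = QuotientGroup.mk (S41.tRep f b') :=
      QuotientGroup.eq.mpr ⟨k, h4⟩
    rw [S41.tRep_mk, S41.tRep_mk] at h5
    rw [h5]
  · intro y
    obtain ⟨γ, rfl⟩ := QuotientGroup.mk_surjective y
    have h1 : (S41.tRep g (QuotientGroup.mk γ))⁻¹ * γ ∈ g.range :=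
      QuotientGroup.eq.mp (S41.tRep_mk g (QuotientGroup.mk γ))
    obtain ⟨h, hh⟩ := h1
    have h2 : (S41.tRep f (QuotientGroup.mk h))⁻¹ * h ∈ f.range :=
      QuotientGroup.eq.mp (S41.tRep_mk f (QuotientGroup.mk h))
    obtain ⟨k, hk⟩ := h2
    refine ⟨(QuotientGroup.mk γ, QuotientGroup.mk h), ?_⟩
    simp only []
    rw [QuotientGroup.eq]
    refine ⟨k, ?_⟩
    show g (f k) = _
    rw [hk, map_mul, map_inv, hh]; group

/-- **Transitivity of the transfer.** -/
theorem k5c_transfer_trans [(g.comp f).range.FiniteIndex] (ψ : Additive K →+ A) :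
    S41.transferAlong A (g.comp f) (hg.comp hf) ψ
      = S41.transferAlong A g hg (S41.transferAlong A f hf ψ) := by
  classical
  letI := f.range.fintypeQuotientOfFiniteIndex
  letI := g.range.fintypeQuotientOfFiniteIndex
  refine AddMonoidHom.ext fun x => ?_
  obtain ⟨x, rfl⟩ : ∃ x' : G, Additive.ofMul x' = x := ⟨Additive.toMul x, rfl⟩
  rw [S41.transferAlong_eq_sum_of_reps (g.comp f) (hg.comp hf) A
      (fun ab : (G ⧸ g.range) × (H ⧸ f.range) => S41.tRep g ab.1 * g (S41.tRep f ab.2))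
      (k5c_trans_reps_bijective f g hg) x
      (fun ab => (x⁻¹ • ab.1, (S41.tCoc g hg ab.1 x)⁻¹ • ab.2))
      (fun ab => S41.tCoc f hf ab.2 (S41.tCoc g hg ab.1 x)) ?_ ψ]
  · rw [S41.transferAlong_eq_sum g hg A, Fintype.sum_prod_type]
    refine Finset.sum_congr rfl fun a _ => ?_
    rw [S41.transferAlong_eq_sum f hf A]
  · rintro ⟨a, b⟩
    simp only [MonoidHom.comp_apply]
    rw [S41.f_tCoc, map_mul, map_mul, map_inv, S41.f_tCoc]
    group

end trans

end Fermat.Agent.RT.K5

namespace Fermat.Agent.RT.K5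

section more

variable {G H K : Type*} [Group G] [Group H] [Group K]

/-- the range of a composite of finite-index embeddings has finite index -/
theorem k5c_comp_finiteIndex (f : K →* H) [f.range.FiniteIndex]
    (g : H →* G) (hg : Function.Injective g) [g.range.FiniteIndex] :
    (g.comp f).range.FiniteIndex := by
  classical
  letI := f.range.fintypeQuotientOfFiniteIndex
  letI := g.range.fintypeQuotientOfFiniteIndex
  haveI : Finite (G ⧸ (g.comp f).range) :=
    Finite.of_surjective _ (k5c_trans_reps_bijective f g hg).2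
  exact Subgroup.finiteIndex_of_finite_quotient

theorem k5c_transfer_congr {A : Type*} [AddCommGroup A] {f f' : H →* G} (h : f = f')
    (hf : Function.Injective f) (hf' : Function.Injective f') [f.range.FiniteIndex]
    [f'.range.FiniteIndex] (ψ : Additive H →+ A) :
    S41.transferAlong A f hf ψ = S41.transferAlong A f' hf' ψ := by
  subst h
  rfl

/-- inner automorphisms act trivially on `Hom(Γ', A)` -/
theorem k5c_inner {A : Type*} [AddCommGroup A] {Γ' : Subgroup G} (φ : Additive Γ' →+ A)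
    (a b x : G) (hx : a⁻¹ * x * a ∈ Γ') (hx' : b⁻¹ * x * b ∈ Γ') (hab : a⁻¹ * b ∈ Γ') :
    φ (Additive.ofMul ⟨b⁻¹ * x * b, hx'⟩) = φ (Additive.ofMul ⟨a⁻¹ * x * a, hx⟩) := by
  have e : (⟨b⁻¹ * x * b, hx'⟩ : Γ') = (⟨a⁻¹ * b, hab⟩ : Γ')⁻¹ * ⟨a⁻¹ * x * a, hx⟩ * ⟨a⁻¹ * b, hab⟩ := by
    apply Subtype.ext
    show _ = (a⁻¹ * b)⁻¹ * (a⁻¹ * x * a) * (a⁻¹ * b)
    group
  rw [e, ofMul_mul, ofMul_mul, ofMul_inv, map_add, map_add, map_neg]
  abel

end more

end Fermat.Agent.RT.K5
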