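import Fermat.Agent.RT.K5.Idx
import Fermat.Agent.RT.K5.CommAbs
import Fermat.Agent.S41.CharInv

/-!
# RT-K5, piece C: `T_ℓ` commutes with `res`, `cores` (change of `H`) and with the diamonds

`Γ = Γ_H(L) ⊇ Γ' = Γ_{H'}(L)`, `K = Γ_H(L ℓ) ⊇ K' = Γ_{H'}(L ℓ)`.  Both squares
`(K' → K, Γ' → Γ)` over `conj_δ` and over the inclusion are cartesian with one double coset
(`stmtGen`), so the base change formula `k5c_transfer_basechange` applies.
-/

set_option autoImplicit false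
set_option linter.style.haveILetI false
set_option linter.unusedSectionVars false
set_option linter.unusedVariables false

noncomputable section

namespace Fermat.Agent.RT.K5

open CongruenceSubgroup Matrix
open scoped MatrixGroups
open Fermat.Agent.ES1 (gammaH diamHom pmH)

section squares

variable (L M ℓ : ℕ) [NeZero L] [NeZero ℓ] [hML : Fact (M ∣ L)] (H' H : Subgroup (ZMod M)ˣ)
  (hle : H' ≤ H)

/-- `Γ_{H'}(L) → Γ_H(L)` -/
def k5c_j : gammaH L M H' →* gammaH L M H :=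
  Subgroup.inclusion (Fermat.Agent.ES1.gammaH_mono hle)

theorem k5c_j_injective : Function.Injective (k5c_j L M H' H hle) :=
  Subgroup.inclusion_injective _

instance k5c_j_finiteIndex : (k5c_j L M H' H hle).range.FiniteIndex :=
  inclusion_range_finiteIndex L M (Fermat.Agent.ES1.gammaH_mono hle)

theorem k5c_entry_conjDH (z : gammaH (L * ℓ) M H) :
    ((z : SL(2, ℤ)) : Matrix (Fin 2) (Fin 2) ℤ) 0 0
      = (((conjDH L M ℓ H hML.out z : gammaH L M H) : SL(2, ℤ)) :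
          Matrix (Fin 2) (Fin 2) ℤ) 0 0 := by
  rw [conjDH_coe, S41.conjD_coe]
  simp [S41.conjDMat]

/-- every class of `Γ_H(L)` modulo `Γ_{H'}(L)` contains an element of `Γ(ℓ)` -/
theorem k5c_exists (hc : Nat.Coprime ℓ L) (γ : gammaH L M H) :
    ∃ x : gammaH L M H', ∃ g : SL(2, ℤ), g ∈ gammaH L M H ∧ g ∈ Gamma ℓ ∧
      ((x : SL(2, ℤ)))⁻¹ * (γ : SL(2, ℤ)) = g := by
  have hγM : (γ : SL(2, ℤ)) ∈ Gamma0 M := γ.2.2.1
  obtain ⟨g, hgL, hgM, hgd, hgN⟩ := stmtGen L M ℓ hc (diamHom M ⟨γ, hγM⟩)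
  have h1 : (g⁻¹)⁻¹ * (γ : SL(2, ℤ))⁻¹ ∈ gammaH L M H' := by
    refine k5e_inv_mul_mem H' (inv_mem hgL) (inv_mem hgM) (inv_mem γ.2.1) (inv_mem hγM) ?_
    rw [k5e_diam_inv _ hgM, k5e_diam_inv _ hγM, hgd]
  have h2 : (γ : SL(2, ℤ)) * g⁻¹ ∈ gammaH L M H' := by
    have : (γ : SL(2, ℤ)) * g⁻¹ = ((g⁻¹)⁻¹ * (γ : SL(2, ℤ))⁻¹)⁻¹ := by group
    rw [this]; exact inv_mem h1
  refine ⟨⟨_, h2⟩, g, ⟨hgL, hgM, ?_⟩, hgN, by group⟩
  rw [hgd]; exact γ.2.2.2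

/-- the square over `conj_δ` -/
theorem k5c_square_conj (hc : Nat.Coprime ℓ L) :
    (∀ k : gammaH (L * ℓ) M H', conjDH L M ℓ H hML.out
        (Subgroup.inclusion (Fermat.Agent.ES1.gammaH_mono hle) k)
        = k5c_j L M H' H hle (conjDH L M ℓ H' hML.out k)) ∧
    (∀ x : gammaH L M H', k5c_j L M H' H hle x ∈ (conjDH L M ℓ H hML.out).range →
        x ∈ (conjDH L M ℓ H' hML.out).range) ∧
    (∀ γ : gammaH L M H, ∃ x : gammaH L M H',
        (k5c_j L M H' H hle x)⁻¹ * γ ∈ (conjDH L M ℓ H hML.out).range) := by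
  refine ⟨fun k => Subtype.ext rfl, ?_, ?_⟩
  · rintro x ⟨z, hz⟩
    have he : ((conjDH L M ℓ H hML.out z : gammaH L M H) : SL(2, ℤ)) = (x : SL(2, ℤ)) :=
      congrArg (fun y : gammaH L M H => (y : SL(2, ℤ))) hz
    have hentry := k5c_entry_conjDH L M ℓ H z
    rw [he] at hentry
    have hmem : (z : SL(2, ℤ)) ∈ gammaH (L * ℓ) M H' := by
      refine ⟨z.2.1, z.2.2.1, ?_⟩
      rw [k5e_diam_eq_of_entry _ _ z.2.2.1 x.2.2.1 hentry]
      exact x.2.2.2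
    refine ⟨⟨(z : SL(2, ℤ)), hmem⟩, ?_⟩
    apply Subtype.ext
    rw [← he]
    rfl
  · intro γ
    obtain ⟨x, g, hgΓ, hgN, hxg⟩ := k5c_exists L M ℓ H' H hc γ
    obtain ⟨z, hz, hz00⟩ := k5e_exists_conjD_preimage L ℓ ⟨g, hgΓ.1⟩ (k5e_gamma_dvd ℓ hgN)
    have hzL : (z : SL(2, ℤ)) ∈ Gamma0 L := by
      apply S41.mem_Gamma0_of_dvd
      exact (Int.natCast_dvd_natCast.mpr (dvd_mul_right L ℓ)).trans (S41.dvd_of_mem_Gamma0 z.2)
    have hzM : (z : SL(2, ℤ)) ∈ Gamma0 M := k5i_mem_Gamma0M L M hzL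
    have hmem : (z : SL(2, ℤ)) ∈ gammaH (L * ℓ) M H := by
      refine ⟨z.2, hzM, ?_⟩
      rw [k5e_diam_eq_of_entry _ _ hzM hgΓ.2.1 hz00]
      exact hgΓ.2.2
    refine ⟨x, ⟨(z : SL(2, ℤ)), hmem⟩, ?_⟩
    apply Subtype.ext
    rw [conjDH_coe]
    have : (⟨(z : SL(2, ℤ)), hmem.1⟩ : Gamma0 (L * ℓ)) = z := rfl
    rw [this, hz]
    exact hxg.symm

/-- the square over the inclusion -/
theorem k5c_square_incl (hc : Nat.Coprime ℓ L) :
    (∀ k : gammaH (L * ℓ) M H', k5c_j L M H' H hle (inclH L M ℓ H' k)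
        = inclH L M ℓ H (Subgroup.inclusion (Fermat.Agent.ES1.gammaH_mono hle) k)) ∧
    (∀ x : gammaH (L * ℓ) M H, inclH L M ℓ H x ∈ (k5c_j L M H' H hle).range →
        x ∈ (Subgroup.inclusion (Fermat.Agent.ES1.gammaH_mono hle) :
          gammaH (L * ℓ) M H' →* gammaH (L * ℓ) M H).range) ∧
    (∀ γ : gammaH L M H, ∃ x : gammaH (L * ℓ) M H,
        (inclH L M ℓ H x)⁻¹ * γ ∈ (k5c_j L M H' H hle).range) := by
  refine ⟨fun k => Subtype.ext rfl, ?_, ?_⟩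
  · rintro x ⟨y, hy⟩
    have he : (y : SL(2, ℤ)) = (x : SL(2, ℤ)) :=
      congrArg (fun y : gammaH L M H => (y : SL(2, ℤ))) hy
    have hmem : (x : SL(2, ℤ)) ∈ gammaH (L * ℓ) M H' := by
      refine ⟨x.2.1, ?_⟩
      rw [← he]; exact y.2.2
    exact ⟨⟨(x : SL(2, ℤ)), hmem⟩, Subtype.ext rfl⟩
  · intro γ
    obtain ⟨x, g, hgΓ, hgN, hxg⟩ := k5c_exists L M ℓ H' H hc γ
    have hgK : g ∈ gammaH (L * ℓ) M H :=
      ⟨k5i_Gamma_mem_mul L ℓ hc hgΓ.1 hgN, hgΓ.2.1, hgΓ.2.2⟩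
    -- `γ = x g`, so `g⁻¹ γ = g⁻¹ x g ∈ Γ'`
    have hmem : g⁻¹ * (γ : SL(2, ℤ)) ∈ gammaH L M H' := by
      have e : g⁻¹ * (γ : SL(2, ℤ)) = g⁻¹ * (x : SL(2, ℤ)) * g := by
        rw [← hxg]; group
      rw [e]
      exact normalizes_gammaH hgΓ.1 hgΓ.2.1 _ x.2
    exact ⟨⟨g, hgK⟩, ⟨_, hmem⟩, Subtype.ext rfl⟩

end squares

section clauses

variable (L M ℓ : ℕ) [NeZero L] [NeZero ℓ] [hML : Fact (M ∣ L)] (H' H : Subgroup (ZMod M)ˣ)
  (hle : H' ≤ H) (A : Type) [AddCommGroup A]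

/-- clause 1: `res` commutes with `T_ℓ` -/
theorem k5c_res_comm (hc : Nat.Coprime ℓ L) (φ : HomS (gammaH L M H) A) :
    resS A (Fermat.Agent.ES1.gammaH_mono hle) (tS L M ℓ H A φ) =
      tS L M ℓ H' A (resS A (Fermat.Agent.ES1.gammaH_mono hle) φ) := by
  obtain ⟨h1, h2, h3⟩ := k5c_square_conj L M ℓ H' H hle hc
  exact k5c_transfer_basechange (conjDH L M ℓ H hML.out) (conjDH_injective L M ℓ H hML.out)
    (k5c_j L M H' H hle) (conjDH L M ℓ H' hML.out) (conjDH_injective L M ℓ H' hML.out)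
    (Subgroup.inclusion (Fermat.Agent.ES1.gammaH_mono hle)) A h1 h2 h3
    (φ.comp (MonoidHom.toAdditive (inclH L M ℓ H)))

/-- clause 2: `cores` commutes with `T_ℓ` -/
theorem k5c_cores_comm (hc : Nat.Coprime ℓ L) (ψ : HomS (gammaH L M H') A) :
    coresS A (Fermat.Agent.ES1.gammaH_mono hle) (tS L M ℓ H' A ψ) =
      tS L M ℓ H A (coresS A (Fermat.Agent.ES1.gammaH_mono hle) ψ) := by
  haveI : NeZero (L * ℓ) := inferInstance
  haveI : Fact (M ∣ L * ℓ) := ⟨hML.out.trans (dvd_mul_right L ℓ)⟩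
  obtain ⟨h1, h2, h3⟩ := k5c_square_incl L M ℓ H' H hle hc
  let jK : gammaH (L * ℓ) M H' →* gammaH (L * ℓ) M H :=
    Subgroup.inclusion (Fermat.Agent.ES1.gammaH_mono hle)
  have hjK : Function.Injective jK := Subgroup.inclusion_injective _
  haveI : jK.range.FiniteIndex :=
    inclusion_range_finiteIndex (L * ℓ) M (Fermat.Agent.ES1.gammaH_mono hle)
  -- Step A: base change over the inclusion
  have hA : (S41.transferAlong A (k5c_j L M H' H hle) (k5c_j_injective L M H' H hle) ψ).comp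
      (MonoidHom.toAdditive (inclH L M ℓ H))
      = S41.transferAlong A jK hjK (ψ.comp (MonoidHom.toAdditive (inclH L M ℓ H'))) :=
    k5c_transfer_basechange (k5c_j L M H' H hle) (k5c_j_injective L M H' H hle)
      (inclH L M ℓ H) jK hjK (inclH L M ℓ H') A h1 h2 h3 ψ
  haveI : ((conjDH L M ℓ H hML.out).comp jK).range.FiniteIndex :=
    k5c_comp_finiteIndex jK (conjDH L M ℓ H hML.out) (conjDH_injective L M ℓ H hML.out)
  haveI : ((k5c_j L M H' H hle).comp (conjDH L M ℓ H' hML.out)).range.FiniteIndex :=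
    k5c_comp_finiteIndex (conjDH L M ℓ H' hML.out) (k5c_j L M H' H hle)
      (k5c_j_injective L M H' H hle)
  have hB := k5c_transfer_trans jK hjK (conjDH L M ℓ H hML.out)
    (conjDH_injective L M ℓ H hML.out) A (ψ.comp (MonoidHom.toAdditive (inclH L M ℓ H')))
  have hC := k5c_transfer_trans (conjDH L M ℓ H' hML.out) (conjDH_injective L M ℓ H' hML.out)
    (k5c_j L M H' H hle) (k5c_j_injective L M H' H hle) A
    (ψ.comp (MonoidHom.toAdditive (inclH L M ℓ H')))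
  have hD : (k5c_j L M H' H hle).comp (conjDH L M ℓ H' hML.out)
      = (conjDH L M ℓ H hML.out).comp jK := by
    ext k; rfl
  show S41.transferAlong A (k5c_j L M H' H hle) (k5c_j_injective L M H' H hle)
      (S41.transferAlong A (conjDH L M ℓ H' hML.out) (conjDH_injective L M ℓ H' hML.out)
        (ψ.comp (MonoidHom.toAdditive (inclH L M ℓ H'))))
    = S41.transferAlong A (conjDH L M ℓ H hML.out) (conjDH_injective L M ℓ H hML.out)
      ((S41.transferAlong A (k5c_j L M H' H hle) (k5c_j_injective L M H' H hle) ψ).comp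
        (MonoidHom.toAdditive (inclH L M ℓ H)))
  rw [hA, ← hB, ← hC]
  exact k5c_transfer_congr hD _ _ _

/-- the diamond action only depends on the diamond of `g` -/
theorem k5c_diam_congr (g g' : SL(2, ℤ)) (hgL : g ∈ Gamma0 L) (hgM : g ∈ Gamma0 M)
    (hgL' : g' ∈ Gamma0 L) (hgM' : g' ∈ Gamma0 M)
    (hd : diamHom M ⟨g, hgM⟩ = diamHom M ⟨g', hgM'⟩) (ψ : HomS (gammaH L M H') A) :
    diamS H' A g hgL hgM ψ = diamS H' A g' hgL' hgM' ψ := by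
  refine AddMonoidHom.ext fun γ => ?_
  obtain ⟨γ, rfl⟩ : ∃ γ' : gammaH L M H', Additive.ofMul γ' = γ := ⟨Additive.toMul γ, rfl⟩
  show ψ (Additive.ofMul ⟨g⁻¹ * γ * g, _⟩) = ψ (Additive.ofMul ⟨g'⁻¹ * γ * g', _⟩)
  exact (k5c_inner ψ g g' (γ : SL(2, ℤ)) _ _ (k5e_inv_mul_mem H' hgL hgM hgL' hgM' hd)).symm

/-- conjugation by `g ∈ Γ₀(L) ∩ Γ₀(M)` as an automorphism of `Γ_{H'}(L)` -/
def k5c_conjEquiv (g : SL(2, ℤ)) (hgL : g ∈ Gamma0 L) (hgM : g ∈ Gamma0 M) :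
    gammaH L M H' ≃* gammaH L M H' where
  toFun γ := ⟨g⁻¹ * γ * g, normalizes_gammaH hgL hgM γ γ.2⟩
  invFun γ := ⟨g * γ * g⁻¹, Fermat.Agent.ES1.conj_mem_gammaH hgL hgM γ.2⟩
  left_inv γ := by apply Subtype.ext; show g * (g⁻¹ * γ * g) * g⁻¹ = γ; group
  right_inv γ := by apply Subtype.ext; show g⁻¹ * (g * γ * g⁻¹) * g = γ; group
  map_mul' a b := by
    apply Subtype.ext
    show g⁻¹ * (a * b) * g = (g⁻¹ * a * g) * (g⁻¹ * b * g)
    group

/-- clause 3 for `g ∈ Γ(ℓ)` -/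
theorem k5c_diam_comm_of_Gamma (g : SL(2, ℤ)) (hgL : g ∈ Gamma0 L) (hgM : g ∈ Gamma0 M)
    (hgN : g ∈ Gamma ℓ) (ψ : HomS (gammaH L M H') A) :
    diamS H' A g hgL hgM (tS L M ℓ H' A ψ) = tS L M ℓ H' A (diamS H' A g hgL hgM ψ) := by
  obtain ⟨z, hz, hz00⟩ := k5e_exists_conjD_preimage L ℓ ⟨g, hgL⟩ (k5e_gamma_dvd ℓ hgN)
  have hzL : (z : SL(2, ℤ)) ∈ Gamma0 L := by
    apply S41.mem_Gamma0_of_dvd
    exact (Int.natCast_dvd_natCast.mpr (dvd_mul_right L ℓ)).trans (S41.dvd_of_mem_Gamma0 z.2)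
  have hzM : (z : SL(2, ℤ)) ∈ Gamma0 M := k5i_mem_Gamma0M L M hzL
  have hd : diamHom M ⟨g, hgM⟩ = diamHom M ⟨(z : SL(2, ℤ)), hzM⟩ :=
    (k5e_diam_eq_of_entry _ _ hzM hgM hz00).symm
  let aH : gammaH (L * ℓ) M H' →* gammaH (L * ℓ) M H' :=
    conjHom (z : SL(2, ℤ)) (normalizes_gammaH z.2 hzM)
  have hsurj : Function.Surjective aH := by
    intro k
    refine ⟨⟨(z : SL(2, ℤ)) * k * (z : SL(2, ℤ))⁻¹,
      Fermat.Agent.ES1.conj_mem_gammaH z.2 hzM k.2⟩, ?_⟩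
    apply Subtype.ext
    show (z : SL(2, ℤ))⁻¹ * ((z : SL(2, ℤ)) * k * (z : SL(2, ℤ))⁻¹) * (z : SL(2, ℤ)) = k
    group
  have hcomp : ∀ h : gammaH (L * ℓ) M H',
      k5c_conjEquiv L M H' g hgL hgM (conjDH L M ℓ H' hML.out h)
        = conjDH L M ℓ H' hML.out (aH h) := by
    intro h
    apply Subtype.ext
    show g⁻¹ * ((conjDH L M ℓ H' hML.out h : gammaH L M H') : SL(2, ℤ)) * g
      = ((conjDH L M ℓ H' hML.out (aH h) : gammaH L M H') : SL(2, ℤ))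
    rw [conjDH_coe, conjDH_coe]
    have e : (⟨((aH h : gammaH (L * ℓ) M H') : SL(2, ℤ)), (aH h).2.1⟩ : Gamma0 (L * ℓ))
        = z⁻¹ * ⟨(h : SL(2, ℤ)), h.2.1⟩ * z := rfl
    rw [e, map_mul, map_mul, map_inv, hz]
    rfl
  have hE := S41.transferAlong_equivariant (conjDH L M ℓ H' hML.out)
    (conjDH_injective L M ℓ H' hML.out) A aH (k5c_conjEquiv L M H' g hgL hgM) hcomp hsurj
    (ψ.comp (MonoidHom.toAdditive (inclH L M ℓ H')))
  have hL : (ψ.comp (MonoidHom.toAdditive (inclH L M ℓ H'))).comp (MonoidHom.toAdditive aH)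
      = (diamS H' A g hgL hgM ψ).comp (MonoidHom.toAdditive (inclH L M ℓ H')) := by
    refine AddMonoidHom.ext fun k => ?_
    obtain ⟨k, rfl⟩ : ∃ k' : gammaH (L * ℓ) M H', Additive.ofMul k' = k :=
      ⟨Additive.toMul k, rfl⟩
    show ψ (Additive.ofMul ⟨(z : SL(2, ℤ))⁻¹ * k * (z : SL(2, ℤ)), _⟩)
      = ψ (Additive.ofMul ⟨g⁻¹ * k * g, _⟩)
    exact k5c_inner ψ g (z : SL(2, ℤ)) (k : SL(2, ℤ)) _ _
      (k5e_inv_mul_mem H' hgL hgM hzL hzM hd)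
  show (S41.transferAlong A (conjDH L M ℓ H' hML.out) (conjDH_injective L M ℓ H' hML.out)
      (ψ.comp (MonoidHom.toAdditive (inclH L M ℓ H')))).comp
        (MonoidHom.toAdditive (conjHom g (normalizes_gammaH hgL hgM)))
    = S41.transferAlong A (conjDH L M ℓ H' hML.out) (conjDH_injective L M ℓ H' hML.out)
      ((diamS H' A g hgL hgM ψ).comp (MonoidHom.toAdditive (inclH L M ℓ H')))
  rw [← hL, hE]
  rfl

end clauses

theorem stmtComm : StmtComm := by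
  intro L M ℓ _ _ hML H' H hle A _ hℓ hℓL
  have hc : Nat.Coprime ℓ L := (Nat.Prime.coprime_iff_not_dvd hℓ).mpr hℓL
  refine ⟨k5c_res_comm L M ℓ H' H hle A hc, k5c_cores_comm L M ℓ H' H hle A hc, ?_⟩
  intro g hgL hgM ψ
  obtain ⟨g', hgL', hgM', hgd, hgN⟩ := stmtGen L M ℓ hc (diamHom M ⟨g, hgM⟩)
  rw [k5c_diam_congr L M H' A g g' hgL hgM hgL' hgM' hgd.symm,
    k5c_diam_congr L M H' A g g' hgL hgM hgL' hgM' hgd.symm]
  exact k5c_diam_comm_of_Gamma L M ℓ H' A g' hgL' hgM' hgN ψ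

theorem stmtE2 : StmtE2 := stmtE2_of stmtGen stmtComm stmtIdxRange

end Fermat.Agent.RT.K5
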