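import Fermat.Agent.RT.K5.Idx

/-!
# RT-K5, piece E1: the kernel of `res` is killed by `T_ℓ − (ℓ + 1)`

If `φ : Γ_H(L) → A` vanishes on `Γ_{H'}(L)` then `φ ∘ incl = φ ∘ conj_δ` on `Γ_H(L ℓ)` (the two
elements have the same diamond), hence `T_ℓ φ = cores_δ (res_δ φ) = (ℓ + 1) φ`.
-/

set_option autoImplicit false
set_option linter.style.haveILetI false
set_option linter.unusedSectionVars false
set_option linter.unusedVariables false

noncomputable section

namespace Fermat.Agent.RT.K5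

open CongruenceSubgroup Matrix
open scoped MatrixGroups
open Fermat.Agent.ES1 (gammaH diamHom pmH)

theorem stmtE1 : StmtE1 := by
  intro L M ℓ _ _ hML H' H hle A _ hℓ hℓL φ hφ
  have hvan : ∀ (x : SL(2, ℤ)) (hx : x ∈ gammaH L M H'),
      φ (Additive.ofMul ⟨x, Fermat.Agent.ES1.gammaH_mono hle hx⟩) = 0 := by
    intro x hx
    have := congrArg (fun f : HomS (gammaH L M H') A => f (Additive.ofMul ⟨x, hx⟩)) hφ
    exact this
  have heq : resH L M ℓ H A φ = resDH L M ℓ H A φ := by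
    refine AddMonoidHom.ext fun z => ?_
    obtain ⟨z, rfl⟩ : ∃ z' : gammaH (L * ℓ) M H, Additive.ofMul z' = z := ⟨Additive.toMul z, rfl⟩
    show φ (Additive.ofMul (inclH L M ℓ H z)) = φ (Additive.ofMul (conjDH L M ℓ H hML.out z))
    -- the two elements differ by an element of `Γ_{H'}`
    have hzL : (z : SL(2, ℤ)) ∈ Gamma0 L := (inclH L M ℓ H z).2.1
    have hzM : (z : SL(2, ℤ)) ∈ Gamma0 M := z.2.2.1
    have hcL : ((conjDH L M ℓ H hML.out z : gammaH L M H) : SL(2, ℤ)) ∈ Gamma0 L :=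
      (conjDH L M ℓ H hML.out z).2.1
    have hcM : ((conjDH L M ℓ H hML.out z : gammaH L M H) : SL(2, ℤ)) ∈ Gamma0 M :=
      (conjDH L M ℓ H hML.out z).2.2.1
    have hentry : ((z : SL(2, ℤ)) : Matrix (Fin 2) (Fin 2) ℤ) 0 0
        = (((conjDH L M ℓ H hML.out z : gammaH L M H) : SL(2, ℤ)) :
            Matrix (Fin 2) (Fin 2) ℤ) 0 0 := by
      rw [conjDH_coe, S41.conjD_coe]
      simp [S41.conjDMat]
    have hd := k5e_diam_eq_of_entry _ _ hzM hcM hentry
    have hmem := k5e_inv_mul_mem H' hzL hzM hcL hcM hd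
    have h0 := hvan _ hmem
    have e : (conjDH L M ℓ H hML.out z : gammaH L M H)
        = inclH L M ℓ H z * ⟨_, Fermat.Agent.ES1.gammaH_mono hle hmem⟩ := by
      apply Subtype.ext
      show _ = (z : SL(2, ℤ)) * ((z : SL(2, ℤ))⁻¹ * _)
      rw [mul_inv_cancel_left]
    rw [e, ofMul_mul, map_add, h0, add_zero]
  show coresDH L M ℓ H A (resH L M ℓ H A φ) = _
  rw [heq]
  exact (stmtIdx L M ℓ H A hℓ hℓL φ).1

end Fermat.Agent.RT.K5
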