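/-
RT-K5, piece K5-RC (helper22): `res ∘ cores` is the norm and `cores ∘ res` is the index, for
`Γ' = gammaH L M H' ≤ Γ = gammaH L M H` with `Γ/Γ'` cyclic of order `m` generated by `g₀`.

Abstract part: `f : H →* G` injective with normal range of finite index, `G/f(H)` generated by the
class of `g₀` of order `m`:
* `k5rc_index`     : `[G : f(H)] = m`;
* `k5rc_transfer`  : `transfer ψ (f h) = Σ_{i < m} ψ(g₀⁻ⁱ h g₀ⁱ)`.
-/
import Fermat.Agent.RT.K5.Plan
import Fermat.Agent.S41.TransferFormula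

set_option autoImplicit false
set_option linter.unusedSectionVars false
set_option linter.unusedVariables false
set_option linter.style.haveILetI false

noncomputable section

namespace Fermat.Agent.RT.K5

open CongruenceSubgroup Matrix
open scoped MatrixGroups
open Fermat.Agent.ES1 (gammaH diamHom pmH)
open Fermat.Agent.S41 (transferAlong tRep tCoc f_tCoc tRep_mk transferAlong_eq_sum
  transferAlong_comp)

section abstract

variable {G H : Type*} [Group G] [Group H] (f : H →* G) (hf : Function.Injective f)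

theorem k5rc_conj_mem [hn : f.range.Normal] (x : G) (h : H) : x⁻¹ * f h * x ∈ f.range := by
  have := hn.conj_mem (f h) ⟨h, rfl⟩ x⁻¹
  simpa using this

/-- conjugation `h ↦ x⁻¹ h x` on `H` (the range of `f` being normal) -/
def k5rc_conj [f.range.Normal] (x : G) (h : H) : H :=
  (MonoidHom.ofInjective hf).symm ⟨x⁻¹ * f h * x, k5rc_conj_mem f x h⟩

theorem k5rc_f_conj [f.range.Normal] (x : G) (h : H) :
    f (k5rc_conj f hf x h) = x⁻¹ * f h * x := by
  have h1 := (MonoidHom.ofInjective hf).apply_symm_apply ⟨x⁻¹ * f h * x, k5rc_conj_mem f x h⟩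
  exact congrArg Subtype.val h1

/-- the value of `ψ` on a conjugate depends only on the coset of the conjugating element -/
theorem k5rc_conj_coset [f.range.Normal] {A : Type*} [AddCommGroup A] (ψ : Additive H →+ A)
    (x y : G) (hxy : x⁻¹ * y ∈ f.range) (h : H) :
    ψ (Additive.ofMul (k5rc_conj f hf y h)) = ψ (Additive.ofMul (k5rc_conj f hf x h)) := by
  obtain ⟨n, hn⟩ := hxy
  have h1 : k5rc_conj f hf y h = n⁻¹ * k5rc_conj f hf x h * n := by
    apply hf
    rw [map_mul, map_mul, map_inv, k5rc_f_conj, k5rc_f_conj, hn]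
    group
  rw [h1, ofMul_mul, ofMul_mul, ofMul_inv, map_add, map_add, map_neg]
  abel

theorem k5rc_smul_eq [hn : f.range.Normal] (h : H) (q : G ⧸ f.range) : (f h)⁻¹ • q = q := by
  induction q using QuotientGroup.induction_on with
  | H t =>
    show (QuotientGroup.mk ((f h)⁻¹ * t) : G ⧸ f.range) = QuotientGroup.mk t
    rw [QuotientGroup.eq]
    have : ((f h)⁻¹ * t)⁻¹ * t = t⁻¹ * f h * t := by group
    rw [this]
    exact k5rc_conj_mem f t h

theorem k5rc_tCoc [f.range.Normal] (h : H) (q : G ⧸ f.range) :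
    tCoc f hf q (f h) = k5rc_conj f hf (tRep f q) h := by
  apply hf
  rw [f_tCoc, k5rc_f_conj, k5rc_smul_eq]

variable (g₀ : G) (m : ℕ)

theorem k5rc_mk_inj [f.range.Normal]
    (hm : ∀ k : ℤ, g₀ ^ k ∈ f.range ↔ (m : ℤ) ∣ k) {i j : ℕ} (hi : i < m) (hj : j < m)
    (hij : (QuotientGroup.mk (g₀ ^ i) : G ⧸ f.range) = QuotientGroup.mk (g₀ ^ j)) : i = j := by
  rw [QuotientGroup.eq] at hij
  have h1 : (g₀ ^ i)⁻¹ * g₀ ^ j = g₀ ^ ((j : ℤ) - i) := by
    rw [_root_.zpow_sub, zpow_natCast, zpow_natCast]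
    exact (Commute.pow_pow_self g₀ j i).inv_right.eq.symm
  rw [h1, hm] at hij
  obtain ⟨c, hc⟩ := hij
  have hc0 : c = 0 := by
    by_contra hne
    rcases lt_or_gt_of_ne hne with h | h
    · have : (m : ℤ) * c ≤ (m : ℤ) * (-1) := by
        apply mul_le_mul_of_nonneg_left _ (by positivity)
        omega
      omega
    · have : (m : ℤ) * 1 ≤ (m : ℤ) * c := by
        apply mul_le_mul_of_nonneg_left _ (by positivity)
        omega
      omega
  rw [hc0, mul_zero] at hc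
  omega

theorem k5rc_mk_surj [hn : f.range.Normal]
    (hgen : ∀ g : G, ∃ k : ℕ, g * g₀ ^ k ∈ f.range)
    (hm : ∀ k : ℤ, g₀ ^ k ∈ f.range ↔ (m : ℤ) ∣ k) (hm0 : 0 < m) (q : G ⧸ f.range) :
    ∃ i : ℕ, i < m ∧ (QuotientGroup.mk (g₀ ^ i) : G ⧸ f.range) = q := by
  induction q using QuotientGroup.induction_on with
  | H g =>
    obtain ⟨k, hk⟩ := hgen g
    -- `i = (-k) mod m`
    have hmpos : (0 : ℤ) < m := by exact_mod_cast hm0
    have hi0 : 0 ≤ (-(k : ℤ)) % m := Int.emod_nonneg _ hmpos.ne'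
    have hi1 : (-(k : ℤ)) % m < m := Int.emod_lt_of_pos _ hmpos
    refine ⟨((-(k : ℤ)) % m).toNat, by omega, ?_⟩
    rw [QuotientGroup.eq]
    have hcast : (((-(k : ℤ)) % m).toNat : ℤ) = (-(k : ℤ)) % m := Int.toNat_of_nonneg hi0
    have h1 : g₀ ^ ((-(k : ℤ)) % m).toNat = g₀ ^ ((-(k : ℤ)) % m) := by
      have h0 := (zpow_natCast g₀ ((-(k : ℤ)) % m).toNat).symm
      rw [hcast] at h0
      exact h0
    -- `(g₀^i)⁻¹ g = g₀^{-i-k} · (g₀^k g)`
    have h2 : (g₀ ^ ((-(k : ℤ)) % m))⁻¹ * g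
        = g₀ ^ (-((-(k : ℤ)) % m) - k) * (g₀ ^ k * g) := by
      rw [_root_.zpow_sub, _root_.zpow_neg, zpow_natCast]
      group
    rw [h1, h2]
    apply mul_mem
    · rw [hm]
      have := Int.emod_add_mul_ediv (-(k : ℤ)) m
      exact ⟨(-(k : ℤ)) / m, by linarith⟩
    · have h3 : g₀ ^ k * g = g⁻¹ * (g * g₀ ^ k) * g := by group
      rw [h3]
      have := hn.conj_mem _ hk g⁻¹
      simpa using this

/-- the cosets are `g₀ⁱ f(H)`, `i < m` -/
theorem k5rc_sum_quot [f.range.Normal] [f.range.FiniteIndex] {A : Type*} [AddCommGroup A]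
    (hgen : ∀ g : G, ∃ k : ℕ, g * g₀ ^ k ∈ f.range)
    (hm : ∀ k : ℤ, g₀ ^ k ∈ f.range ↔ (m : ℤ) ∣ k) (hm0 : 0 < m) (F : G ⧸ f.range → A) :
    (@Finset.univ (G ⧸ f.range) f.range.fintypeQuotientOfFiniteIndex).sum F
      = ∑ i ∈ Finset.range m, F (QuotientGroup.mk (g₀ ^ i)) := by
  classical
  letI := f.range.fintypeQuotientOfFiniteIndex
  symm
  refine Finset.sum_bij (fun i _ => (QuotientGroup.mk (g₀ ^ i) : G ⧸ f.range))
    (fun _ _ => Finset.mem_univ _) ?_ ?_ (fun _ _ => rfl)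
  · intro i hi j hj hij
    exact k5rc_mk_inj f g₀ m hm (Finset.mem_range.1 hi) (Finset.mem_range.1 hj) hij
  · intro q _
    obtain ⟨i, hi, hq⟩ := k5rc_mk_surj f g₀ m hgen hm hm0 q
    exact ⟨i, Finset.mem_range.2 hi, hq⟩

/-- **the index** -/
theorem k5rc_index [f.range.Normal] [f.range.FiniteIndex]
    (hgen : ∀ g : G, ∃ k : ℕ, g * g₀ ^ k ∈ f.range)
    (hm : ∀ k : ℤ, g₀ ^ k ∈ f.range ↔ (m : ℤ) ∣ k) (hm0 : 0 < m) : f.range.index = m := by
  classical
  letI := f.range.fintypeQuotientOfFiniteIndex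
  have h := k5rc_sum_quot f g₀ m (A := ℤ) hgen hm hm0 (fun _ => 1)
  simp only [Finset.sum_const, Finset.card_univ, Finset.card_range, nsmul_eq_mul, mul_one] at h
  rw [Subgroup.index_eq_card, Nat.card_eq_fintype_card]
  exact_mod_cast h

/-- **`res ∘ cores` on elements of `H`** -/
theorem k5rc_transfer [f.range.Normal] [f.range.FiniteIndex] {A : Type*} [AddCommGroup A]
    (hgen : ∀ g : G, ∃ k : ℕ, g * g₀ ^ k ∈ f.range)
    (hm : ∀ k : ℤ, g₀ ^ k ∈ f.range ↔ (m : ℤ) ∣ k) (hm0 : 0 < m) (ψ : Additive H →+ A) (h : H) :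
    transferAlong A f hf ψ (Additive.ofMul (f h))
      = ∑ i ∈ Finset.range m, ψ (Additive.ofMul (k5rc_conj f hf (g₀ ^ i) h)) := by
  classical
  rw [transferAlong_eq_sum]
  simp only [k5rc_tCoc]
  rw [k5rc_sum_quot f g₀ m hgen hm hm0
    (fun q => ψ (Additive.ofMul (k5rc_conj f hf (tRep f q) h)))]
  refine Finset.sum_congr rfl fun i _ => ?_
  apply k5rc_conj_coset
  rw [← QuotientGroup.eq, tRep_mk]

end abstract

/-! ### the concrete statement -/

section concrete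

variable {L M : ℕ} {H' H : Subgroup (ZMod M)ˣ}

theorem k5rc_range_normal (hle : H' ≤ H) :
    (Subgroup.inclusion (Fermat.Agent.ES1.gammaH_mono (L := L) hle)).range.Normal := by
  refine ⟨fun n hn g => ?_⟩
  obtain ⟨n', rfl⟩ := hn
  have hmem : (g : SL(2, ℤ)) * (n' : SL(2, ℤ)) * (g : SL(2, ℤ))⁻¹ ∈ gammaH L M H' :=
    Fermat.Agent.ES1.conj_mem_gammaH g.2.1 g.2.2.1 n'.2
  refine ⟨⟨_, hmem⟩, ?_⟩
  apply Subtype.ext
  rfl

theorem k5rc_mem_range (hle : H' ≤ H) (x : gammaH L M H) :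
    x ∈ (Subgroup.inclusion (Fermat.Agent.ES1.gammaH_mono (L := L) hle)).range ↔
      (x : SL(2, ℤ)) ∈ gammaH L M H' := by
  constructor
  · rintro ⟨y, rfl⟩
    exact y.2
  · intro hx
    exact ⟨⟨x, hx⟩, Subtype.ext rfl⟩

/-- the powers of the diamond operator -/
theorem k5rc_diam_pow {A : Type*} [AddCommGroup A] (g₀ : SL(2, ℤ)) (hgL : g₀ ∈ Gamma0 L)
    (hgM : g₀ ∈ Gamma0 M) (i : ℕ) :
    ∀ (ψ : HomS (gammaH L M H') A) (γ : gammaH L M H')
      (hmem : (g₀ ^ i)⁻¹ * (γ : SL(2, ℤ)) * g₀ ^ i ∈ gammaH L M H'),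
    (((show AddMonoid.End (HomS (gammaH L M H') A) from diamS H' A g₀ hgL hgM) ^ i :
        AddMonoid.End (HomS (gammaH L M H') A)) : _ →+ _) ψ (Additive.ofMul γ)
      = ψ (Additive.ofMul ⟨(g₀ ^ i)⁻¹ * (γ : SL(2, ℤ)) * g₀ ^ i, hmem⟩) := by
  induction i with
  | zero =>
    intro ψ γ hmem
    rw [pow_zero]
    show ψ (Additive.ofMul γ) = _
    congr 2
    apply Subtype.ext
    simp
  | succ i ih =>
    intro ψ γ hmem
    have hmem' : (g₀ ^ i)⁻¹ * (γ : SL(2, ℤ)) * g₀ ^ i ∈ gammaH L M H' := by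
      have := Fermat.Agent.ES1.conj_mem_gammaH (H := H') (inv_mem (pow_mem hgL i))
        (inv_mem (pow_mem hgM i)) γ.2
      simpa using this
    rw [pow_succ]
    show (((show AddMonoid.End (HomS (gammaH L M H') A) from diamS H' A g₀ hgL hgM) ^ i :
        AddMonoid.End (HomS (gammaH L M H') A)) : _ →+ _)
          (diamS H' A g₀ hgL hgM ψ) (Additive.ofMul γ) = _
    rw [ih (diamS H' A g₀ hgL hgM ψ) γ hmem']
    show ψ (Additive.ofMul (conjHom g₀ (normalizes_gammaH hgL hgM) _)) = _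
    congr 2
    apply Subtype.ext
    show g₀⁻¹ * ((g₀ ^ i)⁻¹ * (γ : SL(2, ℤ)) * g₀ ^ i) * g₀
      = (g₀ ^ (i + 1))⁻¹ * (γ : SL(2, ℤ)) * g₀ ^ (i + 1)
    rw [pow_succ]
    group

/-- **K5-RC.** -/
theorem stmtResCores : StmtResCores := by
  intro L M _ _ H' H hle A _ m g₀ hg₀ hgen hm hm0
  let f : gammaH L M H' →* gammaH L M H := Subgroup.inclusion (Fermat.Agent.ES1.gammaH_mono hle)
  have hf : Function.Injective f := Subgroup.inclusion_injective _
  haveI hn : f.range.Normal := k5rc_range_normal hle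
  let x₀ : gammaH L M H := ⟨g₀, hg₀⟩
  have hgen' : ∀ g : gammaH L M H, ∃ k : ℕ, g * x₀ ^ k ∈ f.range := by
    intro g
    obtain ⟨k, hk⟩ := hgen g g.2
    refine ⟨k, (k5rc_mem_range hle _).2 ?_⟩
    simpa [x₀] using hk
  have hm' : ∀ k : ℤ, x₀ ^ k ∈ f.range ↔ (m : ℤ) ∣ k := by
    intro k
    rw [k5rc_mem_range hle, ← hm k]
    simp [x₀]
  constructor
  · intro ψ
    refine AddMonoidHom.ext fun γ => ?_
    obtain ⟨γ, rfl⟩ : ∃ γ' : gammaH L M H', Additive.ofMul γ' = γ := ⟨Additive.toMul γ, rfl⟩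
    rw [resS_apply]
    have h1 := k5rc_transfer f hf x₀ m hgen' hm' hm0 ψ γ
    show transferAlong A f hf ψ (Additive.ofMul (f γ)) = _
    rw [h1, AddMonoidHom.finsetSum_apply]
    refine Finset.sum_congr rfl fun i _ => ?_
    have hmem : (g₀ ^ i)⁻¹ * (γ : SL(2, ℤ)) * g₀ ^ i ∈ gammaH L M H' := by
      have := Fermat.Agent.ES1.conj_mem_gammaH (H := H') (inv_mem (pow_mem hg₀.1 i))
        (inv_mem (pow_mem hg₀.2.1 i)) γ.2
      simpa using this
    rw [k5rc_diam_pow g₀ hg₀.1 hg₀.2.1 i ψ γ hmem]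
    congr 2
    apply hf
    rw [k5rc_f_conj]
    apply Subtype.ext
    simp [f, x₀]
  · intro φ
    have h1 := transferAlong_comp f hf A φ
    rw [k5rc_index f x₀ m hgen' hm' hm0] at h1
    exact h1

end concrete

end Fermat.Agent.RT.K5

end
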