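import Fermat.Agent.RT.K5.StepAbs
import Fermat.Agent.RT.K5.Comm
import Fermat.Agent.RT.K5.E1
import Fermat.Agent.RT.K5.ResCores

/-!
# RT-K5, piece STEP: one cyclic step

`stmtStep_of : StmtCoresSurj → StmtStep` (from E1, E2, C, RC and Fitting).
-/

set_option autoImplicit false
set_option linter.style.haveILetI false
set_option linter.unusedSectionVars false
set_option linter.unusedVariables false

noncomputable section

namespace Fermat.Agent.RT.K5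

open CongruenceSubgroup Matrix
open scoped MatrixGroups
open Fermat.Agent.ES1 (gammaH diamHom pmH)

/-- `Hom(Γ, F)` is finite for `Γ` of finite index in `SL(2, ℤ)` and `F` finite -/
theorem k5s_finite_homS (Γ : Subgroup SL(2, ℤ)) [Γ.FiniteIndex] (F : Type*) [AddCommGroup F]
    [Finite F] : Finite (HomS Γ F) := by
  haveI : Group.FG SL(2, ℤ) := by
    rw [Group.fg_iff]
    exact ⟨{ModularGroup.S, ModularGroup.T}, _root_.SpecialLinearGroup.SL2Z_generators,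
      Set.toFinite _⟩
  haveI : Group.FG Γ := inferInstance
  obtain ⟨S, hS⟩ := Group.fg_def.1 (inferInstance : Group.FG Γ)
  have hinj : Function.Injective (fun (f : HomS Γ F) (s : S) => f (Additive.ofMul (s : Γ))) := by
    intro f g h
    have h1 : (AddMonoidHom.toMultiplicativeRight f : Γ →* Multiplicative F)
        = AddMonoidHom.toMultiplicativeRight g := by
      refine MonoidHom.eq_of_eqOn_dense hS ?_
      intro x hx
      exact congrArg Multiplicative.ofAdd (congrFun h ⟨x, hx⟩)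
    exact AddMonoidHom.toMultiplicativeRight.injective h1
  exact Finite.of_injective _ hinj

theorem k5s_ptors (p : ℕ) (Γ : Subgroup SL(2, ℤ)) (F : Type*) [Field F] [CharP F p]
    (φ : HomS Γ F) : p • φ = 0 := by
  refine AddMonoidHom.ext fun γ => ?_
  rw [AddMonoidHom.smul_apply, AddMonoidHom.zero_apply, nsmul_eq_mul, CharP.cast_eq_zero,
    zero_mul]

section inv

variable {L M : ℕ} [NeZero L] [hML : Fact (M ∣ L)] {H' H : Subgroup (ZMod M)ˣ}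
  {A : Type*} [AddCommGroup A]

/-- invariance under the generator implies invariance under `Γ` -/
theorem k5s_isInv_of_gen (g₀ : SL(2, ℤ)) (hg₀ : g₀ ∈ gammaH L M H)
    (hgen : ∀ γ ∈ gammaH L M H, ∃ k : ℕ, γ * g₀ ^ k ∈ gammaH L M H')
    (ψ : HomS (gammaH L M H') A) (hδ : diamS H' A g₀ hg₀.1 hg₀.2.1 ψ = ψ) : IsInv H' H ψ := by
  intro g hg
  obtain ⟨k, hk⟩ := hgen g hg
  -- invariance under `g₀ ^ k`
  have hpow : ∀ i : ℕ, (((show AddMonoid.End (HomS (gammaH L M H') A) from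
      diamS H' A g₀ hg₀.1 hg₀.2.1) ^ i : AddMonoid.End (HomS (gammaH L M H') A)) : _ →+ _) ψ
        = ψ := by
    intro i
    induction i with
    | zero => rfl
    | succ i ih =>
      rw [pow_succ]
      show (((show AddMonoid.End (HomS (gammaH L M H') A) from
        diamS H' A g₀ hg₀.1 hg₀.2.1) ^ i : AddMonoid.End (HomS (gammaH L M H') A)) : _ →+ _)
          (diamS H' A g₀ hg₀.1 hg₀.2.1 ψ) = ψ
      rw [hδ, ih]
  refine AddMonoidHom.ext fun x => ?_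
  obtain ⟨x, rfl⟩ : ∃ x' : gammaH L M H', Additive.ofMul x' = x := ⟨Additive.toMul x, rfl⟩
  show ψ (Additive.ofMul ⟨g⁻¹ * x * g, _⟩) = ψ (Additive.ofMul x)
  have hy : g⁻¹ * (x : SL(2, ℤ)) * g ∈ gammaH L M H' := normalizes_gammaH hg.1 hg.2.1 x x.2
  have hmem : (g₀ ^ k)⁻¹ * (g⁻¹ * (x : SL(2, ℤ)) * g) * g₀ ^ k ∈ gammaH L M H' := by
    have := Fermat.Agent.ES1.conj_mem_gammaH (H := H') (inv_mem (pow_mem hg₀.1 k))
      (inv_mem (pow_mem hg₀.2.1 k)) hy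
    simpa using this
  have h1 := k5rc_diam_pow (H' := H') g₀ hg₀.1 hg₀.2.1 k ψ ⟨_, hy⟩ hmem
  rw [hpow k] at h1
  show ψ (Additive.ofMul ⟨g⁻¹ * x * g, hy⟩) = _
  rw [h1]
  -- `(g₀ᵏ)⁻¹ (g⁻¹ x g) g₀ᵏ = (g g₀ᵏ)⁻¹ x (g g₀ᵏ)`
  have hx1 : (1 : SL(2, ℤ))⁻¹ * (x : SL(2, ℤ)) * 1 ∈ gammaH L M H' := by simp
  have hx2 : (g * g₀ ^ k)⁻¹ * (x : SL(2, ℤ)) * (g * g₀ ^ k) ∈ gammaH L M H' := by
    have e : (g * g₀ ^ k)⁻¹ * (x : SL(2, ℤ)) * (g * g₀ ^ k)
        = (g₀ ^ k)⁻¹ * (g⁻¹ * (x : SL(2, ℤ)) * g) * g₀ ^ k := by group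
    rw [e]; exact hmem
  have h2 := k5c_inner ψ (1 : SL(2, ℤ)) (g * g₀ ^ k) (x : SL(2, ℤ)) hx1 hx2 (by simpa using hk)
  have e1 : (⟨(g₀ ^ k)⁻¹ * (g⁻¹ * (x : SL(2, ℤ)) * g) * g₀ ^ k, hmem⟩ : gammaH L M H')
      = ⟨(g * g₀ ^ k)⁻¹ * (x : SL(2, ℤ)) * (g * g₀ ^ k), hx2⟩ := by
    apply Subtype.ext
    show (g₀ ^ k)⁻¹ * (g⁻¹ * (x : SL(2, ℤ)) * g) * g₀ ^ k = _
    group
  have e2 : (⟨(1 : SL(2, ℤ))⁻¹ * (x : SL(2, ℤ)) * 1, hx1⟩ : gammaH L M H') = x := by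
    apply Subtype.ext
    show (1 : SL(2, ℤ))⁻¹ * (x : SL(2, ℤ)) * 1 = x
    simp
  rw [e1, h2, e2]

end inv

theorem stmtStep_of (hS : StmtCoresSurj) : StmtStep := by
  intro p _ L M ℓ₀ _ _ hML H' H hle F _ _ _ hp2 hℓ hℓL hNT k g₀ hg₀ hgen hord
  haveI : Finite (HomS (gammaH L M H) F) := k5s_finite_homS _ F
  haveI : Finite (HomS (gammaH L M H') F) := k5s_finite_homS _ F
  have hΓle : gammaH L M H' ≤ gammaH L M H := Fermat.Agent.ES1.gammaH_mono hle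
  obtain ⟨c1, c2, c3⟩ := stmtComm L M ℓ₀ H' H hle F hℓ hℓL
  have hpk : 0 < p ^ k := pow_pos (Fact.out : p.Prime).pos k
  obtain ⟨r1, r2⟩ := stmtResCores L M H' H hle F (p ^ k) g₀ hg₀ hgen hord hpk
  have key : (∀ φ ∈ etaPart (etaS L M ℓ₀ H F), resS F hΓle φ ∈ etaPart (etaS L M ℓ₀ H' F) ∧
        (resS F hΓle φ = 0 → φ = 0)) ∧
      (∀ ψ ∈ etaPart (etaS L M ℓ₀ H' F), diamS H' F g₀ hg₀.1 hg₀.2.1 ψ = ψ →
        (∃ φ ∈ etaPart (etaS L M ℓ₀ H F), resS F hΓle φ = ψ) ∧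
        ∃ v ∈ etaPart (etaS L M ℓ₀ H' F), ψ = (∑ i ∈ Finset.range (p ^ k),
          (((show AddMonoid.End (HomS (gammaH L M H') F) from diamS H' F g₀ hg₀.1 hg₀.2.1) ^ i :
            AddMonoid.End (HomS (gammaH L M H') F)) : _ →+ _)) v) := by
    refine k5s_step_abs p (k5s_ptors p _ F) (k5s_ptors p _ F) (etaS L M ℓ₀ H F)
      (etaS L M ℓ₀ H' F) (resS F hΓle) (coresS F hΓle) (diamS H' F g₀ hg₀.1 hg₀.2.1)
      (∑ i ∈ Finset.range (p ^ k),
        (((show AddMonoid.End (HomS (gammaH L M H') F) from diamS H' F g₀ hg₀.1 hg₀.2.1) ^ i :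
          AddMonoid.End (HomS (gammaH L M H') F)) : _ →+ _)) ?_ ?_ ?_ ?_ ?_ ?_
    · intro φ
      show resS F hΓle (tS L M ℓ₀ H F φ - (ℓ₀ + 1) • φ) = tS L M ℓ₀ H' F (resS F hΓle φ)
        - (ℓ₀ + 1) • resS F hΓle φ
      rw [map_sub, map_nsmul, c1]
    · intro ψ
      show coresS F hΓle (tS L M ℓ₀ H' F ψ - (ℓ₀ + 1) • ψ) = tS L M ℓ₀ H F (coresS F hΓle ψ)
        - (ℓ₀ + 1) • coresS F hΓle ψ
      rw [map_sub, map_nsmul, c2]
    · intro φ h0
      show tS L M ℓ₀ H F φ - (ℓ₀ + 1) • φ = 0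
      rw [stmtE1 L M ℓ₀ H' H hle F hℓ hℓL φ h0, sub_self]
    · intro ψ hδ
      rcases Nat.eq_zero_or_pos k with hk0 | hkpos
      · -- `Γ = Γ'`
        subst hk0
        have hg1 : g₀ ∈ gammaH L M H' := by
          have := (hord 1).mpr (by simp)
          simpa using this
        have hΓ' : gammaH L M H ≤ gammaH L M H' := by
          intro γ hγ
          obtain ⟨j, hj⟩ := hgen γ hγ
          have : γ = γ * g₀ ^ j * (g₀ ^ j)⁻¹ := by group
          rw [this]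
          exact mul_mem hj (inv_mem (pow_mem hg1 j))
        refine ⟨(etaS L M ℓ₀ H' F ψ).comp (MonoidHom.toAdditive (Subgroup.inclusion hΓ')), ?_⟩
        refine AddMonoidHom.ext fun x => ?_
        obtain ⟨x, rfl⟩ : ∃ x' : gammaH L M H', Additive.ofMul x' = x := ⟨Additive.toMul x, rfl⟩
        rfl
      · have hmA : ∀ a : F, (p ^ k) • a = 0 := by
          intro a
          rw [nsmul_eq_mul]
          have : ((p ^ k : ℕ) : F) = 0 := by
            rw [Nat.cast_pow, CharP.cast_eq_zero, zero_pow (Nat.pos_iff_ne_zero.mp hkpos)]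
          rw [this, zero_mul]
        have hinv : IsInv H' H ψ := k5s_isInv_of_gen g₀ hg₀ hgen ψ hδ
        exact stmtE2 L M ℓ₀ H' H hle F hℓ hℓL (p ^ k) g₀ hg₀ hgen hord hpk hmA ψ hinv
    · intro φ
      exact hS L M H' H hle F hNT φ
    · intro ψ
      rw [r1 ψ, AddMonoidHom.finsetSum_apply]
      rfl
  obtain ⟨ha, hb⟩ := key
  refine ⟨ha, fun ψ hψ hδ => ?_⟩
  obtain ⟨h1, v, hv, hve⟩ := hb ψ hψ hδ
  exact ⟨h1, v, hv, hve.trans (AddMonoidHom.finsetSum_apply _ _ _)⟩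

end Fermat.Agent.RT.K5
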