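/-
K-machine, piece K5 FREE-O (helper9): `stmtFreeO_of : StmtFreeFin → StmtFreeO`.

`𝒪` a complete discrete valuation ring with finite residue field, `V_K = Hom(Γ_K(L), 𝒪)` (finite
free), `Θ` on `V_K`.  `stmtFitO` gives the idempotent `e` with image `X(K) = etaPart Θ` and the
surjectivity of `X(K) → X_n(K) = etaPart (Θ on Hom(Γ_K(L), 𝒪/𝔪ⁿ))` (`stmtLift`: the reduction
`V_K → Hom(Γ_K(L), 𝒪/𝔪ⁿ)` is onto, with kernel `𝔪ⁿ V_K`).  A basis of `X₁(H')` over `(𝒪/𝔪)[Δ]`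
(from `StmtFreeFin` at `n = 1`) is lifted to `X(H')`; Nakayama: it generates `X(H')`, hence all
`X_n(H')`; counting (`StmtFreeFin` at `n`) gives the injectivity at level `n`, and
`⋂ 𝔪ⁿ = 0` the injectivity over `𝒪`.
-/
import Fermat.Agent.RT.K5.Plan5
import Fermat.Agent.RT.K5.FitO
import Fermat.Agent.RT.K5.Step

set_option autoImplicit false
set_option linter.style.haveILetI false
set_option linter.unusedSectionVars false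
set_option linter.unusedVariables false

noncomputable section

namespace Fermat.Agent.RT.K5

open CongruenceSubgroup Matrix
open scoped MatrixGroups
open Fermat.Agent.ES1 (gammaH diamHom pmH)

/-! ## `Hom(Γ, 𝒪)` is finite free -/

section homfree

variable (Γ : Subgroup SL(2, ℤ)) [Γ.FiniteIndex]

theorem k5fo_exists_gens : ∃ S : Finset Γ, Subgroup.closure (S : Set Γ) = ⊤ := by
  haveI : Group.FG SL(2, ℤ) := by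
    rw [Group.fg_iff]
    exact ⟨{ModularGroup.S, ModularGroup.T}, _root_.SpecialLinearGroup.SL2Z_generators,
      Set.toFinite _⟩
  haveI : Group.FG Γ := inferInstance
  exact Group.fg_def.1 (inferInstance : Group.FG Γ)

theorem k5fo_ext_gens {A : Type*} [AddCommGroup A] (S : Finset Γ)
    (hS : Subgroup.closure (S : Set Γ) = ⊤) (f g : HomS Γ A)
    (h : ∀ s ∈ S, f (Additive.ofMul s) = g (Additive.ofMul s)) : f = g := by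
  have h1 : (AddMonoidHom.toMultiplicativeRight f : Γ →* Multiplicative A)
      = AddMonoidHom.toMultiplicativeRight g := by
    refine MonoidHom.eq_of_eqOn_dense hS ?_
    intro x hx
    exact congrArg Multiplicative.ofAdd (h x hx)
  exact AddMonoidHom.toMultiplicativeRight.injective h1

variable (𝒪 : Type) [CommRing 𝒪]

theorem k5fo_finite [IsNoetherianRing 𝒪] : Module.Finite 𝒪 (HomS Γ 𝒪) := by
  obtain ⟨S, hS⟩ := k5fo_exists_gens Γ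
  let ev : HomS Γ 𝒪 →ₗ[𝒪] (S → 𝒪) :=
    { toFun := fun f s => f (Additive.ofMul (s : Γ))
      map_add' := fun _ _ => rfl
      map_smul' := fun _ _ => rfl }
  have hinj : Function.Injective ev := by
    intro f g h
    exact k5fo_ext_gens Γ S hS f g fun s hs => congrFun h ⟨s, hs⟩
  exact Module.Finite.of_injective ev hinj

theorem k5fo_free [IsDomain 𝒪] [IsPrincipalIdealRing 𝒪] : Module.Free 𝒪 (HomS Γ 𝒪) := by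
  haveI := k5fo_finite Γ 𝒪
  haveI : Module.IsTorsionFree 𝒪 (HomS Γ 𝒪) := by
    refine ⟨fun c hc f g h => ?_⟩
    refine AddMonoidHom.ext fun γ => ?_
    have h1 : c • f γ = c • g γ := congrArg (fun φ : HomS Γ 𝒪 => φ γ) h
    exact hc.1 h1
  exact Module.free_of_finite_type_torsion_free'

end homfree

/-! ## change of coefficients, `Θ` as a linear map -/

section red

variable {𝒪 : Type} [CommRing 𝒪] {L M : ℕ} [NeZero L] [hML : Fact (M ∣ L)]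

/-- `Θ` as an `𝒪`-linear map -/
def k5foTheta (𝔲 : NatFam 𝒪 L M) (ℓ₀ : ℕ) [NeZero ℓ₀] (A : Type) [AddCommGroup A] [Module 𝒪 A]
    (K : Subgroup (ZMod M)ˣ) : HomS (gammaH L M K) A →ₗ[𝒪] HomS (gammaH L M K) A where
  toFun := thetaN 𝔲 ℓ₀ A K
  map_add' := map_add _
  map_smul' c φ := k5n_theta_smul 𝔲 ℓ₀ K c φ

theorem k5fo_theta_toAdd (𝔲 : NatFam 𝒪 L M) (ℓ₀ : ℕ) [NeZero ℓ₀] (A : Type) [AddCommGroup A]
    [Module 𝒪 A] (K : Subgroup (ZMod M)ˣ) :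
    (k5foTheta 𝔲 ℓ₀ A K).toAddMonoidHom = thetaN 𝔲 ℓ₀ A K :=
  AddMonoidHom.ext fun _ => rfl

/-- change of coefficients as an `𝒪`-linear map -/
def k5foMap (Γ : Subgroup SL(2, ℤ)) {A B : Type} [AddCommGroup A] [Module 𝒪 A] [AddCommGroup B]
    [Module 𝒪 B] (f : A →ₗ[𝒪] B) : HomS Γ A →ₗ[𝒪] HomS Γ B where
  toFun := mapS f.toAddMonoidHom
  map_add' := map_add _
  map_smul' c φ := by
    refine AddMonoidHom.ext fun γ => ?_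
    exact map_smul f c (φ γ)

theorem k5fo_map_apply (Γ : Subgroup SL(2, ℤ)) {A B : Type} [AddCommGroup A] [Module 𝒪 A]
    [AddCommGroup B] [Module 𝒪 B] (f : A →ₗ[𝒪] B) (φ : HomS Γ A) :
    k5foMap Γ f φ = mapS f.toAddMonoidHom φ := rfl

/-- the `Θ`-part is stable under the scalars -/
theorem k5fo_smul_mem (𝔲 : NatFam 𝒪 L M) (ℓ₀ : ℕ) [NeZero ℓ₀] {A : Type} [AddCommGroup A]
    [Module 𝒪 A] (K : Subgroup (ZMod M)ˣ) (c : 𝒪) {ψ : HomS (gammaH L M K) A}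
    (hψ : ψ ∈ etaPart (thetaN 𝔲 ℓ₀ A K)) : c • ψ ∈ etaPart (thetaN 𝔲 ℓ₀ A K) :=
  k5s_intertwine_mem (thetaN 𝔲 ℓ₀ A K) (thetaN 𝔲 ℓ₀ A K)
    (DistribSMul.toAddMonoidHom (HomS (gammaH L M K) A) c)
    (fun x => (k5n_theta_smul 𝔲 ℓ₀ K c x).symm) hψ

/-- the `Θ`-part as a submodule -/
def k5foX (𝔲 : NatFam 𝒪 L M) (ℓ₀ : ℕ) [NeZero ℓ₀] (A : Type) [AddCommGroup A] [Module 𝒪 A]
    (K : Subgroup (ZMod M)ˣ) : Submodule 𝒪 (HomS (gammaH L M K) A) where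
  carrier := {ψ | ψ ∈ etaPart (thetaN 𝔲 ℓ₀ A K)}
  add_mem' := fun ha hb => (etaPart (thetaN 𝔲 ℓ₀ A K)).add_mem ha hb
  zero_mem' := (etaPart (thetaN 𝔲 ℓ₀ A K)).zero_mem
  smul_mem' := fun c _ h => k5fo_smul_mem 𝔲 ℓ₀ K c h

theorem k5fo_mem_X (𝔲 : NatFam 𝒪 L M) (ℓ₀ : ℕ) [NeZero ℓ₀] (A : Type) [AddCommGroup A]
    [Module 𝒪 A] (K : Subgroup (ZMod M)ˣ) (ψ : HomS (gammaH L M K) A) :
    ψ ∈ k5foX 𝔲 ℓ₀ A K ↔ ψ ∈ etaPart (thetaN 𝔲 ℓ₀ A K) := Iff.rfl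

/-- scalars of the quotient ring and scalars of `𝒪` -/
theorem k5fo_mk_smul (I : Ideal 𝒪) {Γ : Subgroup SL(2, ℤ)} (c : 𝒪) (ψ : HomS Γ (𝒪 ⧸ I)) :
    (Ideal.Quotient.mk I c) • ψ = c • ψ := by
  refine AddMonoidHom.ext fun γ => ?_
  show Ideal.Quotient.mk I c * ψ γ = c • ψ γ
  obtain ⟨a, ha⟩ := Ideal.Quotient.mk_surjective (ψ γ)
  rw [← ha]
  rfl

/-- the reduction `Hom(Γ, 𝒪) → Hom(Γ, 𝒪/I)` -/
abbrev k5foRed (I : Ideal 𝒪) (Γ : Subgroup SL(2, ℤ)) : HomS Γ 𝒪 →+ HomS Γ (𝒪 ⧸ I) :=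
  mapS (Submodule.mkQ I).toAddMonoidHom

theorem k5fo_red_smul (I : Ideal 𝒪) (Γ : Subgroup SL(2, ℤ)) (c : 𝒪) (φ : HomS Γ 𝒪) :
    k5foRed I Γ (c • φ) = Ideal.Quotient.mk I c • k5foRed I Γ φ := by
  rw [k5fo_mk_smul]
  exact (k5foMap Γ (Submodule.mkQ I)).map_smul c φ

theorem k5fo_red_eq_zero (I : Ideal 𝒪) (Γ : Subgroup SL(2, ℤ)) (φ : HomS Γ 𝒪)
    (h : k5foRed I Γ φ = 0) (γ : Additive Γ) : φ γ ∈ I := by
  have h1 : Submodule.mkQ I (φ γ) = 0 := congrArg (fun ψ : HomS Γ (𝒪 ⧸ I) => ψ γ) h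
  rwa [Submodule.mkQ_apply, Submodule.Quotient.mk_eq_zero] at h1

/-- the reduction intertwines `Θ` -/
theorem k5fo_red_theta (𝔲 : NatFam 𝒪 L M) (ℓ₀ : ℕ) [NeZero ℓ₀] (I : Ideal 𝒪)
    (K : Subgroup (ZMod M)ˣ) (φ : HomS (gammaH L M K) 𝒪) :
    k5foRed I _ (thetaN 𝔲 ℓ₀ 𝒪 K φ) = thetaN 𝔲 ℓ₀ (𝒪 ⧸ I) K (k5foRed I _ φ) :=
  k5n_theta_nat 𝔲 ℓ₀ (Submodule.mkQ I) K φ

theorem k5fo_red_mem (𝔲 : NatFam 𝒪 L M) (ℓ₀ : ℕ) [NeZero ℓ₀] (I : Ideal 𝒪)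
    (K : Subgroup (ZMod M)ˣ) {φ : HomS (gammaH L M K) 𝒪}
    (hφ : φ ∈ etaPart (thetaN 𝔲 ℓ₀ 𝒪 K)) :
    k5foRed I _ φ ∈ etaPart (thetaN 𝔲 ℓ₀ (𝒪 ⧸ I) K) :=
  k5s_intertwine_mem _ _ (k5foRed I _) (fun x => k5fo_red_theta 𝔲 ℓ₀ I K x) hφ

theorem k5fo_noTors_mono {Γ' Γ : Subgroup SL(2, ℤ)} (h : Γ' ≤ Γ) {A : Type} [AddCommGroup A]
    (hA : NoTors Γ A) : NoTors Γ' A :=
  ⟨hA.1, hA.2.imp id fun h3 g hg => h3 g (h hg)⟩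

end red

/-! ## divisibility in the kernel of the reduction -/

section ker

variable {𝒪 : Type} [CommRing 𝒪] [IsDomain 𝒪] [IsDiscreteValuationRing 𝒪]

theorem k5fo_ker_red (Γ : Subgroup SL(2, ℤ)) (n : ℕ) (φ : HomS Γ 𝒪)
    (h : k5foRed (IsLocalRing.maximalIdeal 𝒪 ^ n) Γ φ = 0) :
    ∃ c ∈ IsLocalRing.maximalIdeal 𝒪 ^ n, ∃ φ' : HomS Γ 𝒪, φ = c • φ' := by
  obtain ⟨ϖ, hϖ⟩ := IsDiscreteValuationRing.exists_irreducible 𝒪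
  have hm : IsLocalRing.maximalIdeal 𝒪 ^ n = Ideal.span {ϖ ^ n} := by
    rw [hϖ.maximalIdeal_eq, Ideal.span_singleton_pow]
  have hc0 : ϖ ^ n ≠ 0 := pow_ne_zero n hϖ.ne_zero
  have hdvd : ∀ γ : Additive Γ, ∃ a : 𝒪, φ γ = ϖ ^ n * a := by
    intro γ
    have h1 := k5fo_red_eq_zero _ Γ φ h γ
    rw [hm, Ideal.mem_span_singleton] at h1
    exact h1
  choose q hq using hdvd
  refine ⟨ϖ ^ n, by rw [hm]; exact Ideal.mem_span_singleton_self _, AddMonoidHom.mk' q ?_, ?_⟩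
  · intro a b
    apply mul_left_cancel₀ hc0
    rw [← hq, mul_add, ← hq, ← hq, map_add]
  · refine AddMonoidHom.ext fun γ => ?_
    rw [AddMonoidHom.smul_apply, AddMonoidHom.mk'_apply, smul_eq_mul]
    exact hq γ

end ker

/-! ## Nakayama -/

theorem k5fo_nakayama {R V : Type*} [CommRing R] [IsLocalRing R] [AddCommGroup V] [Module R V]
    (X : Submodule R V) (hX : X.FG) {ι : Type*} [Fintype ι] (d : ι → V)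
    (h : ∀ v ∈ X, ∃ c : ι → R, v - ∑ x, c x • d x ∈ IsLocalRing.maximalIdeal R • X) :
    ∀ v ∈ X, ∃ c : ι → R, v = ∑ x, c x • d x := by
  have h1 : X ≤ Submodule.span R (Set.range d) ⊔ IsLocalRing.maximalIdeal R • X := by
    intro v hv
    obtain ⟨c, hc⟩ := h v hv
    have h2 : v = ∑ x, c x • d x + (v - ∑ x, c x • d x) := by abel
    rw [h2]
    exact Submodule.add_mem_sup (Submodule.sum_mem _ fun x _ =>
      Submodule.smul_mem _ _ (Submodule.subset_span ⟨x, rfl⟩)) hc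
  have h2 := Submodule.le_of_le_smul_of_le_jacobson_bot hX
    (IsLocalRing.maximalIdeal_le_jacobson ⊥) h1
  intro v hv
  obtain ⟨c, hc⟩ := (Submodule.mem_span_range_iff_exists_fun R).1 (h2 hv)
  exact ⟨c, hc.symm⟩

/-! ## the reduction of the `Θ`-part: onto, kernel `𝔪ⁿ ·` -/

section fit

variable {𝒪 : Type} [CommRing 𝒪] [IsDomain 𝒪] [IsDiscreteValuationRing 𝒪]
  [IsAdicComplete (IsLocalRing.maximalIdeal 𝒪) 𝒪] [Finite (IsLocalRing.ResidueField 𝒪)]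
  {L M : ℕ} [NeZero L] [hML : Fact (M ∣ L)]

omit [IsAdicComplete (IsLocalRing.maximalIdeal 𝒪) 𝒪] in
theorem k5fo_finite_quot (n : ℕ) : Finite (𝒪 ⧸ IsLocalRing.maximalIdeal 𝒪 ^ n) := by
  haveI : Finite (𝒪 ⧸ IsLocalRing.maximalIdeal 𝒪) := ‹Finite (IsLocalRing.ResidueField 𝒪)›
  exact Ideal.finite_quotient_pow (IsNoetherian.noetherian _) n

/-- the reduction `X(K) → X_n(K)` is onto -/
theorem k5fo_red_onto (𝔲 : NatFam 𝒪 L M) (ℓ₀ : ℕ) [NeZero ℓ₀] (n : ℕ) (K : Subgroup (ZMod M)ˣ)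
    (hNT : NoTors (gammaH L M K) (𝒪 ⧸ IsLocalRing.maximalIdeal 𝒪 ^ n))
    {w : HomS (gammaH L M K) (𝒪 ⧸ IsLocalRing.maximalIdeal 𝒪 ^ n)}
    (hw : w ∈ etaPart (thetaN 𝔲 ℓ₀ (𝒪 ⧸ IsLocalRing.maximalIdeal 𝒪 ^ n) K)) :
    ∃ v ∈ etaPart (thetaN 𝔲 ℓ₀ 𝒪 K), k5foRed (IsLocalRing.maximalIdeal 𝒪 ^ n) _ v = w := by
  haveI := k5fo_finite (gammaH L M K) 𝒪
  haveI := k5fo_free (gammaH L M K) 𝒪
  haveI := k5fo_finite_quot (𝒪 := 𝒪) n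
  haveI : Finite (HomS (gammaH L M K) (𝒪 ⧸ IsLocalRing.maximalIdeal 𝒪 ^ n)) :=
    k5s_finite_homS _ _
  obtain ⟨-, -, -, hlift⟩ := stmtFitO 𝒪 (HomS (gammaH L M K) 𝒪) (k5foTheta 𝔲 ℓ₀ 𝒪 K)
  have hsurj : Function.Surjective
      (k5foMap (gammaH L M K) (Submodule.mkQ (IsLocalRing.maximalIdeal 𝒪 ^ n))) := by
    intro ψ
    obtain ⟨φ', hφ'⟩ := stmtLift L M K 𝒪 _
      (Submodule.mkQ (IsLocalRing.maximalIdeal 𝒪 ^ n)).toAddMonoidHom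
      (Submodule.mkQ_surjective _) hNT ψ
    exact ⟨φ', hφ'⟩
  have hcomm : k5foMap (gammaH L M K) (Submodule.mkQ (IsLocalRing.maximalIdeal 𝒪 ^ n)) ∘ₗ
      k5foTheta 𝔲 ℓ₀ 𝒪 K = k5foTheta 𝔲 ℓ₀ (𝒪 ⧸ IsLocalRing.maximalIdeal 𝒪 ^ n) K ∘ₗ
        k5foMap (gammaH L M K) (Submodule.mkQ (IsLocalRing.maximalIdeal 𝒪 ^ n)) := by
    refine LinearMap.ext fun φ => ?_
    exact k5fo_red_theta 𝔲 ℓ₀ _ K φ
  have hw' : w ∈ etaPart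
      (k5foTheta 𝔲 ℓ₀ (𝒪 ⧸ IsLocalRing.maximalIdeal 𝒪 ^ n) K).toAddMonoidHom := by
    rw [k5fo_theta_toAdd]
    exact hw
  obtain ⟨v, hv, hvw⟩ := hlift (HomS (gammaH L M K) (𝒪 ⧸ IsLocalRing.maximalIdeal 𝒪 ^ n))
    (k5foMap _ (Submodule.mkQ _)) (k5foTheta 𝔲 ℓ₀ _ K) hsurj hcomm w hw'
  rw [k5fo_theta_toAdd] at hv
  exact ⟨v, hv, hvw⟩

/-- the kernel of the reduction `X(K) → X_n(K)` is `𝔪ⁿ X(K)` -/
theorem k5fo_red_ker (𝔲 : NatFam 𝒪 L M) (ℓ₀ : ℕ) [NeZero ℓ₀] (n : ℕ) (K : Subgroup (ZMod M)ˣ)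
    {v : HomS (gammaH L M K) 𝒪} (hv : v ∈ etaPart (thetaN 𝔲 ℓ₀ 𝒪 K))
    (h0 : k5foRed (IsLocalRing.maximalIdeal 𝒪 ^ n) _ v = 0) :
    ∃ c ∈ IsLocalRing.maximalIdeal 𝒪 ^ n, ∃ v' ∈ etaPart (thetaN 𝔲 ℓ₀ 𝒪 K), v = c • v' := by
  haveI := k5fo_finite (gammaH L M K) 𝒪
  haveI := k5fo_free (gammaH L M K) 𝒪
  obtain ⟨⟨e, he, h1, h2, h3⟩, -, -, -⟩ :=
    stmtFitO 𝒪 (HomS (gammaH L M K) 𝒪) (k5foTheta 𝔲 ℓ₀ 𝒪 K)
  rw [k5fo_theta_toAdd] at h1 h2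
  obtain ⟨c, hc, φ', hφ'⟩ := k5fo_ker_red _ n v h0
  refine ⟨c, hc, e φ', h1 φ', ?_⟩
  rw [← map_smul, ← hφ', h2 v hv]

end fit

/-! ## lifting generators and bases -/

theorem k5fo_inj_of_surj {D Y : Type*} [Finite D] (f f' : D → Y) (hf' : Function.Injective f')
    (h1 : ∀ c, ∃ c', f' c' = f c) (h2 : ∀ c', ∃ c, f c = f' c') : Function.Injective f := by
  choose g hg using h1
  have hgs : Function.Surjective g := by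
    intro c'
    obtain ⟨c, hc⟩ := h2 c'
    exact ⟨c, hf' (by rw [hg, hc])⟩
  have hgi : Function.Injective g := Finite.injective_iff_surjective.2 hgs
  intro a b hab
  apply hgi
  apply hf'
  rw [hg, hg]
  exact hab

section gen

variable {𝒪 : Type} [CommRing 𝒪] [IsDomain 𝒪] [IsDiscreteValuationRing 𝒪]
  [IsAdicComplete (IsLocalRing.maximalIdeal 𝒪) 𝒪] [Finite (IsLocalRing.ResidueField 𝒪)]
  {L M : ℕ} [NeZero L] [hML : Fact (M ∣ L)]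
  (𝔲 : NatFam 𝒪 L M) (ℓ₀ : ℕ) [NeZero ℓ₀] (K : Subgroup (ZMod M)ˣ)
  {ι : Type} [Fintype ι] (d : ι → HomS (gammaH L M K) 𝒪)

omit [IsDomain 𝒪] [IsDiscreteValuationRing 𝒪]
  [IsAdicComplete (IsLocalRing.maximalIdeal 𝒪) 𝒪] [Finite (IsLocalRing.ResidueField 𝒪)] in
/-- sums with coefficients in `𝒪/I` stay in the `Θ`-part -/
theorem k5fo_sum_mem (I : Ideal 𝒪) (y : ι → HomS (gammaH L M K) (𝒪 ⧸ I))
    (hy : ∀ x, y x ∈ etaPart (thetaN 𝔲 ℓ₀ (𝒪 ⧸ I) K)) (c : ι → 𝒪 ⧸ I) :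
    ∑ x, c x • y x ∈ etaPart (thetaN 𝔲 ℓ₀ (𝒪 ⧸ I) K) := by
  refine AddSubgroup.sum_mem _ fun x _ => ?_
  obtain ⟨a, ha⟩ := Ideal.Quotient.mk_surjective (c x)
  rw [← ha, k5fo_mk_smul]
  exact k5fo_smul_mem 𝔲 ℓ₀ K a (hy x)

omit [IsDomain 𝒪] [IsDiscreteValuationRing 𝒪]
  [IsAdicComplete (IsLocalRing.maximalIdeal 𝒪) 𝒪] [Finite (IsLocalRing.ResidueField 𝒪)] in
theorem k5fo_red_sum (I : Ideal 𝒪) (c : ι → 𝒪) :
    k5foRed I _ (∑ x, c x • d x) = ∑ x, Ideal.Quotient.mk I (c x) • k5foRed I _ (d x) := by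
  rw [map_sum]
  exact Finset.sum_congr rfl fun x _ => k5fo_red_smul I _ (c x) (d x)

/-- generators of `X₁(K)` lift to generators of `X(K)` -/
theorem k5fo_span_O (hd : ∀ x, d x ∈ etaPart (thetaN 𝔲 ℓ₀ 𝒪 K))
    (h1 : ∀ ψ ∈ etaPart (thetaN 𝔲 ℓ₀ (𝒪 ⧸ IsLocalRing.maximalIdeal 𝒪 ^ 1) K),
      ∃ c : ι → 𝒪 ⧸ IsLocalRing.maximalIdeal 𝒪 ^ 1,
        ψ = ∑ x, c x • k5foRed (IsLocalRing.maximalIdeal 𝒪 ^ 1) _ (d x)) :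
    ∀ v ∈ etaPart (thetaN 𝔲 ℓ₀ 𝒪 K), ∃ c : ι → 𝒪, v = ∑ x, c x • d x := by
  haveI := k5fo_finite (gammaH L M K) 𝒪
  haveI : IsNoetherian 𝒪 (HomS (gammaH L M K) 𝒪) :=
    isNoetherian_of_isNoetherianRing_of_finite 𝒪 _
  refine k5fo_nakayama (k5foX 𝔲 ℓ₀ 𝒪 K) (IsNoetherian.noetherian _) d fun v hv => ?_
  obtain ⟨cbar, hcbar⟩ := h1 _ (k5fo_red_mem 𝔲 ℓ₀ (IsLocalRing.maximalIdeal 𝒪 ^ 1) K hv)
  choose c hc using fun x => Ideal.Quotient.mk_surjective (cbar x)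
  refine ⟨c, ?_⟩
  have hw : v - ∑ x, c x • d x ∈ etaPart (thetaN 𝔲 ℓ₀ 𝒪 K) :=
    (k5foX 𝔲 ℓ₀ 𝒪 K).sub_mem hv
      (Submodule.sum_mem _ fun x _ => Submodule.smul_mem _ _ (hd x))
  have h0 : k5foRed (IsLocalRing.maximalIdeal 𝒪 ^ 1) _ (v - ∑ x, c x • d x) = 0 := by
    rw [map_sub, k5fo_red_sum, hcbar, sub_eq_zero]
    exact Finset.sum_congr rfl fun x _ => by rw [hc x]
  obtain ⟨c', hc', v', hv', hvv'⟩ := k5fo_red_ker 𝔲 ℓ₀ 1 K hw h0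
  rw [hvv']
  rw [pow_one] at hc'
  exact Submodule.smul_mem_smul hc' hv'

/-- … and to generators of every `X_n(K)` -/
theorem k5fo_span_n (hd : ∀ x, d x ∈ etaPart (thetaN 𝔲 ℓ₀ 𝒪 K))
    (h1 : ∀ ψ ∈ etaPart (thetaN 𝔲 ℓ₀ (𝒪 ⧸ IsLocalRing.maximalIdeal 𝒪 ^ 1) K),
      ∃ c : ι → 𝒪 ⧸ IsLocalRing.maximalIdeal 𝒪 ^ 1,
        ψ = ∑ x, c x • k5foRed (IsLocalRing.maximalIdeal 𝒪 ^ 1) _ (d x))
    (n : ℕ) (hNT : NoTors (gammaH L M K) (𝒪 ⧸ IsLocalRing.maximalIdeal 𝒪 ^ n)) :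
    ∀ ψ ∈ etaPart (thetaN 𝔲 ℓ₀ (𝒪 ⧸ IsLocalRing.maximalIdeal 𝒪 ^ n) K),
      ∃ c : ι → 𝒪 ⧸ IsLocalRing.maximalIdeal 𝒪 ^ n,
        ψ = ∑ x, c x • k5foRed (IsLocalRing.maximalIdeal 𝒪 ^ n) _ (d x) := by
  intro ψ hψ
  obtain ⟨v, hv, rfl⟩ := k5fo_red_onto 𝔲 ℓ₀ n K hNT hψ
  obtain ⟨c, rfl⟩ := k5fo_span_O 𝔲 ℓ₀ K d hd h1 v hv
  exact ⟨fun x => Ideal.Quotient.mk _ (c x), k5fo_red_sum K d _ c⟩

/-- injectivity at level `n` by counting -/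
theorem k5fo_inj_n (hd : ∀ x, d x ∈ etaPart (thetaN 𝔲 ℓ₀ 𝒪 K))
    (h1 : ∀ ψ ∈ etaPart (thetaN 𝔲 ℓ₀ (𝒪 ⧸ IsLocalRing.maximalIdeal 𝒪 ^ 1) K),
      ∃ c : ι → 𝒪 ⧸ IsLocalRing.maximalIdeal 𝒪 ^ 1,
        ψ = ∑ x, c x • k5foRed (IsLocalRing.maximalIdeal 𝒪 ^ 1) _ (d x))
    (n : ℕ) (hNT : NoTors (gammaH L M K) (𝒪 ⧸ IsLocalRing.maximalIdeal 𝒪 ^ n))
    (d' : ι → HomS (gammaH L M K) (𝒪 ⧸ IsLocalRing.maximalIdeal 𝒪 ^ n))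
    (hd' : ∀ x, d' x ∈ etaPart (thetaN 𝔲 ℓ₀ (𝒪 ⧸ IsLocalRing.maximalIdeal 𝒪 ^ n) K))
    (hinj' : Function.Injective
      (fun c : ι → 𝒪 ⧸ IsLocalRing.maximalIdeal 𝒪 ^ n => ∑ x, c x • d' x))
    (hspan' : ∀ ψ ∈ etaPart (thetaN 𝔲 ℓ₀ (𝒪 ⧸ IsLocalRing.maximalIdeal 𝒪 ^ n) K),
      ∃ c : ι → 𝒪 ⧸ IsLocalRing.maximalIdeal 𝒪 ^ n, ψ = ∑ x, c x • d' x) :
    Function.Injective (fun c : ι → 𝒪 ⧸ IsLocalRing.maximalIdeal 𝒪 ^ n =>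
      ∑ x, c x • k5foRed (IsLocalRing.maximalIdeal 𝒪 ^ n) _ (d x)) := by
  haveI := k5fo_finite_quot (𝒪 := 𝒪) n
  refine k5fo_inj_of_surj _ _ hinj' (fun c => ?_) (fun c' => ?_)
  · obtain ⟨c', hc'⟩ := hspan' _
      (k5fo_sum_mem 𝔲 ℓ₀ K _ _ (fun x => k5fo_red_mem 𝔲 ℓ₀ _ K (hd x)) c)
    exact ⟨c', hc'.symm⟩
  · obtain ⟨c, hc⟩ := k5fo_span_n 𝔲 ℓ₀ K d hd h1 n hNT _ (k5fo_sum_mem 𝔲 ℓ₀ K _ d' hd' c')
    exact ⟨c, hc.symm⟩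

omit [IsAdicComplete (IsLocalRing.maximalIdeal 𝒪) 𝒪] [Finite (IsLocalRing.ResidueField 𝒪)] in
/-- injectivity over `𝒪` from injectivity at all levels -/
theorem k5fo_inj_O
    (hinj : ∀ n : ℕ, Function.Injective (fun c : ι → 𝒪 ⧸ IsLocalRing.maximalIdeal 𝒪 ^ n =>
      ∑ x, c x • k5foRed (IsLocalRing.maximalIdeal 𝒪 ^ n) _ (d x))) :
    Function.Injective (fun c : ι → 𝒪 => ∑ x, c x • d x) := by
  intro c c' h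
  funext x
  have hx : ∀ n : ℕ, c x - c' x ∈ IsLocalRing.maximalIdeal 𝒪 ^ n := by
    intro n
    have h1 : k5foRed (IsLocalRing.maximalIdeal 𝒪 ^ n) _ (∑ x, c x • d x)
        = k5foRed (IsLocalRing.maximalIdeal 𝒪 ^ n) _ (∑ x, c' x • d x) := congrArg _ h
    rw [k5fo_red_sum, k5fo_red_sum] at h1
    have h2 := congrFun (@hinj n (fun x => Ideal.Quotient.mk _ (c x))
      (fun x => Ideal.Quotient.mk _ (c' x)) h1) x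
    exact Ideal.Quotient.eq.1 h2
  have h3 : c x - c' x ∈ (⨅ n : ℕ, IsLocalRing.maximalIdeal 𝒪 ^ n : Ideal 𝒪) :=
    (Submodule.mem_iInf _).2 hx
  rw [Ideal.iInf_pow_eq_bot_of_isLocalRing _ (IsLocalRing.maximalIdeal.isMaximal 𝒪).ne_top]
    at h3
  exact sub_eq_zero.1 h3

end gen

/-! ## the theorem -/

/-- **K5-FREE-O** from **K5-FREE-fin** -/
theorem stmtFreeO_of (hfin : StmtFreeFin) : StmtFreeO := by
  intro p _ 𝒪 _ _ _ _ _ L M ℓ₀ _ _ _ H' H k hyp 𝔲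
  obtain ⟨r, hr⟩ := hfin p 𝒪 L M ℓ₀ H' H k hyp 𝔲
  have hle : H' ≤ H := hyp.le
  have hNT : ∀ n, NoTors (gammaH L M H) (𝒪 ⧸ IsLocalRing.maximalIdeal 𝒪 ^ n) := hyp.noTors
  have hNT' : ∀ n, NoTors (gammaH L M H') (𝒪 ⧸ IsLocalRing.maximalIdeal 𝒪 ^ n) := fun n =>
    k5fo_noTors_mono (Fermat.Agent.ES1.gammaH_mono hle) (hNT n)
  obtain ⟨b₁, hb₁⟩ := hr 1
  -- lift the basis of level `1`
  have hlift : ∀ i, ∃ v ∈ etaPart (thetaN 𝔲 ℓ₀ 𝒪 H'),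
      k5foRed (IsLocalRing.maximalIdeal 𝒪 ^ 1) _ v = b₁ i :=
    fun i => k5fo_red_onto 𝔲 ℓ₀ 1 H' (hNT' 1) (hb₁.1 i)
  choose b hb hbred using hlift
  -- the diamond family
  have hdU : ∀ (m : ℕ) (u : Fin m → (ZMod M)ˣ) (x : Fin r × Fin m),
      diamU L M H' 𝒪 (u x.2) (b x.1) ∈ etaPart (thetaN 𝔲 ℓ₀ 𝒪 H') := fun m u x =>
    k5act_thetaS_mem L M H' 𝒪 (𝔲.fam 𝒪) ℓ₀ (u x.2) (hb x.1)
  have h1U : ∀ (m : ℕ) (u : Fin m → (ZMod M)ˣ), IsTransversal H' H u →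
      ∀ ψ ∈ etaPart (thetaN 𝔲 ℓ₀ (𝒪 ⧸ IsLocalRing.maximalIdeal 𝒪 ^ 1) H'),
      ∃ c : Fin r × Fin m → 𝒪 ⧸ IsLocalRing.maximalIdeal 𝒪 ^ 1,
        ψ = ∑ x, c x • k5foRed (IsLocalRing.maximalIdeal 𝒪 ^ 1) _
          (diamU L M H' 𝒪 (u x.2) (b x.1)) := by
    intro m u hu ψ hψ
    obtain ⟨c, hc⟩ := (hb₁.2.1 m u hu).2 ψ hψ
    refine ⟨c, ?_⟩
    rw [hc]
    refine Finset.sum_congr rfl fun x _ => ?_
    show c x • diamU L M H' _ (u x.2) (b₁ x.1)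
      = c x • diamU L M H' _ (u x.2) (k5foRed (IsLocalRing.maximalIdeal 𝒪 ^ 1) _ (b x.1))
    rw [hbred]
  have hinjU : ∀ (m : ℕ) (u : Fin m → (ZMod M)ˣ), IsTransversal H' H u → ∀ n : ℕ,
      Function.Injective (fun c : Fin r × Fin m → 𝒪 ⧸ IsLocalRing.maximalIdeal 𝒪 ^ n =>
        ∑ x, c x • k5foRed (IsLocalRing.maximalIdeal 𝒪 ^ n) _
          (diamU L M H' 𝒪 (u x.2) (b x.1))) := by
    intro m u hu n
    obtain ⟨bn, hbn⟩ := hr n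
    exact k5fo_inj_n 𝔲 ℓ₀ H' (fun x : Fin r × Fin m => diamU L M H' 𝒪 (u x.2) (b x.1))
      (hdU m u) (h1U m u hu) n (hNT' n)
      (fun x => diamU L M H' _ (u x.2) (bn x.1))
      (fun x => k5act_thetaS_mem L M H' _ (𝔲.fam _) ℓ₀ (u x.2) (hbn.1 x.1))
      (hbn.2.1 m u hu).1 (hbn.2.1 m u hu).2
  -- the corestricted family
  have hcores_mem : ∀ (A : Type) [AddCommGroup A] [Module 𝒪 A] (ψ : HomS (gammaH L M H') A),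
      ψ ∈ etaPart (thetaN 𝔲 ℓ₀ A H') →
      coresS A (Fermat.Agent.ES1.gammaH_mono hle) ψ ∈ etaPart (thetaN 𝔲 ℓ₀ A H) :=
    fun A _ _ ψ hψ => k5s_intertwine_mem (thetaN 𝔲 ℓ₀ A H') (thetaN 𝔲 ℓ₀ A H)
      (coresS A (Fermat.Agent.ES1.gammaH_mono hle)) (fun x => k5n_theta_cores 𝔲 ℓ₀ hle x) hψ
  have hcr : ∀ (n : ℕ) (i : Fin r), k5foRed (IsLocalRing.maximalIdeal 𝒪 ^ n) _
      (coresS 𝒪 (Fermat.Agent.ES1.gammaH_mono hle) (b i))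
      = coresS (𝒪 ⧸ IsLocalRing.maximalIdeal 𝒪 ^ n) (Fermat.Agent.ES1.gammaH_mono hle)
        (k5foRed (IsLocalRing.maximalIdeal 𝒪 ^ n) _ (b i)) := fun n i =>
    k5nat_cores _ (Fermat.Agent.ES1.gammaH_mono hle) (b i)
  have hdC : ∀ i : Fin r, coresS 𝒪 (Fermat.Agent.ES1.gammaH_mono hle) (b i)
      ∈ etaPart (thetaN 𝔲 ℓ₀ 𝒪 H) := fun i => hcores_mem 𝒪 _ (hb i)
  have h1C : ∀ ψ ∈ etaPart (thetaN 𝔲 ℓ₀ (𝒪 ⧸ IsLocalRing.maximalIdeal 𝒪 ^ 1) H),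
      ∃ c : Fin r → 𝒪 ⧸ IsLocalRing.maximalIdeal 𝒪 ^ 1,
        ψ = ∑ i, c i • k5foRed (IsLocalRing.maximalIdeal 𝒪 ^ 1) _
          (coresS 𝒪 (Fermat.Agent.ES1.gammaH_mono hle) (b i)) := by
    intro ψ hψ
    obtain ⟨c, hc⟩ := hb₁.2.2.2 ψ hψ
    refine ⟨c, ?_⟩
    rw [hc]
    refine Finset.sum_congr rfl fun i _ => ?_
    rw [hcr, hbred]
  have hinjC : ∀ n : ℕ,
      Function.Injective (fun c : Fin r → 𝒪 ⧸ IsLocalRing.maximalIdeal 𝒪 ^ n =>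
        ∑ i, c i • k5foRed (IsLocalRing.maximalIdeal 𝒪 ^ n) _
          (coresS 𝒪 (Fermat.Agent.ES1.gammaH_mono hle) (b i))) := by
    intro n
    obtain ⟨bn, hbn⟩ := hr n
    exact k5fo_inj_n 𝔲 ℓ₀ H (fun i : Fin r => coresS 𝒪 (Fermat.Agent.ES1.gammaH_mono hle) (b i))
      hdC h1C n (hNT n)
      (fun i => coresS _ (Fermat.Agent.ES1.gammaH_mono hle) (bn i))
      (fun i => hcores_mem _ _ (hbn.1 i)) hbn.2.2.1 hbn.2.2.2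
  refine ⟨r, b, ⟨hb, fun m u hu => ⟨?_, ?_⟩, ?_, ?_⟩, fun n => ⟨?_, fun m u hu => ⟨?_, ?_⟩, ?_, ?_⟩,
    ?_⟩
  · -- injectivity over `𝒪`, diamonds
    exact k5fo_inj_O H' (fun x : Fin r × Fin m => diamU L M H' 𝒪 (u x.2) (b x.1))
      (hinjU m u hu)
  · exact k5fo_span_O 𝔲 ℓ₀ H' (fun x : Fin r × Fin m => diamU L M H' 𝒪 (u x.2) (b x.1))
      (hdU m u) (h1U m u hu)
  · exact k5fo_inj_O H (fun i : Fin r => coresS 𝒪 (Fermat.Agent.ES1.gammaH_mono hle) (b i))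
      hinjC
  · exact k5fo_span_O 𝔲 ℓ₀ H (fun i : Fin r => coresS 𝒪 (Fermat.Agent.ES1.gammaH_mono hle) (b i))
      hdC h1C
  · -- level `n`
    intro i
    exact k5fo_red_mem 𝔲 ℓ₀ _ H' (hb i)
  · exact hinjU m u hu n
  · exact k5fo_span_n 𝔲 ℓ₀ H' (fun x : Fin r × Fin m => diamU L M H' 𝒪 (u x.2) (b x.1))
      (hdU m u) (h1U m u hu) n (hNT' n)
  · have h := hinjC n
    simp only [hcr] at h
    exact h
  · have h := k5fo_span_n 𝔲 ℓ₀ H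
      (fun i : Fin r => coresS 𝒪 (Fermat.Agent.ES1.gammaH_mono hle) (b i)) hdC h1C n (hNT n)
    simp only [hcr] at h
    exact h
  · rintro n K (rfl | rfl)
    · exact ⟨fun w hw => k5fo_red_onto 𝔲 ℓ₀ n K (hNT' n) hw,
        fun v hv h0 => k5fo_red_ker 𝔲 ℓ₀ n K hv h0⟩
    · exact ⟨fun w hw => k5fo_red_onto 𝔲 ℓ₀ n K (hNT n) hw,
        fun v hv h0 => k5fo_red_ker 𝔲 ℓ₀ n K hv h0⟩

end Fermat.Agent.RT.K5

end
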