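import Fermat.Agent.RT.K5.FreeFinFinal
import Fermat.Agent.RT.K5.FreeO

/-!
# K-machine, piece K5-FREE-O, final: `stmtFreeO : StmtFreeO`

`stmtFreeO_of` (helper9, `FreeO.lean`) applied to `stmtFreeFin` (`FreeFinFinal.lean`).
-/

set_option autoImplicit false

namespace Fermat.Agent.RT.K5

/-- **K5-FREE-O.** -/
theorem stmtFreeO : StmtFreeO := stmtFreeO_of stmtFreeFin

end Fermat.Agent.RT.K5
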