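import Fermat.Agent.RT.K5.Plan5

/-!
# K-machine, piece K5, interface for HECKE-asm (helper59's questions (Q1), (Q2))

* `genEig T a` : the generalised eigenspace `{v | ∀ i, ∃ n, (T i − a i)ⁿ v = 0}` of a family of
  endomorphisms;
* `StmtLocAbs`  (**K5-LOC**, abstract): on a FINITE abelian group the projector onto `genEig T a`
  is a finite product `∏_j (1 − (T_{i_j} − a_{i_j})^N)`;
* `StmtLocRing` (**K5-LOC**, ring): a commutative `𝒪`-algebra acting faithfully on a finite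
  nonzero `𝒪`-module, generated by elements `s` with `s − c_s` nilpotent (`c_s ∈ 𝒪`), is a finite
  local ring with the residue field of `𝒪` (`S53.IsResAlg`), and `s − c_s ∈ 𝔪`;
* `StmtParH`    (**K5-PARH**): for squarefree `L`, `(ℤ/M)ˣ/±H` a `p`-group and coefficients killed
  by `pⁿ` (`p ≠ 2`, `ℓ₀ ≠ p`): the `η`-part of `Hom(Γ_H(L), A)` consists of PARABOLIC
  homomorphisms (the boundary is Eisenstein modulo `p`);
* `StmtParO`    : the same for `p`-adically separated coefficients (e.g. `𝒪`).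
-/

set_option autoImplicit false

noncomputable section

namespace Fermat.Agent.RT.K5

open CongruenceSubgroup Matrix ModularCurve.Period
open scoped MatrixGroups
open Fermat.Agent.ES1 (gammaH diamHom pmH)

/-- the generalised eigenspace of the family `T` for the "eigenvalues" `a` -/
def genEig {V ι : Type} [AddCommGroup V] (T a : ι → AddMonoid.End V) : Set V :=
  {v | ∀ i, ∃ n : ℕ, ((T i - a i) ^ n) v = 0}

/-- **K5-LOC (abstract).**  `V` finite, `T i`, `a i` pairwise commuting: there are finitely many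
indices `i_j` and `N ≥ 1` such that `E = ∏_j (1 − (T_{i_j} − a_{i_j})^N)` is the identity on the
generalised eigenspace and maps `V` into it. -/
def StmtLocAbs : Prop :=
  ∀ (V ι : Type) [AddCommGroup V] [Finite V] (T a : ι → AddMonoid.End V),
    (∀ i j, Commute (T i) (T j)) → (∀ i j, Commute (a i) (T j)) → (∀ i j, Commute (a i) (a j)) →
    ∃ (N : ℕ) (l : List ι), 0 < N ∧
      (∀ v ∈ genEig T a, ((l.map fun i => 1 - (T i - a i) ^ N).prod) v = v) ∧
      (∀ v, ((l.map fun i => 1 - (T i - a i) ^ N).prod) v ∈ genEig T a)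

/-- **K5-LOC (ring).**  A commutative `𝒪`-algebra `A₀` acting faithfully on a finite nonzero
`𝒪`-module `X`, generated by a set `S` of elements `s` such that `s − c` is nilpotent on `X` for
some `c ∈ 𝒪`: then `A₀` is finite, local, `𝒪 → A₀` is a local homomorphism inducing a surjection
on residue fields, and `s − c ∈ 𝔪_{A₀}` for every such `c`. -/
def StmtLocRing : Prop :=
  ∀ (𝒪 : Type) [CommRing 𝒪] [IsLocalRing 𝒪] (X : Type) [AddCommGroup X] [Module 𝒪 X] [Finite X]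
    [Nontrivial X] (A₀ : Type) [CommRing A₀] [Algebra 𝒪 A₀] (j : A₀ →ₐ[𝒪] Module.End 𝒪 X)
    (S : Set A₀),
    Function.Injective j → Algebra.adjoin 𝒪 S = ⊤ →
    (∀ s ∈ S, ∃ c : 𝒪, IsNilpotent (j s - algebraMap 𝒪 (Module.End 𝒪 X) c)) →
    Finite A₀ ∧ ∃ _ : IsLocalRing A₀,
      IsLocalHom (algebraMap 𝒪 A₀) ∧
      Function.Surjective (IsLocalRing.residue A₀ ∘ algebraMap 𝒪 A₀) ∧
      ∀ s ∈ S, ∀ c : 𝒪, IsNilpotent (j s - algebraMap 𝒪 (Module.End 𝒪 X) c) →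
        s - algebraMap 𝒪 A₀ c ∈ IsLocalRing.maximalIdeal A₀

/-- **K5-PARH.**  `L` squarefree, `p ≠ 2` prime, `ℓ₀ ≠ p` prime, `ℓ₀ ∤ L`, every element of
`(ℤ/M)ˣ` has a `p`-power in `±H`, `pⁿ A = 0`: the `η`-part of `Hom(Γ_H(L), A)` is parabolic. -/
def StmtParH : Prop :=
  ∀ (p : ℕ) [Fact p.Prime] (L M ℓ₀ : ℕ) [NeZero L] [NeZero ℓ₀] [Fact (M ∣ L)]
    (H : Subgroup (ZMod M)ˣ) (A : Type) [AddCommGroup A] (n k : ℕ),
    Squarefree L → ℓ₀.Prime → ¬ ℓ₀ ∣ L → p ≠ 2 → ℓ₀ ≠ p →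
    (∀ a : A, p ^ n • a = 0) → (∀ u : (ZMod M)ˣ, u ^ (p ^ k) ∈ pmH H) →
    ∀ φ ∈ etaPart (etaS L M ℓ₀ H A), IsParabolicHom (gammaH L M H) φ

/-- **K5-PARH over `𝒪`.**  The same when `⋂ₙ pⁿ A = 0` (deduced from `StmtParH` by reduction
modulo `pⁿ`: `k5nat_etaS`). -/
def StmtParO : Prop :=
  ∀ (p : ℕ) [Fact p.Prime] (L M ℓ₀ : ℕ) [NeZero L] [NeZero ℓ₀] [Fact (M ∣ L)]
    (H : Subgroup (ZMod M)ˣ) (A : Type) [AddCommGroup A] (k : ℕ),
    Squarefree L → ℓ₀.Prime → ¬ ℓ₀ ∣ L → p ≠ 2 → ℓ₀ ≠ p →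
    (∀ a : A, (∀ n : ℕ, ∃ b : A, a = p ^ n • b) → a = 0) →
    (∀ u : (ZMod M)ˣ, u ^ (p ^ k) ∈ pmH H) →
    ∀ φ ∈ etaPart (etaS L M ℓ₀ H A), IsParabolicHom (gammaH L M H) φ

end Fermat.Agent.RT.K5
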