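import Fermat.Agent.RT.K5.Plan2
import Fermat.Agent.RT.K5.StepAbs

/-!
# RT-K5, piece MODTOP: change of the names of level and modulus

`gammaH L M H` and `gammaH L' M' H'` may be the SAME subgroup of `SL(2, ℤ)` (for instance
`gammaH L M ⊤ = Γ₀(L) = gammaH L M' ⊤` for `M, M' ∣ L`: at `H = ⊤` the modulus is irrelevant; or
`L = L'` propositionally).  Then `k5mt_cast : Hom(Γ, A) ≃ Hom(Γ', A)` intertwines the degeneracy
maps, `tS ℓ`, `tSadj ℓ` (EVERY `ℓ ≥ 1`), `etaS`, the diamonds and the changes of coefficients,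
and hence identifies the `etaPart`s of corresponding operators.

[The Taylor–Wiles modules live at a modulus `M_Q` divisible by the Taylor–Wiles primes `q`
(`Δ_Q` is a quotient of `(ℤ/q)ˣ`), while the Taylor–Wiles step `Γ₀(L) ⊃ Γ₀(L q)` needs a modulus
`M ∣ L`, `q ∤ L`.]
-/

set_option autoImplicit false
set_option linter.style.haveILetI false
set_option linter.unusedSectionVars false
set_option linter.unusedVariables false

noncomputable section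

namespace Fermat.Agent.RT.K5

open CongruenceSubgroup Matrix
open scoped MatrixGroups
open Fermat.Agent.ES1 (gammaH diamHom pmH)

section cast

variable (A : Type) [AddCommGroup A]

/-- transport of `Hom(Γ, A)` along an equality of subgroups of `SL(2, ℤ)` -/
def k5mt_cast {Γ Δ : Subgroup SL(2, ℤ)} (h : Γ = Δ) : HomS Γ A →+ HomS Δ A where
  toFun φ := φ.comp (MonoidHom.toAdditive (MulEquiv.subgroupCongr h.symm).toMonoidHom)
  map_zero' := rfl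
  map_add' _ _ := rfl

theorem k5mt_cast_apply {Γ Δ : Subgroup SL(2, ℤ)} (h : Γ = Δ) (φ : HomS Γ A) (γ : Δ) :
    k5mt_cast A h φ (Additive.ofMul γ)
      = φ (Additive.ofMul (MulEquiv.subgroupCongr h.symm γ)) := rfl

theorem k5mt_cast_cast {Γ Δ : Subgroup SL(2, ℤ)} (h : Γ = Δ) (h' : Δ = Γ) (φ : HomS Γ A) :
    k5mt_cast A h' (k5mt_cast A h φ) = φ := by
  subst h
  rfl

theorem k5mt_cast_rfl {Γ : Subgroup SL(2, ℤ)} (h : Γ = Γ) (φ : HomS Γ A) :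
    k5mt_cast A h φ = φ := rfl

theorem k5mt_cast_injective {Γ Δ : Subgroup SL(2, ℤ)} (h : Γ = Δ) :
    Function.Injective (k5mt_cast A h) := fun φ ψ hφψ => by
  rw [← k5mt_cast_cast A h h.symm φ, hφψ, k5mt_cast_cast]

theorem k5mt_cast_surjective {Γ Δ : Subgroup SL(2, ℤ)} (h : Γ = Δ) :
    Function.Surjective (k5mt_cast A h) := fun ψ =>
  ⟨k5mt_cast A h.symm ψ, k5mt_cast_cast A h.symm h ψ⟩

theorem k5mt_cast_eq_zero {Γ Δ : Subgroup SL(2, ℤ)} (h : Γ = Δ) (φ : HomS Γ A) :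
    k5mt_cast A h φ = 0 ↔ φ = 0 := by
  constructor
  · intro h0
    exact k5mt_cast_injective A h (by rw [h0, map_zero])
  · rintro rfl
    exact map_zero _

/-- the transport is natural in the coefficients -/
theorem k5mt_cast_mapS {B : Type} [AddCommGroup B] (f : A →+ B) {Γ Δ : Subgroup SL(2, ℤ)}
    (h : Γ = Δ) (φ : HomS Γ A) :
    k5mt_cast B h (mapS f φ) = mapS f (k5mt_cast A h φ) := rfl

/-- corresponding operators have corresponding `etaPart`s -/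
theorem k5mt_mem_etaPart {Γ Δ : Subgroup SL(2, ℤ)} (h : Γ = Δ) (θ : HomS Γ A →+ HomS Γ A)
    (θ' : HomS Δ A →+ HomS Δ A) (hθ : ∀ φ, k5mt_cast A h (θ φ) = θ' (k5mt_cast A h φ))
    (φ : HomS Γ A) : k5mt_cast A h φ ∈ etaPart θ' ↔ φ ∈ etaPart θ := by
  constructor
  · intro hφ
    have h1 := k5s_intertwine_mem θ' θ (k5mt_cast A h.symm) (fun x => by
      obtain ⟨y, rfl⟩ := k5mt_cast_surjective A h x
      rw [← hθ, k5mt_cast_cast, k5mt_cast_cast]) hφ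
    rwa [k5mt_cast_cast] at h1
  · intro hφ
    exact k5s_intertwine_mem θ θ' (k5mt_cast A h) hθ hφ

/-- restriction along corresponding maps -/
theorem k5mt_aux_res (Γ₁ Γ₂ Δ₁ Δ₂ : Subgroup SL(2, ℤ)) (h₁ : Γ₁ = Δ₁) (h₂ : Γ₂ = Δ₂)
    (f : Γ₁ →* Γ₂) (g : Δ₁ →* Δ₂)
    (hfg : ∀ γ : Γ₁, ((f γ : Γ₂) : SL(2, ℤ))
      = ((g (MulEquiv.subgroupCongr h₁ γ) : Δ₂) : SL(2, ℤ)))
    (φ : HomS Γ₂ A) :
    k5mt_cast A h₁ (φ.comp (MonoidHom.toAdditive f))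
      = (k5mt_cast A h₂ φ).comp (MonoidHom.toAdditive g) := by
  subst h₁
  subst h₂
  obtain rfl : f = g := MonoidHom.ext fun γ => Subtype.ext (hfg γ)
  rfl

/-- the transfer along corresponding maps -/
theorem k5mt_aux_transfer (Γ₁ Γ₂ Δ₁ Δ₂ : Subgroup SL(2, ℤ)) (h₁ : Γ₁ = Δ₁) (h₂ : Γ₂ = Δ₂)
    (f : Γ₁ →* Γ₂) (g : Δ₁ →* Δ₂) (hf : Function.Injective f) (hg : Function.Injective g)
    [f.range.FiniteIndex] [g.range.FiniteIndex]
    (hfg : ∀ γ : Γ₁, ((f γ : Γ₂) : SL(2, ℤ))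
      = ((g (MulEquiv.subgroupCongr h₁ γ) : Δ₂) : SL(2, ℤ)))
    (ψ : HomS Γ₁ A) :
    k5mt_cast A h₂ (S41.transferAlong A f hf ψ)
      = S41.transferAlong A g hg (k5mt_cast A h₁ ψ) := by
  subst h₁
  subst h₂
  obtain rfl : f = g := MonoidHom.ext fun γ => Subtype.ext (hfg γ)
  rfl

end cast

section level

variable {L M L' M' : ℕ} [NeZero L] [NeZero L'] [hML : Fact (M ∣ L)] [hML' : Fact (M' ∣ L')]
  (ℓ : ℕ) [NeZero ℓ] (H : Subgroup (ZMod M)ˣ) (H' : Subgroup (ZMod M')ˣ)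
  (A : Type) [AddCommGroup A]
  (h : gammaH L M H = gammaH L' M' H') (hℓ : gammaH (L * ℓ) M H = gammaH (L' * ℓ) M' H')

theorem k5mt_resH (φ : HomS (gammaH L M H) A) :
    k5mt_cast A hℓ (resH L M ℓ H A φ) = resH L' M' ℓ H' A (k5mt_cast A h φ) :=
  k5mt_aux_res A _ _ _ _ hℓ h (inclH L M ℓ H) (inclH L' M' ℓ H') (fun _ => rfl) φ

theorem k5mt_resDH (φ : HomS (gammaH L M H) A) :
    k5mt_cast A hℓ (resDH L M ℓ H A φ) = resDH L' M' ℓ H' A (k5mt_cast A h φ) :=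
  k5mt_aux_res A _ _ _ _ hℓ h (conjDH L M ℓ H hML.out) (conjDH L' M' ℓ H' hML'.out)
    (fun _ => rfl) φ

theorem k5mt_coresH (ψ : HomS (gammaH (L * ℓ) M H) A) :
    k5mt_cast A h (coresH L M ℓ H A ψ) = coresH L' M' ℓ H' A (k5mt_cast A hℓ ψ) :=
  k5mt_aux_transfer A _ _ _ _ hℓ h (inclH L M ℓ H) (inclH L' M' ℓ H')
    (inclH_injective L M ℓ H) (inclH_injective L' M' ℓ H') (fun _ => rfl) ψ

theorem k5mt_coresDH (ψ : HomS (gammaH (L * ℓ) M H) A) :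
    k5mt_cast A h (coresDH L M ℓ H A ψ) = coresDH L' M' ℓ H' A (k5mt_cast A hℓ ψ) :=
  k5mt_aux_transfer A _ _ _ _ hℓ h (conjDH L M ℓ H hML.out) (conjDH L' M' ℓ H' hML'.out)
    (conjDH_injective L M ℓ H hML.out) (conjDH_injective L' M' ℓ H' hML'.out) (fun _ => rfl) ψ

include hℓ in
theorem k5mt_tS (φ : HomS (gammaH L M H) A) :
    k5mt_cast A h (tS L M ℓ H A φ) = tS L' M' ℓ H' A (k5mt_cast A h φ) := by
  show k5mt_cast A h (coresDH L M ℓ H A (resH L M ℓ H A φ))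
    = coresDH L' M' ℓ H' A (resH L' M' ℓ H' A (k5mt_cast A h φ))
  rw [k5mt_coresDH ℓ H H' A h hℓ, k5mt_resH ℓ H H' A h hℓ]

include hℓ in
theorem k5mt_tSadj (φ : HomS (gammaH L M H) A) :
    k5mt_cast A h (tSadj L M ℓ H A φ) = tSadj L' M' ℓ H' A (k5mt_cast A h φ) := by
  show k5mt_cast A h (coresH L M ℓ H A (resDH L M ℓ H A φ))
    = coresH L' M' ℓ H' A (resDH L' M' ℓ H' A (k5mt_cast A h φ))
  rw [k5mt_coresH ℓ H H' A h hℓ, k5mt_resDH ℓ H H' A h hℓ]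

include hℓ in
theorem k5mt_etaS (φ : HomS (gammaH L M H) A) :
    k5mt_cast A h (etaS L M ℓ H A φ) = etaS L' M' ℓ H' A (k5mt_cast A h φ) := by
  show k5mt_cast A h (tS L M ℓ H A φ - (ℓ + 1) • φ)
    = tS L' M' ℓ H' A (k5mt_cast A h φ) - (ℓ + 1) • k5mt_cast A h φ
  rw [map_sub, map_nsmul, k5mt_tS ℓ H H' A h hℓ]

/-- the diamonds -/
theorem k5mt_diamS (g : SL(2, ℤ)) (hgL : g ∈ Gamma0 L) (hgM : g ∈ Gamma0 M)
    (hgL' : g ∈ Gamma0 L') (hgM' : g ∈ Gamma0 M') (φ : HomS (gammaH L M H) A) :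
    k5mt_cast A h (diamS H A g hgL hgM φ) = diamS H' A g hgL' hgM' (k5mt_cast A h φ) := by
  refine AddMonoidHom.ext fun γ => ?_
  rfl

end level

section top

/-- at `H = ⊤` the modulus is irrelevant -/
theorem k5mt_top_eq (L M M' : ℕ) [hML : Fact (M ∣ L)] [hML' : Fact (M' ∣ L)] :
    gammaH L M (⊤ : Subgroup (ZMod M)ˣ) = gammaH L M' (⊤ : Subgroup (ZMod M')ˣ) := by
  rw [Fermat.Agent.ES1.gammaH_top_of_dvd hML.out, Fermat.Agent.ES1.gammaH_top_of_dvd hML'.out]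

/-- at `H = ⊤` the modulus is irrelevant, level `L ℓ` -/
theorem k5mt_top_eq_mul (L M M' ℓ : ℕ) [hML : Fact (M ∣ L)] [hML' : Fact (M' ∣ L)] :
    gammaH (L * ℓ) M (⊤ : Subgroup (ZMod M)ˣ) = gammaH (L * ℓ) M' (⊤ : Subgroup (ZMod M')ˣ) := by
  rw [Fermat.Agent.ES1.gammaH_top_of_dvd (hML.out.trans (dvd_mul_right L ℓ)),
    Fermat.Agent.ES1.gammaH_top_of_dvd (hML'.out.trans (dvd_mul_right L ℓ))]

variable (L M M' : ℕ) [NeZero L] [hML : Fact (M ∣ L)] [hML' : Fact (M' ∣ L)]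
  (ℓ : ℕ) [NeZero ℓ] (A : Type) [AddCommGroup A]

/-- **MODTOP** `tS ℓ` at `H = ⊤` does not depend on the modulus -/
theorem k5mt_top_tS (φ : HomS (gammaH L M (⊤ : Subgroup (ZMod M)ˣ)) A) :
    k5mt_cast A (k5mt_top_eq L M M') (tS L M ℓ ⊤ A φ)
      = tS L M' ℓ ⊤ A (k5mt_cast A (k5mt_top_eq L M M') φ) :=
  k5mt_tS ℓ ⊤ ⊤ A (k5mt_top_eq L M M') (k5mt_top_eq_mul L M M' ℓ) φ

theorem k5mt_top_tSadj (φ : HomS (gammaH L M (⊤ : Subgroup (ZMod M)ˣ)) A) :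
    k5mt_cast A (k5mt_top_eq L M M') (tSadj L M ℓ ⊤ A φ)
      = tSadj L M' ℓ ⊤ A (k5mt_cast A (k5mt_top_eq L M M') φ) :=
  k5mt_tSadj ℓ ⊤ ⊤ A (k5mt_top_eq L M M') (k5mt_top_eq_mul L M M' ℓ) φ

theorem k5mt_top_etaS (φ : HomS (gammaH L M (⊤ : Subgroup (ZMod M)ˣ)) A) :
    k5mt_cast A (k5mt_top_eq L M M') (etaS L M ℓ ⊤ A φ)
      = etaS L M' ℓ ⊤ A (k5mt_cast A (k5mt_top_eq L M M') φ) :=
  k5mt_etaS ℓ ⊤ ⊤ A (k5mt_top_eq L M M') (k5mt_top_eq_mul L M M' ℓ) φ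

end top

end Fermat.Agent.RT.K5
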