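import Fermat.Agent.RT.K5.DegFam
import Fermat.Agent.RT.K5.ModTop

/-!
# RT-K5: Hecke polynomial expressions — "the same operator at every level"

`HExpr 𝒪` : expressions built from `one`, `hecke ℓ` (`T_ℓ` resp. `U_ℓ`), `coeff c` (`c ∈ 𝒪`),
`add`, `comp`.  `e.eval L M : NatFam 𝒪 L M` is the operator of `e` at level `L`, modulus `M`
(`hecke 0` is read as `1`).

* `HExpr.neg`, `HExpr.sub`, `HExpr.pow`, `HExpr.listProd`, `HExpr.usq q` (`U_q² − 1`),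
  `HExpr.twist e Q` (`e ∘ ∏_{q ∈ Q} (U_q² − 1)`);
* `e.IsPrimes` : every `hecke ℓ` in `e` has `ℓ` prime; `e.Avoids q` : moreover `ℓ ≠ q`;
* `k5hx_comm_tS`, `k5hx_comm` : the operators of expressions with `IsPrimes` commute with
  `tS ℓ` (`ℓ` prime) and with each other (`stmtCommTU`);
* `k5hx_degFam` : for `e.Avoids q` the pair `(e.eval L M, e.eval (L q) M)` is a `DegFam`;
* `k5hx_cast_top` : at `H = ⊤` the operator of `e` does not depend on the modulus (`ModTop`).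
-/

set_option autoImplicit false
set_option linter.style.haveILetI false
set_option linter.unusedSectionVars false
set_option linter.unusedVariables false

noncomputable section

namespace Fermat.Agent.RT.K5

open CongruenceSubgroup Matrix
open scoped MatrixGroups
open Fermat.Agent.ES1 (gammaH diamHom pmH)

/-- Hecke polynomial expressions -/
inductive HExpr (𝒪 : Type) : Type
  | one : HExpr 𝒪
  | hecke (ℓ : ℕ) : HExpr 𝒪
  | coeff (c : 𝒪) : HExpr 𝒪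
  | add (e₁ e₂ : HExpr 𝒪) : HExpr 𝒪
  | comp (e₁ e₂ : HExpr 𝒪) : HExpr 𝒪

namespace HExpr

variable {𝒪 : Type} [CommRing 𝒪]

/-- the operator of an expression at level `L`, modulus `M` (`hecke 0` is read as `1`) -/
def eval (e : HExpr 𝒪) (L M : ℕ) [NeZero L] [Fact (M ∣ L)] : NatFam 𝒪 L M :=
  match e with
  | one => NatFam.one 𝒪 L M
  | hecke ℓ => if h : ℓ = 0 then NatFam.one 𝒪 L M else
      haveI : NeZero ℓ := ⟨h⟩
      NatFam.hecke 𝒪 L M ℓ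
  | coeff c => NatFam.coeff 𝒪 L M c
  | add e₁ e₂ => (e₁.eval L M).add (e₂.eval L M)
  | comp e₁ e₂ => (e₁.eval L M).comp (e₂.eval L M)

/-- every `hecke ℓ` in `e` has `ℓ` prime -/
def IsPrimes : HExpr 𝒪 → Prop
  | one => True
  | hecke ℓ => ℓ.Prime
  | coeff _ => True
  | add e₁ e₂ => e₁.IsPrimes ∧ e₂.IsPrimes
  | comp e₁ e₂ => e₁.IsPrimes ∧ e₂.IsPrimes

/-- every `hecke ℓ` in `e` has `ℓ` prime, `ℓ ≠ q` -/
def Avoids (q : ℕ) : HExpr 𝒪 → Prop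
  | one => True
  | hecke ℓ => ℓ.Prime ∧ ℓ ≠ q
  | coeff _ => True
  | add e₁ e₂ => e₁.Avoids q ∧ e₂.Avoids q
  | comp e₁ e₂ => e₁.Avoids q ∧ e₂.Avoids q

theorem Avoids.isPrimes {q : ℕ} : ∀ {e : HExpr 𝒪}, e.Avoids q → e.IsPrimes
  | one, _ => trivial
  | hecke _, h => h.1
  | coeff _, _ => trivial
  | add _ _, h => ⟨h.1.isPrimes, h.2.isPrimes⟩
  | comp _ _, h => ⟨h.1.isPrimes, h.2.isPrimes⟩

/-- `−e` -/
def neg (e : HExpr 𝒪) : HExpr 𝒪 := comp (coeff (-1)) e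

/-- `e₁ − e₂` -/
def sub (e₁ e₂ : HExpr 𝒪) : HExpr 𝒪 := add e₁ (neg e₂)

/-- `eⁿ` -/
def pow (e : HExpr 𝒪) : ℕ → HExpr 𝒪
  | 0 => one
  | n + 1 => comp e (pow e n)

/-- the composite of a list of expressions -/
def listProd : List (HExpr 𝒪) → HExpr 𝒪
  | [] => one
  | e :: l => comp e (listProd l)

/-- `U_q² − 1` -/
def usq (𝒪 : Type) [CommRing 𝒪] (q : ℕ) : HExpr 𝒪 := add (comp (hecke q) (hecke q)) (coeff (-1))

/-- `e ∘ ∏_{q ∈ Q} (U_q² − 1)`; `twist e (q :: Q) = (twist e Q) ∘ (U_q² − 1)` -/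
def twist (e : HExpr 𝒪) : List ℕ → HExpr 𝒪
  | [] => e
  | q :: Q => comp (twist e Q) (usq 𝒪 q)

section eval

variable (L M : ℕ) [NeZero L] [hML : Fact (M ∣ L)]

@[simp] theorem eval_one : (one : HExpr 𝒪).eval L M = NatFam.one 𝒪 L M := rfl

theorem eval_hecke (ℓ : ℕ) [NeZero ℓ] : (hecke ℓ : HExpr 𝒪).eval L M = NatFam.hecke 𝒪 L M ℓ :=
  dif_neg (NeZero.ne ℓ)

@[simp] theorem eval_coeff (c : 𝒪) : (coeff c : HExpr 𝒪).eval L M = NatFam.coeff 𝒪 L M c := rfl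

@[simp] theorem eval_add (e₁ e₂ : HExpr 𝒪) :
    (add e₁ e₂).eval L M = (e₁.eval L M).add (e₂.eval L M) := rfl

@[simp] theorem eval_comp (e₁ e₂ : HExpr 𝒪) :
    (comp e₁ e₂).eval L M = (e₁.eval L M).comp (e₂.eval L M) := rfl

theorem eval_twist_cons (e : HExpr 𝒪) (q : ℕ) (Q : List ℕ) :
    (e.twist (q :: Q)).eval L M = ((e.twist Q).eval L M).comp ((usq 𝒪 q).eval L M) := rfl

theorem eval_twist_nil (e : HExpr 𝒪) : (e.twist []).eval L M = e.eval L M := rfl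

variable (A : Type) [AddCommGroup A] [Module 𝒪 A] (K : Subgroup (ZMod M)ˣ)

theorem op_one (φ : HomS (gammaH L M K) A) :
    (((one : HExpr 𝒪).eval L M).fam A).op K φ = φ := rfl

theorem op_hecke (ℓ : ℕ) [NeZero ℓ] (φ : HomS (gammaH L M K) A) :
    (((hecke ℓ : HExpr 𝒪).eval L M).fam A).op K φ = tS L M ℓ K A φ := by
  rw [eval_hecke]
  rfl

theorem op_coeff (c : 𝒪) (φ : HomS (gammaH L M K) A) :
    (((coeff c : HExpr 𝒪).eval L M).fam A).op K φ = c • φ := rfl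

theorem op_add (e₁ e₂ : HExpr 𝒪) (φ : HomS (gammaH L M K) A) :
    (((add e₁ e₂).eval L M).fam A).op K φ
      = ((e₁.eval L M).fam A).op K φ + ((e₂.eval L M).fam A).op K φ := rfl

theorem op_comp (e₁ e₂ : HExpr 𝒪) (φ : HomS (gammaH L M K) A) :
    (((comp e₁ e₂).eval L M).fam A).op K φ
      = ((e₁.eval L M).fam A).op K (((e₂.eval L M).fam A).op K φ) := rfl

theorem op_neg (e : HExpr 𝒪) (φ : HomS (gammaH L M K) A) :
    ((e.neg.eval L M).fam A).op K φ = -((e.eval L M).fam A).op K φ := by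
  show (-1 : 𝒪) • ((e.eval L M).fam A).op K φ = _
  rw [neg_smul, one_smul]

theorem op_sub (e₁ e₂ : HExpr 𝒪) (φ : HomS (gammaH L M K) A) :
    (((sub e₁ e₂).eval L M).fam A).op K φ
      = ((e₁.eval L M).fam A).op K φ - ((e₂.eval L M).fam A).op K φ := by
  show ((e₁.eval L M).fam A).op K φ + ((e₂.neg.eval L M).fam A).op K φ = _
  rw [op_neg, sub_eq_add_neg]

theorem op_pow_zero (e : HExpr 𝒪) (φ : HomS (gammaH L M K) A) :
    (((e.pow 0).eval L M).fam A).op K φ = φ := rfl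

theorem op_pow_succ (e : HExpr 𝒪) (n : ℕ) (φ : HomS (gammaH L M K) A) :
    (((e.pow (n + 1)).eval L M).fam A).op K φ
      = ((e.eval L M).fam A).op K ((((e.pow n).eval L M).fam A).op K φ) := rfl

theorem op_pow (e : HExpr 𝒪) (n : ℕ) (φ : HomS (gammaH L M K) A) :
    (((e.pow n).eval L M).fam A).op K φ
      = ((show AddMonoid.End (HomS (gammaH L M K) A) from ((e.eval L M).fam A).op K) ^ n) φ := by
  induction n with
  | zero => rfl
  | succ n ih => rw [op_pow_succ, ih, pow_succ']; rfl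

theorem op_listProd_nil (φ : HomS (gammaH L M K) A) :
    (((listProd ([] : List (HExpr 𝒪))).eval L M).fam A).op K φ = φ := rfl

theorem op_listProd_cons (e : HExpr 𝒪) (l : List (HExpr 𝒪)) (φ : HomS (gammaH L M K) A) :
    (((listProd (e :: l)).eval L M).fam A).op K φ
      = ((e.eval L M).fam A).op K ((((listProd l).eval L M).fam A).op K φ) := rfl

theorem op_usq (q : ℕ) [NeZero q] (φ : HomS (gammaH L M K) A) :
    (((usq 𝒪 q).eval L M).fam A).op K φ = tS L M q K A (tS L M q K A φ) - φ := by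
  show (((hecke q : HExpr 𝒪).eval L M).fam A).op K
      ((((hecke q : HExpr 𝒪).eval L M).fam A).op K φ) + (-1 : 𝒪) • φ = _
  rw [op_hecke, op_hecke, neg_smul, one_smul, sub_eq_add_neg]

end eval

theorem isPrimes_neg {e : HExpr 𝒪} (h : e.IsPrimes) : e.neg.IsPrimes := ⟨trivial, h⟩

theorem isPrimes_sub {e₁ e₂ : HExpr 𝒪} (h₁ : e₁.IsPrimes) (h₂ : e₂.IsPrimes) :
    (sub e₁ e₂).IsPrimes := ⟨h₁, isPrimes_neg h₂⟩

theorem isPrimes_pow {e : HExpr 𝒪} (h : e.IsPrimes) : ∀ n : ℕ, (e.pow n).IsPrimes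
  | 0 => trivial
  | n + 1 => ⟨h, isPrimes_pow h n⟩

theorem isPrimes_listProd : ∀ {l : List (HExpr 𝒪)}, (∀ e ∈ l, e.IsPrimes) → (listProd l).IsPrimes
  | [], _ => trivial
  | e :: l, h => ⟨h e (List.mem_cons_self ..),
      isPrimes_listProd fun e' he' => h e' (List.mem_cons_of_mem _ he')⟩

theorem avoids_neg {q : ℕ} {e : HExpr 𝒪} (h : e.Avoids q) : e.neg.Avoids q := ⟨trivial, h⟩

theorem avoids_sub {q : ℕ} {e₁ e₂ : HExpr 𝒪} (h₁ : e₁.Avoids q) (h₂ : e₂.Avoids q) :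
    (sub e₁ e₂).Avoids q := ⟨h₁, avoids_neg h₂⟩

theorem avoids_pow {q : ℕ} {e : HExpr 𝒪} (h : e.Avoids q) : ∀ n : ℕ, (e.pow n).Avoids q
  | 0 => trivial
  | n + 1 => ⟨h, avoids_pow h n⟩

theorem avoids_listProd {q : ℕ} :
    ∀ {l : List (HExpr 𝒪)}, (∀ e ∈ l, e.Avoids q) → (listProd l).Avoids q
  | [], _ => trivial
  | e :: l, h => ⟨h e (List.mem_cons_self ..),
      avoids_listProd fun e' he' => h e' (List.mem_cons_of_mem _ he')⟩

theorem avoids_usq {q q' : ℕ} (hq' : q'.Prime) (hne : q' ≠ q) : (usq 𝒪 q').Avoids q :=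
  ⟨⟨⟨hq', hne⟩, ⟨hq', hne⟩⟩, trivial⟩

theorem isPrimes_usq {q : ℕ} (hq : q.Prime) : (usq 𝒪 q).IsPrimes := ⟨⟨hq, hq⟩, trivial⟩

theorem avoids_twist {q : ℕ} {e : HExpr 𝒪} (he : e.Avoids q) :
    ∀ {Q : List ℕ}, (∀ q' ∈ Q, q'.Prime ∧ q' ≠ q) → (e.twist Q).Avoids q
  | [], _ => he
  | q' :: Q, h => ⟨avoids_twist he fun q'' hq'' => h q'' (List.mem_cons_of_mem _ hq''),
      avoids_usq (h q' (List.mem_cons_self ..)).1 (h q' (List.mem_cons_self ..)).2⟩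

theorem isPrimes_twist {e : HExpr 𝒪} (he : e.IsPrimes) :
    ∀ {Q : List ℕ}, (∀ q' ∈ Q, q'.Prime) → (e.twist Q).IsPrimes
  | [], _ => he
  | q' :: Q, h => ⟨isPrimes_twist he fun q'' hq'' => h q'' (List.mem_cons_of_mem _ hq''),
      isPrimes_usq (h q' (List.mem_cons_self ..))⟩

end HExpr

section comm

variable {𝒪 : Type} [CommRing 𝒪] (L M : ℕ) [NeZero L] [hML : Fact (M ∣ L)]
  (A : Type) [AddCommGroup A] [Module 𝒪 A] (K : Subgroup (ZMod M)ˣ)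

/-- the operator of an expression (`IsPrimes`) commutes with `tS ℓ`, `ℓ` prime -/
theorem k5hx_comm_tS (e : HExpr 𝒪) (he : e.IsPrimes) (ℓ : ℕ) [NeZero ℓ] (hℓ : ℓ.Prime)
    (φ : HomS (gammaH L M K) A) :
    tS L M ℓ K A (((e.eval L M).fam A).op K φ) = ((e.eval L M).fam A).op K (tS L M ℓ K A φ) := by
  induction e generalizing φ with
  | one => rfl
  | hecke ℓ' =>
    haveI : NeZero ℓ' := ⟨(show ℓ'.Prime from he).ne_zero⟩
    rw [HExpr.op_hecke, HExpr.op_hecke]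
    exact (stmtCommTU L M ℓ ℓ' K A hℓ he φ).1
  | coeff c => exact (k5nat_tS L M (DistribSMul.toAddMonoidHom A c) ℓ K φ).symm
  | add e₁ e₂ ih₁ ih₂ =>
    rw [HExpr.op_add, HExpr.op_add, map_add, ih₁ he.1, ih₂ he.2]
  | comp e₁ e₂ ih₁ ih₂ =>
    rw [HExpr.op_comp, HExpr.op_comp, ih₁ he.1, ih₂ he.2]

/-- the operator of an expression is `𝒪`-linear -/
theorem k5hx_op_smul (e : HExpr 𝒪) (c : 𝒪) (φ : HomS (gammaH L M K) A) :
    ((e.eval L M).fam A).op K (c • φ) = c • ((e.eval L M).fam A).op K φ :=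
  k5n_op_smul (e.eval L M) K c φ

/-- the operators of two expressions (`IsPrimes`) commute -/
theorem k5hx_comm (e e' : HExpr 𝒪) (he : e.IsPrimes) (he' : e'.IsPrimes)
    (φ : HomS (gammaH L M K) A) :
    ((e.eval L M).fam A).op K (((e'.eval L M).fam A).op K φ)
      = ((e'.eval L M).fam A).op K (((e.eval L M).fam A).op K φ) := by
  induction e generalizing φ with
  | one => rfl
  | hecke ℓ' =>
    haveI : NeZero ℓ' := ⟨(show ℓ'.Prime from he).ne_zero⟩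
    rw [HExpr.op_hecke, HExpr.op_hecke]
    exact k5hx_comm_tS L M A K e' he' ℓ' he φ
  | coeff c =>
    rw [HExpr.op_coeff, HExpr.op_coeff, k5hx_op_smul]
  | add e₁ e₂ ih₁ ih₂ =>
    rw [HExpr.op_add, HExpr.op_add, map_add, ih₁ he.1, ih₂ he.2]
  | comp e₁ e₂ ih₁ ih₂ =>
    rw [HExpr.op_comp, HExpr.op_comp, ih₂ he.2, ih₁ he.1]

/-- the operator of an expression (`IsPrimes`) commutes with `η = T_ℓ₀ − ℓ₀ − 1` -/
theorem k5hx_comm_etaS (e : HExpr 𝒪) (he : e.IsPrimes) (ℓ₀ : ℕ) [NeZero ℓ₀] (hℓ₀ : ℓ₀.Prime)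
    (φ : HomS (gammaH L M K) A) :
    etaS L M ℓ₀ K A (((e.eval L M).fam A).op K φ)
      = ((e.eval L M).fam A).op K (etaS L M ℓ₀ K A φ) := by
  show tS L M ℓ₀ K A (((e.eval L M).fam A).op K φ) - (ℓ₀ + 1) • ((e.eval L M).fam A).op K φ
    = ((e.eval L M).fam A).op K (tS L M ℓ₀ K A φ - (ℓ₀ + 1) • φ)
  rw [map_sub, map_nsmul, k5hx_comm_tS L M A K e he ℓ₀ hℓ₀]

/-- the operator of an expression (`IsPrimes`) commutes with `Θ` of another one -/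
theorem k5hx_comm_theta (e e' : HExpr 𝒪) (he : e.IsPrimes) (he' : e'.IsPrimes) (ℓ₀ : ℕ)
    [NeZero ℓ₀] (hℓ₀ : ℓ₀.Prime) (φ : HomS (gammaH L M K) A) :
    ((e.eval L M).fam A).op K (thetaN (e'.eval L M) ℓ₀ A K φ)
      = thetaN (e'.eval L M) ℓ₀ A K (((e.eval L M).fam A).op K φ) := by
  show ((e.eval L M).fam A).op K (((e'.eval L M).fam A).op K (etaS L M ℓ₀ K A φ))
    = ((e'.eval L M).fam A).op K (etaS L M ℓ₀ K A (((e.eval L M).fam A).op K φ))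
  rw [k5hx_comm L M A K e e' he he', k5hx_comm_etaS L M A K e he ℓ₀ hℓ₀]

end comm

section degFam

variable {𝒪 : Type} [CommRing 𝒪] (L M q : ℕ) [NeZero L] [NeZero q] [hML : Fact (M ∣ L)]
  [hMLq : Fact (M ∣ L * q)]

theorem k5hx_exists_degFam (hq : q.Prime) (hqL : ¬ q ∣ L) (e : HExpr 𝒪) (he : e.Avoids q) :
    ∃ 𝔡 : DegFam 𝒪 L M q, 𝔡.lo = e.eval L M ∧ 𝔡.hi = e.eval (L * q) M := by
  induction e with
  | one => exact ⟨k5dg_one 𝒪 L M q, rfl, rfl⟩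
  | hecke ℓ' =>
    haveI : NeZero ℓ' := ⟨he.1.ne_zero⟩
    exact ⟨k5dg_hecke 𝒪 L M q hq hqL ℓ' he.1 he.2, (HExpr.eval_hecke L M ℓ').symm,
      (HExpr.eval_hecke (L * q) M ℓ').symm⟩
  | coeff c => exact ⟨k5dg_coeff 𝒪 L M q c, rfl, rfl⟩
  | add e₁ e₂ ih₁ ih₂ =>
    obtain ⟨𝔡₁, h₁, h₁'⟩ := ih₁ he.1
    obtain ⟨𝔡₂, h₂, h₂'⟩ := ih₂ he.2
    refine ⟨k5dg_add 𝔡₁ 𝔡₂, ?_, ?_⟩
    · show 𝔡₁.lo.add 𝔡₂.lo = _
      rw [h₁, h₂]; rfl
    · show 𝔡₁.hi.add 𝔡₂.hi = _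
      rw [h₁', h₂']; rfl
  | comp e₁ e₂ ih₁ ih₂ =>
    obtain ⟨𝔡₁, h₁, h₁'⟩ := ih₁ he.1
    obtain ⟨𝔡₂, h₂, h₂'⟩ := ih₂ he.2
    refine ⟨k5dg_comp 𝔡₁ 𝔡₂, ?_, ?_⟩
    · show 𝔡₁.lo.comp 𝔡₂.lo = _
      rw [h₁, h₂]; rfl
    · show 𝔡₁.hi.comp 𝔡₂.hi = _
      rw [h₁', h₂']; rfl

/-- **the pair `(e at level L, e at level L q)`** for an expression avoiding `q` -/
def k5hx_degFam (hq : q.Prime) (hqL : ¬ q ∣ L) (e : HExpr 𝒪) (he : e.Avoids q) :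
    DegFam 𝒪 L M q where
  lo := e.eval L M
  hi := e.eval (L * q) M
  res_comm := by
    obtain ⟨𝔡, h₁, h₂⟩ := k5hx_exists_degFam L M q hq hqL e he
    rw [← h₁, ← h₂]; exact 𝔡.res_comm
  resD_comm := by
    obtain ⟨𝔡, h₁, h₂⟩ := k5hx_exists_degFam L M q hq hqL e he
    rw [← h₁, ← h₂]; exact 𝔡.resD_comm
  cores_comm := by
    obtain ⟨𝔡, h₁, h₂⟩ := k5hx_exists_degFam L M q hq hqL e he
    rw [← h₁, ← h₂]; exact 𝔡.cores_comm
  coresD_comm := by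
    obtain ⟨𝔡, h₁, h₂⟩ := k5hx_exists_degFam L M q hq hqL e he
    rw [← h₁, ← h₂]; exact 𝔡.coresD_comm
  t_comm := by
    obtain ⟨𝔡, h₁, h₂⟩ := k5hx_exists_degFam L M q hq hqL e he
    rw [← h₁]; exact 𝔡.t_comm
  u_comm := by
    obtain ⟨𝔡, h₁, h₂⟩ := k5hx_exists_degFam L M q hq hqL e he
    rw [← h₂]; exact 𝔡.u_comm

/-- `usq q` at level `L q` is `usqFam` -/
theorem k5hx_eval_usq : (HExpr.usq 𝒪 q).eval (L * q) M = usqFam 𝒪 L M q := by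
  show (((HExpr.hecke q : HExpr 𝒪).eval (L * q) M).comp
      ((HExpr.hecke q : HExpr 𝒪).eval (L * q) M)).add (NatFam.coeff 𝒪 (L * q) M (-1)) = _
  rw [HExpr.eval_hecke]
  rfl

end degFam

section castTop

variable {𝒪 : Type} [CommRing 𝒪] (L M M' : ℕ) [NeZero L] [hML : Fact (M ∣ L)]
  [hML' : Fact (M' ∣ L)] (A : Type) [AddCommGroup A] [Module 𝒪 A]

/-- at `H = ⊤` the operator of an expression does not depend on the modulus -/
theorem k5hx_cast_top (e : HExpr 𝒪) (φ : HomS (gammaH L M (⊤ : Subgroup (ZMod M)ˣ)) A) :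
    k5mt_cast A (k5mt_top_eq L M M') (((e.eval L M).fam A).op ⊤ φ)
      = ((e.eval L M').fam A).op ⊤ (k5mt_cast A (k5mt_top_eq L M M') φ) := by
  induction e generalizing φ with
  | one => rfl
  | hecke ℓ' =>
    by_cases h0 : ℓ' = 0
    · subst h0
      rfl
    · haveI : NeZero ℓ' := ⟨h0⟩
      rw [HExpr.op_hecke, HExpr.op_hecke]
      exact k5mt_top_tS L M M' ℓ' A φ
  | coeff c => rfl
  | add e₁ e₂ ih₁ ih₂ =>
    rw [HExpr.op_add, HExpr.op_add, map_add, ih₁, ih₂]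
  | comp e₁ e₂ ih₁ ih₂ =>
    rw [HExpr.op_comp, HExpr.op_comp, ih₁, ih₂]

/-- at `H = ⊤` the operator `Θ` of an expression does not depend on the modulus -/
theorem k5hx_cast_top_theta (e : HExpr 𝒪) (ℓ₀ : ℕ) [NeZero ℓ₀]
    (φ : HomS (gammaH L M (⊤ : Subgroup (ZMod M)ˣ)) A) :
    k5mt_cast A (k5mt_top_eq L M M') (thetaN (e.eval L M) ℓ₀ A ⊤ φ)
      = thetaN (e.eval L M') ℓ₀ A ⊤ (k5mt_cast A (k5mt_top_eq L M M') φ) := by
  show k5mt_cast A (k5mt_top_eq L M M') (((e.eval L M).fam A).op ⊤ (etaS L M ℓ₀ ⊤ A φ))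
    = ((e.eval L M').fam A).op ⊤ (etaS L M' ℓ₀ ⊤ A (k5mt_cast A (k5mt_top_eq L M M') φ))
  rw [k5hx_cast_top, k5mt_top_etaS]

/-- at `H = ⊤` the `Θ`-part of an expression does not depend on the modulus -/
theorem k5hx_cast_top_mem (e : HExpr 𝒪) (ℓ₀ : ℕ) [NeZero ℓ₀]
    (φ : HomS (gammaH L M (⊤ : Subgroup (ZMod M)ˣ)) A) :
    k5mt_cast A (k5mt_top_eq L M M') φ ∈ etaPart (thetaN (e.eval L M') ℓ₀ A ⊤)
      ↔ φ ∈ etaPart (thetaN (e.eval L M) ℓ₀ A ⊤) :=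
  k5mt_mem_etaPart A (k5mt_top_eq L M M') _ _ (k5hx_cast_top_theta L M M' A e ℓ₀) φ

end castTop

end Fermat.Agent.RT.K5
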