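import Fermat.Agent.RT.K5.ParHBd

/-!
# RT-K5, PARH (4): `stmtParH : StmtParH`, `stmtParO : StmtParO`

The `η`-part of `Hom(Γ_H(L), A)` consists of parabolic homomorphisms (`L` squarefree,
`(ℤ/M)ˣ/±H` a `p`-group, `pⁿ A = 0` resp. `⋂ pⁿ A = 0`, `p ≠ 2`, `ℓ₀ ≠ p`).
-/

set_option autoImplicit false
set_option linter.style.haveILetI false
set_option linter.unusedSectionVars false
set_option linter.unusedVariables false

noncomputable section

namespace Fermat.Agent.RT.K5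

open CongruenceSubgroup Matrix ModularCurve.Period
open scoped MatrixGroups
open Fermat.Agent.ES1 (gammaH diamHom pmH)

/-! ## unipotent operators -/

/-- in `ℤ[X]`: `(X − 1)^(p^k) = X^(p^k) − 1 + p Q` -/
theorem k5ph_poly (p : ℕ) [Fact p.Prime] (k : ℕ) :
    ∃ Q : Polynomial ℤ, (Polynomial.X - 1 : Polynomial ℤ) ^ p ^ k
      = Polynomial.X ^ p ^ k - 1 + Polynomial.C (p : ℤ) * Q := by
  have h : Polynomial.C (p : ℤ) ∣
      (Polynomial.X - 1 : Polynomial ℤ) ^ p ^ k - (Polynomial.X ^ p ^ k - 1) := by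
    rw [Polynomial.C_dvd_iff_dvd_coeff]
    intro i
    rw [← ZMod.intCast_zmod_eq_zero_iff_dvd]
    have h1 : (((Polynomial.X - 1 : Polynomial ℤ) ^ p ^ k - (Polynomial.X ^ p ^ k - 1)).map
        (Int.castRingHom (ZMod p))) = 0 := by
      simp only [Polynomial.map_sub, Polynomial.map_pow, Polynomial.map_X, Polynomial.map_one]
      rw [sub_pow_char_pow, one_pow, sub_self]
    have h2 : (Int.castRingHom (ZMod p))
        (((Polynomial.X - 1 : Polynomial ℤ) ^ p ^ k - (Polynomial.X ^ p ^ k - 1)).coeff i)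
        = 0 := by
      rw [← Polynomial.coeff_map, h1, Polynomial.coeff_zero]
    exact h2
  obtain ⟨Q, hQ⟩ := h
  exact ⟨Q, by rw [← hQ]; ring⟩

/-- an element `x` of a ring with `pⁿ = 0` and `x^(p^k) = 1` is unipotent -/
theorem k5ph_unipotent {R : Type*} [Ring R] (p : ℕ) [Fact p.Prime] (n k : ℕ)
    (hp : ((p ^ n : ℕ) : R) = 0) (x : R) (hx : x ^ p ^ k = 1) : IsNilpotent (x - 1) := by
  obtain ⟨Q, hQ⟩ := k5ph_poly p k
  have h1 := congrArg (Polynomial.aeval x) hQ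
  simp only [map_pow, map_sub, Polynomial.aeval_X, map_one, map_add, map_mul,
    Polynomial.aeval_C, hx, sub_self, zero_add] at h1
  refine ⟨p ^ k * n, ?_⟩
  rw [pow_mul, h1]
  have hc : Commute (algebraMap ℤ R (p : ℤ)) (Polynomial.aeval x Q) :=
    Algebra.commutes _ _
  rw [hc.mul_pow]
  have h2 : (algebraMap ℤ R (p : ℤ)) ^ n = 0 := by
    rw [← map_pow]
    have : ((p : ℤ) ^ n) = ((p ^ n : ℕ) : ℤ) := by push_cast; rfl
    rw [this, eq_intCast, Int.cast_natCast]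
    exact hp
  rw [h2, zero_mul]

/-! ## the main theorems -/

section

variable (L M ℓ : ℕ) [NeZero L] [NeZero ℓ] [hML : Fact (M ∣ L)] (H : Subgroup (ZMod M)ˣ)
  (A : Type) [AddCommGroup A]

/-- `η` as an element of the ring `End(Hom(Γ_H, A))` -/
def k5phEta : AddMonoid.End (HomS (gammaH L M H) A) := etaS L M ℓ H A

theorem k5ph_eta_comm (u : (ZMod M)ˣ) :
    Commute (diamU L M H A u) (k5phEta L M ℓ H A) := by
  refine AddMonoidHom.ext fun ψ => ?_
  exact k5act_etaS L M H A ℓ u ψ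

/-- trace `2`: the value of `ηᵐ φ` at `g` is the value of `Eᵐ φ`,
`E = ℓ (⟨u⟩ − 1) + (⟨v⟩ − 1)` -/
theorem k5ph_iter (u v : (ZMod M)ˣ) (g : gammaH L M H)
    (hform : ∀ φ : HomS (gammaH L M H) A,
        tS L M ℓ H A φ (Additive.ofMul g)
          = ℓ • diamU L M H A u φ (Additive.ofMul g) + diamU L M H A v φ (Additive.ofMul g))
    (m : ℕ) (φ : HomS (gammaH L M H) A) :
    ((k5phEta L M ℓ H A) ^ m) φ (Additive.ofMul g)
      = ((ℓ • (diamU L M H A u - 1) + (diamU L M H A v - 1) :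
          AddMonoid.End (HomS (gammaH L M H) A)) ^ m) φ (Additive.ofMul g) := by
  set E : AddMonoid.End (HomS (gammaH L M H) A) :=
    ℓ • (diamU L M H A u - 1) + (diamU L M H A v - 1) with hE
  have h1 : ∀ ψ : HomS (gammaH L M H) A,
      (k5phEta L M ℓ H A) ψ (Additive.ofMul g) = E ψ (Additive.ofMul g) := by
    intro ψ
    show (tS L M ℓ H A ψ - (ℓ + 1) • ψ) (Additive.ofMul g)
      = (ℓ • (diamU L M H A u ψ - ψ) + (diamU L M H A v ψ - ψ)) (Additive.ofMul g)
    simp only [AddMonoidHom.sub_apply, AddMonoidHom.add_apply, AddMonoidHom.nsmul_apply]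
    rw [hform ψ, add_nsmul, one_nsmul, nsmul_sub]
    abel
  have hcomm : Commute E (k5phEta L M ℓ H A) := by
    rw [hE]
    refine Commute.add_left ?_ ?_
    · exact Commute.smul_left (((k5ph_eta_comm L M ℓ H A u).sub_left (Commute.one_left _))) _
    · exact (k5ph_eta_comm L M ℓ H A v).sub_left (Commute.one_left _)
  induction m generalizing φ with
  | zero => rfl
  | succ m ih =>
    have e1 : ((k5phEta L M ℓ H A) ^ (m + 1)) φ
        = ((k5phEta L M ℓ H A) ^ m) ((k5phEta L M ℓ H A) φ) := by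
      rw [pow_succ]; rfl
    have e2 : (E ^ m) ((k5phEta L M ℓ H A) φ) = (k5phEta L M ℓ H A) ((E ^ m) φ) := by
      have := (hcomm.pow_left m).eq
      exact congrArg (fun T : AddMonoid.End (HomS (gammaH L M H) A) => T φ) this
    have e3 : (E ^ (m + 1)) φ = E ((E ^ m) φ) := by
      rw [pow_succ']; rfl
    rw [e1, ih, e2, h1, e3]

end

/-- `2` and `ℓ₀` act injectively on a group killed by `pⁿ` -/
theorem k5ph_inj_of_coprime {A : Type} [AddCommGroup A] (N c : ℕ) (hc : Nat.Coprime c N)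
    (hA : ∀ a : A, N • a = 0) (a : A) (h : c • a = 0) : a = 0 := by
  have h1 : ((Nat.gcd c N : ℕ) : ℤ) • a = 0 := by
    rw [Nat.gcd_eq_gcd_ab, add_smul, mul_comm, mul_smul, mul_comm, mul_smul]
    rw [natCast_zsmul, natCast_zsmul, h, hA a, smul_zero, smul_zero, add_zero]
  rw [hc] at h1
  simpa using h1

/-- **K5-PARH** -/
theorem stmtParH : StmtParH := by
  intro p _ L M ℓ₀ _ _ hML H A _ n k hL hℓ₀ hℓ₀L hp2 hℓ₀p hpA hexp φ hφ
  have hp : p.Prime := Fact.out
  have hcopℓ : Nat.Coprime ℓ₀ (p ^ n) :=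
    Nat.Coprime.pow_right n ((Nat.coprime_primes hℓ₀ hp).mpr hℓ₀p)
  have hcop2 : Nat.Coprime 2 (p ^ n) :=
    Nat.Coprime.pow_right n ((Nat.coprime_primes Nat.prime_two hp).mpr (Ne.symm hp2))
  have hAℓ : ∀ a : A, ℓ₀ • a = 0 → a = 0 := fun a => k5ph_inj_of_coprime (p ^ n) ℓ₀ hcopℓ hpA a
  have hA2 : ∀ a : A, 2 • a = 0 → a = 0 := fun a => k5ph_inj_of_coprime (p ^ n) 2 hcop2 hpA a
  -- the ring of endomorphisms has `pⁿ = 0`
  have hpR : ((p ^ n : ℕ) : AddMonoid.End (HomS (gammaH L M H) A)) = 0 := by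
    refine AddMonoidHom.ext fun ψ => ?_
    refine AddMonoidHom.ext fun x => ?_
    show ((p ^ n : ℕ) : AddMonoid.End (HomS (gammaH L M H) A)) ψ x = 0
    rw [AddMonoid.End.natCast_apply]
    show (p ^ n) • ψ x = 0
    exact hpA _
  have hnil : ∀ u : (ZMod M)ˣ, IsNilpotent (diamU L M H A u - 1) := by
    intro u
    refine k5ph_unipotent p n k hpR _ ?_
    rw [← map_pow]
    exact k5act_diamU_of_mem L M H A (hexp u)
  -- trace `2`
  have htwo : ∀ g : gammaH L M H, (g : SL(2, ℤ)) 0 0 + (g : SL(2, ℤ)) 1 1 = 2 →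
      φ (Additive.ofMul g) = 0 := by
    intro g hg
    obtain ⟨u, v, hform⟩ := k5ph_boundary L M ℓ₀ H hL hℓ₀ hℓ₀L g hg
    have hE : IsNilpotent (ℓ₀ • (diamU L M H A u - 1) + (diamU L M H A v - 1) :
        AddMonoid.End (HomS (gammaH L M H) A)) := by
      have hc : Commute (diamU L M H A u - 1) (diamU L M H A v - 1) := by
        have h1 : Commute (diamU L M H A u) (diamU L M H A v) := by
          show diamU L M H A u * diamU L M H A v = diamU L M H A v * diamU L M H A u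
          rw [← map_mul, ← map_mul, mul_comm]
        exact (h1.sub_left (Commute.one_left _)).sub_right (Commute.one_right _)
      refine Commute.isNilpotent_add (Commute.smul_left hc _) ?_ (hnil v)
      obtain ⟨e, he⟩ := hnil u
      exact ⟨e, by rw [smul_pow, he]; exact smul_zero _⟩
    obtain ⟨m, hm⟩ := hE
    have hφm : φ ∈ AddMonoidHom.range
        (((show AddMonoid.End (HomS (gammaH L M H) A) from etaS L M ℓ₀ H A) ^ m :
          AddMonoid.End (HomS (gammaH L M H) A)) :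
          HomS (gammaH L M H) A →+ HomS (gammaH L M H) A) :=
      (AddSubgroup.mem_iInf.mp hφ) m
    obtain ⟨ψ, hψ⟩ := hφm
    rw [← hψ]
    have := k5ph_iter L M ℓ₀ H A u v g (hform A hAℓ) m ψ
    rw [hm] at this
    exact this
  -- the general case
  intro γ hγ
  have hdet : (γ : SL(2, ℤ)) 0 0 * (γ : SL(2, ℤ)) 1 1 - (γ : SL(2, ℤ)) 0 1 * (γ : SL(2, ℤ)) 1 0
      = 1 := by
    have h := (γ : SL(2, ℤ)).det_coe
    rwa [Matrix.det_fin_two] at h
  rw [Matrix.trace_fin_two] at hγ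
  have hg2 : ((γ ^ 2 : gammaH L M H) : SL(2, ℤ)) 0 0 + ((γ ^ 2 : gammaH L M H) : SL(2, ℤ)) 1 1
      = 2 := by
    rw [Subgroup.coe_pow, pow_two]
    simp only [Matrix.SpecialLinearGroup.coe_mul, Matrix.mul_apply, Fin.sum_univ_two]
    linear_combination hγ - 2 * hdet
  have h2 := htwo (γ ^ 2) hg2
  rw [ofMul_pow, map_nsmul] at h2
  exact hA2 _ h2

/-- change of coefficients maps the `η`-part into the `η`-part -/
theorem k5ph_mapS_etaPart (L M ℓ : ℕ) [NeZero L] [NeZero ℓ] [hML : Fact (M ∣ L)]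
    (H : Subgroup (ZMod M)ˣ) {A B : Type} [AddCommGroup A] [AddCommGroup B] (f : A →+ B)
    (φ : HomS (gammaH L M H) A) (hφ : φ ∈ etaPart (etaS L M ℓ H A)) :
    mapS f φ ∈ etaPart (etaS L M ℓ H B) := by
  have hpow : ∀ (m : ℕ) (ψ : HomS (gammaH L M H) A),
      mapS f (((show AddMonoid.End (HomS (gammaH L M H) A) from etaS L M ℓ H A) ^ m) ψ)
        = ((show AddMonoid.End (HomS (gammaH L M H) B) from etaS L M ℓ H B) ^ m) (mapS f ψ) := by
    intro m
    induction m with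
    | zero => intro ψ; rfl
    | succ m ih =>
      intro ψ
      rw [pow_succ, pow_succ]
      show mapS f (((show AddMonoid.End (HomS (gammaH L M H) A) from etaS L M ℓ H A) ^ m)
          (etaS L M ℓ H A ψ))
        = ((show AddMonoid.End (HomS (gammaH L M H) B) from etaS L M ℓ H B) ^ m)
          (etaS L M ℓ H B (mapS f ψ))
      rw [ih, k5nat_etaS]
  refine AddSubgroup.mem_iInf.mpr fun m => ?_
  obtain ⟨ψ, hψ⟩ := (AddSubgroup.mem_iInf.mp hφ) m
  refine ⟨mapS f ψ, ?_⟩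
  rw [← hψ]
  exact (hpow m ψ).symm

/-- **K5-PARH over `𝒪`** -/
theorem stmtParO : StmtParO := by
  intro p _ L M ℓ₀ _ _ hML H A _ k hL hℓ₀ hℓ₀L hp2 hℓ₀p hsep hexp φ hφ γ hγ
  apply hsep
  intro n
  -- reduce modulo `pⁿ`
  let I : AddSubgroup A := AddMonoidHom.range (nsmulAddMonoidHom (α := A) (p ^ n))
  let f : A →+ A ⧸ I := QuotientAddGroup.mk' I
  have hkill : ∀ b : A ⧸ I, p ^ n • b = 0 := by
    intro b
    obtain ⟨a, rfl⟩ := QuotientAddGroup.mk_surjective b
    have : ((p ^ n • a : A) : A ⧸ I) = 0 := by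
      rw [QuotientAddGroup.eq_zero_iff]
      exact ⟨a, rfl⟩
    exact this
  have h1 := stmtParH p L M ℓ₀ H (A ⧸ I) n k hL hℓ₀ hℓ₀L hp2 hℓ₀p hkill hexp (mapS f φ)
    (k5ph_mapS_etaPart L M ℓ₀ H f φ hφ) γ hγ
  have h2 : (φ (Additive.ofMul γ) : A ⧸ I) = 0 := h1
  rw [QuotientAddGroup.eq_zero_iff] at h2
  obtain ⟨b, hb⟩ := h2
  exact ⟨b, hb.symm⟩

end Fermat.Agent.RT.K5
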