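import Fermat.Agent.RT.K5.Nat
import Fermat.Agent.RT.K5.CommU

/-!
# RT-K5: families of Hecke operators, natural in the coefficient module

`NatFam 𝒪 L M`: for every `𝒪`-module `A` a `CompatFam L M A`, compatible with `𝒪`-linear maps of
coefficients.  Constructors: `one`, `comp`, `add`, `coeff c` (`c ∈ 𝒪`), `hecke ℓ` (`tS ℓ` for
EVERY `ℓ ≥ 1`, e.g. `U_q`), `heckeAdj ℓ`.  `thetaN 𝔲 ℓ₀ A K = 𝔲_K ∘ (T_ℓ₀ − ℓ₀ − 1)` on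
`Hom(Γ_K(L), A)`.
-/

set_option autoImplicit false
set_option linter.style.haveILetI false
set_option linter.unusedSectionVars false
set_option linter.unusedVariables false

noncomputable section

namespace Fermat.Agent.RT.K5

open CongruenceSubgroup Matrix
open scoped MatrixGroups
open Fermat.Agent.ES1 (gammaH diamHom pmH)

/-- `tS ℓ` for every `ℓ ≥ 1` as a compatible family (`U_q` for a prime `q ∣ L`) -/
def CompatFam.heckeU (L M ℓ : ℕ) [NeZero L] [NeZero ℓ] [Fact (M ∣ L)] (A : Type)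
    [AddCommGroup A] : CompatFam L M A where
  op K := tS L M ℓ K A
  res_comm K' K h φ := (stmtCommU L M ℓ K' K h A).1 φ
  cores_comm K' K h ψ := (stmtCommU L M ℓ K' K h A).2.1 ψ
  diam_comm K g hgL hgM ψ := (stmtCommU L M ℓ K K le_rfl A).2.2 g hgL hgM ψ

/-- `tSadj ℓ` for every `ℓ ≥ 1` as a compatible family -/
def CompatFam.heckeAdj (L M ℓ : ℕ) [NeZero L] [NeZero ℓ] [Fact (M ∣ L)] (A : Type)
    [AddCommGroup A] : CompatFam L M A where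
  op K := tSadj L M ℓ K A
  res_comm K' K h φ := (stmtCommUAdj L M ℓ K' K h A).1 φ
  cores_comm K' K h ψ := (stmtCommUAdj L M ℓ K' K h A).2.1 ψ
  diam_comm K g hgL hgM ψ := (stmtCommUAdj L M ℓ K K le_rfl A).2.2 g hgL hgM ψ

/-- a family of operators on `Hom(Γ_K(L), A)`, all `K`, all `𝒪`-modules `A`, natural in `A` -/
structure NatFam (𝒪 : Type) [CommRing 𝒪] (L M : ℕ) [NeZero L] [Fact (M ∣ L)] where
  /-- the family with coefficients `A` -/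
  fam : ∀ (A : Type) [AddCommGroup A] [Module 𝒪 A], CompatFam L M A
  nat : ∀ (A B : Type) [AddCommGroup A] [Module 𝒪 A] [AddCommGroup B] [Module 𝒪 B]
    (f : A →ₗ[𝒪] B) (K : Subgroup (ZMod M)ˣ) (φ : HomS (gammaH L M K) A),
    mapS f.toAddMonoidHom ((fam A).op K φ) = (fam B).op K (mapS f.toAddMonoidHom φ)

section constructors

variable (𝒪 : Type) [CommRing 𝒪] (L M : ℕ) [NeZero L] [hML : Fact (M ∣ L)]

/-- the trivial family -/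
def NatFam.one : NatFam 𝒪 L M where
  fam A _ _ := CompatFam.one L M A
  nat _ _ _ _ _ _ _ _ _ := rfl

variable {𝒪 L M}

/-- composition -/
def NatFam.comp (𝔲 𝔳 : NatFam 𝒪 L M) : NatFam 𝒪 L M where
  fam A _ _ := (𝔲.fam A).comp (𝔳.fam A)
  nat A B _ _ _ _ f K φ := by
    show mapS f.toAddMonoidHom ((𝔲.fam A).op K ((𝔳.fam A).op K φ))
      = (𝔲.fam B).op K ((𝔳.fam B).op K (mapS f.toAddMonoidHom φ))
    rw [𝔲.nat A B f K, 𝔳.nat A B f K]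

/-- sum -/
def NatFam.add (𝔲 𝔳 : NatFam 𝒪 L M) : NatFam 𝒪 L M where
  fam A _ _ := (𝔲.fam A).add (𝔳.fam A)
  nat A B _ _ _ _ f K φ := by
    show mapS f.toAddMonoidHom ((𝔲.fam A).op K φ + (𝔳.fam A).op K φ)
      = (𝔲.fam B).op K (mapS f.toAddMonoidHom φ) + (𝔳.fam B).op K (mapS f.toAddMonoidHom φ)
    rw [map_add, 𝔲.nat A B f K, 𝔳.nat A B f K]

variable (𝒪 L M)

/-- a scalar `c ∈ 𝒪` -/
def NatFam.coeff (c : 𝒪) : NatFam 𝒪 L M where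
  fam A _ _ := CompatFam.coeff L M (DistribSMul.toAddMonoidHom A c)
  nat A B _ _ _ _ f K φ := by
    refine AddMonoidHom.ext fun γ => ?_
    show f (c • φ γ) = c • f (φ γ)
    exact map_smul f c (φ γ)

/-- `tS ℓ`, every `ℓ ≥ 1` -/
def NatFam.hecke (ℓ : ℕ) [NeZero ℓ] : NatFam 𝒪 L M where
  fam A _ _ := CompatFam.heckeU L M ℓ A
  nat A B _ _ _ _ f K φ := k5nat_tS L M f.toAddMonoidHom ℓ K φ

/-- `tSadj ℓ`, every `ℓ ≥ 1` -/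
def NatFam.heckeAdj (ℓ : ℕ) [NeZero ℓ] : NatFam 𝒪 L M where
  fam A _ _ := CompatFam.heckeAdj L M ℓ A
  nat A B _ _ _ _ f K φ := k5nat_tSadj L M f.toAddMonoidHom ℓ K φ

end constructors

section theta

variable {𝒪 : Type} [CommRing 𝒪] {L M : ℕ} [NeZero L] [hML : Fact (M ∣ L)]

/-- `Θ = 𝔲 ∘ (T_ℓ₀ − ℓ₀ − 1)` on `Hom(Γ_K(L), A)` -/
def thetaN (𝔲 : NatFam 𝒪 L M) (ℓ₀ : ℕ) [NeZero ℓ₀] (A : Type) [AddCommGroup A] [Module 𝒪 A]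
    (K : Subgroup (ZMod M)ˣ) : HomS (gammaH L M K) A →+ HomS (gammaH L M K) A :=
  thetaS (𝔲.fam A) ℓ₀ K

theorem k5n_theta_nat (𝔲 : NatFam 𝒪 L M) (ℓ₀ : ℕ) [NeZero ℓ₀] {A B : Type} [AddCommGroup A]
    [Module 𝒪 A] [AddCommGroup B] [Module 𝒪 B] (f : A →ₗ[𝒪] B) (K : Subgroup (ZMod M)ˣ)
    (φ : HomS (gammaH L M K) A) :
    mapS f.toAddMonoidHom (thetaN 𝔲 ℓ₀ A K φ) = thetaN 𝔲 ℓ₀ B K (mapS f.toAddMonoidHom φ) := by
  show mapS f.toAddMonoidHom ((𝔲.fam A).op K (etaS L M ℓ₀ K A φ))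
    = (𝔲.fam B).op K (etaS L M ℓ₀ K B (mapS f.toAddMonoidHom φ))
  rw [𝔲.nat A B f K, k5nat_etaS]

theorem k5n_op_smul (𝔲 : NatFam 𝒪 L M) {A : Type} [AddCommGroup A] [Module 𝒪 A]
    (K : Subgroup (ZMod M)ˣ) (c : 𝒪) (φ : HomS (gammaH L M K) A) :
    (𝔲.fam A).op K (c • φ) = c • (𝔲.fam A).op K φ :=
  (𝔲.nat A A (LinearMap.lsmul 𝒪 A c) K φ).symm

theorem k5n_theta_smul (𝔲 : NatFam 𝒪 L M) (ℓ₀ : ℕ) [NeZero ℓ₀] {A : Type} [AddCommGroup A]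
    [Module 𝒪 A] (K : Subgroup (ZMod M)ˣ) (c : 𝒪) (φ : HomS (gammaH L M K) A) :
    thetaN 𝔲 ℓ₀ A K (c • φ) = c • thetaN 𝔲 ℓ₀ A K φ :=
  (k5n_theta_nat 𝔲 ℓ₀ (LinearMap.lsmul 𝒪 A c) K φ).symm

/-- `res` intertwines `Θ` -/
theorem k5n_theta_res (𝔲 : NatFam 𝒪 L M) (ℓ₀ : ℕ) [NeZero ℓ₀] (hℓ : ℓ₀.Prime) (hℓL : ¬ ℓ₀ ∣ L)
    {A : Type} [AddCommGroup A] [Module 𝒪 A] {K' K : Subgroup (ZMod M)ˣ} (h : K' ≤ K)
    (φ : HomS (gammaH L M K) A) :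
    resS A (Fermat.Agent.ES1.gammaH_mono h) (thetaN 𝔲 ℓ₀ A K φ)
      = thetaN 𝔲 ℓ₀ A K' (resS A (Fermat.Agent.ES1.gammaH_mono h) φ) := by
  show resS A (Fermat.Agent.ES1.gammaH_mono h)
      ((𝔲.fam A).op K (tS L M ℓ₀ K A φ - (ℓ₀ + 1) • φ))
    = (𝔲.fam A).op K' (tS L M ℓ₀ K' A (resS A (Fermat.Agent.ES1.gammaH_mono h) φ)
      - (ℓ₀ + 1) • resS A (Fermat.Agent.ES1.gammaH_mono h) φ)
  rw [(𝔲.fam A).res_comm K' K h, map_sub, map_nsmul, (stmtCommU L M ℓ₀ K' K h A).1]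

/-- `cores` intertwines `Θ` -/
theorem k5n_theta_cores (𝔲 : NatFam 𝒪 L M) (ℓ₀ : ℕ) [NeZero ℓ₀]
    {A : Type} [AddCommGroup A] [Module 𝒪 A] {K' K : Subgroup (ZMod M)ˣ} (h : K' ≤ K)
    (ψ : HomS (gammaH L M K') A) :
    coresS A (Fermat.Agent.ES1.gammaH_mono h) (thetaN 𝔲 ℓ₀ A K' ψ)
      = thetaN 𝔲 ℓ₀ A K (coresS A (Fermat.Agent.ES1.gammaH_mono h) ψ) := by
  show coresS A (Fermat.Agent.ES1.gammaH_mono h)
      ((𝔲.fam A).op K' (tS L M ℓ₀ K' A ψ - (ℓ₀ + 1) • ψ))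
    = (𝔲.fam A).op K (tS L M ℓ₀ K A (coresS A (Fermat.Agent.ES1.gammaH_mono h) ψ)
      - (ℓ₀ + 1) • coresS A (Fermat.Agent.ES1.gammaH_mono h) ψ)
  rw [(𝔲.fam A).cores_comm K' K h, map_sub, map_nsmul, (stmtCommU L M ℓ₀ K' K h A).2.1]

/-- the diamonds commute with `Θ` -/
theorem k5n_theta_diam (𝔲 : NatFam 𝒪 L M) (ℓ₀ : ℕ) [NeZero ℓ₀]
    {A : Type} [AddCommGroup A] [Module 𝒪 A] (K : Subgroup (ZMod M)ˣ)
    (g : SL(2, ℤ)) (hgL : g ∈ Gamma0 L) (hgM : g ∈ Gamma0 M) (ψ : HomS (gammaH L M K) A) :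
    diamS K A g hgL hgM (thetaN 𝔲 ℓ₀ A K ψ) = thetaN 𝔲 ℓ₀ A K (diamS K A g hgL hgM ψ) := by
  show diamS K A g hgL hgM ((𝔲.fam A).op K (tS L M ℓ₀ K A ψ - (ℓ₀ + 1) • ψ))
    = (𝔲.fam A).op K (tS L M ℓ₀ K A (diamS K A g hgL hgM ψ) - (ℓ₀ + 1) • diamS K A g hgL hgM ψ)
  rw [(𝔲.fam A).diam_comm, map_sub, map_nsmul, (stmtCommU L M ℓ₀ K K le_rfl A).2.2]

end theta

end Fermat.Agent.RT.K5
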