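import Fermat.Agent.RT.K5.Plan2

/-!
# RT-K5, piece UQ4 (helper49): the degeneracy maps commute with `tS ℓ'`, `stmtDegComm`

`ℓ ∤ L` a prime, `ℓ' ≠ ℓ` a prime (which may divide `L`).  The four maps
`resH, resDH : Hom(Γ_H(L), A) → Hom(Γ_H(L ℓ), A)` and `coresH, coresDH` in the other direction
commute with `tS ℓ' = cores_δ' ∘ res`.  Each square is a base change
(`k5c_transfer_basechange`) followed by transitivity of the transfer (`k5c_transfer_trans`):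

* `resH`    : the square `(conj_δ', incl_ℓ)`   (`k5dc_square_incl`; for `ℓ' ∤ L` it is `k5cc_square`);
* `resDH`   : the square `(conj_δ', conj_δ)`   (`k5dc_square_conj`);
* `coresH`  : the square `(incl_ℓ, incl_ℓ')`   (`k5dc_square_ii`);
* `coresDH` : the square `(conj_δ, incl_ℓ')`   (`k5cc_square` with the roles exchanged).
-/

set_option autoImplicit false
set_option linter.style.haveILetI false
set_option linter.unusedSectionVars false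
set_option linter.unusedVariables false

noncomputable section

namespace Fermat.Agent.RT.K5

open CongruenceSubgroup Matrix
open scoped MatrixGroups
open Fermat.Agent.ES1 (gammaH diamHom pmH)

/-! ### Arithmetic -/

/-- arithmetic core, general form -/
theorem k5dc_arith (N : ℤ) {r : ℕ} (hr : r.Prime) (b d : ℤ)
    (h : ∃ s : ℤ, ¬ (r : ℤ) ∣ d - N * s * b) :
    ∃ s t : ℤ, (r : ℤ) ∣ (1 + N * s * t) * b - t * d := by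
  obtain ⟨s, hs⟩ := h
  have hrp : Prime (r : ℤ) := Nat.prime_iff_prime_int.mp hr
  have hcop : IsCoprime (r : ℤ) (d - N * s * b) := (Prime.coprime_iff_not_dvd hrp).mpr hs
  obtain ⟨u, v, huv⟩ := hcop
  refine ⟨s, b * v, ⟨b * u, ?_⟩⟩
  linear_combination (-b) * huv

/-- for `γ ∈ Γ₀(L)` and a prime `r ∤ m`: some `d - L m s b` is prime to `r` -/
theorem k5dc_exists_s (L : ℕ) {r : ℕ} (hr : r.Prime) (γ : SL(2, ℤ)) (hγ : γ ∈ Gamma0 L)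
    (m : ℤ) (hm : ¬ (r : ℤ) ∣ m) :
    ∃ s : ℤ, ¬ (r : ℤ) ∣ γ 1 1 - (L : ℤ) * m * s * γ 0 1 := by
  have hrp : Prime (r : ℤ) := Nat.prime_iff_prime_int.mp hr
  have hdet : γ 0 0 * γ 1 1 - γ 0 1 * γ 1 0 = 1 := by
    have := γ.2
    rw [Matrix.det_fin_two] at this
    exact this
  by_cases hd : (r : ℤ) ∣ γ 1 1
  · refine ⟨1, fun h => ?_⟩
    have h1 : (r : ℤ) ∣ (L : ℤ) * m * γ 0 1 := by
      have : (L : ℤ) * m * γ 0 1 = γ 1 1 - (γ 1 1 - (L : ℤ) * m * 1 * γ 0 1) := by ring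
      rw [this]; exact dvd_sub hd h
    have hc : (L : ℤ) ∣ γ 1 0 := S41.dvd_of_mem_Gamma0 hγ
    have h2 : (r : ℤ) ∣ γ 0 1 * γ 1 0 := by
      rcases hrp.dvd_or_dvd h1 with h3 | h3
      · rcases hrp.dvd_or_dvd h3 with h4 | h4
        · exact (h4.trans hc).mul_left _
        · exact absurd h4 hm
      · exact h3.mul_right _
    have h5 : (r : ℤ) ∣ γ 0 0 * γ 1 1 - γ 0 1 * γ 1 0 := dvd_sub (hd.mul_left _) h2
    rw [hdet] at h5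
    exact hrp.not_dvd_one h5
  · exact ⟨0, by simpa using hd⟩

/-- `(X γ)₁₀` for `X = [[1, t], [N s, 1 + N s t]]` -/
theorem k5dc_X_mul_10 (N : ℕ) (s t : ℤ) (γ : SL(2, ℤ)) :
    (((k5ccX N s t) * γ : SL(2, ℤ)) : Matrix (Fin 2) (Fin 2) ℤ) 1 0 =
      (N : ℤ) * s * γ 0 0 + (1 + N * s * t) * γ 1 0 := by
  rw [Matrix.SpecialLinearGroup.coe_mul, Matrix.mul_apply, Fin.sum_univ_two]
  simp [k5ccX]

/-- distinct primes do not divide each other (integer form) -/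
theorem k5dc_not_dvd {ℓ ℓ' : ℕ} (hℓ : ℓ.Prime) (hℓ' : ℓ'.Prime) (hne : ℓ ≠ ℓ') :
    ¬ (ℓ' : ℤ) ∣ (ℓ : ℤ) := by
  intro h
  exact hne ((Nat.prime_dvd_prime_iff_eq hℓ' hℓ).mp (Int.natCast_dvd_natCast.mp h)).symm

section squares

variable (L M ℓ ℓ' : ℕ) [NeZero L] [NeZero ℓ] [NeZero ℓ'] [hML : Fact (M ∣ L)]
  (H : Subgroup (ZMod M)ˣ)

/-- an element of `Γ_H(L)` whose `(0,1)` entry is divisible by `ℓ'` is in the image of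
`conj_δ'` -/
theorem k5dc_mem_conjDH_range (g : gammaH L M H)
    (h01 : (ℓ' : ℤ) ∣ ((g : SL(2, ℤ)) : Matrix (Fin 2) (Fin 2) ℤ) 0 1) :
    g ∈ (conjDH L M ℓ' H hML.out).range := by
  obtain ⟨z, hz, hz00⟩ := k5e_exists_conjD_preimage L ℓ' ⟨(g : SL(2, ℤ)), g.2.1⟩ h01
  have hzL : (z : SL(2, ℤ)) ∈ Gamma0 L := by
    apply S41.mem_Gamma0_of_dvd
    exact (Int.natCast_dvd_natCast.mpr (dvd_mul_right L ℓ')).trans (S41.dvd_of_mem_Gamma0 z.2)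
  have hzM : (z : SL(2, ℤ)) ∈ Gamma0 M := k5i_mem_Gamma0M L M hzL
  have hmem : (z : SL(2, ℤ)) ∈ gammaH (L * ℓ') M H := by
    refine ⟨z.2, hzM, ?_⟩
    rw [k5e_diam_eq_of_entry _ _ hzM g.2.2.1 hz00]
    exact g.2.2.2
  refine ⟨⟨(z : SL(2, ℤ)), hmem⟩, ?_⟩
  apply Subtype.ext
  rw [conjDH_coe]
  have : (⟨(z : SL(2, ℤ)), hmem.1⟩ : Gamma0 (L * ℓ')) = z := rfl
  rw [this, hz]

/-- the `(0,1)` entry of `conj_δ' z` is divisible by `ℓ'` -/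
theorem k5dc_conjDH_01 (z : gammaH (L * ℓ') M H) :
    (ℓ' : ℤ) ∣ (((conjDH L M ℓ' H hML.out z : gammaH L M H) : SL(2, ℤ)) :
      Matrix (Fin 2) (Fin 2) ℤ) 0 1 := by
  rw [conjDH_coe, S41.conjD_coe]
  simp [S41.conjDMat]

/-- **the square `(conj_δ', incl_ℓ)`** for every prime `ℓ' ≠ ℓ` (also `ℓ' ∣ L`) -/
theorem k5dc_square_incl (hℓ : ℓ.Prime) (hℓ' : ℓ'.Prime) (hne : ℓ ≠ ℓ') :
    (∀ k : gammaH (L * ℓ * ℓ') M H, conjDH L M ℓ' H hML.out (k5ccJK L M ℓ ℓ' H k)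
        = inclH L M ℓ H (k5ccF' L M ℓ ℓ' H k)) ∧
    (∀ x : gammaH (L * ℓ) M H, inclH L M ℓ H x ∈ (conjDH L M ℓ' H hML.out).range →
        x ∈ (k5ccF' L M ℓ ℓ' H).range) ∧
    (∀ γ : gammaH L M H, ∃ x : gammaH (L * ℓ) M H,
        (inclH L M ℓ H x)⁻¹ * γ ∈ (conjDH L M ℓ' H hML.out).range) := by
  haveI : Fact (M ∣ L * ℓ) := ⟨k5cc_dvd_mul L M ℓ⟩
  refine ⟨fun k => Subtype.ext rfl, ?_, ?_⟩
  · rintro x ⟨z, hz⟩
    have h01 : (ℓ' : ℤ) ∣ ((x : SL(2, ℤ)) : Matrix (Fin 2) (Fin 2) ℤ) 0 1 := by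
      have h1 := k5dc_conjDH_01 L M ℓ' H z
      rw [hz] at h1
      exact h1
    exact k5dc_mem_conjDH_range (L * ℓ) M ℓ' H x h01
  · intro γ
    obtain ⟨s₀, hs₀⟩ := k5dc_exists_s L hℓ' (γ : SL(2, ℤ)) γ.2.1 (ℓ : ℤ)
      (k5dc_not_dvd hℓ hℓ' hne)
    obtain ⟨s, t, hst⟩ := k5dc_arith ((L * ℓ : ℕ) : ℤ) hℓ' _ _
      ⟨s₀, by push_cast; exact hs₀⟩
    have hxK : k5ccX (L * ℓ) s t ∈ gammaH (L * ℓ) M H :=
      k5ccX_mem (L * ℓ) M (k5cc_dvd_mul L M ℓ) H s t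
    have hxΓ : k5ccX (L * ℓ) s t ∈ gammaH L M H := gammaH_mul_le L M ℓ H hxK
    have hg : (k5ccX (L * ℓ) s t)⁻¹ * (γ : SL(2, ℤ)) ∈ gammaH L M H :=
      mul_mem (inv_mem hxΓ) γ.2
    have h01 : (ℓ' : ℤ) ∣ (((k5ccX (L * ℓ) s t)⁻¹ * (γ : SL(2, ℤ)) : SL(2, ℤ)) :
        Matrix (Fin 2) (Fin 2) ℤ) 0 1 := by
      rw [k5ccX_inv_mul_01]
      exact hst
    refine ⟨⟨_, hxK⟩, ?_⟩
    exact k5dc_mem_conjDH_range L M ℓ' H ⟨_, hg⟩ h01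

/-- the inclusion `Γ_H(L ℓ ℓ') → Γ_H(L ℓ')` has finite index -/
instance k5dc_JK_finiteIndex : (k5ccJK L M ℓ ℓ' H).range.FiniteIndex := by
  haveI : Fact (M ∣ L * ℓ * ℓ') :=
    ⟨(k5cc_dvd_mul L M ℓ).trans (dvd_mul_right (L * ℓ) ℓ')⟩
  rw [k5ccJK, Subgroup.inclusion_range]
  infer_instance

theorem k5dc_JK_injective : Function.Injective (k5ccJK L M ℓ ℓ' H) :=
  Subgroup.inclusion_injective _

/-- **the square `(incl_ℓ, incl_ℓ')`**, `ℓ ∤ L`, `ℓ' ≠ ℓ` -/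
theorem k5dc_square_ii (hℓ : ℓ.Prime) (hℓ' : ℓ'.Prime) (hne : ℓ ≠ ℓ') (hℓL : ¬ ℓ ∣ L) :
    (∀ k : gammaH (L * ℓ * ℓ') M H, inclH L M ℓ H (inclH (L * ℓ) M ℓ' H k)
        = inclH L M ℓ' H (k5ccJK L M ℓ ℓ' H k)) ∧
    (∀ x : gammaH (L * ℓ') M H, inclH L M ℓ' H x ∈ (inclH L M ℓ H).range →
        x ∈ (k5ccJK L M ℓ ℓ' H).range) ∧
    (∀ γ : gammaH L M H, ∃ x : gammaH (L * ℓ') M H,
        (inclH L M ℓ' H x)⁻¹ * γ ∈ (inclH L M ℓ H).range) := by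
  have hℓp : Prime (ℓ : ℤ) := Nat.prime_iff_prime_int.mp hℓ
  have hL0 : (L : ℤ) ≠ 0 := by exact_mod_cast NeZero.ne L
  refine ⟨fun k => Subtype.ext rfl, ?_, ?_⟩
  · rintro x ⟨z, hz⟩
    have he : (z : SL(2, ℤ)) = (x : SL(2, ℤ)) :=
      congrArg (fun y : gammaH L M H => (y : SL(2, ℤ))) hz
    obtain ⟨c, hc⟩ := S41.dvd_of_mem_Gamma0 x.2.1
    obtain ⟨c', hc'⟩ := S41.dvd_of_mem_Gamma0 z.2.1
    rw [he, hc] at hc'
    push_cast at hc'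
    have h1 : (ℓ' : ℤ) * c = ℓ * c' := by
      apply mul_left_cancel₀ hL0
      linear_combination hc'
    have h2 : (ℓ : ℤ) ∣ c := by
      have h3 : (ℓ : ℤ) ∣ (ℓ' : ℤ) * c := ⟨c', h1⟩
      rcases hℓp.dvd_or_dvd h3 with h4 | h4
      · exact absurd h4 (k5dc_not_dvd hℓ' hℓ (Ne.symm hne))
      · exact h4
    obtain ⟨c'', hc''⟩ := h2
    have hmem : (x : SL(2, ℤ)) ∈ gammaH (L * ℓ * ℓ') M H := by
      refine ⟨?_, x.2.2⟩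
      apply S41.mem_Gamma0_of_dvd
      rw [hc, hc'']
      exact ⟨c'', by push_cast; ring⟩
    exact ⟨⟨(x : SL(2, ℤ)), hmem⟩, Subtype.ext rfl⟩
  · intro γ
    have hdet : ((γ : SL(2, ℤ)) : Matrix (Fin 2) (Fin 2) ℤ) 0 0 * (γ : SL(2, ℤ)) 1 1
        - (γ : SL(2, ℤ)) 0 1 * (γ : SL(2, ℤ)) 1 0 = 1 := by
      have := (γ : SL(2, ℤ)).2
      rw [Matrix.det_fin_two] at this
      exact this
    have hN : ¬ (ℓ : ℤ) ∣ ((L * ℓ' : ℕ) : ℤ) := by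
      intro h
      rcases (Nat.Prime.dvd_mul hℓ).mp (Int.natCast_dvd_natCast.mp h) with h1 | h1
      · exact hℓL h1
      · exact hne ((Nat.prime_dvd_prime_iff_eq hℓ hℓ').mp h1)
    -- some `a + s₀ c` is prime to `ℓ`
    have key : ∃ s₀ : ℤ, ¬ (ℓ : ℤ) ∣ (γ : SL(2, ℤ)) 0 0 + s₀ * (γ : SL(2, ℤ)) 1 0 := by
      by_cases ha : (ℓ : ℤ) ∣ (γ : SL(2, ℤ)) 0 0
      · refine ⟨1, fun h => ?_⟩
        have h1 : (ℓ : ℤ) ∣ (γ : SL(2, ℤ)) 1 0 := by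
          have : ((γ : SL(2, ℤ)) : Matrix (Fin 2) (Fin 2) ℤ) 1 0 =
              ((γ : SL(2, ℤ)) 0 0 + 1 * (γ : SL(2, ℤ)) 1 0) - (γ : SL(2, ℤ)) 0 0 := by ring
          rw [this]; exact dvd_sub h ha
        have h2 : (ℓ : ℤ) ∣ ((γ : SL(2, ℤ)) : Matrix (Fin 2) (Fin 2) ℤ) 0 0 * (γ : SL(2, ℤ)) 1 1
            - (γ : SL(2, ℤ)) 0 1 * (γ : SL(2, ℤ)) 1 0 :=
          dvd_sub (ha.mul_right _) (h1.mul_left _)
        rw [hdet] at h2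
        exact hℓp.not_dvd_one h2
      · exact ⟨0, by simpa using ha⟩
    obtain ⟨s₀, hs₀⟩ := key
    obtain ⟨t, s, hst⟩ := k5dc_arith ((L * ℓ' : ℕ) : ℤ) hℓ ((γ : SL(2, ℤ)) 1 0)
      (-(((L * ℓ' : ℕ) : ℤ) * (γ : SL(2, ℤ)) 0 0)) ⟨s₀, fun h => by
        have e : -(((L * ℓ' : ℕ) : ℤ) * (γ : SL(2, ℤ)) 0 0) -
            ((L * ℓ' : ℕ) : ℤ) * s₀ * (γ : SL(2, ℤ)) 1 0 =
            -(((L * ℓ' : ℕ) : ℤ) * ((γ : SL(2, ℤ)) 0 0 + s₀ * (γ : SL(2, ℤ)) 1 0)) := by ring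
        rw [e, dvd_neg] at h
        rcases hℓp.dvd_or_dvd h with h1 | h1
        · exact hN h1
        · exact hs₀ h1⟩
    -- `x = X⁻¹`, `X = [[1, t], [N s, 1 + N s t]]`
    have hXK : k5ccX (L * ℓ') s t ∈ gammaH (L * ℓ') M H :=
      k5ccX_mem (L * ℓ') M (k5cc_dvd_mul L M ℓ') H s t
    have hXΓ : k5ccX (L * ℓ') s t ∈ gammaH L M H := gammaH_mul_le L M ℓ' H hXK
    have hg : k5ccX (L * ℓ') s t * (γ : SL(2, ℤ)) ∈ gammaH L M H := mul_mem hXΓ γ.2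
    have h10 : (ℓ : ℤ) ∣ ((k5ccX (L * ℓ') s t * (γ : SL(2, ℤ)) : SL(2, ℤ)) :
        Matrix (Fin 2) (Fin 2) ℤ) 1 0 := by
      rw [k5dc_X_mul_10]
      obtain ⟨w, hw⟩ := hst
      exact ⟨w, by linear_combination hw⟩
    have hgℓ : k5ccX (L * ℓ') s t * (γ : SL(2, ℤ)) ∈ gammaH (L * ℓ) M H := by
      refine ⟨?_, hg.2⟩
      apply S41.mem_Gamma0_of_dvd
      obtain ⟨c, hc⟩ := S41.dvd_of_mem_Gamma0 hg.1
      rw [hc] at h10 ⊢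
      have h2 : (ℓ : ℤ) ∣ c := by
        rcases hℓp.dvd_or_dvd h10 with h4 | h4
        · exact absurd (Int.natCast_dvd_natCast.mp h4) hℓL
        · exact h4
      obtain ⟨c'', hc''⟩ := h2
      rw [hc'']
      exact ⟨c'', by push_cast; ring⟩
    refine ⟨⟨(k5ccX (L * ℓ') s t)⁻¹, inv_mem hXK⟩, ⟨⟨_, hgℓ⟩, ?_⟩⟩
    apply Subtype.ext
    show k5ccX (L * ℓ') s t * (γ : SL(2, ℤ)) = ((k5ccX (L * ℓ') s t)⁻¹)⁻¹ * (γ : SL(2, ℤ))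
    rw [inv_inv]

/-- conjugation by `δ_ℓ` : `Γ_H(L ℓ ℓ') → Γ_H(L ℓ')` -/
def k5dcD : gammaH (L * ℓ * ℓ') M H →* gammaH (L * ℓ') M H :=
  (k5ccF' L M ℓ' ℓ H).comp
    (Subgroup.inclusion (le_of_eq (congrArg (fun n => gammaH n M H) (mul_right_comm L ℓ ℓ'))))

theorem k5dcD_coe (k : gammaH (L * ℓ * ℓ') M H) :
    (((k5dcD L M ℓ ℓ' H k : gammaH (L * ℓ') M H) : SL(2, ℤ)) : Matrix (Fin 2) (Fin 2) ℤ) =
      S41.conjDMat ℓ ((k : SL(2, ℤ)) : Matrix (Fin 2) (Fin 2) ℤ) := rfl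

/-- `conj_δ [[1, t], [L ℓ s, 1 + L ℓ s t]] = [[1, ℓ t], [L s, 1 + L s ℓ t]]` -/
theorem k5dc_conj_X (s t : ℤ) (hx : k5ccX (L * ℓ) s t ∈ gammaH (L * ℓ) M H) :
    ((conjDH L M ℓ H hML.out ⟨k5ccX (L * ℓ) s t, hx⟩ : gammaH L M H) : SL(2, ℤ)) =
      k5ccX L s (ℓ * t) := by
  have hℓ0 : (ℓ : ℤ) ≠ 0 := by exact_mod_cast NeZero.ne ℓ
  apply Subtype.ext
  rw [conjDH_coe, S41.conjD_coe]
  ext i j
  fin_cases i <;> fin_cases j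
  · simp [S41.conjDMat, k5ccX]
  · simp [S41.conjDMat, k5ccX]
  · simp only [S41.conjDMat, k5ccX, Matrix.of_apply, Matrix.cons_val_zero, Matrix.cons_val_one,
      Fin.zero_eta, Fin.mk_one]
    show ((L * ℓ : ℕ) : ℤ) * s / ℓ = (L : ℤ) * s
    have : ((L * ℓ : ℕ) : ℤ) * s = ℓ * ((L : ℤ) * s) := by push_cast; ring
    rw [this, Int.mul_ediv_cancel_left _ hℓ0]
  · simp only [S41.conjDMat, k5ccX, Matrix.of_apply, Matrix.cons_val_zero, Matrix.cons_val_one,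
      Fin.mk_one]
    show 1 + ((L * ℓ : ℕ) : ℤ) * s * t = 1 + (L : ℤ) * s * (ℓ * t)
    push_cast; ring

/-- **the square `(conj_δ', conj_δ)`** for primes `ℓ ≠ ℓ'` -/
theorem k5dc_square_conj (hℓ : ℓ.Prime) (hℓ' : ℓ'.Prime) (hne : ℓ ≠ ℓ') :
    (∀ k : gammaH (L * ℓ * ℓ') M H, conjDH L M ℓ' H hML.out (k5dcD L M ℓ ℓ' H k)
        = conjDH L M ℓ H hML.out (k5ccF' L M ℓ ℓ' H k)) ∧
    (∀ x : gammaH (L * ℓ) M H, conjDH L M ℓ H hML.out x ∈ (conjDH L M ℓ' H hML.out).range →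
        x ∈ (k5ccF' L M ℓ ℓ' H).range) ∧
    (∀ γ : gammaH L M H, ∃ x : gammaH (L * ℓ) M H,
        (conjDH L M ℓ H hML.out x)⁻¹ * γ ∈ (conjDH L M ℓ' H hML.out).range) := by
  haveI : Fact (M ∣ L * ℓ) := ⟨k5cc_dvd_mul L M ℓ⟩
  have hℓ'p : Prime (ℓ' : ℤ) := Nat.prime_iff_prime_int.mp hℓ'
  refine ⟨fun k => ?_, ?_, ?_⟩
  · apply Subtype.ext
    apply Subtype.ext
    show S41.conjDMat ℓ' (S41.conjDMat ℓ ((k : SL(2, ℤ)) : Matrix (Fin 2) (Fin 2) ℤ)) =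
      S41.conjDMat ℓ (S41.conjDMat ℓ' ((k : SL(2, ℤ)) : Matrix (Fin 2) (Fin 2) ℤ))
    ext i j
    fin_cases i <;> fin_cases j
    · simp [S41.conjDMat]
    · simp only [S41.conjDMat, Matrix.of_apply, Matrix.cons_val_zero, Matrix.cons_val_one,
        Fin.zero_eta, Fin.mk_one]
      ring
    · simp only [S41.conjDMat, Matrix.of_apply, Matrix.cons_val_zero, Matrix.cons_val_one,
        Fin.zero_eta, Fin.mk_one]
      rw [Int.ediv_ediv_of_nonneg (Int.natCast_nonneg ℓ),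
        Int.ediv_ediv_of_nonneg (Int.natCast_nonneg ℓ'), mul_comm (ℓ' : ℤ) (ℓ : ℤ)]
    · simp [S41.conjDMat]
  · rintro x ⟨z, hz⟩
    have h1 := k5dc_conjDH_01 L M ℓ' H z
    rw [hz, conjDH_coe, S41.conjD_coe] at h1
    have h2 : (ℓ' : ℤ) ∣ (ℓ : ℤ) * ((x : SL(2, ℤ)) : Matrix (Fin 2) (Fin 2) ℤ) 0 1 := by
      simpa [S41.conjDMat] using h1
    have h01 : (ℓ' : ℤ) ∣ ((x : SL(2, ℤ)) : Matrix (Fin 2) (Fin 2) ℤ) 0 1 := by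
      rcases hℓ'p.dvd_or_dvd h2 with h4 | h4
      · exact absurd h4 (k5dc_not_dvd hℓ hℓ' hne)
      · exact h4
    exact k5dc_mem_conjDH_range (L * ℓ) M ℓ' H x h01
  · intro γ
    obtain ⟨s₀, hs₀⟩ := k5dc_exists_s L hℓ' (γ : SL(2, ℤ)) γ.2.1 1 hℓ'p.not_dvd_one
    obtain ⟨s, t, hst⟩ := k5dc_arith ((L : ℤ) * ℓ) hℓ' ((γ : SL(2, ℤ)) 0 1)
      ((ℓ : ℤ) * (γ : SL(2, ℤ)) 1 1) ⟨s₀, fun h => by
        have e : (ℓ : ℤ) * (γ : SL(2, ℤ)) 1 1 - (L : ℤ) * ℓ * s₀ * (γ : SL(2, ℤ)) 0 1 =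
            (ℓ : ℤ) * ((γ : SL(2, ℤ)) 1 1 - (L : ℤ) * 1 * s₀ * (γ : SL(2, ℤ)) 0 1) := by ring
        rw [e] at h
        rcases hℓ'p.dvd_or_dvd h with h1 | h1
        · exact k5dc_not_dvd hℓ hℓ' hne h1
        · exact hs₀ h1⟩
    have hxK : k5ccX (L * ℓ) s t ∈ gammaH (L * ℓ) M H :=
      k5ccX_mem (L * ℓ) M (k5cc_dvd_mul L M ℓ) H s t
    have hjx := k5dc_conj_X L M ℓ H s t hxK
    have hjΓ : k5ccX L s (ℓ * t) ∈ gammaH L M H := by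
      rw [← hjx]; exact (conjDH L M ℓ H hML.out ⟨_, hxK⟩).2
    have hg : (k5ccX L s (ℓ * t))⁻¹ * (γ : SL(2, ℤ)) ∈ gammaH L M H :=
      mul_mem (inv_mem hjΓ) γ.2
    have h01 : (ℓ' : ℤ) ∣ (((k5ccX L s (ℓ * t))⁻¹ * (γ : SL(2, ℤ)) : SL(2, ℤ)) :
        Matrix (Fin 2) (Fin 2) ℤ) 0 1 := by
      rw [k5ccX_inv_mul_01]
      obtain ⟨w, hw⟩ := hst
      exact ⟨w, by linear_combination hw⟩
    refine ⟨⟨_, hxK⟩, ?_⟩
    have hmem := k5dc_mem_conjDH_range L M ℓ' H ⟨_, hg⟩ h01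
    have e : (conjDH L M ℓ H hML.out ⟨k5ccX (L * ℓ) s t, hxK⟩)⁻¹ * γ =
        (⟨(k5ccX L s (ℓ * t))⁻¹ * (γ : SL(2, ℤ)), hg⟩ : gammaH L M H) := by
      apply Subtype.ext
      show ((conjDH L M ℓ H hML.out ⟨k5ccX (L * ℓ) s t, hxK⟩ : gammaH L M H) : SL(2, ℤ))⁻¹ *
        (γ : SL(2, ℤ)) = _
      rw [hjx]
    rw [e]
    exact hmem

end squares

section assembly

variable (L M ℓ ℓ' : ℕ) [NeZero L] [NeZero ℓ] [NeZero ℓ'] [hML : Fact (M ∣ L)]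
  (H : Subgroup (ZMod M)ˣ) (A : Type) [AddCommGroup A]

/-- **`resH` commutes with `tS ℓ'`** -/
theorem k5dc_resH (hℓ : ℓ.Prime) (hℓ' : ℓ'.Prime) (hne : ℓ ≠ ℓ')
    (φ : HomS (gammaH L M H) A) :
    haveI : Fact (M ∣ L * ℓ) := ⟨k5cc_dvd_mul L M ℓ⟩
    resH L M ℓ H A (tS L M ℓ' H A φ) = tS (L * ℓ) M ℓ' H A (resH L M ℓ H A φ) := by
  haveI : Fact (M ∣ L * ℓ) := ⟨k5cc_dvd_mul L M ℓ⟩
  obtain ⟨h1, h2, h3⟩ := k5dc_square_incl L M ℓ ℓ' H hℓ hℓ' hne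
  have hA := k5c_transfer_basechange (conjDH L M ℓ' H hML.out)
    (conjDH_injective L M ℓ' H hML.out) (inclH L M ℓ H) (k5ccF' L M ℓ ℓ' H)
    (k5ccF'_injective L M ℓ ℓ' H) (k5ccJK L M ℓ ℓ' H) A h1 h2 h3
    (φ.comp (MonoidHom.toAdditive (inclH L M ℓ' H)))
  show (S41.transferAlong A (conjDH L M ℓ' H hML.out) (conjDH_injective L M ℓ' H hML.out)
        (φ.comp (MonoidHom.toAdditive (inclH L M ℓ' H)))).comp
          (MonoidHom.toAdditive (inclH L M ℓ H)) = _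
  rw [hA]
  rfl

/-- **`coresDH` commutes with `tS ℓ'`** -/
theorem k5dc_coresDH (hℓ : ℓ.Prime) (hℓ' : ℓ'.Prime) (hne : ℓ ≠ ℓ') (hℓL : ¬ ℓ ∣ L)
    (ψ : HomS (gammaH (L * ℓ) M H) A) :
    haveI : Fact (M ∣ L * ℓ) := ⟨k5cc_dvd_mul L M ℓ⟩
    coresDH L M ℓ H A (tS (L * ℓ) M ℓ' H A ψ) = tS L M ℓ' H A (coresDH L M ℓ H A ψ) := by
  haveI : Fact (M ∣ L * ℓ) := ⟨k5cc_dvd_mul L M ℓ⟩
  haveI : Fact (M ∣ L * ℓ') := ⟨k5cc_dvd_mul L M ℓ'⟩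
  -- left hand side: transitivity
  haveI : ((conjDH L M ℓ H hML.out).comp (k5ccF' L M ℓ ℓ' H)).range.FiniteIndex :=
    k5ccF_finiteIndex L M ℓ ℓ' H
  have hB := k5c_transfer_trans (k5ccF' L M ℓ ℓ' H) (k5ccF'_injective L M ℓ ℓ' H)
    (conjDH L M ℓ H hML.out) (conjDH_injective L M ℓ H hML.out) A
    (ψ.comp (MonoidHom.toAdditive (inclH (L * ℓ) M ℓ' H)))
  -- right hand side: base change, then transitivity
  obtain ⟨h1, h2, h3⟩ := k5cc_square L M ℓ' ℓ H hℓ' hℓ (Ne.symm hne) hℓL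
  have hA := k5c_transfer_basechange (conjDH L M ℓ H hML.out)
    (conjDH_injective L M ℓ H hML.out) (inclH L M ℓ' H) (k5ccF' L M ℓ' ℓ H)
    (k5ccF'_injective L M ℓ' ℓ H) (k5ccJK L M ℓ' ℓ H) A h1 h2 h3 ψ
  haveI : ((conjDH L M ℓ' H hML.out).comp (k5ccF' L M ℓ' ℓ H)).range.FiniteIndex :=
    k5ccF_finiteIndex L M ℓ' ℓ H
  have hC := k5c_transfer_trans (k5ccF' L M ℓ' ℓ H) (k5ccF'_injective L M ℓ' ℓ H)
    (conjDH L M ℓ' H hML.out) (conjDH_injective L M ℓ' H hML.out) A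
    (ψ.comp (MonoidHom.toAdditive (k5ccJK L M ℓ' ℓ H)))
  show S41.transferAlong A (conjDH L M ℓ H hML.out) (conjDH_injective L M ℓ H hML.out)
      (S41.transferAlong A (k5ccF' L M ℓ ℓ' H) (k5ccF'_injective L M ℓ ℓ' H)
        (ψ.comp (MonoidHom.toAdditive (inclH (L * ℓ) M ℓ' H)))) =
    S41.transferAlong A (conjDH L M ℓ' H hML.out) (conjDH_injective L M ℓ' H hML.out)
      ((S41.transferAlong A (conjDH L M ℓ H hML.out) (conjDH_injective L M ℓ H hML.out) ψ).comp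
        (MonoidHom.toAdditive (inclH L M ℓ' H)))
  rw [hA, ← hB, ← hC]
  have hℓ0 : (ℓ : ℤ) ≠ 0 := by exact_mod_cast hℓ.ne_zero
  have hℓ'0 : (ℓ' : ℤ) ≠ 0 := by exact_mod_cast hℓ'.ne_zero
  refine k5cc_congr M H A (show L * ℓ * ℓ' = L * ℓ' * ℓ by ring) _ _ _ _ _ _
    (fun k₁ k₂ hk => ?_) (fun k₁ k₂ hk => ?_)
  · apply Subtype.ext
    apply Subtype.ext
    show S41.conjDMat ℓ (S41.conjDMat ℓ' ((k₁ : SL(2, ℤ)) : Matrix (Fin 2) (Fin 2) ℤ)) =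
      S41.conjDMat ℓ' (S41.conjDMat ℓ ((k₂ : SL(2, ℤ)) : Matrix (Fin 2) (Fin 2) ℤ))
    rw [hk]
    ext i j
    fin_cases i <;> fin_cases j
    · simp [S41.conjDMat]
    · simp only [S41.conjDMat, Matrix.of_apply, Matrix.cons_val_zero, Matrix.cons_val_one,
        Fin.zero_eta, Fin.mk_one]
      ring
    · simp only [S41.conjDMat, Matrix.of_apply, Matrix.cons_val_zero, Matrix.cons_val_one,
        Fin.zero_eta, Fin.mk_one]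
      rw [Int.ediv_ediv_of_nonneg (Int.natCast_nonneg ℓ'),
        Int.ediv_ediv_of_nonneg (Int.natCast_nonneg ℓ), mul_comm (ℓ' : ℤ) (ℓ : ℤ)]
    · simp [S41.conjDMat]
  · show ψ (Additive.ofMul (inclH (L * ℓ) M ℓ' H k₁)) =
      ψ (Additive.ofMul (k5ccJK L M ℓ' ℓ H k₂))
    congr 2
    exact Subtype.ext hk

/-- **`resDH` commutes with `tS ℓ'`** -/
theorem k5dc_resDH (hℓ : ℓ.Prime) (hℓ' : ℓ'.Prime) (hne : ℓ ≠ ℓ')
    (φ : HomS (gammaH L M H) A) :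
    haveI : Fact (M ∣ L * ℓ) := ⟨k5cc_dvd_mul L M ℓ⟩
    resDH L M ℓ H A (tS L M ℓ' H A φ) = tS (L * ℓ) M ℓ' H A (resDH L M ℓ H A φ) := by
  haveI : Fact (M ∣ L * ℓ) := ⟨k5cc_dvd_mul L M ℓ⟩
  obtain ⟨h1, h2, h3⟩ := k5dc_square_conj L M ℓ ℓ' H hℓ hℓ' hne
  have hA := k5c_transfer_basechange (conjDH L M ℓ' H hML.out)
    (conjDH_injective L M ℓ' H hML.out) (conjDH L M ℓ H hML.out) (k5ccF' L M ℓ ℓ' H)
    (k5ccF'_injective L M ℓ ℓ' H) (k5dcD L M ℓ ℓ' H) A h1 h2 h3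
    (φ.comp (MonoidHom.toAdditive (inclH L M ℓ' H)))
  show (S41.transferAlong A (conjDH L M ℓ' H hML.out) (conjDH_injective L M ℓ' H hML.out)
        (φ.comp (MonoidHom.toAdditive (inclH L M ℓ' H)))).comp
          (MonoidHom.toAdditive (conjDH L M ℓ H hML.out)) = _
  rw [hA]
  show _ = S41.transferAlong A (k5ccF' L M ℓ ℓ' H) (k5ccF'_injective L M ℓ ℓ' H)
    ((φ.comp (MonoidHom.toAdditive (conjDH L M ℓ H hML.out))).comp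
      (MonoidHom.toAdditive (inclH (L * ℓ) M ℓ' H)))
  congr 1

/-- **`coresH` commutes with `tS ℓ'`** -/
theorem k5dc_coresH (hℓ : ℓ.Prime) (hℓ' : ℓ'.Prime) (hne : ℓ ≠ ℓ') (hℓL : ¬ ℓ ∣ L)
    (ψ : HomS (gammaH (L * ℓ) M H) A) :
    haveI : Fact (M ∣ L * ℓ) := ⟨k5cc_dvd_mul L M ℓ⟩
    coresH L M ℓ H A (tS (L * ℓ) M ℓ' H A ψ) = tS L M ℓ' H A (coresH L M ℓ H A ψ) := by
  haveI : Fact (M ∣ L * ℓ) := ⟨k5cc_dvd_mul L M ℓ⟩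
  haveI : Fact (M ∣ L * ℓ') := ⟨k5cc_dvd_mul L M ℓ'⟩
  -- left hand side: transitivity
  haveI : ((inclH L M ℓ H).comp (k5ccF' L M ℓ ℓ' H)).range.FiniteIndex :=
    k5c_comp_finiteIndex (k5ccF' L M ℓ ℓ' H) (inclH L M ℓ H) (inclH_injective L M ℓ H)
  have hB := k5c_transfer_trans (k5ccF' L M ℓ ℓ' H) (k5ccF'_injective L M ℓ ℓ' H)
    (inclH L M ℓ H) (inclH_injective L M ℓ H) A
    (ψ.comp (MonoidHom.toAdditive (inclH (L * ℓ) M ℓ' H)))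
  -- right hand side: base change, then transitivity
  obtain ⟨h1, h2, h3⟩ := k5dc_square_ii L M ℓ ℓ' H hℓ hℓ' hne hℓL
  have hA := k5c_transfer_basechange (inclH L M ℓ H) (inclH_injective L M ℓ H)
    (inclH L M ℓ' H) (k5ccJK L M ℓ ℓ' H) (k5dc_JK_injective L M ℓ ℓ' H)
    (inclH (L * ℓ) M ℓ' H) A h1 h2 h3 ψ
  haveI : ((conjDH L M ℓ' H hML.out).comp (k5ccJK L M ℓ ℓ' H)).range.FiniteIndex :=
    k5c_comp_finiteIndex (k5ccJK L M ℓ ℓ' H) (conjDH L M ℓ' H hML.out)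
      (conjDH_injective L M ℓ' H hML.out)
  have hC := k5c_transfer_trans (k5ccJK L M ℓ ℓ' H) (k5dc_JK_injective L M ℓ ℓ' H)
    (conjDH L M ℓ' H hML.out) (conjDH_injective L M ℓ' H hML.out) A
    (ψ.comp (MonoidHom.toAdditive (inclH (L * ℓ) M ℓ' H)))
  show S41.transferAlong A (inclH L M ℓ H) (inclH_injective L M ℓ H)
      (S41.transferAlong A (k5ccF' L M ℓ ℓ' H) (k5ccF'_injective L M ℓ ℓ' H)
        (ψ.comp (MonoidHom.toAdditive (inclH (L * ℓ) M ℓ' H)))) =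
    S41.transferAlong A (conjDH L M ℓ' H hML.out) (conjDH_injective L M ℓ' H hML.out)
      ((S41.transferAlong A (inclH L M ℓ H) (inclH_injective L M ℓ H) ψ).comp
        (MonoidHom.toAdditive (inclH L M ℓ' H)))
  rw [hA, ← hB, ← hC]
  exact k5c_transfer_congr (MonoidHom.ext fun k => Subtype.ext rfl) _ _ _


end assembly

/-- **K5-UQ4** -/
theorem stmtDegComm : StmtDegComm := by
  intro L M ℓ ℓ' _ _ _ hML H A _ hℓ hℓ' hne hℓL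
  exact ⟨fun φ => k5dc_resH L M ℓ ℓ' H A hℓ hℓ' hne φ,
    fun φ => k5dc_resDH L M ℓ ℓ' H A hℓ hℓ' hne φ,
    fun ψ => k5dc_coresH L M ℓ ℓ' H A hℓ hℓ' hne hℓL ψ,
    fun ψ => k5dc_coresDH L M ℓ ℓ' H A hℓ hℓ' hne hℓL ψ⟩

end Fermat.Agent.RT.K5
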