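import Fermat.Agent.RT.K5.Plan3

/-!
# RT-K5, piece TW-abs (helper26): the abstract Taylor–Wiles step, `stmtTWAbs : StmtTWAbs`

`α (φ₁, φ₂) = r₁ φ₁ + r₂ φ₂`, `α† ψ = (c₁ ψ, c₂ ψ)`, `D = (q + 1)² − T²`, `X₁ = etaPart θ_X`,
`Θ = θ_Y (U² − 1)`, `Y₁ = etaPart Θ`.
* `(U² − 1) α = α (M² − 1)` (`k5tw_UU`), `(M² − 1) adj(M² − 1) = D` (`k5tw_adj1`, `k5tw_adj2`),
  and `D`, `θ_X` are surjective on `X₁`: so `α(X₁²) ⊆ Θ α(X₁²)`, hence `α(X₁²) ⊆ Y₁`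
  (`k5tw_mem_of_stable`);
* `adj(α†α) α†α = D`: `α` is injective on `X₁²`;
* `α†` is injective on `Y₁` (`U² = 1` on `ker α†`, `Θ` injective on `Y₁`) and maps `Y₁` to `X₁²`;
* counting: `α : X₁² → Y₁` is bijective.
-/

set_option autoImplicit false
set_option linter.style.haveILetI false
set_option linter.unusedSectionVars false
set_option linter.unusedVariables false

noncomputable section

namespace Fermat.Agent.RT.K5

section general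

variable {V : Type*} [AddCommGroup V]

/-- a set with `S ⊆ θ S` lies in `etaPart θ` -/
theorem k5tw_mem_of_stable (θ : V →+ V) (S : Set V) (h : ∀ w ∈ S, ∃ w' ∈ S, θ w' = w) :
    ∀ w ∈ S, w ∈ etaPart θ := by
  intro w hw
  rw [k5s_mem_etaPart]
  intro n
  induction n generalizing w with
  | zero => exact ⟨w, rfl⟩
  | succ n ih =>
    obtain ⟨w', hw', e⟩ := h w hw
    obtain ⟨u, hu⟩ := ih w' hw'
    exact ⟨u, by rw [k5s_pow_succ', hu, e]⟩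

/-- an additive endomorphism which is injective on a finite stable subgroup is surjective on it -/
theorem k5tw_surj_of_inj (S : AddSubgroup V) [Finite S] (f : V →+ V) (hS : ∀ w ∈ S, f w ∈ S)
    (hinj : ∀ w ∈ S, f w = 0 → w = 0) : ∀ w ∈ S, ∃ w' ∈ S, f w' = w := by
  let g : S → S := fun w => ⟨f w.1, hS w.1 w.2⟩
  have hg : Function.Injective g := by
    intro a b hab
    have h1 : f a.1 = f b.1 := congrArg Subtype.val hab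
    have h2 : f (a.1 - b.1) = 0 := by rw [map_sub, h1, sub_self]
    have h3 := hinj _ (S.sub_mem a.2 b.2) h2
    exact Subtype.ext (sub_eq_zero.mp h3)
  have hs : Function.Surjective g := Finite.injective_iff_surjective.mp hg
  intro w hw
  obtain ⟨w', hw'⟩ := hs ⟨w, hw⟩
  exact ⟨w'.1, w'.2, congrArg Subtype.val hw'⟩

end general

section tw

variable {X Y : Type} [AddCommGroup X] [AddCommGroup Y] (q : ℕ)
  (T : X →+ X) (U : Y →+ Y) (r₁ r₂ : X →+ Y)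

/-- `(U² − 1) α = α (M² − 1)`, `M = [[T, q], [−1, 0]]` -/
theorem k5tw_UU (hU2 : ∀ φ, U (r₂ φ) = q • r₁ φ) (hU1 : ∀ φ, U (r₁ φ) = r₁ (T φ) - r₂ φ)
    (a b : X) :
    U (U (r₁ a + r₂ b)) - (r₁ a + r₂ b) =
      r₁ (T (T a) + q • T b - (q + 1) • a) + r₂ (-(T a) - (q + 1) • b) := by
  simp only [map_add, map_sub, map_neg, map_nsmul, hU1, hU2]
  module

/-- first row of `(M² − 1) adj(M² − 1) = D` -/
theorem k5tw_adj1 (χ₁ χ₂ : X) :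
    T (T (-((q + 1) • χ₁) - q • T χ₂)) + q • T (T χ₁ + T (T χ₂) - (q + 1) • χ₂)
        - (q + 1) • (-((q + 1) • χ₁) - q • T χ₂) =
      (q + 1) • (q + 1) • χ₁ - T (T χ₁) := by
  simp only [map_add, map_sub, map_neg, map_nsmul]
  module

/-- second row of `(M² − 1) adj(M² − 1) = D` -/
theorem k5tw_adj2 (χ₁ χ₂ : X) :
    -(T (-((q + 1) • χ₁) - q • T χ₂)) - (q + 1) • (T χ₁ + T (T χ₂) - (q + 1) • χ₂) =
      (q + 1) • (q + 1) • χ₂ - T (T χ₂) := by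
  simp only [map_sub, map_neg, map_nsmul]
  module

/-- first row of `adj(α†α) α†α = D` -/
theorem k5tw_adjA1 (φ₁ φ₂ : X) :
    (q + 1) • (q + 1) • φ₁ - T (T φ₁) =
      (q + 1) • ((q + 1) • φ₁ + T φ₂) - T (T φ₁ + (q + 1) • φ₂) := by
  simp only [map_add, map_nsmul]
  module

/-- second row of `adj(α†α) α†α = D` -/
theorem k5tw_adjA2 (φ₁ φ₂ : X) :
    (q + 1) • (q + 1) • φ₂ - T (T φ₂) =
      (q + 1) • (T φ₁ + (q + 1) • φ₂) - T ((q + 1) • φ₁ + T φ₂) := by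
  simp only [map_add, map_nsmul]
  module

end tw

/-- **K5-TW-abs** -/
theorem stmtTWAbs : StmtTWAbs := by
  intro X Y _ _ _ _ q T θX U θY r₁ r₂ c₁ c₂ h11 h22 h12 h21 hU2 hU1 hcU1 hcU2 hnew
    hr₁θ hr₂θ hc₁θ hc₂θ hTθ hUθ hD
  have hΘa : ∀ ψ, (θY.comp (U.comp U - AddMonoidHom.id Y)) ψ = θY (U (U ψ) - ψ) := fun ψ => rfl
  generalize hΘ : θY.comp (U.comp U - AddMonoidHom.id Y) = Θ at hΘa ⊢
  -- Fitting
  obtain ⟨-, -, fXs⟩ := k5fx_fitting θX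
  obtain ⟨-, fYi, fYs⟩ := k5fx_fitting Θ
  -- `T` preserves `X₁`
  have hTX : ∀ φ ∈ etaPart θX, T φ ∈ etaPart θX :=
    fun φ hφ => k5s_intertwine_mem θX θX T hTθ hφ
  -- `D` is surjective on `X₁`
  let D : X →+ X := (q + 1) • (q + 1) • AddMonoidHom.id X - T.comp T
  have hDa : ∀ φ, D φ = (q + 1) • (q + 1) • φ - T (T φ) := fun φ => rfl
  have hDS : ∀ φ ∈ etaPart θX, D φ ∈ etaPart θX := by
    intro φ hφ
    rw [hDa]
    exact sub_mem (nsmul_mem (nsmul_mem hφ _) _) (hTX _ (hTX _ hφ))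
  have hDsurj := k5tw_surj_of_inj (etaPart θX) D hDS
    (fun φ hφ h => hD φ hφ (by rw [← hDa]; exact h))
  -- `α(X₁²) ⊆ Y₁`
  have h1a : ∀ φ₁ ∈ etaPart θX, ∀ φ₂ ∈ etaPart θX, r₁ φ₁ + r₂ φ₂ ∈ etaPart Θ := by
    intro φ₁ h₁ φ₂ h₂
    refine k5tw_mem_of_stable Θ
      {ψ | ∃ a ∈ etaPart θX, ∃ b ∈ etaPart θX, ψ = r₁ a + r₂ b} ?_ _ ⟨φ₁, h₁, φ₂, h₂, rfl⟩
    rintro _ ⟨a, ha, b, hb, rfl⟩
    obtain ⟨a', ha', ea⟩ := fXs a ha
    obtain ⟨b', hb', eb⟩ := fXs b hb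
    obtain ⟨χ₁, hχ₁, e₁⟩ := hDsurj a' ha'
    obtain ⟨χ₂, hχ₂, e₂⟩ := hDsurj b' hb'
    refine ⟨r₁ (-((q + 1) • χ₁) - q • T χ₂) + r₂ (T χ₁ + T (T χ₂) - (q + 1) • χ₂),
      ⟨_, ?_, _, ?_, rfl⟩, ?_⟩
    · exact sub_mem (neg_mem (nsmul_mem hχ₁ _)) (nsmul_mem (hTX _ hχ₂) _)
    · exact sub_mem (add_mem (hTX _ hχ₁) (hTX _ (hTX _ hχ₂))) (nsmul_mem hχ₂ _)
    · rw [hΘa, k5tw_UU q T U r₁ r₂ hU2 hU1, k5tw_adj1, k5tw_adj2, ← hDa, ← hDa, e₁, e₂, map_add,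
        ← hr₁θ, ← hr₂θ, ea, eb]
  -- `α` is injective on `X₁²`
  have h1b : ∀ φ₁ ∈ etaPart θX, ∀ φ₂ ∈ etaPart θX, r₁ φ₁ + r₂ φ₂ = 0 → φ₁ = 0 ∧ φ₂ = 0 := by
    intro φ₁ h₁ φ₂ h₂ h0
    have e1 : (q + 1) • φ₁ + T φ₂ = 0 := by
      have := congrArg c₁ h0
      rwa [map_add, h11, h12, map_zero] at this
    have e2 : T φ₁ + (q + 1) • φ₂ = 0 := by
      have := congrArg c₂ h0
      rwa [map_add, h21, h22, map_zero] at this
    constructor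
    · apply hD φ₁ h₁
      rw [k5tw_adjA1 q T φ₁ φ₂, e1, e2, map_zero, smul_zero, sub_zero]
    · apply hD φ₂ h₂
      rw [k5tw_adjA2 q T φ₁ φ₂, e1, e2, map_zero, smul_zero, sub_zero]
  -- `Y₁ ⊆ etaPart θ_Y`
  have hYθ : ∀ ψ ∈ etaPart Θ, ψ ∈ etaPart θY := by
    refine k5tw_mem_of_stable θY (etaPart Θ : Set Y) ?_
    intro w hw
    obtain ⟨w', hw', e⟩ := fYs w hw
    refine ⟨U (U w') - w', ?_, by rw [← hΘa]; exact e⟩
    have hcomm : ∀ x, (U.comp U - AddMonoidHom.id Y) (Θ x) = Θ ((U.comp U - AddMonoidHom.id Y) x) := by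
      intro x
      show U (U (Θ x)) - Θ x = Θ (U (U x) - x)
      rw [hΘa, hΘa]
      simp only [map_sub, hUθ]
    exact k5s_intertwine_mem Θ Θ (U.comp U - AddMonoidHom.id Y) hcomm hw'
  have hcX : ∀ ψ ∈ etaPart Θ, c₁ ψ ∈ etaPart θX ∧ c₂ ψ ∈ etaPart θX := fun ψ hψ =>
    ⟨k5s_intertwine_mem θY θX c₁ hc₁θ (hYθ ψ hψ), k5s_intertwine_mem θY θX c₂ hc₂θ (hYθ ψ hψ)⟩
  -- the two injections
  let f : (etaPart θX) × (etaPart θX) → etaPart Θ :=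
    fun w => ⟨r₁ w.1.1 + r₂ w.2.1, h1a _ w.1.2 _ w.2.2⟩
  let g : etaPart Θ → (etaPart θX) × (etaPart θX) :=
    fun ψ => (⟨c₁ ψ.1, (hcX ψ.1 ψ.2).1⟩, ⟨c₂ ψ.1, (hcX ψ.1 ψ.2).2⟩)
  have hf : Function.Injective f := by
    intro w w' h
    have h' : r₁ w.1.1 + r₂ w.2.1 = r₁ w'.1.1 + r₂ w'.2.1 := congrArg Subtype.val h
    have h0 : r₁ (w.1.1 - w'.1.1) + r₂ (w.2.1 - w'.2.1) = 0 := by
      rw [map_sub, map_sub, sub_add_sub_comm, h', sub_self]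
    obtain ⟨e1, e2⟩ := h1b _ (sub_mem w.1.2 w'.1.2) _ (sub_mem w.2.2 w'.2.2) h0
    exact Prod.ext (Subtype.ext (sub_eq_zero.mp e1)) (Subtype.ext (sub_eq_zero.mp e2))
  have hg : Function.Injective g := by
    intro ψ ψ' h
    have h1 : c₁ ψ.1 = c₁ ψ'.1 := congrArg (fun w => (w.1.1 : X)) h
    have h2 : c₂ ψ.1 = c₂ ψ'.1 := congrArg (fun w => (w.2.1 : X)) h
    have hz : ψ.1 - ψ'.1 ∈ etaPart Θ := sub_mem ψ.2 ψ'.2
    have e1 : c₁ (ψ.1 - ψ'.1) = 0 := by rw [map_sub, h1, sub_self]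
    have e2 : c₂ (ψ.1 - ψ'.1) = 0 := by rw [map_sub, h2, sub_self]
    have e3 := hnew _ e1 e2
    have e4 : Θ (ψ.1 - ψ'.1) = 0 := by rw [hΘa, e3, sub_self, map_zero]
    exact Subtype.ext (sub_eq_zero.mp (fYi _ hz e4))
  have hcard : Nat.card (etaPart Θ) = Nat.card ((etaPart θX) × (etaPart θX)) :=
    le_antisymm (Nat.card_le_card_of_injective g hg) (Nat.card_le_card_of_injective f hf)
  have hfb : Function.Bijective f := hf.bijective_of_nat_card_le hcard.le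
  refine ⟨fun φ₁ h₁ φ₂ h₂ => ⟨h1a φ₁ h₁ φ₂ h₂, h1b φ₁ h₁ φ₂ h₂⟩, ?_, ?_⟩
  · intro ψ hψ
    obtain ⟨w, hw⟩ := hfb.2 ⟨ψ, hψ⟩
    exact ⟨w.1.1, w.1.2, w.2.1, w.2.2, (congrArg Subtype.val hw).symm⟩
  · rw [hcard, Nat.card_prod, sq]

end Fermat.Agent.RT.K5
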