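import Fermat.Agent.RT.K5.Plan2

/-!
# RT-K5, piece UQ2 (helper26): all `tS ℓ` commute, all `tSadj ℓ` commute — `stmtCommTU`

As `CommT.lean` (helper40), without the hypotheses `ℓ ∤ L`, `ℓ' ∤ L`.

* `tS ℓ ∘ tS ℓ' = cores_{δ δ'} ∘ res` (`k5uq2_tS_tS`): base change in the square
  `(Γ_H(L ℓ ℓ') → Γ_H(L ℓ), Γ_H(L ℓ') → Γ_H(L))` over `conj_δ'` / inclusions.  The only place
  where `ℓ' ∤ L` was used is the double coset decomposition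
  `Γ_H(L) = Γ₁(L ℓ) · δ' Γ_H(L ℓ') δ'⁻¹`; for `ℓ' ∣ L` the entry `d` is a unit modulo `ℓ'`
  (`k5uq2_arith`).
* `tSadj ℓ ∘ tSadj ℓ' = cores ∘ res_{δ' δ}` (`k5uq2_adj_adj`): base change in the square
  `(Γ_H(L ℓ ℓ') → Γ_H(L ℓ), Γ_H(L ℓ') → Γ_H(L))` over inclusions / `conj_δ`, with
  `Γ_H(L) = δ Γ₁(…) δ⁻¹ · Γ_H(L ℓ')` (`k5uq2_Y`, the same arithmetic for the transposed matrix).
-/

set_option autoImplicit false
set_option linter.style.haveILetI false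
set_option linter.unusedSectionVars false
set_option linter.unusedVariables false

noncomputable section

namespace Fermat.Agent.RT.K5

open CongruenceSubgroup Matrix
open scoped MatrixGroups
open Fermat.Agent.ES1 (gammaH diamHom pmH)

/-- arithmetic core of the double coset decompositions: `k5cc_arith`, also for `r ∣ N`
provided `r ∣ c`. -/
theorem k5uq2_arith (N : ℕ) {r : ℕ} (hr : r.Prime) (a b c d : ℤ)
    (hdet : a * d - b * c = 1) (h : ¬ r ∣ N ∨ (r : ℤ) ∣ c) :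
    ∃ s t : ℤ, (r : ℤ) ∣ (1 + N * s * t) * b - t * d := by
  rcases h with h | ⟨c', hc'⟩
  · exact k5cc_arith N hr h a b c d hdet
  · refine ⟨0, b * a, ⟨-(b * b * c'), ?_⟩⟩
    rw [hc'] at hdet
    linear_combination (-b) * hdet

theorem k5uq2_hyp (L ℓ ℓ' : ℕ) (hℓ : ℓ.Prime) (hℓ' : ℓ'.Prime) (hne : ℓ ≠ ℓ') :
    ¬ ℓ' ∣ L * ℓ ∨ ℓ' ∣ L := by
  by_cases h : ℓ' ∣ L
  · exact Or.inr h
  · refine Or.inl fun h' => ?_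
    rcases (Nat.Prime.dvd_mul hℓ').mp h' with h1 | h1
    · exact h h1
    · exact hne ((Nat.prime_dvd_prime_iff_eq hℓ' hℓ).mp h1).symm

section square

variable (L M ℓ ℓ' : ℕ) [NeZero L] [NeZero ℓ] [NeZero ℓ'] [hML : Fact (M ∣ L)]
  (H : Subgroup (ZMod M)ˣ)

/-- `k5cc_square` without `ℓ' ∤ L`. -/
theorem k5uq2_square (hℓ : ℓ.Prime) (hℓ' : ℓ'.Prime) (hne : ℓ ≠ ℓ') :
    (∀ k : gammaH (L * ℓ * ℓ') M H, conjDH L M ℓ' H hML.out (k5ccJK L M ℓ ℓ' H k)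
        = inclH L M ℓ H (k5ccF' L M ℓ ℓ' H k)) ∧
    (∀ x : gammaH (L * ℓ) M H, inclH L M ℓ H x ∈ (conjDH L M ℓ' H hML.out).range →
        x ∈ (k5ccF' L M ℓ ℓ' H).range) ∧
    (∀ γ : gammaH L M H, ∃ x : gammaH (L * ℓ) M H,
        (inclH L M ℓ H x)⁻¹ * γ ∈ (conjDH L M ℓ' H hML.out).range) := by
  have hℓ'0 : (ℓ' : ℤ) ≠ 0 := by exact_mod_cast NeZero.ne ℓ'
  refine ⟨fun k => Subtype.ext rfl, ?_, ?_⟩
  · rintro x ⟨z, hz⟩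
    have he : ((conjDH L M ℓ' H hML.out z : gammaH L M H) : SL(2, ℤ)) = (x : SL(2, ℤ)) :=
      congrArg (fun y : gammaH L M H => (y : SL(2, ℤ))) hz
    have he10 : ((x : SL(2, ℤ)) : Matrix (Fin 2) (Fin 2) ℤ) 1 0 =
        ((z : SL(2, ℤ)) : Matrix (Fin 2) (Fin 2) ℤ) 1 0 / ℓ' := by
      rw [← he, conjDH_coe, S41.conjD_coe]
      simp [S41.conjDMat]
    obtain ⟨c, hc⟩ : (ℓ' : ℤ) ∣ ((z : SL(2, ℤ)) : Matrix (Fin 2) (Fin 2) ℤ) 1 0 := by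
      have h1 := S41.dvd_of_mem_Gamma0 z.2.1
      exact (Dvd.intro_left _ (by push_cast; rfl)).trans h1
    rw [hc, Int.mul_ediv_cancel_left _ hℓ'0] at he10
    obtain ⟨c', hc'⟩ := S41.dvd_of_mem_Gamma0 x.2.1
    have hmem : (z : SL(2, ℤ)) ∈ gammaH (L * ℓ * ℓ') M H := by
      refine ⟨?_, z.2.2⟩
      apply S41.mem_Gamma0_of_dvd
      rw [hc, ← he10, hc']
      exact ⟨c', by push_cast; ring⟩
    refine ⟨⟨(z : SL(2, ℤ)), hmem⟩, ?_⟩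
    apply Subtype.ext
    rw [← he]
    rfl
  · intro γ
    have hdet : ((γ : SL(2, ℤ)) : Matrix (Fin 2) (Fin 2) ℤ) 0 0 * (γ : SL(2, ℤ)) 1 1
        - (γ : SL(2, ℤ)) 0 1 * (γ : SL(2, ℤ)) 1 0 = 1 := by
      have := (γ : SL(2, ℤ)).2
      rw [Matrix.det_fin_two] at this
      exact this
    have hyp : ¬ ℓ' ∣ L * ℓ ∨ (ℓ' : ℤ) ∣ ((γ : SL(2, ℤ)) : Matrix (Fin 2) (Fin 2) ℤ) 1 0 := by
      rcases k5uq2_hyp L ℓ ℓ' hℓ hℓ' hne with h | h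
      · exact Or.inl h
      · exact Or.inr ((Int.natCast_dvd_natCast.mpr h).trans (S41.dvd_of_mem_Gamma0 γ.2.1))
    obtain ⟨s, t, hst⟩ := k5uq2_arith (L * ℓ) hℓ' _ _ _ _ hdet hyp
    have hxK : k5ccX (L * ℓ) s t ∈ gammaH (L * ℓ) M H :=
      k5ccX_mem (L * ℓ) M (k5cc_dvd_mul L M ℓ) H s t
    have hxΓ : k5ccX (L * ℓ) s t ∈ gammaH L M H := gammaH_mul_le L M ℓ H hxK
    have hg : (k5ccX (L * ℓ) s t)⁻¹ * (γ : SL(2, ℤ)) ∈ gammaH L M H :=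
      mul_mem (inv_mem hxΓ) γ.2
    have h01 : (ℓ' : ℤ) ∣ (((k5ccX (L * ℓ) s t)⁻¹ * (γ : SL(2, ℤ)) : SL(2, ℤ)) :
        Matrix (Fin 2) (Fin 2) ℤ) 0 1 := by
      rw [k5ccX_inv_mul_01]
      exact hst
    obtain ⟨z, hz, hz00⟩ := k5e_exists_conjD_preimage L ℓ' ⟨_, hg.1⟩ h01
    have hzL : (z : SL(2, ℤ)) ∈ Gamma0 L := by
      apply S41.mem_Gamma0_of_dvd
      exact (Int.natCast_dvd_natCast.mpr (dvd_mul_right L ℓ')).trans (S41.dvd_of_mem_Gamma0 z.2)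
    have hzM : (z : SL(2, ℤ)) ∈ Gamma0 M := k5i_mem_Gamma0M L M hzL
    have hmem : (z : SL(2, ℤ)) ∈ gammaH (L * ℓ') M H := by
      refine ⟨z.2, hzM, ?_⟩
      rw [k5e_diam_eq_of_entry _ _ hzM hg.2.1 hz00]
      exact hg.2.2
    refine ⟨⟨_, hxK⟩, ⟨(z : SL(2, ℤ)), hmem⟩, ?_⟩
    apply Subtype.ext
    rw [conjDH_coe]
    have : (⟨(z : SL(2, ℤ)), hmem.1⟩ : Gamma0 (L * ℓ')) = z := rfl
    rw [this, hz]
    rfl

end square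

section assembly

variable (L M ℓ ℓ' : ℕ) [NeZero L] [NeZero ℓ] [NeZero ℓ'] [hML : Fact (M ∣ L)]
  (H : Subgroup (ZMod M)ˣ) (A : Type) [AddCommGroup A]

/-- `T_ℓ T_ℓ' = cores_{δ δ'} ∘ res`, for all primes `ℓ ≠ ℓ'` -/
theorem k5uq2_tS_tS (hℓ : ℓ.Prime) (hℓ' : ℓ'.Prime) (hne : ℓ ≠ ℓ')
    (φ : HomS (gammaH L M H) A) :
    tS L M ℓ H A (tS L M ℓ' H A φ) =
      S41.transferAlong A (k5ccF L M ℓ ℓ' H) (k5ccF_injective L M ℓ ℓ' H)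
        (φ.comp (MonoidHom.toAdditive (k5ccI L M ℓ ℓ' H))) := by
  obtain ⟨h1, h2, h3⟩ := k5uq2_square L M ℓ ℓ' H hℓ hℓ' hne
  have hA := k5c_transfer_basechange (conjDH L M ℓ' H hML.out)
    (conjDH_injective L M ℓ' H hML.out) (inclH L M ℓ H) (k5ccF' L M ℓ ℓ' H)
    (k5ccF'_injective L M ℓ ℓ' H) (k5ccJK L M ℓ ℓ' H) A h1 h2 h3
    (φ.comp (MonoidHom.toAdditive (inclH L M ℓ' H)))
  haveI : ((conjDH L M ℓ H hML.out).comp (k5ccF' L M ℓ ℓ' H)).range.FiniteIndex :=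
    k5ccF_finiteIndex L M ℓ ℓ' H
  have hB := k5c_transfer_trans (k5ccF' L M ℓ ℓ' H) (k5ccF'_injective L M ℓ ℓ' H)
    (conjDH L M ℓ H hML.out) (conjDH_injective L M ℓ H hML.out) A
    ((φ.comp (MonoidHom.toAdditive (inclH L M ℓ' H))).comp
      (MonoidHom.toAdditive (k5ccJK L M ℓ ℓ' H)))
  show S41.transferAlong A (conjDH L M ℓ H hML.out) (conjDH_injective L M ℓ H hML.out)
      ((S41.transferAlong A (conjDH L M ℓ' H hML.out) (conjDH_injective L M ℓ' H hML.out)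
        (φ.comp (MonoidHom.toAdditive (inclH L M ℓ' H)))).comp
          (MonoidHom.toAdditive (inclH L M ℓ H))) = _
  rw [hA, ← hB]
  rfl

end assembly

/-- `conj_δ conj_δ' = conj_δ' conj_δ` on matrices -/
theorem k5uq2_conjDMat_comm (ℓ ℓ' : ℕ) (X : Matrix (Fin 2) (Fin 2) ℤ) :
    S41.conjDMat ℓ (S41.conjDMat ℓ' X) = S41.conjDMat ℓ' (S41.conjDMat ℓ X) := by
  ext i j
  fin_cases i <;> fin_cases j
  · simp [S41.conjDMat]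
  · simp only [S41.conjDMat, Matrix.of_apply, Matrix.cons_val_zero, Matrix.cons_val_one,
      Fin.zero_eta, Fin.mk_one]
    ring
  · simp only [S41.conjDMat, Matrix.of_apply, Matrix.cons_val_zero, Matrix.cons_val_one,
      Fin.zero_eta, Fin.mk_one]
    rw [Int.ediv_ediv_of_nonneg (Int.natCast_nonneg ℓ'),
      Int.ediv_ediv_of_nonneg (Int.natCast_nonneg ℓ), mul_comm (ℓ' : ℤ) (ℓ : ℤ)]
  · simp [S41.conjDMat]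

/-- the `tS` half of **K5-UQ2** -/
theorem k5uq2_tS_comm (L M ℓ ℓ' : ℕ) [NeZero L] [NeZero ℓ] [NeZero ℓ'] [hML : Fact (M ∣ L)]
    (H : Subgroup (ZMod M)ˣ) (A : Type) [AddCommGroup A] (hℓ : ℓ.Prime) (hℓ' : ℓ'.Prime)
    (φ : HomS (gammaH L M H) A) :
    tS L M ℓ H A (tS L M ℓ' H A φ) = tS L M ℓ' H A (tS L M ℓ H A φ) := by
  by_cases hne : ℓ = ℓ'
  · subst hne
    rfl
  · rw [k5uq2_tS_tS L M ℓ ℓ' H A hℓ hℓ' hne φ,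
      k5uq2_tS_tS L M ℓ' ℓ H A hℓ' hℓ (Ne.symm hne) φ]
    refine k5cc_congr M H A (show L * ℓ * ℓ' = L * ℓ' * ℓ by ring) _ _ _ _ _ _
      (fun k₁ k₂ hk => ?_) (fun k₁ k₂ hk => ?_)
    · apply Subtype.ext
      apply Subtype.ext
      show S41.conjDMat ℓ (S41.conjDMat ℓ' ((k₁ : SL(2, ℤ)) : Matrix (Fin 2) (Fin 2) ℤ)) =
        S41.conjDMat ℓ' (S41.conjDMat ℓ ((k₂ : SL(2, ℤ)) : Matrix (Fin 2) (Fin 2) ℤ))
      rw [hk]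
      exact k5uq2_conjDMat_comm ℓ ℓ' _
    · show φ (Additive.ofMul (k5ccI L M ℓ ℓ' H k₁)) = φ (Additive.ofMul (k5ccI L M ℓ' ℓ H k₂))
      congr 2
      exact Subtype.ext hk

/-! ## the adjoint operators -/

/-- the matrix `[[1 + L ℓ s t, ℓ t], [L s, 1]] ∈ δ Γ₁(L ℓ) δ⁻¹` -/
def k5uq2_Y (L ℓ : ℕ) (s t : ℤ) : SL(2, ℤ) :=
  ⟨!![1 + (L : ℤ) * ℓ * s * t, (ℓ : ℤ) * t; (L : ℤ) * s, 1], by
    rw [Matrix.det_fin_two_of]; ring⟩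

theorem k5uq2_Y_mem (L M ℓ : ℕ) [hML : Fact (M ∣ L)] (H : Subgroup (ZMod M)ˣ) (s t : ℤ) :
    k5uq2_Y L ℓ s t ∈ gammaH L M H := by
  have h10 : (k5uq2_Y L ℓ s t) 1 0 = (L : ℤ) * s := by simp [k5uq2_Y]
  have h00 : (k5uq2_Y L ℓ s t) 0 0 = 1 + (L : ℤ) * ℓ * s * t := by simp [k5uq2_Y]
  have hN : k5uq2_Y L ℓ s t ∈ Gamma0 L := by
    apply S41.mem_Gamma0_of_dvd
    rw [h10]; exact dvd_mul_right _ _
  have hM : k5uq2_Y L ℓ s t ∈ Gamma0 M := by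
    apply S41.mem_Gamma0_of_dvd
    rw [h10]; exact (Int.natCast_dvd_natCast.mpr hML.out).mul_right _
  refine ⟨hN, hM, ?_⟩
  have : diamHom M ⟨k5uq2_Y L ℓ s t, hM⟩ = 1 := by
    ext
    rw [Fermat.Agent.ES1.coe_diamHom, h00]
    obtain ⟨m, hm⟩ := hML.out
    have hL0 : ((L : ℤ) : ZMod M) = 0 := by
      rw [hm]; push_cast; simp
    push_cast
    push_cast at hL0
    rw [hL0]
    simp
  rw [this]; exact one_mem _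

theorem k5uq2_Y_01 (L ℓ : ℕ) (s t : ℤ) :
    ((k5uq2_Y L ℓ s t : SL(2, ℤ)) : Matrix (Fin 2) (Fin 2) ℤ) 0 1 = (ℓ : ℤ) * t := by
  simp [k5uq2_Y]

theorem k5uq2_Y_inv_mul_10 (L ℓ : ℕ) (s t : ℤ) (γ : SL(2, ℤ)) :
    (((k5uq2_Y L ℓ s t)⁻¹ * γ : SL(2, ℤ)) : Matrix (Fin 2) (Fin 2) ℤ) 1 0 =
      (1 + L * ℓ * s * t) * γ 1 0 - L * s * γ 0 0 := by
  rw [Matrix.SpecialLinearGroup.coe_mul, Matrix.SpecialLinearGroup.coe_inv,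
    Matrix.adjugate_fin_two, Matrix.mul_apply, Fin.sum_univ_two]
  simp [k5uq2_Y]
  ring

section adjsquare

variable (L M ℓ ℓ' : ℕ) [NeZero L] [NeZero ℓ] [NeZero ℓ'] [hML : Fact (M ∣ L)]
  (H : Subgroup (ZMod M)ˣ)

theorem k5uq2_level_eq : gammaH (L * ℓ * ℓ') M H = gammaH (L * ℓ' * ℓ) M H := by
  rw [Nat.mul_right_comm]

/-- the identification `Γ_H(L ℓ ℓ') = Γ_H(L ℓ' ℓ)` -/
def k5uq2_cast : gammaH (L * ℓ * ℓ') M H →* gammaH (L * ℓ' * ℓ) M H :=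
  Subgroup.inclusion (le_of_eq (k5uq2_level_eq L M ℓ ℓ' H))

/-- `conj_δ : Γ_H(L ℓ ℓ') → Γ_H(L ℓ')` -/
def k5uq2_JK : gammaH (L * ℓ * ℓ') M H →* gammaH (L * ℓ') M H :=
  (conjDH (L * ℓ') M ℓ H (k5cc_dvd_mul L M ℓ')).comp (k5uq2_cast L M ℓ ℓ' H)

/-- the inclusion `Γ_H(L ℓ ℓ') → Γ_H(L ℓ)` -/
def k5uq2_F' : gammaH (L * ℓ * ℓ') M H →* gammaH (L * ℓ) M H :=
  inclH (L * ℓ) M ℓ' H

theorem k5uq2_F'_injective : Function.Injective (k5uq2_F' L M ℓ ℓ' H) :=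
  inclH_injective (L * ℓ) M ℓ' H

instance k5uq2_F'_finiteIndex : (k5uq2_F' L M ℓ ℓ' H).range.FiniteIndex :=
  haveI : Fact (M ∣ L * ℓ) := ⟨k5cc_dvd_mul L M ℓ⟩
  inclH_range_finiteIndex (L * ℓ) M ℓ' H

theorem k5uq2_adj_square (hℓ : ℓ.Prime) (hℓ' : ℓ'.Prime) (hne : ℓ ≠ ℓ') :
    (∀ k : gammaH (L * ℓ * ℓ') M H, inclH L M ℓ' H (k5uq2_JK L M ℓ ℓ' H k)
        = conjDH L M ℓ H hML.out (k5uq2_F' L M ℓ ℓ' H k)) ∧
    (∀ x : gammaH (L * ℓ) M H, conjDH L M ℓ H hML.out x ∈ (inclH L M ℓ' H).range →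
        x ∈ (k5uq2_F' L M ℓ ℓ' H).range) ∧
    (∀ γ : gammaH L M H, ∃ x : gammaH (L * ℓ) M H,
        (conjDH L M ℓ H hML.out x)⁻¹ * γ ∈ (inclH L M ℓ' H).range) := by
  have hℓ0 : (ℓ : ℤ) ≠ 0 := by exact_mod_cast NeZero.ne ℓ
  refine ⟨fun k => Subtype.ext rfl, ?_, ?_⟩
  · rintro x ⟨w, hw⟩
    have he : (w : SL(2, ℤ)) = ((conjDH L M ℓ H hML.out x : gammaH L M H) : SL(2, ℤ)) :=
      congrArg (fun y : gammaH L M H => (y : SL(2, ℤ))) hw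
    have he10 : ((w : SL(2, ℤ)) : Matrix (Fin 2) (Fin 2) ℤ) 1 0 =
        ((x : SL(2, ℤ)) : Matrix (Fin 2) (Fin 2) ℤ) 1 0 / ℓ := by
      rw [he, conjDH_coe, S41.conjD_coe]
      simp [S41.conjDMat]
    have hdvd : (ℓ : ℤ) ∣ ((x : SL(2, ℤ)) : Matrix (Fin 2) (Fin 2) ℤ) 1 0 := by
      have h1 := S41.dvd_of_mem_Gamma0 x.2.1
      exact (Dvd.intro_left _ (by push_cast; rfl)).trans h1
    obtain ⟨c', hc'⟩ := S41.dvd_of_mem_Gamma0 w.2.1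
    have hx10 : ((x : SL(2, ℤ)) : Matrix (Fin 2) (Fin 2) ℤ) 1 0 =
        (ℓ : ℤ) * (((L * ℓ' : ℕ) : ℤ) * c') := by
      rw [← hc', he10, Int.mul_ediv_cancel' hdvd]
    have hmem : (x : SL(2, ℤ)) ∈ gammaH (L * ℓ * ℓ') M H := by
      refine ⟨?_, x.2.2⟩
      apply S41.mem_Gamma0_of_dvd
      rw [hx10]
      exact ⟨c', by push_cast; ring⟩
    exact ⟨⟨(x : SL(2, ℤ)), hmem⟩, Subtype.ext rfl⟩
  · intro γ
    obtain ⟨c₀, hc₀⟩ := S41.dvd_of_mem_Gamma0 γ.2.1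
    have hdet : ((γ : SL(2, ℤ)) : Matrix (Fin 2) (Fin 2) ℤ) 1 1 * (γ : SL(2, ℤ)) 0 0
        - c₀ * ((γ : SL(2, ℤ)) 0 1 * (L : ℤ)) = 1 := by
      have := (γ : SL(2, ℤ)).2
      rw [Matrix.det_fin_two, hc₀] at this
      linear_combination this
    have hyp : ¬ ℓ' ∣ L * ℓ ∨
        (ℓ' : ℤ) ∣ ((γ : SL(2, ℤ)) : Matrix (Fin 2) (Fin 2) ℤ) 0 1 * (L : ℤ) := by
      rcases k5uq2_hyp L ℓ ℓ' hℓ hℓ' hne with h | h
      · exact Or.inl h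
      · exact Or.inr ((Int.natCast_dvd_natCast.mpr h).mul_left _)
    obtain ⟨s, t, hst⟩ := k5uq2_arith (L * ℓ) hℓ' _ _ _ _ hdet hyp
    have hY : k5uq2_Y L ℓ t s ∈ gammaH L M H := k5uq2_Y_mem L M ℓ H t s
    have hg : (k5uq2_Y L ℓ t s)⁻¹ * (γ : SL(2, ℤ)) ∈ gammaH L M H :=
      mul_mem (inv_mem hY) γ.2
    have h10 : ((L * ℓ' : ℕ) : ℤ) ∣ (((k5uq2_Y L ℓ t s)⁻¹ * (γ : SL(2, ℤ)) : SL(2, ℤ)) :
        Matrix (Fin 2) (Fin 2) ℤ) 1 0 := by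
      rw [k5uq2_Y_inv_mul_10, hc₀]
      obtain ⟨e, he⟩ := hst
      refine ⟨e, ?_⟩
      push_cast at he ⊢
      linear_combination (L : ℤ) * he
    have hmem' : (k5uq2_Y L ℓ t s)⁻¹ * (γ : SL(2, ℤ)) ∈ gammaH (L * ℓ') M H :=
      ⟨S41.mem_Gamma0_of_dvd h10, hg.2⟩
    have h01 : (ℓ : ℤ) ∣ ((k5uq2_Y L ℓ t s : SL(2, ℤ)) : Matrix (Fin 2) (Fin 2) ℤ) 0 1 := by
      rw [k5uq2_Y_01]; exact dvd_mul_right _ _
    obtain ⟨z, hz, hz00⟩ := k5e_exists_conjD_preimage L ℓ ⟨_, hY.1⟩ h01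
    have hzL : (z : SL(2, ℤ)) ∈ Gamma0 L := by
      apply S41.mem_Gamma0_of_dvd
      exact (Int.natCast_dvd_natCast.mpr (dvd_mul_right L ℓ)).trans (S41.dvd_of_mem_Gamma0 z.2)
    have hzM : (z : SL(2, ℤ)) ∈ Gamma0 M := k5i_mem_Gamma0M L M hzL
    have hmem : (z : SL(2, ℤ)) ∈ gammaH (L * ℓ) M H := by
      refine ⟨z.2, hzM, ?_⟩
      rw [k5e_diam_eq_of_entry _ _ hzM hY.2.1 hz00]
      exact hY.2.2
    refine ⟨⟨(z : SL(2, ℤ)), hmem⟩, ⟨⟨_, hmem'⟩, ?_⟩⟩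
    apply Subtype.ext
    show (k5uq2_Y L ℓ t s)⁻¹ * (γ : SL(2, ℤ)) =
      ((conjDH L M ℓ H hML.out ⟨(z : SL(2, ℤ)), hmem⟩ : gammaH L M H) : SL(2, ℤ))⁻¹
        * (γ : SL(2, ℤ))
    rw [conjDH_coe]
    have : (⟨(z : SL(2, ℤ)), hmem.1⟩ : Gamma0 (L * ℓ)) = z := rfl
    rw [this, hz]

end adjsquare

section adjassembly

variable (L M ℓ ℓ' : ℕ) [NeZero L] [NeZero ℓ] [NeZero ℓ'] [hML : Fact (M ∣ L)]
  (H : Subgroup (ZMod M)ˣ) (A : Type) [AddCommGroup A]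

/-- the inclusion `Γ_H(L ℓ ℓ') → Γ_H(L)`, as a composite -/
def k5uq2_I : gammaH (L * ℓ * ℓ') M H →* gammaH L M H :=
  (inclH L M ℓ H).comp (k5uq2_F' L M ℓ ℓ' H)

theorem k5uq2_I_injective : Function.Injective (k5uq2_I L M ℓ ℓ' H) :=
  (inclH_injective L M ℓ H).comp (k5uq2_F'_injective L M ℓ ℓ' H)

instance k5uq2_I_finiteIndex : (k5uq2_I L M ℓ ℓ' H).range.FiniteIndex :=
  k5c_comp_finiteIndex (k5uq2_F' L M ℓ ℓ' H) (inclH L M ℓ H) (inclH_injective L M ℓ H)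

/-- `conj_δ' ∘ conj_δ : Γ_H(L ℓ ℓ') → Γ_H(L)` -/
def k5uq2_D : gammaH (L * ℓ * ℓ') M H →* gammaH L M H :=
  (conjDH L M ℓ' H hML.out).comp (k5uq2_JK L M ℓ ℓ' H)

/-- `T*_ℓ T*_ℓ' = cores ∘ res_{δ' δ}`, for all primes `ℓ ≠ ℓ'` -/
theorem k5uq2_adj_adj (hℓ : ℓ.Prime) (hℓ' : ℓ'.Prime) (hne : ℓ ≠ ℓ')
    (φ : HomS (gammaH L M H) A) :
    tSadj L M ℓ H A (tSadj L M ℓ' H A φ) =
      S41.transferAlong A (k5uq2_I L M ℓ ℓ' H) (k5uq2_I_injective L M ℓ ℓ' H)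
        (φ.comp (MonoidHom.toAdditive (k5uq2_D L M ℓ ℓ' H))) := by
  obtain ⟨h1, h2, h3⟩ := k5uq2_adj_square L M ℓ ℓ' H hℓ hℓ' hne
  have hA := k5c_transfer_basechange (inclH L M ℓ' H) (inclH_injective L M ℓ' H)
    (conjDH L M ℓ H hML.out) (k5uq2_F' L M ℓ ℓ' H)
    (k5uq2_F'_injective L M ℓ ℓ' H) (k5uq2_JK L M ℓ ℓ' H) A h1 h2 h3
    (φ.comp (MonoidHom.toAdditive (conjDH L M ℓ' H hML.out)))
  haveI : ((inclH L M ℓ H).comp (k5uq2_F' L M ℓ ℓ' H)).range.FiniteIndex :=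
    k5uq2_I_finiteIndex L M ℓ ℓ' H
  have hB := k5c_transfer_trans (k5uq2_F' L M ℓ ℓ' H) (k5uq2_F'_injective L M ℓ ℓ' H)
    (inclH L M ℓ H) (inclH_injective L M ℓ H) A
    ((φ.comp (MonoidHom.toAdditive (conjDH L M ℓ' H hML.out))).comp
      (MonoidHom.toAdditive (k5uq2_JK L M ℓ ℓ' H)))
  show S41.transferAlong A (inclH L M ℓ H) (inclH_injective L M ℓ H)
      ((S41.transferAlong A (inclH L M ℓ' H) (inclH_injective L M ℓ' H)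
        (φ.comp (MonoidHom.toAdditive (conjDH L M ℓ' H hML.out)))).comp
          (MonoidHom.toAdditive (conjDH L M ℓ H hML.out))) = _
  rw [hA, ← hB]
  rfl

end adjassembly

/-- the `tSadj` half of **K5-UQ2** -/
theorem k5uq2_adj_comm (L M ℓ ℓ' : ℕ) [NeZero L] [NeZero ℓ] [NeZero ℓ'] [hML : Fact (M ∣ L)]
    (H : Subgroup (ZMod M)ˣ) (A : Type) [AddCommGroup A] (hℓ : ℓ.Prime) (hℓ' : ℓ'.Prime)
    (φ : HomS (gammaH L M H) A) :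
    tSadj L M ℓ H A (tSadj L M ℓ' H A φ) = tSadj L M ℓ' H A (tSadj L M ℓ H A φ) := by
  by_cases hne : ℓ = ℓ'
  · subst hne
    rfl
  · rw [k5uq2_adj_adj L M ℓ ℓ' H A hℓ hℓ' hne φ,
      k5uq2_adj_adj L M ℓ' ℓ H A hℓ' hℓ (Ne.symm hne) φ]
    refine k5cc_congr M H A (show L * ℓ * ℓ' = L * ℓ' * ℓ by ring) _ _ _ _ _ _
      (fun k₁ k₂ hk => ?_) (fun k₁ k₂ hk => ?_)
    · exact Subtype.ext hk
    · show φ (Additive.ofMul (k5uq2_D L M ℓ ℓ' H k₁)) = φ (Additive.ofMul (k5uq2_D L M ℓ' ℓ H k₂))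
      congr 2
      apply Subtype.ext
      apply Subtype.ext
      show S41.conjDMat ℓ' (S41.conjDMat ℓ ((k₁ : SL(2, ℤ)) : Matrix (Fin 2) (Fin 2) ℤ)) =
        S41.conjDMat ℓ (S41.conjDMat ℓ' ((k₂ : SL(2, ℤ)) : Matrix (Fin 2) (Fin 2) ℤ))
      rw [hk]
      exact k5uq2_conjDMat_comm ℓ' ℓ _

/-- **K5-UQ2** -/
theorem stmtCommTU : StmtCommTU := by
  intro L M ℓ ℓ' _ _ _ hML H A _ hℓ hℓ' φ
  exact ⟨k5uq2_tS_comm L M ℓ ℓ' H A hℓ hℓ' φ, k5uq2_adj_comm L M ℓ ℓ' H A hℓ hℓ' φ⟩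

end Fermat.Agent.RT.K5
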