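import Fermat.Agent.RT.K5.UQFlip

/-!
# RT-K5, piece UQ (U2–U4): `U_q` against the degeneracy maps at `q`

`Γ = Γ_H(L) ⊃ K = Γ_H(L q)`, `q` prime, `q ∤ L`; `U = tS (L q) M q H A`, `T = tS L M q H A`.
With the Atkin–Lehner conjugation `ν` of `UQFlip.lean`:

* `k5uq_M1`   : `res (cores_δ χ) = U χ + χ ∘ ν`      (Mackey, two double cosets);
* `k5uq_W1`   : `cores_δ ψ = cores (ψ ∘ ν)`;
* `k5uq_cores_diam` : `cores` is equivariant for the conjugation by `z ∈ Γ₀(L q)`;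
* `stmtUQMix`, `stmtUQNew`, `stmtUQOld`, `stmtUQTop` (Props of `UQPlan.lean`).
-/

set_option autoImplicit false
set_option linter.style.haveILetI false
set_option linter.unusedSectionVars false
set_option linter.unusedVariables false

noncomputable section

namespace Fermat.Agent.RT.K5

open CongruenceSubgroup Matrix
open scoped MatrixGroups
open Fermat.Agent.ES1 (gammaH diamHom pmH)

section mackey

variable (L M q : ℕ) [NeZero L] [NeZero q] [hML : Fact (M ∣ L)] (H : Subgroup (ZMod M)ˣ)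
  (A : Type) [AddCommGroup A] (m n : ℤ) (h : (q : ℤ) * n - L * m = 1)

theorem k5uq_dvd_mul : M ∣ L * q := hML.out.trans (dvd_mul_right L q)

/-- `χ ↦ χ ∘ ν` -/
def k5uqNuS : HomS (gammaH (L * q) M H) A →+ HomS (gammaH (L * q) M H) A where
  toFun χ := χ.comp (MonoidHom.toAdditive (k5uqNu L M q H m n h))
  map_zero' := rfl
  map_add' _ _ := rfl

theorem k5uqNuS_apply (χ : HomS (gammaH (L * q) M H) A) (x : gammaH (L * q) M H) :
    k5uqNuS L M q H A m n h χ (Additive.ofMul x)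
      = χ (Additive.ofMul (k5uqNu L M q H m n h x)) := rfl

theorem k5uq_hdc (hq : q.Prime) (γ : gammaH L M H) :
    (∃ x : gammaH (L * q) M H, (inclH L M q H x)⁻¹ * γ ∈ (conjDH L M q H hML.out).range) ∨
      (k5uqGΓ L M q H m n h)⁻¹ * γ ∈ (conjDH L M q H hML.out).range := by
  by_cases hd : (q : ℤ) ∣ ((γ : SL(2, ℤ)) : Matrix (Fin 2) (Fin 2) ℤ) 1 1
  · right
    apply k5uq_mem_range
    show (q : ℤ) ∣ (((k5uqG L q m n h)⁻¹ * (γ : SL(2, ℤ)) : SL(2, ℤ)) :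
      Matrix (Fin 2) (Fin 2) ℤ) 0 1
    rw [k5uq_inv_mul_01]
    exact dvd_sub (dvd_mul_of_dvd_left (k5uqG_dvd_11 L q m n h) _) (dvd_mul_of_dvd_right hd _)
  · left
    have hqp : Prime (q : ℤ) := Nat.prime_iff_prime_int.mp hq
    obtain ⟨u, v, huv⟩ := (Prime.coprime_iff_not_dvd hqp).mpr hd
    have hx : k5ccX (L * q) 0 (v * ((γ : SL(2, ℤ)) : Matrix (Fin 2) (Fin 2) ℤ) 0 1)
        ∈ gammaH (L * q) M H := k5ccX_mem (L * q) M (k5uq_dvd_mul L M q) H _ _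
    refine ⟨⟨_, hx⟩, ?_⟩
    apply k5uq_mem_range
    show (q : ℤ) ∣ (((k5ccX (L * q) 0 (v * ((γ : SL(2, ℤ)) : Matrix (Fin 2) (Fin 2) ℤ) 0 1))⁻¹
      * (γ : SL(2, ℤ)) : SL(2, ℤ)) : Matrix (Fin 2) (Fin 2) ℤ) 0 1
    rw [k5ccX_inv_mul_01]
    refine ⟨u * ((γ : SL(2, ℤ)) : Matrix (Fin 2) (Fin 2) ℤ) 0 1, ?_⟩
    linear_combination (-(((γ : SL(2, ℤ)) : Matrix (Fin 2) (Fin 2) ℤ) 0 1)) * huv

theorem k5uq_hne (hq : q.Prime) (x : gammaH (L * q) M H) :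
    (inclH L M q H x)⁻¹ * k5uqGΓ L M q H m n h ∉ (conjDH L M q H hML.out).range := by
  intro hmem
  have h1 := k5uq_dvd_of_mem_range L M q H hmem
  have h2 : (q : ℤ) ∣ ((((x : SL(2, ℤ)))⁻¹ * k5uqG L q m n h : SL(2, ℤ)) :
      Matrix (Fin 2) (Fin 2) ℤ) 0 1 := h1
  rw [k5uq_inv_mul_01, k5uqG_01, k5uqG_11] at h2
  have h3 : (q : ℤ) ∣ ((x : SL(2, ℤ)) : Matrix (Fin 2) (Fin 2) ℤ) 1 1 * m := by
    have e : ((x : SL(2, ℤ)) : Matrix (Fin 2) (Fin 2) ℤ) 1 1 * m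
        = (((x : SL(2, ℤ)) : Matrix (Fin 2) (Fin 2) ℤ) 1 1 * m
            - ((x : SL(2, ℤ)) : Matrix (Fin 2) (Fin 2) ℤ) 0 1 * ((q : ℤ) * n))
          + (q : ℤ) * (((x : SL(2, ℤ)) : Matrix (Fin 2) (Fin 2) ℤ) 0 1 * n) := by ring
    rw [e]
    exact dvd_add h2 (dvd_mul_right _ _)
  have h4 : (q : ℤ) ∣ ((x : SL(2, ℤ)) : Matrix (Fin 2) (Fin 2) ℤ) 1 1 :=
    k5uq_dvd_of_dvd_mul_m L q m n h h3
  have h5 : (q : ℤ) ∣ ((x : SL(2, ℤ)) : Matrix (Fin 2) (Fin 2) ℤ) 1 0 :=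
    S41.dvd_q_of_mem L q x.2.1
  have hdet : ((x : SL(2, ℤ)) : Matrix (Fin 2) (Fin 2) ℤ) 0 0 * (x : SL(2, ℤ)) 1 1
      - (x : SL(2, ℤ)) 0 1 * (x : SL(2, ℤ)) 1 0 = 1 := by
    have := (x : SL(2, ℤ)).2
    rw [Matrix.det_fin_two] at this
    exact this
  have h6 : (q : ℤ) ∣ 1 := by
    rw [← hdet]
    exact dvd_sub (dvd_mul_of_dvd_right h4 _) (dvd_mul_of_dvd_right h5 _)
  have h7 : q ∣ 1 := by exact_mod_cast h6
  exact hq.one_lt.ne' (Nat.dvd_one.mp h7)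

/-- **(M1)** `res (cores_δ χ) = U χ + χ ∘ ν` -/
theorem k5uq_M1 (hq : q.Prime) (χ : HomS (gammaH (L * q) M H) A) :
    haveI : Fact (M ∣ L * q) := ⟨k5uq_dvd_mul L M q⟩
    resH L M q H A (coresDH L M q H A χ)
      = tS (L * q) M q H A χ + k5uqNuS L M q H A m n h χ := by
  haveI : Fact (M ∣ L * q) := ⟨k5uq_dvd_mul L M q⟩
  exact k5uq_mackey (conjDH L M q H hML.out) (conjDH_injective L M q H hML.out)
    (inclH L M q H) (conjDH (L * q) M q H (k5uq_dvd_mul L M q))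
    (conjDH_injective (L * q) M q H (k5uq_dvd_mul L M q)) (inclH (L * q) M q H)
    (k5uqGΓ L M q H m n h) (k5uqNu L M q H m n h) A
    (fun k => Subtype.ext rfl)
    (fun x hx => k5uq_mem_range (L * q) M q H x (k5uq_dvd_of_mem_range L M q H hx))
    (fun x => by rw [k5uq_conj_nu]; group)
    (k5uq_hdc L M q H m n h hq) (k5uq_hne L M q H m n h hq) χ

/-- **(W1)** `cores_δ ψ = cores (ψ ∘ ν)` -/
theorem k5uq_W1 (hc : Nat.Coprime q L) (ψ : HomS (gammaH (L * q) M H) A) :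
    coresDH L M q H A ψ = coresH L M q H A (k5uqNuS L M q H A m n h ψ) := by
  refine S41.transferAlong_conj (inclH L M q H) (conjDH L M q H hML.out)
    (inclH_injective L M q H) (conjDH_injective L M q H hML.out) A
    (k5uqNu L M q H m n h) (k5uqGΓ L M q H m n h)⁻¹ ?_ ?_ ψ
  · intro k
    rw [k5uq_conj_nu, inv_inv]
  · intro x hx
    rw [inv_inv] at hx
    have h1 := k5uq_dvd_of_mem_range L M q H hx
    have h2 : (q : ℤ) ∣ (((k5uqG L q m n h)⁻¹ * (x : SL(2, ℤ)) * k5uqG L q m n h : SL(2, ℤ)) :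
      Matrix (Fin 2) (Fin 2) ℤ) 0 1 := h1
    have h3 := k5uq_dvd_conj_10 (g := k5uqG L q m n h) (k5uqG_dvd_11 L q m n h) h2
    have e : k5uqG L q m n h * ((k5uqG L q m n h)⁻¹ * (x : SL(2, ℤ)) * k5uqG L q m n h)
        * (k5uqG L q m n h)⁻¹ = (x : SL(2, ℤ)) := by group
    rw [e] at h3
    exact k5uq_mem_incl_range L M q H hc x h3

end mackey

section results

variable (L M q : ℕ) [NeZero L] [NeZero q] [hML : Fact (M ∣ L)] (H : Subgroup (ZMod M)ˣ)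
  (A : Type) [AddCommGroup A] (m n : ℤ) (h : (q : ℤ) * n - L * m = 1)

theorem k5uqG1_mem_M : k5uqG1 L q m n h ∈ Gamma0 M :=
  k5i_mem_Gamma0M L M (k5uqG1_mem_Gamma0 L q m n h)

theorem k5uqGam_mem_L : k5uqG L q m n h * k5uqG1 L q m n h ∈ Gamma0 L :=
  S41.Gamma0_mul_le L q (k5uqGam_mem L q m n h)

theorem k5uqGam_mem_M : k5uqG L q m n h * k5uqG1 L q m n h ∈ Gamma0 M :=
  k5i_mem_Gamma0M L M (k5uqGam_mem_L L q m n h)

/-- `(res φ) ∘ ν = res_δ (⟨g₁⟩ φ)` -/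
theorem k5uq_res_nu (φ : HomS (gammaH L M H) A) :
    k5uqNuS L M q H A m n h (resH L M q H A φ)
      = resDH L M q H A (diamS H A (k5uqG1 L q m n h) (k5uqG1_mem_Gamma0 L q m n h)
          (k5uqG1_mem_M L M q m n h) φ) := by
  refine AddMonoidHom.ext fun x => ?_
  obtain ⟨x, rfl⟩ : ∃ x' : gammaH (L * q) M H, Additive.ofMul x' = x := ⟨Additive.toMul x, rfl⟩
  show φ (Additive.ofMul (inclH L M q H (k5uqNu L M q H m n h x)))
    = φ (Additive.ofMul (conjHom (k5uqG1 L q m n h)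
        (normalizes_gammaH (k5uqG1_mem_Gamma0 L q m n h) (k5uqG1_mem_M L M q m n h))
        (conjDH L M q H hML.out x)))
  congr 2
  apply Subtype.ext
  exact k5uq_nu_eq L M q H m n h x

/-- `(res_δ φ) ∘ ν = res φ` -/
theorem k5uq_resD_nu (φ : HomS (gammaH L M H) A) :
    k5uqNuS L M q H A m n h (resDH L M q H A φ) = resH L M q H A φ := by
  refine AddMonoidHom.ext fun x => ?_
  obtain ⟨x, rfl⟩ : ∃ x' : gammaH (L * q) M H, Additive.ofMul x' = x := ⟨Additive.toMul x, rfl⟩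
  show φ (Additive.ofMul (conjDH L M q H hML.out (k5uqNu L M q H m n h x)))
    = φ (Additive.ofMul (inclH L M q H x))
  rw [k5uq_conj_nu, ofMul_mul, ofMul_mul, ofMul_inv, map_add, map_add, map_neg]
  abel

/-- `χ ∘ ν ∘ ν = ⟨γ₀⟩ χ` -/
theorem k5uq_nu_nu_S (χ : HomS (gammaH (L * q) M H) A) :
    k5uqNuS L M q H A m n h (k5uqNuS L M q H A m n h χ)
      = diamS H A (k5uqG L q m n h * k5uqG1 L q m n h) (k5uqGam_mem L q m n h)
          (k5uqGam_mem_M L M q m n h) χ := by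
  refine AddMonoidHom.ext fun x => ?_
  obtain ⟨x, rfl⟩ : ∃ x' : gammaH (L * q) M H, Additive.ofMul x' = x := ⟨Additive.toMul x, rfl⟩
  show χ (Additive.ofMul (k5uqNu L M q H m n h (k5uqNu L M q H m n h x)))
    = χ (Additive.ofMul (conjHom (k5uqG L q m n h * k5uqG1 L q m n h)
        (normalizes_gammaH (k5uqGam_mem L q m n h) (k5uqGam_mem_M L M q m n h)) x))
  congr 2
  apply Subtype.ext
  exact k5uq_nu_nu L M q H m n h x

/-- `cores` is equivariant for the conjugation by `z ∈ Γ₀(L q)` -/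
theorem k5uq_cores_diam (z : SL(2, ℤ)) (hzLq : z ∈ Gamma0 (L * q)) (hzL : z ∈ Gamma0 L)
    (hzM : z ∈ Gamma0 M) (ψ : HomS (gammaH (L * q) M H) A) :
    coresH L M q H A (diamS H A z hzLq hzM ψ) = diamS H A z hzL hzM (coresH L M q H A ψ) := by
  have hsurj : Function.Surjective
      (conjHom z (normalizes_gammaH (H := H) hzLq hzM)) := by
    intro k
    refine ⟨⟨z * k * z⁻¹, Fermat.Agent.ES1.conj_mem_gammaH hzLq hzM k.2⟩, ?_⟩
    apply Subtype.ext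
    show z⁻¹ * (z * k * z⁻¹) * z = k
    group
  have hE := S41.transferAlong_equivariant (inclH L M q H) (inclH_injective L M q H) A
    (conjHom z (normalizes_gammaH (H := H) hzLq hzM)) (k5c_conjEquiv L M H z hzL hzM)
    (fun k => Subtype.ext rfl) hsurj ψ
  exact hE

end results

section main

variable (L M q : ℕ) [NeZero L] [NeZero q] [hML : Fact (M ∣ L)] (H : Subgroup (ZMod M)ˣ)
  (A : Type) [AddCommGroup A] (m n : ℤ) (h : (q : ℤ) * n - L * m = 1)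

include h in
/-- (R1) `U (res_δ φ) = q • res φ` -/
theorem k5uq_R1 (hq : q.Prime) (hqL : ¬ q ∣ L) (φ : HomS (gammaH L M H) A) :
    haveI : Fact (M ∣ L * q) := ⟨k5uq_dvd_mul L M q⟩
    tS (L * q) M q H A (resDH L M q H A φ) = q • resH L M q H A φ := by
  haveI : Fact (M ∣ L * q) := ⟨k5uq_dvd_mul L M q⟩
  have e1 := k5uq_M1 L M q H A m n h hq (resDH L M q H A φ)
  rw [(stmtIdx L M q H A hq hqL φ).1, k5uq_resD_nu, map_nsmul] at e1
  have e2 : tS (L * q) M q H A (resDH L M q H A φ)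
      = (q + 1) • resH L M q H A φ - resH L M q H A φ := eq_sub_of_add_eq e1.symm
  rw [e2, succ_nsmul, add_sub_cancel_right]

/-- (R2) `U (res φ) = res (T φ) − res_δ (⟨g₁⟩ φ)` -/
theorem k5uq_R2 (hq : q.Prime) (φ : HomS (gammaH L M H) A) :
    haveI : Fact (M ∣ L * q) := ⟨k5uq_dvd_mul L M q⟩
    tS (L * q) M q H A (resH L M q H A φ)
      = resH L M q H A (tS L M q H A φ)
        - resDH L M q H A (diamS H A (k5uqG1 L q m n h) (k5uqG1_mem_Gamma0 L q m n h)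
            (k5uqG1_mem_M L M q m n h) φ) := by
  haveI : Fact (M ∣ L * q) := ⟨k5uq_dvd_mul L M q⟩
  have e1 := k5uq_M1 L M q H A m n h hq (resH L M q H A φ)
  rw [k5uq_res_nu] at e1
  exact eq_sub_of_add_eq e1.symm

include h in
/-- (R3) `cores (U ψ) = q • cores_δ ψ` -/
theorem k5uq_R3 (hq : q.Prime) (hqL : ¬ q ∣ L) (ψ : HomS (gammaH (L * q) M H) A) :
    haveI : Fact (M ∣ L * q) := ⟨k5uq_dvd_mul L M q⟩
    coresH L M q H A (tS (L * q) M q H A ψ) = q • coresDH L M q H A ψ := by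
  haveI : Fact (M ∣ L * q) := ⟨k5uq_dvd_mul L M q⟩
  have hc : Nat.Coprime q L := (Nat.Prime.coprime_iff_not_dvd hq).mpr hqL
  have e1 := k5uq_M1 L M q H A m n h hq ψ
  have e2 : tS (L * q) M q H A ψ
      = resH L M q H A (coresDH L M q H A ψ) - k5uqNuS L M q H A m n h ψ :=
    eq_sub_of_add_eq e1.symm
  rw [e2, map_sub, (stmtIdx L M q H A hq hqL (coresDH L M q H A ψ)).2,
    ← k5uq_W1 L M q H A m n h hc ψ, succ_nsmul, add_sub_cancel_right]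

/-- (R4) `cores_δ (U ψ) = T (cores_δ ψ) − ⟨γ₀⟩ (cores ψ)` -/
theorem k5uq_R4 (hq : q.Prime) (hqL : ¬ q ∣ L) (ψ : HomS (gammaH (L * q) M H) A) :
    haveI : Fact (M ∣ L * q) := ⟨k5uq_dvd_mul L M q⟩
    coresDH L M q H A (tS (L * q) M q H A ψ)
      = tS L M q H A (coresDH L M q H A ψ)
        - diamS H A (k5uqG L q m n h * k5uqG1 L q m n h) (k5uqGam_mem_L L q m n h)
            (k5uqGam_mem_M L M q m n h) (coresH L M q H A ψ) := by
  haveI : Fact (M ∣ L * q) := ⟨k5uq_dvd_mul L M q⟩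
  have hc : Nat.Coprime q L := (Nat.Prime.coprime_iff_not_dvd hq).mpr hqL
  have e1 := k5uq_M1 L M q H A m n h hq ψ
  have e2 : tS (L * q) M q H A ψ
      = resH L M q H A (coresDH L M q H A ψ) - k5uqNuS L M q H A m n h ψ :=
    eq_sub_of_add_eq e1.symm
  rw [e2, map_sub, k5uq_W1 L M q H A m n h hc (k5uqNuS L M q H A m n h ψ), k5uq_nu_nu_S,
    k5uq_cores_diam L M q H A _ (k5uqGam_mem L q m n h) (k5uqGam_mem_L L q m n h)
      (k5uqGam_mem_M L M q m n h) ψ]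
  rfl

/-- (R5) `T = T* ∘ ⟨g₁⟩` -/
theorem k5uq_R5 (hq : q.Prime) (hqL : ¬ q ∣ L) (φ : HomS (gammaH L M H) A) :
    tS L M q H A φ
      = tSadj L M q H A (diamS H A (k5uqG1 L q m n h) (k5uqG1_mem_Gamma0 L q m n h)
          (k5uqG1_mem_M L M q m n h) φ) := by
  have hc : Nat.Coprime q L := (Nat.Prime.coprime_iff_not_dvd hq).mpr hqL
  show coresDH L M q H A (resH L M q H A φ) = coresH L M q H A (resDH L M q H A _)
  rw [k5uq_W1 L M q H A m n h hc, k5uq_res_nu]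

/-- (R6) `U² = ⟨γ₀⟩` on `ker cores ∩ ker cores_δ` -/
theorem k5uq_R6 (hq : q.Prime) (hqL : ¬ q ∣ L) (ψ : HomS (gammaH (L * q) M H) A)
    (h1 : coresH L M q H A ψ = 0) (h2 : coresDH L M q H A ψ = 0) :
    haveI : Fact (M ∣ L * q) := ⟨k5uq_dvd_mul L M q⟩
    tS (L * q) M q H A (tS (L * q) M q H A ψ)
      = diamS H A (k5uqG L q m n h * k5uqG1 L q m n h) (k5uqGam_mem L q m n h)
          (k5uqGam_mem_M L M q m n h) ψ := by
  haveI : Fact (M ∣ L * q) := ⟨k5uq_dvd_mul L M q⟩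
  have hc : Nat.Coprime q L := (Nat.Prime.coprime_iff_not_dvd hq).mpr hqL
  -- `U ψ = − ψ ∘ ν`
  have e1 := k5uq_M1 L M q H A m n h hq ψ
  rw [h2, map_zero] at e1
  have e2 : tS (L * q) M q H A ψ = - k5uqNuS L M q H A m n h ψ :=
    eq_neg_of_add_eq_zero_left e1.symm
  -- `U (ψ ∘ ν) = − ψ ∘ ν ∘ ν`
  have e3 := k5uq_M1 L M q H A m n h hq (k5uqNuS L M q H A m n h ψ)
  have e4 : coresDH L M q H A (k5uqNuS L M q H A m n h ψ) = 0 := by
    rw [k5uq_W1 L M q H A m n h hc, k5uq_nu_nu_S,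
      k5uq_cores_diam L M q H A _ (k5uqGam_mem L q m n h) (k5uqGam_mem_L L q m n h)
        (k5uqGam_mem_M L M q m n h) ψ, h1, map_zero]
  rw [e4, map_zero, k5uq_nu_nu_S] at e3
  have e5 : tS (L * q) M q H A (k5uqNuS L M q H A m n h ψ)
      = - diamS H A (k5uqG L q m n h * k5uqG1 L q m n h) (k5uqGam_mem L q m n h)
          (k5uqGam_mem_M L M q m n h) ψ := eq_neg_of_add_eq_zero_left e3.symm
  rw [e2, map_neg, e5, neg_neg]

end main

/-! ## the Props of `UQPlan.lean` -/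

theorem k5uq_diam_eq {M q : ℕ} {g g' : SL(2, ℤ)} {hgM : g ∈ Gamma0 M} {hgM' : g' ∈ Gamma0 M}
    (h : IsDiamQ M q g hgM) (h' : IsDiamQ M q g' hgM') :
    diamHom M ⟨g, hgM⟩ = diamHom M ⟨g', hgM'⟩ :=
  Units.ext (h.trans h'.symm)

/-- **K5-UQ (R1–R5)** -/
theorem stmtUQMix : StmtUQMix := by
  intro L M q _ _ hML H A _ hq hqL g hgL hgM hg
  have hc : Nat.Coprime q L := (Nat.Prime.coprime_iff_not_dvd hq).mpr hqL
  obtain ⟨n, m, h⟩ := S41.ata_bezout hc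
  have hd1 : ∀ φ : HomS (gammaH L M H) A, diamS H A g hgL hgM φ
      = diamS H A (k5uqG1 L q m n h) (k5uqG1_mem_Gamma0 L q m n h)
          (k5uqG1_mem_M L M q m n h) φ := fun φ =>
    k5c_diam_congr L M H A g _ hgL hgM _ _
      (k5uq_diam_eq hg (k5uqG1_diam L q m n h _)) φ
  have hd2 : ∀ φ : HomS (gammaH L M H) A, diamS H A g hgL hgM φ
      = diamS H A (k5uqG L q m n h * k5uqG1 L q m n h) (k5uqGam_mem_L L q m n h)
          (k5uqGam_mem_M L M q m n h) φ := fun φ =>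
    k5c_diam_congr L M H A g _ hgL hgM _ _
      (k5uq_diam_eq hg (k5uqGam_diam L q m n h hML.out _)) φ
  refine ⟨k5uq_R1 L M q H A m n h hq hqL, fun φ => ?_, k5uq_R3 L M q H A m n h hq hqL,
    fun ψ => ?_, fun φ => ?_⟩
  · rw [hd1]; exact k5uq_R2 L M q H A m n h hq φ
  · rw [hd2]; exact k5uq_R4 L M q H A m n h hq hqL ψ
  · rw [hd1]; exact k5uq_R5 L M q H A m n h hq hqL φ

/-- **K5-UQ (R6)** -/
theorem stmtUQNew : StmtUQNew := by
  intro L M q _ _ hML H A _ hq hqL g hgL hgM hg ψ h1 h2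
  have hc : Nat.Coprime q L := (Nat.Prime.coprime_iff_not_dvd hq).mpr hqL
  obtain ⟨n, m, h⟩ := S41.ata_bezout hc
  haveI : Fact (M ∣ L * q) := ⟨k5uq_dvd_mul L M q⟩
  rw [k5c_diam_congr (L * q) M H A g _ hgL hgM (k5uqGam_mem L q m n h)
    (k5uqGam_mem_M L M q m n h) (k5uq_diam_eq hg (k5uqGam_diam L q m n h hML.out _)) ψ]
  exact k5uq_R6 L M q H A m n h hq hqL ψ h1 h2

/-- **K5-UQ, `tr ∘ i`** -/
theorem stmtUQOld : StmtUQOld := by
  intro L M q _ _ hML H A _ hq hqL φ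
  exact ⟨(stmtIdx L M q H A hq hqL φ).2, (stmtIdx L M q H A hq hqL φ).1, rfl, rfl⟩

/-- for `H = ⊤` the diamonds act trivially -/
theorem k5uq_diam_top (L M : ℕ) (A : Type) [AddCommGroup A] (g : SL(2, ℤ))
    (hgL : g ∈ Gamma0 L) (hgM : g ∈ Gamma0 M)
    (φ : HomS (gammaH L M (⊤ : Subgroup (ZMod M)ˣ)) A) :
    diamS ⊤ A g hgL hgM φ = φ := by
  have hg : g ∈ gammaH L M (⊤ : Subgroup (ZMod M)ˣ) :=
    ⟨hgL, hgM, Fermat.Agent.ES1.le_pmH ⊤ (Subgroup.mem_top _)⟩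
  refine AddMonoidHom.ext fun x => ?_
  obtain ⟨x, rfl⟩ : ∃ x' : gammaH L M (⊤ : Subgroup (ZMod M)ˣ), Additive.ofMul x' = x :=
    ⟨Additive.toMul x, rfl⟩
  show φ (Additive.ofMul ⟨g⁻¹ * x * g, _⟩) = φ (Additive.ofMul x)
  have e : (⟨g⁻¹ * x * g, normalizes_gammaH hgL hgM x x.2⟩ :
      gammaH L M (⊤ : Subgroup (ZMod M)ˣ)) = (⟨g, hg⟩ : gammaH L M ⊤)⁻¹ * x * ⟨g, hg⟩ :=
    Subtype.ext rfl
  rw [e, ofMul_mul, ofMul_mul, ofMul_inv, map_add, map_add, map_neg]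
  abel

/-- **K5-UQ for `H = ⊤`** -/
theorem stmtUQTop : StmtUQTop := by
  intro L M q _ _ hML A _ hq hqL
  have hc : Nat.Coprime q L := (Nat.Prime.coprime_iff_not_dvd hq).mpr hqL
  obtain ⟨n, m, h⟩ := S41.ata_bezout hc
  haveI : Fact (M ∣ L * q) := ⟨k5uq_dvd_mul L M q⟩
  refine ⟨k5uq_R1 L M q ⊤ A m n h hq hqL, fun φ => ?_, k5uq_R3 L M q ⊤ A m n h hq hqL,
    fun ψ => ?_, fun φ => ?_, fun ψ h1 h2 => ?_⟩
  · have e := k5uq_R2 L M q ⊤ A m n h hq φ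
    rw [k5uq_diam_top] at e
    exact e
  · have e := k5uq_R4 L M q ⊤ A m n h hq hqL ψ
    rw [k5uq_diam_top] at e
    exact e
  · have e := k5uq_R5 L M q ⊤ A m n h hq hqL φ
    rw [k5uq_diam_top] at e
    exact e
  · have e := k5uq_R6 L M q ⊤ A m n h hq hqL ψ h1 h2
    rw [k5uq_diam_top] at e
    exact e

end Fermat.Agent.RT.K5
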