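import Fermat.Agent.RT.K5.Plan5
import Fermat.Agent.RT.K5.TWAbs
import Fermat.Agent.RT.K5.UQMix
import Fermat.Agent.RT.K5.DegComm
import Fermat.Agent.RT.K5.UQ2

/-!
# RT-K5, piece TWSTEP: the Taylor–Wiles step `Γ₀(L) ⊃ Γ₀(L q)` — `stmtTWStep : StmtTWStep`

`H = ⊤`, `A` a finite `𝒪`-module, `𝔡 : DegFam 𝒪 L M q`, `Θ_lo = 𝔡.lo ∘ (T_ℓ₀ − ℓ₀ − 1)`,
`Θ_hi = 𝔡.hi ∘ (T_ℓ₀ − ℓ₀ − 1)`.  `stmtTWAbs` is applied to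
`X = Hom(Γ₀(L), A)`, `Y = Hom(Γ₀(L q), A)`, `r₁ = res`, `r₂ = res_δ`, `c₁ = cores`, `c₂ = cores_δ`,
`T = T_q`, `U = U_q`; the relations are `stmtUQTop`, `stmtUQOld`; `Θ` commutes with the
degeneracy maps by the fields of `𝔡` and `stmtDegComm` (for `T_ℓ₀`), with `T_q`, `U_q` by the
fields of `𝔡` and `stmtCommTU`.  Finally
`thetaN (𝔡.hi.comp (usqFam 𝒪 L M q)) = Θ_hi ∘ (U_q² − 1)` (`k5ts_theta_usq`).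
-/

set_option autoImplicit false
set_option linter.style.haveILetI false
set_option linter.unusedSectionVars false
set_option linter.unusedVariables false

noncomputable section

namespace Fermat.Agent.RT.K5

open CongruenceSubgroup Matrix
open scoped MatrixGroups
open Fermat.Agent.ES1 (gammaH diamHom pmH)

section eta

variable (N M : ℕ) [NeZero N] [hMN : Fact (M ∣ N)] (H : Subgroup (ZMod M)ˣ)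
  (A : Type) [AddCommGroup A]

/-- `tS q` commutes with `η = T_ℓ₀ − ℓ₀ − 1` (both primes) -/
theorem k5ts_eta_comm (q ℓ₀ : ℕ) [NeZero q] [NeZero ℓ₀] (hq : q.Prime) (hℓ₀ : ℓ₀.Prime)
    (χ : HomS (gammaH N M H) A) :
    tS N M q H A (etaS N M ℓ₀ H A χ) = etaS N M ℓ₀ H A (tS N M q H A χ) := by
  show tS N M q H A (tS N M ℓ₀ H A χ - (ℓ₀ + 1) • χ)
    = tS N M ℓ₀ H A (tS N M q H A χ) - (ℓ₀ + 1) • tS N M q H A χ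
  rw [map_sub, map_nsmul, (stmtCommTU N M q ℓ₀ H A hq hℓ₀ χ).1]

end eta

section theta

variable {𝒪 : Type} [CommRing 𝒪] {L M q : ℕ} [NeZero L] [NeZero q] [hML : Fact (M ∣ L)]
  [hMLq : Fact (M ∣ L * q)]

/-- the scalar `−1` -/
theorem k5ts_neg_one {Γ : Subgroup SL(2, ℤ)} (A : Type) [AddCommGroup A] [Module 𝒪 A]
    (χ : HomS Γ A) : (DistribSMul.toAddMonoidHom A (-1 : 𝒪)).comp χ = -χ := by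
  refine AddMonoidHom.ext fun γ => ?_
  show (-1 : 𝒪) • χ γ = -(χ γ)
  rw [neg_smul, one_smul]

/-- `Θ` of `𝔳 ∘ (U_q² − 1)` is `Θ_𝔳 ∘ (U_q² − 1)` -/
theorem k5ts_theta_usq (𝔳 : NatFam 𝒪 (L * q) M) (ℓ₀ : ℕ) [NeZero ℓ₀] (hq : q.Prime)
    (hℓ₀ : ℓ₀.Prime) (A : Type) [AddCommGroup A] [Module 𝒪 A] (H : Subgroup (ZMod M)ˣ) :
    thetaN (𝔳.comp (usqFam 𝒪 L M q)) ℓ₀ A H
      = (thetaN 𝔳 ℓ₀ A H).comp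
          ((tS (L * q) M q H A).comp (tS (L * q) M q H A) - AddMonoidHom.id _) := by
  refine AddMonoidHom.ext fun ψ => ?_
  show (𝔳.fam A).op H (tS (L * q) M q H A (tS (L * q) M q H A (etaS (L * q) M ℓ₀ H A ψ))
        + (DistribSMul.toAddMonoidHom A (-1 : 𝒪)).comp (etaS (L * q) M ℓ₀ H A ψ))
    = (𝔳.fam A).op H (etaS (L * q) M ℓ₀ H A
        (tS (L * q) M q H A (tS (L * q) M q H A ψ) - ψ))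
  rw [k5ts_neg_one, k5ts_eta_comm (L * q) M H A q ℓ₀ hq hℓ₀,
    k5ts_eta_comm (L * q) M H A q ℓ₀ hq hℓ₀, map_sub, sub_eq_add_neg]

end theta

/-- **K5-TWSTEP** -/
theorem stmtTWStep : StmtTWStep := by
  intro 𝒪 _ L M q ℓ₀ _ _ _ hML hMLq 𝔡 A _ _ _ hq hqL hℓ₀ hℓ₀L hne hinj
  haveI : Finite (HomS (gammaH L M (⊤ : Subgroup (ZMod M)ˣ)) A) := k5s_finite_homS _ A
  haveI : NeZero (L * q) := inferInstance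
  haveI : Finite (HomS (gammaH (L * q) M (⊤ : Subgroup (ZMod M)ˣ)) A) := k5s_finite_homS _ A
  obtain ⟨u1, u2, u3, u4, u5, u6⟩ := stmtUQTop L M q A hq hqL
  have hold := stmtUQOld L M q (⊤ : Subgroup (ZMod M)ˣ) A hq hqL
  obtain ⟨d1, d2, d3, d4⟩ := stmtDegComm L M q ℓ₀ (⊤ : Subgroup (ZMod M)ˣ) A hq hℓ₀ hne.symm hqL
  have hΘ := k5ts_theta_usq (L := L) (q := q) 𝔡.hi ℓ₀ hq hℓ₀ A (⊤ : Subgroup (ZMod M)ˣ)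
  rw [hΘ]
  refine stmtTWAbs (HomS (gammaH L M (⊤ : Subgroup (ZMod M)ˣ)) A)
    (HomS (gammaH (L * q) M (⊤ : Subgroup (ZMod M)ˣ)) A) q
    (tS L M q ⊤ A) (thetaN 𝔡.lo ℓ₀ A ⊤) (tS (L * q) M q ⊤ A) (thetaN 𝔡.hi ℓ₀ A ⊤)
    (resH L M q ⊤ A) (resDH L M q ⊤ A) (coresH L M q ⊤ A) (coresDH L M q ⊤ A)
    (fun φ => (hold φ).1) (fun φ => (hold φ).2.1) ?_ (fun φ => (hold φ).2.2.1)
    u1 u2 u3 u4 u6 ?_ ?_ ?_ ?_ ?_ ?_ hinj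
  · -- `cores ∘ res_δ = T* = T`
    intro φ
    rw [(hold φ).2.2.2, u5 φ]
  · -- `res ∘ Θ = Θ ∘ res`
    intro φ
    show resH L M q ⊤ A ((𝔡.lo.fam A).op ⊤ (tS L M ℓ₀ ⊤ A φ - (ℓ₀ + 1) • φ))
      = (𝔡.hi.fam A).op ⊤ (tS (L * q) M ℓ₀ ⊤ A (resH L M q ⊤ A φ)
          - (ℓ₀ + 1) • resH L M q ⊤ A φ)
    rw [𝔡.res_comm, map_sub, map_nsmul, d1]
  · -- `res_δ ∘ Θ = Θ ∘ res_δ`
    intro φ
    show resDH L M q ⊤ A ((𝔡.lo.fam A).op ⊤ (tS L M ℓ₀ ⊤ A φ - (ℓ₀ + 1) • φ))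
      = (𝔡.hi.fam A).op ⊤ (tS (L * q) M ℓ₀ ⊤ A (resDH L M q ⊤ A φ)
          - (ℓ₀ + 1) • resDH L M q ⊤ A φ)
    rw [𝔡.resD_comm, map_sub, map_nsmul, d2]
  · -- `cores ∘ Θ = Θ ∘ cores`
    intro ψ
    show coresH L M q ⊤ A ((𝔡.hi.fam A).op ⊤ (tS (L * q) M ℓ₀ ⊤ A ψ - (ℓ₀ + 1) • ψ))
      = (𝔡.lo.fam A).op ⊤ (tS L M ℓ₀ ⊤ A (coresH L M q ⊤ A ψ)
          - (ℓ₀ + 1) • coresH L M q ⊤ A ψ)
    rw [𝔡.cores_comm, map_sub, map_nsmul, d3]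
  · -- `cores_δ ∘ Θ = Θ ∘ cores_δ`
    intro ψ
    show coresDH L M q ⊤ A ((𝔡.hi.fam A).op ⊤ (tS (L * q) M ℓ₀ ⊤ A ψ - (ℓ₀ + 1) • ψ))
      = (𝔡.lo.fam A).op ⊤ (tS L M ℓ₀ ⊤ A (coresDH L M q ⊤ A ψ)
          - (ℓ₀ + 1) • coresDH L M q ⊤ A ψ)
    rw [𝔡.coresD_comm, map_sub, map_nsmul, d4]
  · -- `T_q ∘ Θ = Θ ∘ T_q`
    intro φ
    show tS L M q ⊤ A ((𝔡.lo.fam A).op ⊤ (etaS L M ℓ₀ ⊤ A φ))
      = (𝔡.lo.fam A).op ⊤ (etaS L M ℓ₀ ⊤ A (tS L M q ⊤ A φ))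
    rw [𝔡.t_comm, k5ts_eta_comm L M ⊤ A q ℓ₀ hq hℓ₀]
  · -- `U_q ∘ Θ = Θ ∘ U_q`
    intro ψ
    show tS (L * q) M q ⊤ A ((𝔡.hi.fam A).op ⊤ (etaS (L * q) M ℓ₀ ⊤ A ψ))
      = (𝔡.hi.fam A).op ⊤ (etaS (L * q) M ℓ₀ ⊤ A (tS (L * q) M q ⊤ A ψ))
    rw [𝔡.u_comm, k5ts_eta_comm (L * q) M ⊤ A q ℓ₀ hq hℓ₀]

end Fermat.Agent.RT.K5
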