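import Fermat.Agent.RT.K5.HExpr
import Fermat.Agent.RT.K5.TWStep

/-!
# RT-K5, piece ITER (K5-BASE, helper59's (Q3)): the Taylor–Wiles step iterated over a list `Q`

`e : HExpr 𝒪` a Hecke polynomial expression, `Θ_e = e ∘ (T_ℓ₀ − ℓ₀ − 1)`, `X_e(L) = etaPart Θ_e`
on `Hom(Γ₀(L), A)` (`H = ⊤`).  `Q` a list of distinct primes `q ∤ L`, `q ≠ ℓ₀`, `e` avoids `q`;
`N = L · ∏ Q`.

* `K5TWCond` : `(q + 1)² − T_q²` is injective on `X_e(L)` for every `q ∈ Q`;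
* `K5TWSystem … ι` : `ι : ∀ A, I → Hom(Γ₀(L), A) →+ Hom(Γ₀(N), A)` is natural in `A`, commutes with
  `tS ℓ` for every prime `ℓ ∉ Q`, and (for finite `A` with `K5TWCond`)
  `(φ_i)_i ↦ ∑ i, ι i (φ_i)` is a bijection `X_e(L)^I → X_{e.twist Q}(N)`;
* `k5ti_step` : one more prime (`stmtTWStep`); `k5ti_exists` : induction over `Q`, `#I = 2 ^ #Q`;
* `stmtTWIter : StmtTWIter` : the same with `I = Fin (2 ^ Q.length)`;
* `k5ti_mod` : the same with ANY modulus `M' ∣ N` at level `N` (`ModTop`);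
* `k5ti_card` : `#X_{e.twist Q}(N) = #X_e(L) ^ #I`; `k5ti_op` : `ι` commutes with the operator of
  every expression avoiding `Q`.
-/

set_option autoImplicit false
set_option linter.style.haveILetI false
set_option linter.unusedSectionVars false
set_option linter.unusedVariables false

noncomputable section

namespace Fermat.Agent.RT.K5

open CongruenceSubgroup Matrix
open scoped MatrixGroups
open Fermat.Agent.ES1 (gammaH diamHom pmH)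

section defs

variable (𝒪 : Type) [CommRing 𝒪] (L M M' N ℓ₀ : ℕ) [NeZero L] [NeZero N] [NeZero ℓ₀]
  [hML : Fact (M ∣ L)] [hMN : Fact (M' ∣ N)]

/-- the Taylor–Wiles condition at the primes of `Q`: `(q + 1)² − T_q²` is injective on the
`Θ_e`-part of level `L` -/
def K5TWCond (e : HExpr 𝒪) (Q : List ℕ) (A : Type) [AddCommGroup A] [Module 𝒪 A] : Prop :=
  ∀ (q : ℕ) [NeZero q], q ∈ Q →
    ∀ φ ∈ etaPart (thetaN (e.eval L M) ℓ₀ A (⊤ : Subgroup (ZMod M)ˣ)),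
      (q + 1) • (q + 1) • φ - tS L M q ⊤ A (tS L M q ⊤ A φ) = 0 → φ = 0

/-- `ι` is a Taylor–Wiles system from level `L` (modulus `M`, operator `e`) to level `N`
(modulus `M'`, operator `E`) for the primes of `Q` -/
structure K5TWSystem (e E : HExpr 𝒪) (Q : List ℕ) {I : Type} [Fintype I]
    (ι : ∀ (A : Type) [AddCommGroup A], I →
      (HomS (gammaH L M (⊤ : Subgroup (ZMod M)ˣ)) A →+
        HomS (gammaH N M' (⊤ : Subgroup (ZMod M')ˣ)) A)) : Prop where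
  nat : ∀ (A B : Type) [AddCommGroup A] [AddCommGroup B] (f : A →+ B) (i : I)
    (φ : HomS (gammaH L M (⊤ : Subgroup (ZMod M)ˣ)) A),
    mapS f (ι A i φ) = ι B i (mapS f φ)
  hecke : ∀ (A : Type) [AddCommGroup A] (ℓ : ℕ) [NeZero ℓ], ℓ.Prime → ℓ ∉ Q → ∀ (i : I)
    (φ : HomS (gammaH L M (⊤ : Subgroup (ZMod M)ˣ)) A),
    tS N M' ℓ ⊤ A (ι A i φ) = ι A i (tS L M ℓ ⊤ A φ)
  mem : ∀ (A : Type) [AddCommGroup A] [Module 𝒪 A] [Finite A], K5TWCond 𝒪 L M ℓ₀ e Q A →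
    ∀ φ : I → HomS (gammaH L M (⊤ : Subgroup (ZMod M)ˣ)) A,
      (∀ i, φ i ∈ etaPart (thetaN (e.eval L M) ℓ₀ A ⊤)) →
      ∑ i, ι A i (φ i) ∈ etaPart (thetaN (E.eval N M') ℓ₀ A ⊤)
  inj : ∀ (A : Type) [AddCommGroup A] [Module 𝒪 A] [Finite A], K5TWCond 𝒪 L M ℓ₀ e Q A →
    ∀ φ : I → HomS (gammaH L M (⊤ : Subgroup (ZMod M)ˣ)) A,
      (∀ i, φ i ∈ etaPart (thetaN (e.eval L M) ℓ₀ A ⊤)) →
      ∑ i, ι A i (φ i) = 0 → ∀ i, φ i = 0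
  surj : ∀ (A : Type) [AddCommGroup A] [Module 𝒪 A] [Finite A], K5TWCond 𝒪 L M ℓ₀ e Q A →
    ∀ ψ ∈ etaPart (thetaN (E.eval N M') ℓ₀ A ⊤),
      ∃ φ : I → HomS (gammaH L M (⊤ : Subgroup (ZMod M)ˣ)) A,
        (∀ i, φ i ∈ etaPart (thetaN (e.eval L M) ℓ₀ A ⊤)) ∧ ψ = ∑ i, ι A i (φ i)

/-- **K5-ITER** the Taylor–Wiles step iterated over a list `Q` of primes. -/
def StmtTWIter : Prop :=
  ∀ (𝒪 : Type) [CommRing 𝒪] (L M ℓ₀ : ℕ) [NeZero L] [NeZero ℓ₀] [Fact (M ∣ L)] (e : HExpr 𝒪)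
    (Q : List ℕ) (N : ℕ) [NeZero N] [Fact (M ∣ N)],
    N = L * Q.prod → Q.Nodup → (∀ q ∈ Q, q.Prime ∧ ¬ q ∣ L ∧ q ≠ ℓ₀ ∧ e.Avoids q) →
    ℓ₀.Prime → ¬ ℓ₀ ∣ L →
    ∃ ι : ∀ (A : Type) [AddCommGroup A], Fin (2 ^ Q.length) →
        (HomS (gammaH L M (⊤ : Subgroup (ZMod M)ˣ)) A →+
          HomS (gammaH N M (⊤ : Subgroup (ZMod M)ˣ)) A),
      K5TWSystem 𝒪 L M M N ℓ₀ e (e.twist Q) Q ι

end defs

section basic

variable {𝒪 : Type} [CommRing 𝒪] {L M M' N ℓ₀ : ℕ} [NeZero L] [NeZero N] [NeZero ℓ₀]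
  [hML : Fact (M ∣ L)] [hMN : Fact (M' ∣ N)]

theorem K5TWCond.mono {e : HExpr 𝒪} {Q Q' : List ℕ} {A : Type} [AddCommGroup A] [Module 𝒪 A]
    (h : K5TWCond 𝒪 L M ℓ₀ e Q A) (hQ : ∀ q ∈ Q', q ∈ Q) : K5TWCond 𝒪 L M ℓ₀ e Q' A :=
  fun q _ hq => h q (hQ q hq)

/-- `tS q` commutes with `Θ_e` -/
theorem k5ti_tS_theta (e : HExpr 𝒪) (he : e.IsPrimes) (q : ℕ) [NeZero q] (hq : q.Prime)
    (hℓ₀ : ℓ₀.Prime) (A : Type) [AddCommGroup A] [Module 𝒪 A] (K : Subgroup (ZMod M)ˣ)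
    (φ : HomS (gammaH L M K) A) :
    tS L M q K A (thetaN (e.eval L M) ℓ₀ A K φ) = thetaN (e.eval L M) ℓ₀ A K (tS L M q K A φ) := by
  show tS L M q K A (((e.eval L M).fam A).op K (etaS L M ℓ₀ K A φ))
    = ((e.eval L M).fam A).op K (etaS L M ℓ₀ K A (tS L M q K A φ))
  rw [k5hx_comm_tS L M A K e he q hq, k5ts_eta_comm L M K A q ℓ₀ hq hℓ₀]

/-- `(q + 1)² − T_q²` preserves the `Θ_e`-part -/
theorem k5ti_D_mem (e : HExpr 𝒪) (he : e.IsPrimes) (q : ℕ) [NeZero q] (hq : q.Prime)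
    (hℓ₀ : ℓ₀.Prime) (A : Type) [AddCommGroup A] [Module 𝒪 A] (K : Subgroup (ZMod M)ˣ)
    {φ : HomS (gammaH L M K) A} (hφ : φ ∈ etaPart (thetaN (e.eval L M) ℓ₀ A K)) :
    (q + 1) • (q + 1) • φ - tS L M q K A (tS L M q K A φ)
      ∈ etaPart (thetaN (e.eval L M) ℓ₀ A K) := by
  have hT : ∀ {χ : HomS (gammaH L M K) A}, χ ∈ etaPart (thetaN (e.eval L M) ℓ₀ A K) →
      tS L M q K A χ ∈ etaPart (thetaN (e.eval L M) ℓ₀ A K) := fun hχ =>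
    k5s_intertwine_mem _ _ (tS L M q K A) (k5ti_tS_theta e he q hq hℓ₀ A K) hχ
  exact sub_mem (nsmul_mem (nsmul_mem hφ _) _) (hT (hT hφ))

variable {I : Type} [Fintype I]
  {ι : ∀ (A : Type) [AddCommGroup A], I →
      (HomS (gammaH L M (⊤ : Subgroup (ZMod M)ˣ)) A →+
        HomS (gammaH N M' (⊤ : Subgroup (ZMod M')ˣ)) A)}
  {e E : HExpr 𝒪} {Q : List ℕ}

/-- `ι` is `𝒪`-linear -/
theorem K5TWSystem.smul (h : K5TWSystem 𝒪 L M M' N ℓ₀ e E Q ι) (A : Type) [AddCommGroup A]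
    [Module 𝒪 A] (c : 𝒪) (i : I) (φ : HomS (gammaH L M (⊤ : Subgroup (ZMod M)ˣ)) A) :
    ι A i (c • φ) = c • ι A i φ :=
  (h.nat A A (DistribSMul.toAddMonoidHom A c) i φ).symm

/-- `ι` commutes with the operator of every expression avoiding the primes of `Q` -/
theorem k5ti_op (h : K5TWSystem 𝒪 L M M' N ℓ₀ e E Q ι) (e' : HExpr 𝒪)
    (he' : ∀ q ∈ Q, e'.Avoids q) (he'p : e'.IsPrimes) (A : Type) [AddCommGroup A] [Module 𝒪 A]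
    (i : I) (φ : HomS (gammaH L M (⊤ : Subgroup (ZMod M)ˣ)) A) :
    ((e'.eval N M').fam A).op ⊤ (ι A i φ) = ι A i (((e'.eval L M).fam A).op ⊤ φ) := by
  induction e' generalizing φ with
  | one => rfl
  | hecke ℓ' =>
    haveI : NeZero ℓ' := ⟨(show ℓ'.Prime from he'p).ne_zero⟩
    rw [HExpr.op_hecke, HExpr.op_hecke]
    exact h.hecke A ℓ' he'p (fun hmem => (he' ℓ' hmem).2 rfl) i φ
  | coeff c =>
    rw [HExpr.op_coeff, HExpr.op_coeff, h.smul]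
  | add e₁ e₂ ih₁ ih₂ =>
    rw [HExpr.op_add, HExpr.op_add, map_add, ih₁ (fun q hq => (he' q hq).1) he'p.1,
      ih₂ (fun q hq => (he' q hq).2) he'p.2]
  | comp e₁ e₂ ih₁ ih₂ =>
    rw [HExpr.op_comp, HExpr.op_comp, ih₂ (fun q hq => (he' q hq).2) he'p.2,
      ih₁ (fun q hq => (he' q hq).1) he'p.1]

/-- reindexing -/
theorem K5TWSystem.reindex (h : K5TWSystem 𝒪 L M M' N ℓ₀ e E Q ι) {J : Type} [Fintype J]
    (ε : J ≃ I) : K5TWSystem 𝒪 L M M' N ℓ₀ e E Q (fun A _ j => ι A (ε j)) where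
  nat A B _ _ f j φ := h.nat A B f (ε j) φ
  hecke A _ ℓ _ hℓ hℓQ j φ := h.hecke A ℓ hℓ hℓQ (ε j) φ
  mem A _ _ _ hc φ hφ := by
    have h1 := h.mem A hc (fun i => φ (ε.symm i)) (fun i => hφ _)
    have hs : ∑ j, ι A (ε j) (φ j) = ∑ i, ι A i (φ (ε.symm i)) := by
      rw [← Equiv.sum_comp ε (fun i => ι A i (φ (ε.symm i)))]
      simp only [Equiv.symm_apply_apply]
    rw [hs]
    exact h1
  inj A _ _ _ hc φ hφ h0 j := by
    have hs : ∑ j, ι A (ε j) (φ j) = ∑ i, ι A i (φ (ε.symm i)) := by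
      rw [← Equiv.sum_comp ε (fun i => ι A i (φ (ε.symm i)))]
      simp only [Equiv.symm_apply_apply]
    have h1 : ∑ i, ι A i (φ (ε.symm i)) = 0 := by
      rw [← hs]; exact h0
    have h2 := h.inj A hc (fun i => φ (ε.symm i)) (fun i => hφ _) h1 (ε j)
    simpa only [Equiv.symm_apply_apply] using h2
  surj A _ _ _ hc ψ hψ := by
    obtain ⟨φ, hφ, rfl⟩ := h.surj A hc ψ hψ
    refine ⟨fun j => φ (ε j), fun j => hφ _, ?_⟩
    exact (Equiv.sum_comp ε (fun i => ι A i (φ i))).symm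

/-- change of the modulus at level `N` -/
theorem K5TWSystem.castTop (h : K5TWSystem 𝒪 L M M' N ℓ₀ e E Q ι) (M'' : ℕ)
    [hMN' : Fact (M'' ∣ N)] :
    K5TWSystem 𝒪 L M M'' N ℓ₀ e E Q
      (fun A _ i => (k5mt_cast A (k5mt_top_eq N M' M'')).comp (ι A i)) where
  nat A B _ _ f i φ := by
    show mapS f (k5mt_cast A (k5mt_top_eq N M' M'') (ι A i φ))
      = k5mt_cast B (k5mt_top_eq N M' M'') (ι B i (mapS f φ))
    rw [← h.nat A B f i φ]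
    rfl
  hecke A _ ℓ _ hℓ hℓQ i φ := by
    show tS N M'' ℓ ⊤ A (k5mt_cast A (k5mt_top_eq N M' M'') (ι A i φ))
      = k5mt_cast A (k5mt_top_eq N M' M'') (ι A i (tS L M ℓ ⊤ A φ))
    rw [← h.hecke A ℓ hℓ hℓQ i φ, k5mt_top_tS]
  mem A _ _ _ hc φ hφ := by
    have h1 := h.mem A hc φ hφ
    have h2 := (k5hx_cast_top_mem N M' M'' A E ℓ₀ _).mpr h1
    rwa [map_sum] at h2
  inj A _ _ _ hc φ hφ h0 := by
    refine h.inj A hc φ hφ ?_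
    have h1 : k5mt_cast A (k5mt_top_eq N M' M'') (∑ i, ι A i (φ i)) = 0 := by
      rw [map_sum]; exact h0
    exact (k5mt_cast_eq_zero A _ _).mp h1
  surj A _ _ _ hc ψ hψ := by
    obtain ⟨ψ', rfl⟩ := k5mt_cast_surjective A (k5mt_top_eq N M' M'') ψ
    have h1 := (k5hx_cast_top_mem N M' M'' A E ℓ₀ ψ').mp hψ
    obtain ⟨φ, hφ, rfl⟩ := h.surj A hc ψ' h1
    exact ⟨φ, hφ, by rw [map_sum]; rfl⟩

/-- the cardinality of the `Θ_E`-part of level `N` -/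
theorem k5ti_card (h : K5TWSystem 𝒪 L M M' N ℓ₀ e E Q ι) (A : Type) [AddCommGroup A]
    [Module 𝒪 A] [Finite A] (hc : K5TWCond 𝒪 L M ℓ₀ e Q A) :
    Nat.card (etaPart (thetaN (E.eval N M') ℓ₀ A (⊤ : Subgroup (ZMod M')ˣ)))
      = Nat.card (etaPart (thetaN (e.eval L M) ℓ₀ A (⊤ : Subgroup (ZMod M)ˣ)))
        ^ Fintype.card I := by
  classical
  let F : (I → etaPart (thetaN (e.eval L M) ℓ₀ A (⊤ : Subgroup (ZMod M)ˣ))) →
      etaPart (thetaN (E.eval N M') ℓ₀ A (⊤ : Subgroup (ZMod M')ˣ)) := fun φ =>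
    ⟨∑ i, ι A i (φ i : HomS (gammaH L M (⊤ : Subgroup (ZMod M)ˣ)) A),
      h.mem A hc (fun i => (φ i : HomS (gammaH L M (⊤ : Subgroup (ZMod M)ˣ)) A))
        (fun i => (φ i).2)⟩
  have hF : Function.Bijective F := by
    constructor
    · intro φ φ' hφφ'
      have h1 : ∑ i, ι A i ((φ i : HomS (gammaH L M (⊤ : Subgroup (ZMod M)ˣ)) A) - φ' i) = 0 := by
        have h2 := congrArg Subtype.val hφφ'
        simp only [F] at h2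
        simp only [map_sub, Finset.sum_sub_distrib, h2, sub_self]
      have h3 := h.inj A hc (fun i => (φ i : HomS (gammaH L M (⊤ : Subgroup (ZMod M)ˣ)) A) - φ' i)
        (fun i => sub_mem (φ i).2 (φ' i).2) h1
      funext i
      exact Subtype.ext (sub_eq_zero.mp (h3 i))
    · rintro ⟨ψ, hψ⟩
      obtain ⟨φ, hφ, rfl⟩ := h.surj A hc ψ hψ
      exact ⟨fun i => ⟨φ i, hφ i⟩, rfl⟩
  rw [← Nat.card_congr (Equiv.ofBijective F hF), Nat.card_fun, Nat.card_eq_fintype_card (α := I)]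

end basic

section step

variable {𝒪 : Type} [CommRing 𝒪] {L M N ℓ₀ : ℕ} [NeZero L] [NeZero N] [NeZero ℓ₀]
  [hML : Fact (M ∣ L)] [hMN : Fact (M ∣ N)]

/-- the base of the induction: `Q = []` -/
theorem k5ti_nil (e : HExpr 𝒪) :
    K5TWSystem 𝒪 L M M L ℓ₀ e e [] (I := Unit) (fun A _ _ => AddMonoidHom.id _) where
  nat A B _ _ f i φ := rfl
  hecke A _ ℓ _ hℓ hℓQ i φ := rfl
  mem A _ _ _ hc φ hφ := by
    simpa using hφ ()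
  inj A _ _ _ hc φ hφ h0 i := by
    simpa using h0
  surj A _ _ _ hc ψ hψ := ⟨fun _ => ψ, fun _ => hψ, by simp⟩

/-- **one more Taylor–Wiles prime** -/
theorem k5ti_step {I : Type} [Fintype I] (q : ℕ) [NeZero q] [hMNq : Fact (M ∣ N * q)]
    (hq : q.Prime) (hqN : ¬ q ∣ N) (hℓ₀ : ℓ₀.Prime) (hℓ₀N : ¬ ℓ₀ ∣ N) (hne : ℓ₀ ≠ q)
    (e E : HExpr 𝒪) (he : e.Avoids q) (hE : E.Avoids q) (Q : List ℕ) (hqQ : q ∉ Q)
    (ι : ∀ (A : Type) [AddCommGroup A], I →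
      (HomS (gammaH L M (⊤ : Subgroup (ZMod M)ˣ)) A →+
        HomS (gammaH N M (⊤ : Subgroup (ZMod M)ˣ)) A))
    (h : K5TWSystem 𝒪 L M M N ℓ₀ e E Q ι) :
    K5TWSystem 𝒪 L M M (N * q) ℓ₀ e (E.comp (HExpr.usq 𝒪 q)) (q :: Q) (I := I ⊕ I)
      (fun A _ x => Sum.elim (fun i => (resH N M q ⊤ A).comp (ι A i))
        (fun i => (resDH N M q ⊤ A).comp (ι A i)) x) := by
  -- the operator at level `N q`
  have hfam : (E.comp (HExpr.usq 𝒪 q)).eval (N * q) M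
      = (k5hx_degFam N M q hq hqN E hE).hi.comp (usqFam 𝒪 N M q) := by
    show (E.eval (N * q) M).comp ((HExpr.usq 𝒪 q).eval (N * q) M) = _
    rw [k5hx_eval_usq]
    rfl
  -- the Taylor–Wiles step at level `N`
  have tw : ∀ (A : Type) [AddCommGroup A] [Module 𝒪 A] [Finite A],
      K5TWCond 𝒪 L M ℓ₀ e (q :: Q) A →
      (∀ φ₁ ∈ etaPart (thetaN (E.eval N M) ℓ₀ A ⊤), ∀ φ₂ ∈ etaPart (thetaN (E.eval N M) ℓ₀ A ⊤),
        resH N M q ⊤ A φ₁ + resDH N M q ⊤ A φ₂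
            ∈ etaPart (thetaN ((E.comp (HExpr.usq 𝒪 q)).eval (N * q) M) ℓ₀ A ⊤) ∧
        (resH N M q ⊤ A φ₁ + resDH N M q ⊤ A φ₂ = 0 → φ₁ = 0 ∧ φ₂ = 0)) ∧
      (∀ ψ ∈ etaPart (thetaN ((E.comp (HExpr.usq 𝒪 q)).eval (N * q) M) ℓ₀ A ⊤),
        ∃ φ₁ ∈ etaPart (thetaN (E.eval N M) ℓ₀ A ⊤),
          ∃ φ₂ ∈ etaPart (thetaN (E.eval N M) ℓ₀ A ⊤),
            ψ = resH N M q ⊤ A φ₁ + resDH N M q ⊤ A φ₂) := by
    intro A _ _ _ hc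
    have hcQ : K5TWCond 𝒪 L M ℓ₀ e Q A := hc.mono fun q' hq' => List.mem_cons_of_mem _ hq'
    rw [hfam]
    have key := stmtTWStep 𝒪 N M q ℓ₀ (k5hx_degFam N M q hq hqN E hE) A hq hqN hℓ₀ hℓ₀N hne ?_
    · exact ⟨key.1, key.2.1⟩
    -- the Taylor–Wiles condition at level `N`
    intro ψ hψ hD
    obtain ⟨φ, hφ, rfl⟩ := h.surj A hcQ ψ hψ
    have h1 : ∑ i, ι A i ((q + 1) • (q + 1) • φ i - tS L M q ⊤ A (tS L M q ⊤ A (φ i))) = 0 := by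
      rw [← hD]
      simp only [map_sub, map_nsmul, map_sum, Finset.sum_sub_distrib, Finset.smul_sum,
        h.hecke A q hq hqQ]
    have h2 := h.inj A hcQ _ (fun i => k5ti_D_mem e he.isPrimes q hq hℓ₀ A ⊤ (hφ i)) h1
    have h3 : ∀ i, φ i = 0 := fun i => hc q (List.mem_cons_self ..) (φ i) (hφ i) (h2 i)
    simp only [h3, map_zero, Finset.sum_const_zero]
  have hsum : ∀ (A : Type) [AddCommGroup A]
      (φ : I ⊕ I → HomS (gammaH L M (⊤ : Subgroup (ZMod M)ˣ)) A),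
      ∑ x, (Sum.elim (fun i => (resH N M q ⊤ A).comp (ι A i))
        (fun i => (resDH N M q ⊤ A).comp (ι A i)) x) (φ x)
      = resH N M q ⊤ A (∑ i, ι A i (φ (Sum.inl i)))
        + resDH N M q ⊤ A (∑ i, ι A i (φ (Sum.inr i))) := by
    intro A _ φ
    rw [Fintype.sum_sum_type, map_sum, map_sum]
    rfl
  refine ⟨?_, ?_, ?_, ?_, ?_⟩
  · -- naturality
    intro A B _ _ f x φ
    cases x with
    | inl i =>
      show mapS f (resH N M q ⊤ A (ι A i φ)) = resH N M q ⊤ B (ι B i (mapS f φ))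
      rw [← h.nat A B f i φ]
      rfl
    | inr i =>
      show mapS f (resDH N M q ⊤ A (ι A i φ)) = resDH N M q ⊤ B (ι B i (mapS f φ))
      rw [← h.nat A B f i φ]
      rfl
  · -- Hecke operators
    intro A _ ℓ _ hℓ hℓQ x φ
    have hℓq : q ≠ ℓ := fun hh => hℓQ (hh ▸ List.mem_cons_self ..)
    have hℓQ' : ℓ ∉ Q := fun hh => hℓQ (List.mem_cons_of_mem _ hh)
    obtain ⟨d1, d2, -, -⟩ := stmtDegComm N M q ℓ (⊤ : Subgroup (ZMod M)ˣ) A hq hℓ hℓq hqN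
    cases x with
    | inl i =>
      show tS (N * q) M ℓ ⊤ A (resH N M q ⊤ A (ι A i φ))
        = resH N M q ⊤ A (ι A i (tS L M ℓ ⊤ A φ))
      rw [← h.hecke A ℓ hℓ hℓQ' i φ, d1]
    | inr i =>
      show tS (N * q) M ℓ ⊤ A (resDH N M q ⊤ A (ι A i φ))
        = resDH N M q ⊤ A (ι A i (tS L M ℓ ⊤ A φ))
      rw [← h.hecke A ℓ hℓ hℓQ' i φ, d2]
  · -- into
    intro A _ _ _ hc φ hφ
    have hcQ : K5TWCond 𝒪 L M ℓ₀ e Q A := hc.mono fun q' hq' => List.mem_cons_of_mem _ hq'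
    rw [hsum]
    exact ((tw A hc).1 _ (h.mem A hcQ _ fun i => hφ _) _ (h.mem A hcQ _ fun i => hφ _)).1
  · -- injective
    intro A _ _ _ hc φ hφ h0 x
    have hcQ : K5TWCond 𝒪 L M ℓ₀ e Q A := hc.mono fun q' hq' => List.mem_cons_of_mem _ hq'
    rw [hsum] at h0
    obtain ⟨h1, h2⟩ :=
      ((tw A hc).1 _ (h.mem A hcQ _ fun i => hφ _) _ (h.mem A hcQ _ fun i => hφ _)).2 h0
    cases x with
    | inl i => exact h.inj A hcQ _ (fun i => hφ _) h1 i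
    | inr i => exact h.inj A hcQ _ (fun i => hφ _) h2 i
  · -- onto
    intro A _ _ _ hc ψ hψ
    have hcQ : K5TWCond 𝒪 L M ℓ₀ e Q A := hc.mono fun q' hq' => List.mem_cons_of_mem _ hq'
    obtain ⟨ψ₁, hψ₁, ψ₂, hψ₂, rfl⟩ := (tw A hc).2 ψ hψ
    obtain ⟨φ₁, hφ₁, rfl⟩ := h.surj A hcQ ψ₁ hψ₁
    obtain ⟨φ₂, hφ₂, rfl⟩ := h.surj A hcQ ψ₂ hψ₂
    refine ⟨Sum.elim φ₁ φ₂, ?_, ?_⟩
    · rintro (i | i)
      · exact hφ₁ i
      · exact hφ₂ i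
    · rw [hsum]
      rfl

end step

section main

variable {𝒪 : Type} [CommRing 𝒪] {L M ℓ₀ : ℕ} [NeZero L] [NeZero ℓ₀] [hML : Fact (M ∣ L)]

theorem k5ti_not_dvd {ℓ : ℕ} (hℓ : ℓ.Prime) (hℓL : ¬ ℓ ∣ L) {Q : List ℕ}
    (hQ : ∀ q ∈ Q, q.Prime ∧ q ≠ ℓ) : ¬ ℓ ∣ L * Q.prod := by
  intro hdvd
  rcases (Nat.Prime.dvd_mul hℓ).mp hdvd with h | h
  · exact hℓL h
  · obtain ⟨q, hq, hℓq⟩ := (Prime.dvd_prod_iff hℓ.prime).mp h
    exact (hQ q hq).2 (((Nat.prime_dvd_prime_iff_eq hℓ (hQ q hq).1).mp hℓq).symm)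

theorem k5ti_ne_zero {Q : List ℕ} (hQ : ∀ q ∈ Q, q.Prime) : L * Q.prod ≠ 0 := by
  refine mul_ne_zero (NeZero.ne L) (List.prod_ne_zero fun h0 => ?_)
  exact (hQ 0 h0).ne_zero rfl

/-- **the induction over `Q`** -/
theorem k5ti_exists (e : HExpr 𝒪) (hℓ₀ : ℓ₀.Prime) (hℓ₀L : ¬ ℓ₀ ∣ L) :
    ∀ (Q : List ℕ), Q.Nodup → (∀ q ∈ Q, q.Prime ∧ ¬ q ∣ L ∧ q ≠ ℓ₀ ∧ e.Avoids q) →
    ∀ (N : ℕ) [NeZero N] [Fact (M ∣ N)], N = L * Q.prod →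
    ∃ (I : Type) (_ : Fintype I) (ι : ∀ (A : Type) [AddCommGroup A], I →
        (HomS (gammaH L M (⊤ : Subgroup (ZMod M)ˣ)) A →+
          HomS (gammaH N M (⊤ : Subgroup (ZMod M)ˣ)) A)),
      Fintype.card I = 2 ^ Q.length ∧ K5TWSystem 𝒪 L M M N ℓ₀ e (e.twist Q) Q ι := by
  intro Q
  induction Q with
  | nil =>
    intro _ _ N _ _ hN
    obtain rfl : N = L := by simpa using hN
    exact ⟨Unit, inferInstance, fun A _ _ => AddMonoidHom.id _, rfl, k5ti_nil e⟩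
  | cons q Q ih =>
    intro hnd hQ N _ _ hN
    have hqQ : q ∉ Q := (List.nodup_cons.mp hnd).1
    have hQ' : ∀ q' ∈ Q, q'.Prime ∧ ¬ q' ∣ L ∧ q' ≠ ℓ₀ ∧ e.Avoids q' :=
      fun q' hq' => hQ q' (List.mem_cons_of_mem _ hq')
    obtain ⟨hq, hqL, hqℓ₀, heq⟩ := hQ q (List.mem_cons_self ..)
    haveI : NeZero q := ⟨hq.ne_zero⟩
    haveI : NeZero (L * Q.prod) := ⟨k5ti_ne_zero fun q' hq' => (hQ' q' hq').1⟩
    haveI : Fact (M ∣ L * Q.prod) := ⟨hML.out.trans (dvd_mul_right _ _)⟩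
    obtain ⟨I, hI, ι, hcard, hsys⟩ := ih (List.nodup_cons.mp hnd).2 hQ' (L * Q.prod) rfl
    obtain rfl : N = L * Q.prod * q := by
      rw [hN, List.prod_cons]; ring
    have hqN : ¬ q ∣ L * Q.prod := k5ti_not_dvd hq hqL fun q' hq' =>
      ⟨(hQ' q' hq').1, fun hh => hqQ (hh ▸ hq')⟩
    have hℓ₀N : ¬ ℓ₀ ∣ L * Q.prod := k5ti_not_dvd hℓ₀ hℓ₀L fun q' hq' =>
      ⟨(hQ' q' hq').1, (hQ' q' hq').2.2.1⟩
    have hE : (e.twist Q).Avoids q := HExpr.avoids_twist heq fun q' hq' =>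
      ⟨(hQ' q' hq').1, fun hh => hqQ (hh ▸ hq')⟩
    refine ⟨I ⊕ I, inferInstance, _, ?_,
      k5ti_step q hq hqN hℓ₀ hℓ₀N hqℓ₀.symm e (e.twist Q) heq hE Q hqQ ι hsys⟩
    rw [Fintype.card_sum, hcard, List.length_cons, pow_succ]
    ring

/-- **K5-ITER** -/
theorem stmtTWIter : StmtTWIter := by
  intro 𝒪 _ L M ℓ₀ _ _ hML e Q N _ _ hN hnd hQ hℓ₀ hℓ₀L
  obtain ⟨I, hI, ι, hcard, hsys⟩ := k5ti_exists (M := M) e hℓ₀ hℓ₀L Q hnd hQ N hN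
  have ε : Fin (2 ^ Q.length) ≃ I := (Fintype.equivFinOfCardEq hcard).symm
  exact ⟨fun A _ j => ι A (ε j), hsys.reindex ε⟩

/-- **K5-ITER with a change of modulus** at level `N = L · ∏ Q`: any modulus `M' ∣ N`. -/
theorem k5ti_mod (e : HExpr 𝒪) (hℓ₀ : ℓ₀.Prime) (hℓ₀L : ¬ ℓ₀ ∣ L) (Q : List ℕ) (hnd : Q.Nodup)
    (hQ : ∀ q ∈ Q, q.Prime ∧ ¬ q ∣ L ∧ q ≠ ℓ₀ ∧ e.Avoids q) (N M' : ℕ) [NeZero N]
    [hMN' : Fact (M' ∣ N)] (hN : N = L * Q.prod) :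
    ∃ ι : ∀ (A : Type) [AddCommGroup A], Fin (2 ^ Q.length) →
        (HomS (gammaH L M (⊤ : Subgroup (ZMod M)ˣ)) A →+
          HomS (gammaH N M' (⊤ : Subgroup (ZMod M')ˣ)) A),
      K5TWSystem 𝒪 L M M' N ℓ₀ e (e.twist Q) Q ι := by
  haveI : Fact (M ∣ N) := ⟨hN ▸ hML.out.trans (dvd_mul_right _ _)⟩
  obtain ⟨ι, hsys⟩ := stmtTWIter 𝒪 L M ℓ₀ e Q N hN hnd hQ hℓ₀ hℓ₀L
  exact ⟨_, K5TWSystem.castTop (M' := M) hsys M'⟩

end main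

end Fermat.Agent.RT.K5
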