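import Fermat.Agent.RT.K5.Plan5

/-!
# RT-K5: the torsion hypothesis `NoTors` for the coefficients `𝒪 ⧸ 𝔪 ^ n`, residue
characteristic `p ≥ 5` (helper88)

* `k5nt_isUnit` : a natural number prime to `p` is a unit of the local ring `𝒪` (`p ∈ 𝔪`);
* `k5nt_smul_eq_zero` : multiplication by such a number is injective on every `𝒪`-module;
* `k5nt_noTors` : `NoTors Γ A` for every `𝒪`-module `A`, every `Γ`, if `p ≥ 5`;
* `k5nt_noTors_quot` : the case `A = 𝒪 ⧸ 𝔪 ^ n`;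
* `k5nt_freeHyp` : the structure `FreeHyp p 𝒪 L M ℓ₀ H' H k` from its arithmetic fields.
-/

set_option autoImplicit false

namespace Fermat.Agent.RT.K5

open CongruenceSubgroup Matrix
open scoped MatrixGroups
open Fermat.Agent.ES1 (gammaH diamHom pmH)

section unit

variable {𝒪 : Type*} [CommRing 𝒪] [IsLocalRing 𝒪] {p : ℕ}

/-- a natural number prime to `p` is a unit of `𝒪` -/
theorem k5nt_isUnit (hpm : (p : 𝒪) ∈ IsLocalRing.maximalIdeal 𝒪) {m : ℕ}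
    (hm : Nat.Coprime m p) : IsUnit (m : 𝒪) := by
  by_contra hnu
  have hmm : (m : 𝒪) ∈ IsLocalRing.maximalIdeal 𝒪 := (IsLocalRing.mem_maximalIdeal _).mpr hnu
  have h1 : ((Nat.gcd m p : ℕ) : ℤ) = (m : ℤ) * Nat.gcdA m p + (p : ℤ) * Nat.gcdB m p :=
    Nat.gcd_eq_gcd_ab m p
  rw [hm.gcd_eq_one] at h1
  have h2 : (1 : 𝒪) = (m : 𝒪) * ((Nat.gcdA m p : ℤ) : 𝒪) + (p : 𝒪) * ((Nat.gcdB m p : ℤ) : 𝒪) := by
    have := congrArg (Int.cast : ℤ → 𝒪) h1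
    push_cast at this
    exact this
  have h3 : (1 : 𝒪) ∈ IsLocalRing.maximalIdeal 𝒪 := by
    rw [h2]
    exact Ideal.add_mem _ (Ideal.mul_mem_right _ _ hmm) (Ideal.mul_mem_right _ _ hpm)
  exact (IsLocalRing.maximalIdeal.isMaximal 𝒪).ne_top ((Ideal.eq_top_iff_one _).mpr h3)

/-- multiplication by a natural number prime to `p` is injective on every `𝒪`-module -/
theorem k5nt_smul_eq_zero (hpm : (p : 𝒪) ∈ IsLocalRing.maximalIdeal 𝒪) {m : ℕ}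
    (hm : Nat.Coprime m p) {A : Type*} [AddCommGroup A] [Module 𝒪 A] (a : A)
    (ha : m • a = 0) : a = 0 := by
  obtain ⟨u, hu⟩ := k5nt_isUnit hpm hm
  have h1 : (m : 𝒪) • a = 0 := by rw [Nat.cast_smul_eq_nsmul]; exact ha
  rw [← hu] at h1
  have h2 := congrArg (fun x => (↑u⁻¹ : 𝒪) • x) h1
  simp only [smul_smul, Units.inv_mul, one_smul, smul_zero] at h2
  exact h2

/-- **the torsion hypothesis** for `p ≥ 5` -/
theorem k5nt_noTors (hp : p.Prime) (hp5 : 5 ≤ p)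
    (hpm : (p : 𝒪) ∈ IsLocalRing.maximalIdeal 𝒪) (Γ : Subgroup SL(2, ℤ)) (A : Type*)
    [AddCommGroup A] [Module 𝒪 A] : NoTors Γ A := by
  have h2 : Nat.Coprime 2 p :=
    (Nat.coprime_primes Nat.prime_two hp).mpr (by omega)
  have h3 : Nat.Coprime 3 p :=
    (Nat.coprime_primes Nat.prime_three hp).mpr (by omega)
  exact ⟨fun a ha => k5nt_smul_eq_zero hpm h2 a ha,
    Or.inl fun a ha => k5nt_smul_eq_zero hpm h3 a ha⟩

/-- the torsion hypothesis for the coefficients `𝒪 ⧸ 𝔪 ^ n` -/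
theorem k5nt_noTors_quot {𝒪 : Type} [CommRing 𝒪] [IsLocalRing 𝒪] {p : ℕ} (hp : p.Prime)
    (hp5 : 5 ≤ p) (hpm : (p : 𝒪) ∈ IsLocalRing.maximalIdeal 𝒪) (Γ : Subgroup SL(2, ℤ))
    (n : ℕ) : NoTors Γ (𝒪 ⧸ IsLocalRing.maximalIdeal 𝒪 ^ n) :=
  k5nt_noTors hp hp5 hpm Γ _

end unit

section hyp

variable {𝒪 : Type} [CommRing 𝒪] [IsLocalRing 𝒪] {p : ℕ}

/-- **`FreeHyp`** from its arithmetic fields, for `p ≥ 5` -/
theorem k5nt_freeHyp (hp : p.Prime) (hp5 : 5 ≤ p)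
    (hpm : (p : 𝒪) ∈ IsLocalRing.maximalIdeal 𝒪) (L M ℓ₀ : ℕ) (hℓ₀ : ℓ₀.Prime)
    (hℓ₀L : ¬ ℓ₀ ∣ L) {H' H : Subgroup (ZMod M)ˣ} (hle : H' ≤ H) (k : ℕ)
    (hidx : ((pmH H').subgroupOf (pmH H)).index = p ^ k) :
    FreeHyp p 𝒪 L M ℓ₀ H' H k where
  p_ne_two := by omega
  p_mem := hpm
  prime := hℓ₀
  not_dvd := hℓ₀L
  le := hle
  index := hidx
  noTors n := k5nt_noTors_quot hp hp5 hpm _ n

end hyp

end Fermat.Agent.RT.K5
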