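import Fermat.Agent.RT.K5.BaseAbs
import Fermat.Agent.RT.K5.TWIter
import Fermat.Agent.RT.K5.FreeOFinal

/-!
# RT-K5, piece BASE: bases of the Taylor–Wiles modules adapted to the base level

`𝒪` a discrete valuation ring with finite residue field, `R = 𝒪 ⧸ 𝔪 ^ n` (`n ≥ 1`), base level
`N₀` (modulus `M₀`), `e : HExpr 𝒪`, `X_e(N₀; A) = etaPart (thetaN (e.eval N₀ M₀) ℓ₀ A ⊤)`.

* `k5bs_base`  (**BASE-0**, `𝒪` complete): there is `c : Fin r → Hom(Γ₀(N₀), 𝒪)`, an `𝒪`-basis of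
  `X_e(N₀; 𝒪)` whose reductions are `𝒪 ⧸ 𝔪 ^ n`-bases of `X_e(N₀; 𝒪 ⧸ 𝔪 ^ n)` for every `n`
  (`stmtFreeO` at `H' = H = ⊤`);
* `k5bs_level` (**BASE-Q**): for every `R`-basis `y` of `X_e(N₀; R)`, every Taylor–Wiles list `Q`
  with `K5TWCond`, `N = N₀ · ∏ Q`, ANY modulus `M ∣ N`, `H' ≤ (ℤ/M)ˣ` with `FreeHyp … H' ⊤ k`:
  a Taylor–Wiles system `ι` and a family `b : Fin (2 ^ #Q * r) → Hom(Γ_{H'}(N), R)` with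
  `IsFreeBasis H' ⊤ … b` (free over `R[Δ]`, coinvariants = level `⊤`) and
  `cores (b (s, i)) = ι s (y i)`;
* `k5bs_hecke` : hence for every prime `ℓ ∉ Q`: if `tS ℓ (y j) = ∑ i, a i j • y i` then
  `tS ℓ (cores (b (s, j))) = ∑ i, a i j • cores (b (s, i))` — the matrix of `T_ℓ` on the
  coinvariants is block diagonal with the blocks of the base level.
-/

set_option autoImplicit false
set_option linter.style.haveILetI false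
set_option linter.unusedSectionVars false
set_option linter.unusedVariables false

noncomputable section

namespace Fermat.Agent.RT.K5

open CongruenceSubgroup Matrix
open scoped MatrixGroups
open Fermat.Agent.ES1 (gammaH diamHom pmH)

section lin

variable {𝒪 : Type} [CommRing 𝒪] {L M : ℕ} [NeZero L] [hML : Fact (M ∣ L)] (I : Ideal 𝒪)

/-- the `Θ`-part with coefficients `𝒪 ⧸ I` is stable under the scalars of `𝒪 ⧸ I` -/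
theorem k5bs_smul_mem (𝔲 : NatFam 𝒪 L M) (ℓ₀ : ℕ) [NeZero ℓ₀] (K : Subgroup (ZMod M)ˣ)
    (c : 𝒪 ⧸ I) (ψ : HomS (gammaH L M K) (𝒪 ⧸ I))
    (hψ : ψ ∈ etaPart (thetaN 𝔲 ℓ₀ (𝒪 ⧸ I) K)) :
    c • ψ ∈ etaPart (thetaN 𝔲 ℓ₀ (𝒪 ⧸ I) K) := by
  obtain ⟨a, rfl⟩ := Ideal.Quotient.mk_surjective c
  rw [k5fn_mk_smul]
  exact (k5fn_etaSub 𝔲 ℓ₀ (𝒪 ⧸ I) K).smul_mem a hψ

/-- `cores` commutes with the scalars of `𝒪 ⧸ I` -/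
theorem k5bs_cores_smul {Γ' Γ : Subgroup SL(2, ℤ)} (h : Γ' ≤ Γ)
    [(Subgroup.inclusion h).range.FiniteIndex] (c : 𝒪 ⧸ I) (ψ : HomS Γ' (𝒪 ⧸ I)) :
    coresS (𝒪 ⧸ I) h (c • ψ) = c • coresS (𝒪 ⧸ I) h ψ :=
  S41.transferAlong_natural _ _ (𝒪 ⧸ I) (DistribSMul.toAddMonoidHom (𝒪 ⧸ I) c) ψ

/-- `cores` maps the `Θ`-part to the `Θ`-part -/
theorem k5bs_cores_mem (𝔲 : NatFam 𝒪 L M) (ℓ₀ : ℕ) [NeZero ℓ₀] {A : Type} [AddCommGroup A]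
    [Module 𝒪 A] {K' K : Subgroup (ZMod M)ˣ} (h : K' ≤ K) {ψ : HomS (gammaH L M K') A}
    (hψ : ψ ∈ etaPart (thetaN 𝔲 ℓ₀ A K')) :
    coresS A (Fermat.Agent.ES1.gammaH_mono h) ψ ∈ etaPart (thetaN 𝔲 ℓ₀ A K) :=
  k5s_intertwine_mem _ _ (coresS A (Fermat.Agent.ES1.gammaH_mono h))
    (fun x => k5n_theta_cores 𝔲 ℓ₀ h x) hψ

end lin

section base

variable (p : ℕ) [Fact p.Prime] (𝒪 : Type) [CommRing 𝒪] [IsDomain 𝒪]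
  [IsDiscreteValuationRing 𝒪] [Finite (IsLocalRing.ResidueField 𝒪)]
  (L M ℓ₀ : ℕ) [NeZero L] [NeZero ℓ₀] [hML : Fact (M ∣ L)]

/-- the trivial transversal of `±⊤` modulo `±⊤` -/
theorem k5bs_transversal_top :
    IsTransversal (⊤ : Subgroup (ZMod M)ˣ) ⊤ (fun _ : Fin 1 => (1 : (ZMod M)ˣ)) := by
  refine ⟨fun _ => one_mem _, fun v hv => ⟨0, ?_, fun j _ => Subsingleton.elim _ _⟩⟩
  simpa using hv

/-- a free basis for `H' = H = ⊤` is a basis of the `Θ`-part -/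
theorem k5bs_isBasis_of_top (R A : Type) [CommRing R] [AddCommGroup A] [Module R A]
    (θ : HomS (gammaH L M (⊤ : Subgroup (ZMod M)ˣ)) A →+ HomS (gammaH L M ⊤) A) {r : ℕ}
    (b : Fin r → HomS (gammaH L M (⊤ : Subgroup (ZMod M)ˣ)) A)
    (h : IsFreeBasis (⊤ : Subgroup (ZMod M)ˣ) ⊤ le_rfl R A θ θ b) :
    K5IsBasis R (etaPart θ) b := by
  obtain ⟨h1, h2, -, -⟩ := h
  obtain ⟨hinj, hsurj⟩ := h2 1 _ (k5bs_transversal_top M)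
  have hs : ∀ c : Fin r × Fin 1 → R,
      ∑ x : Fin r × Fin 1, c x • diamU L M ⊤ A (1 : (ZMod M)ˣ) (b x.1)
        = ∑ i : Fin r, c (i, 0) • b i := fun c => by
    rw [Fintype.sum_prod_type]
    refine Finset.sum_congr rfl fun i _ => ?_
    rw [Fin.sum_univ_one, map_one]
    rfl
  refine ⟨h1, ?_, ?_⟩
  · intro c c' hcc'
    have h3 := @hinj (fun x => c x.1) (fun x => c' x.1) (by
      show ∑ x : Fin r × Fin 1, c x.1 • diamU L M ⊤ A (1 : (ZMod M)ˣ) (b x.1)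
        = ∑ x : Fin r × Fin 1, c' x.1 • diamU L M ⊤ A (1 : (ZMod M)ˣ) (b x.1)
      rw [hs, hs]
      exact hcc')
    funext i
    exact congrFun h3 (i, 0)
  · intro φ hφ
    obtain ⟨c, hc⟩ := hsurj φ hφ
    exact ⟨fun i => c (i, 0), by rw [hc, hs]⟩

end base

section sys

variable {𝒪 : Type} [CommRing 𝒪] {L M M' N ℓ₀ : ℕ} [NeZero L] [NeZero N] [NeZero ℓ₀]
  [hML : Fact (M ∣ L)] [hMN : Fact (M' ∣ N)] {I : Type} [Fintype I]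
  {ι : ∀ (A : Type) [AddCommGroup A], I →
      (HomS (gammaH L M (⊤ : Subgroup (ZMod M)ˣ)) A →+
        HomS (gammaH N M' (⊤ : Subgroup (ZMod M')ˣ)) A)}
  {e E : HExpr 𝒪} {Q : List ℕ}

/-- `ι` commutes with the scalars of `𝒪 ⧸ J` -/
theorem k5bs_sys_smul (h : K5TWSystem 𝒪 L M M' N ℓ₀ e E Q ι) (J : Ideal 𝒪) (c : 𝒪 ⧸ J) (i : I)
    (φ : HomS (gammaH L M (⊤ : Subgroup (ZMod M)ˣ)) (𝒪 ⧸ J)) :
    ι (𝒪 ⧸ J) i (c • φ) = c • ι (𝒪 ⧸ J) i φ :=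
  (h.nat (𝒪 ⧸ J) (𝒪 ⧸ J) (DistribSMul.toAddMonoidHom (𝒪 ⧸ J) c) i φ).symm

theorem k5bs_sys_sum (h : K5TWSystem 𝒪 L M M' N ℓ₀ e E Q ι) (J : Ideal 𝒪) {κ : Type}
    [Fintype κ] (y : κ → HomS (gammaH L M (⊤ : Subgroup (ZMod M)ˣ)) (𝒪 ⧸ J))
    (c : I × κ → 𝒪 ⧸ J) :
    ∑ x : I × κ, c x • ι (𝒪 ⧸ J) x.1 (y x.2)
      = ∑ s : I, ι (𝒪 ⧸ J) s (∑ i : κ, c (s, i) • y i) := by
  rw [Fintype.sum_prod_type]
  refine Finset.sum_congr rfl fun s _ => ?_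
  rw [map_sum]
  refine Finset.sum_congr rfl fun i _ => ?_
  rw [k5bs_sys_smul h]

/-- a basis of the base level gives a basis of the level `N` -/
theorem k5bs_sys_basis (h : K5TWSystem 𝒪 L M M' N ℓ₀ e E Q ι) (J : Ideal 𝒪) [Finite (𝒪 ⧸ J)]
    (hc : K5TWCond 𝒪 L M ℓ₀ e Q (𝒪 ⧸ J)) {κ : Type} [Fintype κ]
    (y : κ → HomS (gammaH L M (⊤ : Subgroup (ZMod M)ˣ)) (𝒪 ⧸ J))
    (hy : K5IsBasis (𝒪 ⧸ J) (etaPart (thetaN (e.eval L M) ℓ₀ (𝒪 ⧸ J) ⊤)) y) :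
    K5IsBasis (𝒪 ⧸ J) (etaPart (thetaN (E.eval N M') ℓ₀ (𝒪 ⧸ J) ⊤))
      (fun x : I × κ => ι (𝒪 ⧸ J) x.1 (y x.2)) := by
  classical
  have hmemφ : ∀ (c : I × κ → 𝒪 ⧸ J) (s : I),
      ∑ i : κ, c (s, i) • y i ∈ etaPart (thetaN (e.eval L M) ℓ₀ (𝒪 ⧸ J) ⊤) := fun c s =>
    AddSubgroup.sum_mem _ fun i _ => k5bs_smul_mem J _ ℓ₀ ⊤ _ _ (hy.1 i)
  refine ⟨?_, ?_, ?_⟩
  · rintro ⟨s, i⟩
    have h1 := h.mem (𝒪 ⧸ J) hc (Pi.single s (y i)) (fun s' => by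
      by_cases hs : s' = s
      · subst hs
        rw [Pi.single_eq_same]
        exact hy.1 i
      · rw [Pi.single_eq_of_ne hs]
        exact zero_mem _)
    rw [Finset.sum_eq_single s (fun s' _ hs => by rw [Pi.single_eq_of_ne hs, map_zero])
      (fun hs => absurd (Finset.mem_univ s) hs), Pi.single_eq_same] at h1
    exact h1
  · intro c c' hcc'
    simp only [k5bs_sys_sum h J y] at hcc'
    have h1 : ∑ s : I, ι (𝒪 ⧸ J) s (∑ i : κ, c (s, i) • y i - ∑ i : κ, c' (s, i) • y i) = 0 := by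
      simp only [map_sub, Finset.sum_sub_distrib, hcc', sub_self]
    have h2 := h.inj (𝒪 ⧸ J) hc _ (fun s => sub_mem (hmemφ c s) (hmemφ c' s)) h1
    funext ⟨s, i⟩
    have h3 : (fun i => c (s, i)) = fun i => c' (s, i) := hy.2.1 (sub_eq_zero.mp (h2 s))
    exact congrFun h3 i
  · intro ψ hψ
    obtain ⟨φ, hφ, rfl⟩ := h.surj (𝒪 ⧸ J) hc ψ hψ
    choose c hc' using fun s => hy.2.2 (φ s) (hφ s)
    refine ⟨fun x => c x.1 x.2, ?_⟩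
    rw [k5bs_sys_sum h J y]
    refine Finset.sum_congr rfl fun s _ => ?_
    rw [← hc' s]

/-- **the matrix of `T_ℓ` on the level `N`** is that of the base level -/
theorem k5bs_hecke (h : K5TWSystem 𝒪 L M M' N ℓ₀ e E Q ι) (J : Ideal 𝒪) {κ : Type}
    [Fintype κ] (y : κ → HomS (gammaH L M (⊤ : Subgroup (ZMod M)ˣ)) (𝒪 ⧸ J))
    (a : κ → κ → 𝒪 ⧸ J) (ℓ : ℕ) [NeZero ℓ] (hℓ : ℓ.Prime) (hℓQ : ℓ ∉ Q)
    (hT : ∀ j, tS L M ℓ ⊤ (𝒪 ⧸ J) (y j) = ∑ i, a i j • y i) (s : I) (j : κ) :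
    tS N M' ℓ ⊤ (𝒪 ⧸ J) (ι (𝒪 ⧸ J) s (y j)) = ∑ i, a i j • ι (𝒪 ⧸ J) s (y i) := by
  rw [h.hecke (𝒪 ⧸ J) ℓ hℓ hℓQ, hT, map_sum]
  refine Finset.sum_congr rfl fun i _ => ?_
  rw [k5bs_sys_smul h]

/-- `ι` commutes with the adjoint operators `tSadj ℓ`, `ℓ` prime to the levels -/
theorem K5TWSystem.heckeAdj (h : K5TWSystem 𝒪 L M M' N ℓ₀ e E Q ι) (A : Type) [AddCommGroup A]
    (ℓ : ℕ) [NeZero ℓ] (hℓ : ℓ.Prime) (hℓQ : ℓ ∉ Q) (hℓL : ¬ ℓ ∣ L) (hℓN : ¬ ℓ ∣ N) (i : I)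
    (φ : HomS (gammaH L M (⊤ : Subgroup (ZMod M)ˣ)) A) :
    tSadj N M' ℓ ⊤ A (ι A i φ) = ι A i (tSadj L M ℓ ⊤ A φ) := by
  rw [← (stmtUQTop N M' ℓ A hℓ hℓN).2.2.2.2.1, ← (stmtUQTop L M ℓ A hℓ hℓL).2.2.2.2.1]
  exact h.hecke A ℓ hℓ hℓQ i φ

/-- the matrix of `tSadj ℓ` on the level `N` is that of the base level -/
theorem k5bs_heckeAdj (h : K5TWSystem 𝒪 L M M' N ℓ₀ e E Q ι) (J : Ideal 𝒪) {κ : Type}
    [Fintype κ] (y : κ → HomS (gammaH L M (⊤ : Subgroup (ZMod M)ˣ)) (𝒪 ⧸ J))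
    (a : κ → κ → 𝒪 ⧸ J) (ℓ : ℕ) [NeZero ℓ] (hℓ : ℓ.Prime) (hℓQ : ℓ ∉ Q) (hℓL : ¬ ℓ ∣ L)
    (hℓN : ¬ ℓ ∣ N) (hT : ∀ j, tSadj L M ℓ ⊤ (𝒪 ⧸ J) (y j) = ∑ i, a i j • y i) (s : I) (j : κ) :
    tSadj N M' ℓ ⊤ (𝒪 ⧸ J) (ι (𝒪 ⧸ J) s (y j)) = ∑ i, a i j • ι (𝒪 ⧸ J) s (y i) := by
  rw [h.heckeAdj (𝒪 ⧸ J) ℓ hℓ hℓQ hℓL hℓN, hT, map_sum]
  refine Finset.sum_congr rfl fun i _ => ?_
  rw [k5bs_sys_smul h]

end sys

section red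

variable {𝒪 : Type} [CommRing 𝒪] {L M : ℕ} [NeZero L] [hML : Fact (M ∣ L)] (J : Ideal 𝒪)

/-- the reduction modulo `J` is semilinear -/
theorem k5bs_red_smul {Γ : Subgroup SL(2, ℤ)} (a : 𝒪) (φ : HomS Γ 𝒪) :
    mapS (Submodule.mkQ J).toAddMonoidHom (a • φ)
      = Ideal.Quotient.mk J a • mapS (Submodule.mkQ J).toAddMonoidHom φ := by
  rw [k5fn_mk_smul]
  refine AddMonoidHom.ext fun γ => ?_
  exact map_smul (Submodule.mkQ J) a (φ γ)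

/-- the matrix of `T_ℓ` in a basis over `𝒪` reduces to the matrix in the reduced basis -/
theorem k5bs_red_hecke (K : Subgroup (ZMod M)ˣ) {κ : Type} [Fintype κ]
    (c : κ → HomS (gammaH L M K) 𝒪) (a : κ → κ → 𝒪) (ℓ : ℕ) [NeZero ℓ]
    (hT : ∀ j, tS L M ℓ K 𝒪 (c j) = ∑ i, a i j • c i) (j : κ) :
    tS L M ℓ K (𝒪 ⧸ J) (mapS (Submodule.mkQ J).toAddMonoidHom (c j))
      = ∑ i, Ideal.Quotient.mk J (a i j) • mapS (Submodule.mkQ J).toAddMonoidHom (c i) := by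
  rw [← k5nat_tS, hT, map_sum]
  refine Finset.sum_congr rfl fun i _ => ?_
  rw [k5bs_red_smul]

/-- the same for `tSadj ℓ` -/
theorem k5bs_red_heckeAdj (K : Subgroup (ZMod M)ˣ) {κ : Type} [Fintype κ]
    (c : κ → HomS (gammaH L M K) 𝒪) (a : κ → κ → 𝒪) (ℓ : ℕ) [NeZero ℓ]
    (hT : ∀ j, tSadj L M ℓ K 𝒪 (c j) = ∑ i, a i j • c i) (j : κ) :
    tSadj L M ℓ K (𝒪 ⧸ J) (mapS (Submodule.mkQ J).toAddMonoidHom (c j))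
      = ∑ i, Ideal.Quotient.mk J (a i j) • mapS (Submodule.mkQ J).toAddMonoidHom (c i) := by
  rw [← k5nat_tSadj, hT, map_sum]
  refine Finset.sum_congr rfl fun i _ => ?_
  rw [k5bs_red_smul]

end red

section main

variable (p : ℕ) [Fact p.Prime] (𝒪 : Type) [CommRing 𝒪] [IsDomain 𝒪]
  [IsDiscreteValuationRing 𝒪] [Finite (IsLocalRing.ResidueField 𝒪)]
  (N₀ M₀ ℓ₀ : ℕ) [NeZero N₀] [NeZero ℓ₀] [hML : Fact (M₀ ∣ N₀)]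

/-- `FreeHyp` for `H' = H = ⊤` -/
theorem k5bs_freeHyp_top (hp2 : p ≠ 2) (hp : (p : 𝒪) ∈ IsLocalRing.maximalIdeal 𝒪)
    (hℓ₀ : ℓ₀.Prime) (hℓ₀N : ¬ ℓ₀ ∣ N₀)
    (hNT : ∀ n : ℕ, NoTors (gammaH N₀ M₀ (⊤ : Subgroup (ZMod M₀)ˣ))
      (𝒪 ⧸ IsLocalRing.maximalIdeal 𝒪 ^ n)) :
    FreeHyp p 𝒪 N₀ M₀ ℓ₀ ⊤ ⊤ 0 where
  p_ne_two := hp2
  p_mem := hp
  prime := hℓ₀
  not_dvd := hℓ₀N
  le := le_rfl
  index := by rw [Subgroup.subgroupOf_self, Subgroup.index_top, pow_zero]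
  noTors := hNT

/-- **BASE-0** a basis of the base module over `𝒪` whose reductions are bases at all levels -/
theorem k5bs_base [IsAdicComplete (IsLocalRing.maximalIdeal 𝒪) 𝒪]
    (hyp : FreeHyp p 𝒪 N₀ M₀ ℓ₀ ⊤ ⊤ 0) (𝔲 : NatFam 𝒪 N₀ M₀) :
    ∃ (r : ℕ) (c : Fin r → HomS (gammaH N₀ M₀ (⊤ : Subgroup (ZMod M₀)ˣ)) 𝒪),
      K5IsBasis 𝒪 (etaPart (thetaN 𝔲 ℓ₀ 𝒪 ⊤)) c ∧
      ∀ n : ℕ, K5IsBasis (𝒪 ⧸ IsLocalRing.maximalIdeal 𝒪 ^ n)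
        (etaPart (thetaN 𝔲 ℓ₀ (𝒪 ⧸ IsLocalRing.maximalIdeal 𝒪 ^ n) ⊤))
        (fun i => mapS (Submodule.mkQ (IsLocalRing.maximalIdeal 𝒪 ^ n)).toAddMonoidHom (c i)) := by
  obtain ⟨r, c, h1, h2, -⟩ := stmtFreeO p 𝒪 N₀ M₀ ℓ₀ ⊤ ⊤ 0 hyp 𝔲
  exact ⟨r, c, k5bs_isBasis_of_top N₀ M₀ 𝒪 𝒪 _ c h1,
    fun n => k5bs_isBasis_of_top N₀ M₀ _ _ _ _ (h2 n)⟩

/-- **BASE-Q** a free basis of the Taylor–Wiles module adapted to a basis of the base level -/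
theorem k5bs_level (e : HExpr 𝒪) (hℓ₀ : ℓ₀.Prime) (hℓ₀N : ¬ ℓ₀ ∣ N₀) (Q : List ℕ)
    (hnd : Q.Nodup) (hQ : ∀ q ∈ Q, q.Prime ∧ ¬ q ∣ N₀ ∧ q ≠ ℓ₀ ∧ e.Avoids q) (N M : ℕ)
    [NeZero N] [hMN : Fact (M ∣ N)] (hN : N = N₀ * Q.prod) (H' : Subgroup (ZMod M)ˣ) (k : ℕ)
    (hyp : FreeHyp p 𝒪 N M ℓ₀ H' ⊤ k) (n : ℕ) (hn : 0 < n)
    (hc : K5TWCond 𝒪 N₀ M₀ ℓ₀ e Q (𝒪 ⧸ IsLocalRing.maximalIdeal 𝒪 ^ n)) {r : ℕ}
    (y : Fin r → HomS (gammaH N₀ M₀ (⊤ : Subgroup (ZMod M₀)ˣ))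
      (𝒪 ⧸ IsLocalRing.maximalIdeal 𝒪 ^ n))
    (hy : K5IsBasis (𝒪 ⧸ IsLocalRing.maximalIdeal 𝒪 ^ n)
      (etaPart (thetaN (e.eval N₀ M₀) ℓ₀ (𝒪 ⧸ IsLocalRing.maximalIdeal 𝒪 ^ n) ⊤)) y) :
    ∃ (ι : ∀ (A : Type) [AddCommGroup A], Fin (2 ^ Q.length) →
        (HomS (gammaH N₀ M₀ (⊤ : Subgroup (ZMod M₀)ˣ)) A →+
          HomS (gammaH N M (⊤ : Subgroup (ZMod M)ˣ)) A))
      (b : Fin (2 ^ Q.length * r) →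
        HomS (gammaH N M H') (𝒪 ⧸ IsLocalRing.maximalIdeal 𝒪 ^ n)),
      K5TWSystem 𝒪 N₀ M₀ M N ℓ₀ e (e.twist Q) Q ι ∧
      IsFreeBasis H' ⊤ hyp.le (𝒪 ⧸ IsLocalRing.maximalIdeal 𝒪 ^ n)
        (𝒪 ⧸ IsLocalRing.maximalIdeal 𝒪 ^ n)
        (thetaN ((e.twist Q).eval N M) ℓ₀ (𝒪 ⧸ IsLocalRing.maximalIdeal 𝒪 ^ n) H')
        (thetaN ((e.twist Q).eval N M) ℓ₀ (𝒪 ⧸ IsLocalRing.maximalIdeal 𝒪 ^ n) ⊤) b ∧
      ∀ (s : Fin (2 ^ Q.length)) (i : Fin r),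
        coresS (𝒪 ⧸ IsLocalRing.maximalIdeal 𝒪 ^ n) (Fermat.Agent.ES1.gammaH_mono hyp.le)
          (b (finProdFinEquiv (s, i))) = ι (𝒪 ⧸ IsLocalRing.maximalIdeal 𝒪 ^ n) s (y i) := by
  classical
  haveI : Finite (𝒪 ⧸ IsLocalRing.maximalIdeal 𝒪 ^ n) := by
    haveI : Finite (𝒪 ⧸ IsLocalRing.maximalIdeal 𝒪) := ‹Finite (IsLocalRing.ResidueField 𝒪)›
    exact Ideal.finite_quotient_pow (IsNoetherian.noetherian _) n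
  haveI : Nontrivial (𝒪 ⧸ IsLocalRing.maximalIdeal 𝒪 ^ n) := by
    refine Ideal.Quotient.nontrivial_iff.mpr fun htop => ?_
    have h1 : IsLocalRing.maximalIdeal 𝒪 ^ n ≤ IsLocalRing.maximalIdeal 𝒪 :=
      Ideal.pow_le_self hn.ne'
    rw [htop] at h1
    exact (IsLocalRing.maximalIdeal.isMaximal 𝒪).ne_top (top_le_iff.mp h1)
  obtain ⟨ι, hsys⟩ := k5ti_mod (M := M₀) e hℓ₀ hℓ₀N Q hnd hQ N M hN
  have hY := k5bs_sys_basis hsys (IsLocalRing.maximalIdeal 𝒪 ^ n) hc y hy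
  obtain ⟨r', hfin⟩ := stmtFreeFin p 𝒪 N M ℓ₀ H' ⊤ k hyp ((e.twist Q).eval N M)
  obtain ⟨b₀, hb₀, hb₀t, hb₀i, hb₀s⟩ := hfin n
  have hsm : ∀ (c : 𝒪 ⧸ IsLocalRing.maximalIdeal 𝒪 ^ n)
      (w : HomS (gammaH N M (⊤ : Subgroup (ZMod M)ˣ)) (𝒪 ⧸ IsLocalRing.maximalIdeal 𝒪 ^ n)),
      w ∈ etaPart (thetaN ((e.twist Q).eval N M) ℓ₀ (𝒪 ⧸ IsLocalRing.maximalIdeal 𝒪 ^ n) ⊤) →
      c • w ∈ etaPart (thetaN ((e.twist Q).eval N M) ℓ₀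
        (𝒪 ⧸ IsLocalRing.maximalIdeal 𝒪 ^ n) ⊤) :=
    fun c w hw => k5bs_smul_mem _ _ ℓ₀ ⊤ c w hw
  have hz : K5IsBasis (𝒪 ⧸ IsLocalRing.maximalIdeal 𝒪 ^ n)
      (etaPart (thetaN ((e.twist Q).eval N M) ℓ₀ (𝒪 ⧸ IsLocalRing.maximalIdeal 𝒪 ^ n) ⊤))
      (fun l => coresS (𝒪 ⧸ IsLocalRing.maximalIdeal 𝒪 ^ n)
        (Fermat.Agent.ES1.gammaH_mono hyp.le) (b₀ l)) :=
    ⟨fun l => k5bs_cores_mem _ ℓ₀ hyp.le (hb₀ l), hb₀i, hb₀s⟩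
  have hrank : r' = 2 ^ Q.length * r := by
    have h1 := k5ba_rank hz hY hsm
    simpa [Fintype.card_prod, Fintype.card_fin] using h1
  subst hrank
  have hY' := hY.reindex (finProdFinEquiv (m := 2 ^ Q.length) (n := r)).symm
  choose C hC using fun i => hz.2.2 _ (hY'.1 i)
  have hCbij := k5ba_g_bijective _ hsm _ _ hz hY' C hC
  have hcores : ∀ i, coresS (𝒪 ⧸ IsLocalRing.maximalIdeal 𝒪 ^ n)
      (Fermat.Agent.ES1.gammaH_mono hyp.le) (∑ l, C i l • b₀ l)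
      = ι (𝒪 ⧸ IsLocalRing.maximalIdeal 𝒪 ^ n) (finProdFinEquiv.symm i).1
          (y (finProdFinEquiv.symm i).2) := by
    intro i
    have hC' : ι (𝒪 ⧸ IsLocalRing.maximalIdeal 𝒪 ^ n) (finProdFinEquiv.symm i).1
        (y (finProdFinEquiv.symm i).2)
        = ∑ l, C i l • coresS (𝒪 ⧸ IsLocalRing.maximalIdeal 𝒪 ^ n)
          (Fermat.Agent.ES1.gammaH_mono hyp.le) (b₀ l) := hC i
    rw [map_sum, hC']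
    refine Finset.sum_congr rfl fun l _ => ?_
    rw [k5bs_cores_smul]
  refine ⟨ι, fun i => ∑ l, C i l • b₀ l, hsys, ⟨?_, ?_, ?_, ?_⟩, ?_⟩
  · intro i
    exact AddSubgroup.sum_mem _ fun l _ => k5bs_smul_mem _ _ ℓ₀ H' _ _ (hb₀ l)
  · intro m u hu
    obtain ⟨hinj, hsurj⟩ := hb₀t m u hu
    have hD : ∀ (j : Fin m) (c : 𝒪 ⧸ IsLocalRing.maximalIdeal 𝒪 ^ n)
        (v : HomS (gammaH N M H') (𝒪 ⧸ IsLocalRing.maximalIdeal 𝒪 ^ n)),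
        (show HomS (gammaH N M H') (𝒪 ⧸ IsLocalRing.maximalIdeal 𝒪 ^ n) →+ _ from
          diamU N M H' (𝒪 ⧸ IsLocalRing.maximalIdeal 𝒪 ^ n) (u j)) (c • v)
          = c • (show HomS (gammaH N M H') (𝒪 ⧸ IsLocalRing.maximalIdeal 𝒪 ^ n) →+ _ from
            diamU N M H' (𝒪 ⧸ IsLocalRing.maximalIdeal 𝒪 ^ n) (u j)) v := fun j c v => rfl
    exact ⟨k5ba_inj (fun j => diamU N M H' (𝒪 ⧸ IsLocalRing.maximalIdeal 𝒪 ^ n) (u j)) hD b₀ C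
        hCbij hinj,
      fun ψ hψ => k5ba_surj (fun j => diamU N M H' (𝒪 ⧸ IsLocalRing.maximalIdeal 𝒪 ^ n) (u j))
        hD b₀ C hCbij (hsurj ψ hψ)⟩
  · intro c c' hcc'
    refine hY'.2.1 ?_
    simp only [hcores] at hcc'
    exact hcc'
  · intro φ hφ
    obtain ⟨c, hc'⟩ := hY'.2.2 φ hφ
    refine ⟨c, ?_⟩
    simp only [hcores]
    exact hc'
  · intro s i
    rw [hcores, Equiv.symm_apply_apply]

end main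

end Fermat.Agent.RT.K5
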