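import Fermat.Agent.RT.K5.LocFam
import Fermat.Agent.RT.K5.HExpr

/-!
# K-machine, piece K5-LOC (helper15): the `𝔪`-projector as a Hecke expression (`HExpr`)

`k5lcExpr ℓ a N l : HExpr 𝒪` is `P = ∏_{i ∈ l} (1 − (T_{ℓ i} − a i)ᴺ)`.
* `k5lc_expr_eval` : its evaluation is `k5lcFam` of the `hecke (ℓ i)`;
* `k5lc_expr_isPrimes`, `k5lc_expr_avoids`;
* `k5lc_main_expr` : there are `N > 0` and `l` such that for every `K ≥ H'`, every expression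
  `e'` with `IsPrimes` (e.g. `HExpr.one.twist Q`) and every `n`:
  `etaPart Θ_{P e'} = etaPart Θ_{e'} ∩ ⋂_i ker (T_{ℓ i} − a i)^∞` on `Hom(Γ_K(L), 𝒪/𝔪ⁿ)`;
* `k5lc_twist_mem_iff` : the same for `P.twist Q`;
* `k5lc_expr_nilpotent` : `T_{ℓ i} − a i` is nilpotent on `etaPart Θ_{P e'}`.
-/

set_option autoImplicit false
set_option linter.style.haveILetI false
set_option linter.unusedSectionVars false
set_option linter.unusedVariables false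

noncomputable section

namespace Fermat.Agent.RT.K5

open CongruenceSubgroup Matrix
open scoped MatrixGroups
open Fermat.Agent.ES1 (gammaH diamHom pmH)

section expr

variable {𝒪 : Type} [CommRing 𝒪] {ι : Type}

/-- the expression `P = ∏_{i ∈ l} (1 − (T_{ℓ i} − a i)ᴺ)` -/
def k5lcExpr (ℓ : ι → ℕ) (a : ι → 𝒪) (N : ℕ) : List ι → HExpr 𝒪
  | [] => HExpr.one
  | i :: l => HExpr.comp
      (HExpr.add HExpr.one (HExpr.comp (HExpr.coeff (-1))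
        (HExpr.pow (HExpr.add (HExpr.hecke (ℓ i)) (HExpr.coeff (-(a i)))) N)))
      (k5lcExpr ℓ a N l)

theorem k5lc_expr_isPrimes (ℓ : ι → ℕ) (a : ι → 𝒪) (N : ℕ) :
    ∀ l : List ι, (∀ i ∈ l, (ℓ i).Prime) → (k5lcExpr ℓ a N l).IsPrimes
  | [], _ => trivial
  | i :: l, h =>
    ⟨⟨trivial, trivial, HExpr.isPrimes_pow
        (show (HExpr.add (HExpr.hecke (ℓ i)) (HExpr.coeff (-(a i))) : HExpr 𝒪).IsPrimes from
          ⟨h i List.mem_cons_self, trivial⟩) N⟩,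
      k5lc_expr_isPrimes ℓ a N l fun j hj => h j (List.mem_cons_of_mem _ hj)⟩

theorem k5lc_expr_avoids (ℓ : ι → ℕ) (a : ι → 𝒪) (N : ℕ) (q : ℕ) :
    ∀ l : List ι, (∀ i ∈ l, (ℓ i).Prime ∧ ℓ i ≠ q) → (k5lcExpr ℓ a N l).Avoids q
  | [], _ => trivial
  | i :: l, h =>
    ⟨⟨trivial, trivial, HExpr.avoids_pow
        (show (HExpr.add (HExpr.hecke (ℓ i)) (HExpr.coeff (-(a i))) : HExpr 𝒪).Avoids q from
          ⟨h i List.mem_cons_self, trivial⟩) N⟩,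
      k5lc_expr_avoids ℓ a N q l fun j hj => h j (List.mem_cons_of_mem _ hj)⟩

variable (L M : ℕ) [NeZero L] [hML : Fact (M ∣ L)]

theorem k5lc_expr_pow_eval (e : HExpr 𝒪) (n : ℕ) :
    (e.pow n).eval L M = k5lcPowFam (e.eval L M) n := by
  induction n with
  | zero => rfl
  | succ n ih =>
    show (e.eval L M).comp ((e.pow n).eval L M) = (e.eval L M).comp (k5lcPowFam (e.eval L M) n)
    rw [ih]

/-- the evaluation of `k5lcExpr` -/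
theorem k5lc_expr_eval (ℓ : ι → ℕ) (a : ι → 𝒪) (N : ℕ) (l : List ι) :
    (k5lcExpr ℓ a N l).eval L M
      = k5lcFam (fun i => (HExpr.hecke (ℓ i) : HExpr 𝒪).eval L M) a N l := by
  induction l with
  | nil => rfl
  | cons i l ih =>
    show ((NatFam.one 𝒪 L M).add ((NatFam.coeff 𝒪 L M (-1)).comp
        ((HExpr.pow (HExpr.add (HExpr.hecke (ℓ i)) (HExpr.coeff (-(a i)))) N).eval L M))).comp
          ((k5lcExpr ℓ a N l).eval L M) = _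
    rw [ih, k5lc_expr_pow_eval]
    rfl

/-- `T_ℓ − a` on `Hom(Γ_K(L), A)` -/
def k5lcS (ℓ : ℕ) [NeZero ℓ] (a : 𝒪) (A : Type) [AddCommGroup A] [Module 𝒪 A]
    (K : Subgroup (ZMod M)ˣ) : HomS (gammaH L M K) A →+ HomS (gammaH L M K) A :=
  tS L M ℓ K A - DistribSMul.toAddMonoidHom (HomS (gammaH L M K) A) a

theorem k5lcS_apply (ℓ : ℕ) [NeZero ℓ] (a : 𝒪) (A : Type) [AddCommGroup A] [Module 𝒪 A]
    (K : Subgroup (ZMod M)ˣ) (φ : HomS (gammaH L M K) A) :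
    k5lcS L M ℓ a A K φ = tS L M ℓ K A φ - a • φ := rfl

theorem k5lc_shift_hecke_op (ℓ : ℕ) [NeZero ℓ] (a : 𝒪) (A : Type) [AddCommGroup A]
    [Module 𝒪 A] (K : Subgroup (ZMod M)ˣ) :
    ((k5lcShift ((HExpr.hecke ℓ : HExpr 𝒪).eval L M) a).fam A).op K = k5lcS L M ℓ a A K := by
  refine AddMonoidHom.ext fun φ => ?_
  rw [k5lc_shift_op, HExpr.op_hecke, k5lcS_apply]

/-- two expressions with `IsPrimes` commute -/
theorem k5lc_commutes_of_isPrimes (e e' : HExpr 𝒪) (he : e.IsPrimes) (he' : e'.IsPrimes) :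
    NatFam.Commutes (e.eval L M) (e'.eval L M) :=
  fun A _ _ K φ => k5hx_comm L M A K e e' he he' φ

/-- the operator of `e.twist Q` -/
theorem k5lc_twist_op (e : HExpr 𝒪) (Q : List ℕ) (A : Type) [AddCommGroup A] [Module 𝒪 A]
    (K : Subgroup (ZMod M)ˣ) :
    (((e.twist Q).eval L M).fam A).op K
      = (((e.comp ((HExpr.one : HExpr 𝒪).twist Q)).eval L M).fam A).op K := by
  induction Q with
  | nil => rfl
  | cons q Q ih =>
    show ((((e.twist Q).eval L M).fam A).op K).comp ((((HExpr.usq 𝒪 q).eval L M).fam A).op K)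
      = (((e.eval L M).fam A).op K).comp
        ((((((HExpr.one : HExpr 𝒪).twist Q).eval L M).fam A).op K).comp
          ((((HExpr.usq 𝒪 q).eval L M).fam A).op K))
    rw [ih]
    rfl

theorem k5lc_twist_theta (e : HExpr 𝒪) (Q : List ℕ) (ℓ₀ : ℕ) [NeZero ℓ₀] (A : Type)
    [AddCommGroup A] [Module 𝒪 A] (K : Subgroup (ZMod M)ˣ) :
    thetaN ((e.twist Q).eval L M) ℓ₀ A K
      = thetaN ((e.comp ((HExpr.one : HExpr 𝒪).twist Q)).eval L M) ℓ₀ A K := by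
  show ((((e.twist Q).eval L M).fam A).op K).comp (etaS L M ℓ₀ K A)
    = ((((e.comp ((HExpr.one : HExpr 𝒪).twist Q)).eval L M).fam A).op K).comp
      (etaS L M ℓ₀ K A)
  rw [k5lc_twist_op]

end expr

section mainexpr

variable {𝒪 : Type} [CommRing 𝒪] [IsDomain 𝒪] [IsDiscreteValuationRing 𝒪]
  [Finite (IsLocalRing.ResidueField 𝒪)]
  (L M : ℕ) [NeZero L] [hML : Fact (M ∣ L)] {ι : Type}

/-- **K5-LOC (concrete, `HExpr` form).**  `ℓ i` primes, `a i ∈ 𝒪`: there are `N > 0` and a list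
`l` such that for `P = k5lcExpr ℓ a N l`, every `K ≥ H'`, every expression `e'` with `IsPrimes`
and every `n`, the `Θ_{P e'}`-part of `Hom(Γ_K(L), 𝒪/𝔪ⁿ)` is the part of the `Θ_{e'}`-part on
which all `T_{ℓ i} − a i` are nilpotent. -/
theorem k5lc_main_expr (ℓ : ι → ℕ) [∀ i, NeZero (ℓ i)] (hℓ : ∀ i, (ℓ i).Prime) (a : ι → 𝒪)
    (H' : Subgroup (ZMod M)ˣ) (ℓ₀ : ℕ) [NeZero ℓ₀] (hℓ₀ : ℓ₀.Prime) (hℓ₀L : ¬ ℓ₀ ∣ L) :
    ∃ (N : ℕ) (l : List ι), 0 < N ∧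
      ∀ (K : Subgroup (ZMod M)ˣ), H' ≤ K →
      (∀ n : ℕ, NoTors (gammaH L M K) (𝒪 ⧸ IsLocalRing.maximalIdeal 𝒪 ^ n)) →
      ∀ (e' : HExpr 𝒪), e'.IsPrimes →
      ∀ (n : ℕ) (φ : HomS (gammaH L M K) (𝒪 ⧸ IsLocalRing.maximalIdeal 𝒪 ^ n)),
        φ ∈ etaPart (thetaN (((k5lcExpr ℓ a N l).comp e').eval L M) ℓ₀
            (𝒪 ⧸ IsLocalRing.maximalIdeal 𝒪 ^ n) K) ↔
          φ ∈ etaPart (thetaN (e'.eval L M) ℓ₀ (𝒪 ⧸ IsLocalRing.maximalIdeal 𝒪 ^ n) K) ∧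
          ∀ i, φ ∈ k5lcKer (k5lcS L M (ℓ i) (a i)
            (𝒪 ⧸ IsLocalRing.maximalIdeal 𝒪 ^ n) K) := by
  have hTT : ∀ i j, NatFam.Commutes ((HExpr.hecke (ℓ i) : HExpr 𝒪).eval L M)
      ((HExpr.hecke (ℓ j) : HExpr 𝒪).eval L M) :=
    fun i j => k5lc_commutes_of_isPrimes L M _ _ (hℓ i) (hℓ j)
  have hTη : ∀ i, NatFam.Commutes ((HExpr.hecke (ℓ i) : HExpr 𝒪).eval L M)
      (NatFam.hecke 𝒪 L M ℓ₀) := fun i => by
    rw [← HExpr.eval_hecke L M ℓ₀]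
    exact k5lc_commutes_of_isPrimes L M _ _ (hℓ i) hℓ₀
  obtain ⟨N, l, hN0, h⟩ := k5lc_main (fun i => (HExpr.hecke (ℓ i) : HExpr 𝒪).eval L M) a H'
    ℓ₀ hℓ₀ hℓ₀L hTT hTη
  refine ⟨N, l, hN0, fun K hle hNT e' he' n φ => ?_⟩
  have hv : NatFam.Commutes (e'.eval L M) (NatFam.hecke 𝒪 L M ℓ₀) := by
    rw [← HExpr.eval_hecke L M ℓ₀]
    exact k5lc_commutes_of_isPrimes L M _ _ he' hℓ₀
  have key := h K hle hNT (e'.eval L M)
    (fun i => k5lc_commutes_of_isPrimes L M _ _ (hℓ i) he') hv n φ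
  have e1 : ((k5lcExpr ℓ a N l).comp e').eval L M
      = (k5lcFam (fun i => (HExpr.hecke (ℓ i) : HExpr 𝒪).eval L M) a N l).comp
        (e'.eval L M) := by
    show ((k5lcExpr ℓ a N l).eval L M).comp (e'.eval L M) = _
    rw [k5lc_expr_eval]
  rw [e1, key]
  simp only [k5lc_shift_hecke_op]

/-- the same for `P.twist Q` -/
theorem k5lc_twist_mem_iff (ℓ : ι → ℕ) [∀ i, NeZero (ℓ i)] (a : ι → 𝒪) (N : ℕ) (l : List ι)
    (ℓ₀ : ℕ) [NeZero ℓ₀] (K : Subgroup (ZMod M)ˣ) (Q : List ℕ) (A : Type) [AddCommGroup A]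
    [Module 𝒪 A] (φ : HomS (gammaH L M K) A) :
    φ ∈ etaPart (thetaN (((k5lcExpr ℓ a N l).twist Q).eval L M) ℓ₀ A K) ↔
      φ ∈ etaPart (thetaN (((k5lcExpr ℓ a N l).comp
        ((HExpr.one : HExpr 𝒪).twist Q)).eval L M) ℓ₀ A K) := by
  rw [k5lc_twist_theta]

/-- **nilpotency**: `T_{ℓ i} − a i` is nilpotent on the `Θ`-part, as soon as the `Θ`-part lies
in its generalised kernel -/
theorem k5lc_expr_nilpotent (ℓ : ℕ) [NeZero ℓ] (a : 𝒪) (A : Type) [AddCommGroup A] [Module 𝒪 A]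
    [Finite A] (K : Subgroup (ZMod M)ˣ) (𝔲 : NatFam 𝒪 L M) (ℓ₀ : ℕ) [NeZero ℓ₀]
    (h : ∀ φ ∈ etaPart (thetaN 𝔲 ℓ₀ A K), φ ∈ k5lcKer (k5lcS L M ℓ a A K)) :
    ∃ m : ℕ, ∀ φ ∈ etaPart (thetaN 𝔲 ℓ₀ A K), k5s_pow (k5lcS L M ℓ a A K) m φ = 0 := by
  haveI : Finite (HomS (gammaH L M K) A) := k5s_finite_homS _ A
  obtain ⟨m, -, hm⟩ := k5lc_exists_uniform (HomS (gammaH L M K) A)
  exact ⟨m, fun φ hφ => ((hm _).2.2 φ).mp (h φ hφ)⟩

end mainexpr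

end Fermat.Agent.RT.K5

end
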