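import Fermat.Agent.RT.K5.Base

/-!
# RT-K5, piece BASE (continued): the free basis of the Taylor–Wiles module together with the
matrices of the Hecke operators on the coinvariants

The form of `k5bs_level` used by HK-CONC (`RT/Hecke/ConcFree.lean`): the base basis
`c : Fin r → Hom(Γ₀(N₀), 𝒪)` is given over `𝒪` (BASE-0, `k5bs_base`), the Taylor–Wiles list `Q`
has length `h`, and the conclusion contains the block diagonal form of the Hecke operators on the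
coinvariants:

* `k5bm_level` : there is `b : Fin (2 ^ h * r) → Hom(Γ_{H'}(N), 𝒪 ⧸ 𝔪 ^ n)` with `IsFreeBasis H' ⊤`
  such that for every prime `ℓ ∉ Q` and every matrix `a` over `𝒪` with
  `tS ℓ (c j) = ∑ i, a i j • c i` at the base level:
  `tS ℓ (cores (b (s, j))) = ∑ i, mk (a i j) • cores (b (s, i))`.
-/

set_option autoImplicit false
set_option linter.style.haveILetI false
set_option linter.unusedSectionVars false
set_option linter.unusedVariables false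

noncomputable section

namespace Fermat.Agent.RT.K5

open CongruenceSubgroup Matrix
open scoped MatrixGroups
open Fermat.Agent.ES1 (gammaH diamHom pmH)

section main

variable (p : ℕ) [Fact p.Prime] (𝒪 : Type) [CommRing 𝒪] [IsDomain 𝒪]
  [IsDiscreteValuationRing 𝒪] [Finite (IsLocalRing.ResidueField 𝒪)]
  (N₀ M₀ ℓ₀ : ℕ) [NeZero N₀] [NeZero ℓ₀] [hML : Fact (M₀ ∣ N₀)]

/-- **BASE-Q with the Hecke matrices**: a free basis of the Taylor–Wiles module of a list `Q` of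
length `h`, adapted to the reduction of a basis `c` of the base level: the Hecke operators `tS ℓ`
(`ℓ ∉ Q`) act on the coinvariants by the block diagonal matrices of the base level. -/
theorem k5bm_level (e : HExpr 𝒪) (hℓ₀ : ℓ₀.Prime) (hℓ₀N : ¬ ℓ₀ ∣ N₀) (Q : List ℕ) (h : ℕ)
    (hlen : Q.length = h)
    (hnd : Q.Nodup) (hQ : ∀ q ∈ Q, q.Prime ∧ ¬ q ∣ N₀ ∧ q ≠ ℓ₀ ∧ e.Avoids q) (N M : ℕ)
    [NeZero N] [hMN : Fact (M ∣ N)] (hN : N = N₀ * Q.prod) (H' : Subgroup (ZMod M)ˣ) (k : ℕ)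
    (hyp : FreeHyp p 𝒪 N M ℓ₀ H' ⊤ k) (n : ℕ) (hn : 0 < n)
    (hc : K5TWCond 𝒪 N₀ M₀ ℓ₀ e Q (𝒪 ⧸ IsLocalRing.maximalIdeal 𝒪 ^ n)) {r : ℕ}
    (c : Fin r → HomS (gammaH N₀ M₀ (⊤ : Subgroup (ZMod M₀)ˣ)) 𝒪)
    (hy : K5IsBasis (𝒪 ⧸ IsLocalRing.maximalIdeal 𝒪 ^ n)
      (etaPart (thetaN (e.eval N₀ M₀) ℓ₀ (𝒪 ⧸ IsLocalRing.maximalIdeal 𝒪 ^ n) ⊤))
      (fun i => mapS (Submodule.mkQ (IsLocalRing.maximalIdeal 𝒪 ^ n)).toAddMonoidHom (c i))) :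
    ∃ (b : Fin (2 ^ h * r) → HomS (gammaH N M H') (𝒪 ⧸ IsLocalRing.maximalIdeal 𝒪 ^ n)),
      IsFreeBasis H' ⊤ hyp.le (𝒪 ⧸ IsLocalRing.maximalIdeal 𝒪 ^ n)
        (𝒪 ⧸ IsLocalRing.maximalIdeal 𝒪 ^ n)
        (thetaN ((e.twist Q).eval N M) ℓ₀ (𝒪 ⧸ IsLocalRing.maximalIdeal 𝒪 ^ n) H')
        (thetaN ((e.twist Q).eval N M) ℓ₀ (𝒪 ⧸ IsLocalRing.maximalIdeal 𝒪 ^ n) ⊤) b ∧
      ∀ (ℓ : ℕ) [NeZero ℓ], ℓ.Prime → ℓ ∉ Q → ∀ a : Fin r → Fin r → 𝒪,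
        (∀ j, tS N₀ M₀ ℓ ⊤ 𝒪 (c j) = ∑ i, a i j • c i) →
        ∀ (s : Fin (2 ^ h)) (j : Fin r),
          tS N M ℓ ⊤ (𝒪 ⧸ IsLocalRing.maximalIdeal 𝒪 ^ n)
            (coresS (𝒪 ⧸ IsLocalRing.maximalIdeal 𝒪 ^ n)
              (Fermat.Agent.ES1.gammaH_mono hyp.le) (b (finProdFinEquiv (s, j))))
          = ∑ i, Ideal.Quotient.mk (IsLocalRing.maximalIdeal 𝒪 ^ n) (a i j) •
              coresS (𝒪 ⧸ IsLocalRing.maximalIdeal 𝒪 ^ n)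
                (Fermat.Agent.ES1.gammaH_mono hyp.le) (b (finProdFinEquiv (s, i))) := by
  subst hlen
  obtain ⟨ι, b, hsys, hfree, hcores⟩ := k5bs_level p 𝒪 N₀ M₀ ℓ₀ e hℓ₀ hℓ₀N Q hnd hQ N M hN H' k
    hyp n hn hc _ hy
  refine ⟨b, hfree, ?_⟩
  intro ℓ _ hℓ hℓQ a ha s j
  rw [hcores]
  have h1 := k5bs_hecke hsys (IsLocalRing.maximalIdeal 𝒪 ^ n)
    (fun i => mapS (Submodule.mkQ (IsLocalRing.maximalIdeal 𝒪 ^ n)).toAddMonoidHom (c i))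
    (fun i j => Ideal.Quotient.mk (IsLocalRing.maximalIdeal 𝒪 ^ n) (a i j)) ℓ hℓ hℓQ
    (fun j => k5bs_red_hecke (IsLocalRing.maximalIdeal 𝒪 ^ n) ⊤ c a ℓ ha j) s j
  rw [h1]
  refine Finset.sum_congr rfl fun i _ => ?_
  rw [hcores]

end main

end Fermat.Agent.RT.K5
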