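import Fermat.Agent.RT.K5.NZSetup
import Fermat.Agent.RT.K5.LocExpr

/-!
# K-machine, piece K5-NZ (helper46), INTRINSIC form

The expression `e` of the contract is chosen by `k5in_exists_expr2` (helper7) and is only known
through its intrinsic description `K5inIntr` (the part of the `η_{ℓ₀}`-part on which all
`T_ℓ − a_ℓ`, `ℓ ∉ S₀ ∪ S`, are nilpotent).  So K5-NZ is needed in the form: ONE nonzero parabolic
`φ ∈ Hom(Γ₀(N), 𝒪 ⧸ 𝔪 ^ ν)` which is a joint eigenvector of ALL `T_ℓ`, `ℓ ∉ Sbad`, with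
eigenvalues `a_ℓ(Y.W)`:

* `k5nz_mem_ker` : an eigenvector of `T_ℓ` lies in `k5lcKer (T_ℓ − a)`;
* `k5nz_mem_etaS` : an eigenvector of `T_ℓ₀` with `a − (ℓ₀ + 1)` a unit lies in the `η_{ℓ₀}`-part;
* `k5nz_setup_intr` : the setup form (same `Sbad` as `k5nz_setup`): `φ ≠ 0`, parabolic, eigen for
  all `ℓ ∉ Sbad`, in every `k5lcKer`, in the `η_{ℓ₀}`-part for every non-Eisenstein `ℓ₀ ∉ Sbad`,
  and in the `Θ_{e, ℓ₀}`-part for every expression `e` in the `T_ℓ`, `ℓ ∉ Sbad`, with unit value.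
-/

set_option autoImplicit false
set_option linter.style.haveILetI false
set_option linter.unusedSectionVars false
set_option linter.unusedVariables false

noncomputable section

namespace Fermat.Agent.RT.K5

open CongruenceSubgroup Matrix ModularCurve ModularCurve.Period ModularFormClass
open scoped MatrixGroups
open Fermat.Agent.ES1 (gammaH diamHom pmH)
open Fermat.Agent.ES Fermat.Agent.RT.Base Fermat.Agent.RT Fermat.Agent.RT.Prod IsLocalRing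

section abs

variable {𝒪 : Type} [CommRing 𝒪] {L M : ℕ} [NeZero L] [hML : Fact (M ∣ L)] {A : Type}
  [AddCommGroup A] [Module 𝒪 A] (K : Subgroup (ZMod M)ˣ)

/-- an eigenvector of `T_ℓ` lies in the generalised kernel of `T_ℓ − a` -/
theorem k5nz_mem_ker (φ : HomS (gammaH L M K) A) (ℓ : ℕ) [NeZero ℓ] (a : 𝒪)
    (hφ : tS L M ℓ K A φ = a • φ) : φ ∈ k5lcKer (k5lcS L M ℓ a A K) := by
  refine ⟨1, ?_⟩
  rw [k5s_pow_succ, k5s_pow_zero, k5lcS_apply, hφ, sub_self]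

/-- an eigenvector of `T_ℓ₀` with `a − (ℓ₀ + 1)` a unit lies in the `η_{ℓ₀}`-part -/
theorem k5nz_mem_etaS (φ : HomS (gammaH L M K) A) (ℓ₀ : ℕ) [NeZero ℓ₀] (a : 𝒪)
    (hφ : tS L M ℓ₀ K A φ = a • φ) (hu : IsUnit (a - ((ℓ₀ : 𝒪) + 1))) :
    φ ∈ etaPart (etaS L M ℓ₀ K A) := by
  have h := k5nz_mem_etaPart (L := L) (M := M) (A := A) K {ℓ₀} (fun _ => a) φ
    (fun ℓ hℓ _ => by
      obtain rfl : ℓ = ℓ₀ := hℓ
      convert hφ) (HExpr.one : HExpr 𝒪) trivial ℓ₀ rfl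
    (by
      show IsUnit ((1 : 𝒪) * (a - ((ℓ₀ : 𝒪) + 1)))
      rw [one_mul]
      exact hu)
  exact h

end abs

section setup

variable {P : FreyPackage} {N q : ℕ} [NeZero N]

/-- **K5-NZ over a setup, intrinsic form.**  There is a finite set `Sbad ∋ p` of primes,
containing the primes of `N` and the bad primes of `Y.W`, such that for every `ν ≥ 1` there is a
nonzero parabolic `φ ∈ Hom(Γ₀(N), 𝒪 ⧸ 𝔪 ^ ν)` which is an eigenvector of every `T_ℓ`, `ℓ ∉ Sbad`,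
with eigenvalue `a_ℓ(Y.W)`; so it lies in every generalised kernel of `T_ℓ − a_ℓ`, in the
`η_{ℓ₀}`-part for every non-Eisenstein prime `ℓ₀ ∉ Sbad`, and in the `Θ_{e, ℓ₀}`-part for every
expression `e` in the `T_ℓ` (`ℓ ∉ Sbad`) whose value at the eigensystem is a unit. -/
theorem k5nz_setup_intr (Y : KSetup P N q) (hmod : P.ModularRepOfLevel N) :
    ∃ Sbad : Finset ℕ, P.p ∈ Sbad ∧ (∀ ℓ : ℕ, ℓ.Prime → ℓ ∣ N → ℓ ∈ Sbad) ∧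
      (∀ ℓ : ℕ, ℓ.Prime → ℓ ∉ Sbad → Y.W.IsGoodPrimeFor ℓ) ∧
      ∀ (M : ℕ) [Fact (M ∣ N)] (ν : ℕ), 0 < ν →
        ∃ φ : HomS (gammaH N M (⊤ : Subgroup (ZMod M)ˣ)) (Y.O ⧸ maximalIdeal Y.O ^ ν),
          φ ≠ 0 ∧ IsParabolicHom (gammaH N M (⊤ : Subgroup (ZMod M)ˣ)) φ ∧
          (∀ (ℓ : ℕ) [NeZero ℓ], ℓ.Prime → ℓ ∉ Sbad →
            tS N M ℓ ⊤ (Y.O ⧸ maximalIdeal Y.O ^ ν) φ = ((Y.W.apOfModel ℓ : ℤ) : Y.O) • φ) ∧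
          (∀ (ℓ : ℕ) [NeZero ℓ], ℓ.Prime → ℓ ∉ Sbad →
            φ ∈ k5lcKer (k5lcS N M ℓ ((Y.W.apOfModel ℓ : ℤ) : Y.O)
              (Y.O ⧸ maximalIdeal Y.O ^ ν) ⊤)) ∧
          ∀ (ℓ₀ : ℕ) [NeZero ℓ₀], ℓ₀.Prime → ℓ₀ ∉ Sbad →
            ((Y.W.apOfModel ℓ₀ : ℤ) : ResidueField Y.O) ≠ (ℓ₀ : ResidueField Y.O) + 1 →
            φ ∈ etaPart (etaS N M ℓ₀ ⊤ (Y.O ⧸ maximalIdeal Y.O ^ ν)) ∧
            ∀ e : HExpr Y.O, k5nzIn {ℓ : ℕ | ℓ.Prime ∧ ℓ ∉ Sbad} e →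
              IsUnit (k5nzVal (fun ℓ => ((Y.W.apOfModel ℓ : ℤ) : Y.O)) e) →
              φ ∈ etaPart (thetaN (e.eval N M) ℓ₀ (Y.O ⧸ maximalIdeal Y.O ^ ν)
                (⊤ : Subgroup (ZMod M)ˣ)) := by
  obtain ⟨f, W', 𝔪, hf, hW', h𝔪max, hp𝔪, hcong⟩ := hmod
  haveI : Fact P.p.Prime := ⟨P.pp⟩
  refine ⟨k5nzBad Y W', Finset.mem_insert_self _ _, fun ℓ hℓ hℓN => ?_, fun ℓ hℓ hℓS =>
    (k5nz_not_mem_bad Y W' hW' hℓ hℓS).2.2.2, ?_⟩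
  · exact Finset.mem_insert_of_mem (Finset.mem_union_left _ (Finset.mem_union_left _
      (Nat.mem_primeFactors.mpr ⟨hℓ, hℓN, NeZero.ne N⟩)))
  intro M _ ν hν
  have key : ∀ x : ℕ, x.Prime → x ∉ k5nzBad Y W' → x.Prime ∧ ¬ x ∣ N ∧ x ≠ P.p ∧
      ∃ z ∈ 𝔪, (z : ℂ) = qCoeff ⇑f x - ((Y.W.apOfModel x : ℤ) : ℂ) := by
    intro x hx hxS
    obtain ⟨h1, h2, h3, h4⟩ := k5nz_not_mem_bad Y W' hW' hx hxS
    obtain ⟨a, ha, ha𝔪⟩ := hcong x hx h3 h2 h1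
    obtain ⟨k, hk⟩ := k5nz_model_cong P.freyCurve (k5nz_freyCurve_Δ P) W' Y.W hW' Y.hW P.pp hx
      h1 h3 h4
    refine ⟨hx, h2, h1, a - ((Y.W.apOfModel x : ℤ) : Zbar), ?_, ?_⟩
    · have hk' : ((W'.apOfModel x : ℤ) : Zbar) - ((Y.W.apOfModel x : ℤ) : Zbar)
          = (P.p : Zbar) * ((k : ℤ) : Zbar) := by
        rw [← Int.cast_sub, hk]
        push_cast
        ring
      have e : a - ((Y.W.apOfModel x : ℤ) : Zbar)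
          = (a - ((W'.apOfModel x : ℤ) : Zbar)) + (P.p : Zbar) * ((k : ℤ) : Zbar) := by
        rw [← hk']
        ring
      rw [e]
      exact 𝔪.add_mem ha𝔪 (𝔪.mul_mem_right _ hp𝔪)
    · rw [← ha]
      push_cast
      rfl
  obtain ⟨y, hy, hpy⟩ := k5nz_exists_order (𝒪 := Y.O) P.p Y.hyp.hp𝒪 ν hν
  obtain ⟨φ, hφ0, hφP, hφ⟩ := k5nz_eigen (N := N) (M := M) (p := P.p) f hf 𝔪 h𝔪max.ne_top hp𝔪
    (Y.O ⧸ maximalIdeal Y.O ^ ν) y hy hpy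
  have heig : ∀ (ℓ : ℕ) [NeZero ℓ], ℓ.Prime → ℓ ∉ k5nzBad Y W' →
      tS N M ℓ ⊤ (Y.O ⧸ maximalIdeal Y.O ^ ν) φ = ((Y.W.apOfModel ℓ : ℤ) : Y.O) • φ := by
    intro ℓ _ hℓ hℓS
    obtain ⟨h1, h2, h3, h4⟩ := key ℓ hℓ hℓS
    rw [hφ ℓ h1 h2 h3 (Y.W.apOfModel ℓ) h4, Int.cast_smul_eq_zsmul]
  refine ⟨φ, hφ0, hφP, heig, fun ℓ _ hℓ hℓS => k5nz_mem_ker ⊤ φ ℓ _ (heig ℓ hℓ hℓS),
    fun ℓ₀ _ hℓ₀ hℓ₀S hne => ?_⟩
  have hne' : IsUnit (((Y.W.apOfModel ℓ₀ : ℤ) : Y.O) - ((ℓ₀ : Y.O) + 1)) := by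
    by_contra hnu
    apply hne
    have h0 := (residue_eq_zero_iff _).mpr ((mem_maximalIdeal _).mpr hnu)
    rw [map_sub, map_add, map_one, map_intCast, map_natCast, sub_eq_zero] at h0
    exact h0
  refine ⟨k5nz_mem_etaS ⊤ φ ℓ₀ _ (heig ℓ₀ hℓ₀ hℓ₀S) hne', fun e he hu => ?_⟩
  exact k5nz_mem_etaPart ⊤ {ℓ : ℕ | ℓ.Prime ∧ ℓ ∉ k5nzBad Y W'}
    (fun ℓ => ((Y.W.apOfModel ℓ : ℤ) : Y.O)) φ (fun ℓ hℓ _ => heig ℓ hℓ.1 hℓ.2) e he ℓ₀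
    ⟨hℓ₀, hℓ₀S⟩ (hu.mul hne')

end setup

end Fermat.Agent.RT.K5

end
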