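import Mathlib

/-!
# K-machine, piece K5-LOC (helper15), generic algebra for the `nil` field of HECKE-asm

* `k5lc_nil_of_closure` : `Φ : 𝕋 →+* R` (`𝕋` commutative, `R` an `O`-algebra), `𝕋` generated
  as a ring by a set `G` with `Φ g − c_g` nilpotent (`c_g ∈ O`) for `g ∈ G`: then for EVERY
  `x ∈ 𝕋` there is `c ∈ O` with `Φ x − c` nilpotent;
* `k5lc_nil_pair_of_closure` : the same for two homomorphisms `Φ1`, `Φχ` with the SAME constant;
* `k5lc_sub_one_pow` : `(X − 1)^(p^k) ≡ X^(p^k) − 1` modulo `p` in `ℤ[X]`;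
* `k5lc_unip_nilpotent` : in a ring with `pⁿ = 0`, `u^(p^k) = 1` implies `(u − 1)^(p^k n) = 0`
  (the diamond operators of `p`-power order are unipotent).
-/

set_option autoImplicit false

namespace Fermat.Agent.RT.K5

section closure

variable {O 𝕋 R : Type*} [CommRing O] [CommRing 𝕋] [Ring R] [Algebra O R]

/-- elements of the image of a commutative ring, shifted by scalars, commute -/
theorem k5lc_commute_shift (Φ : 𝕋 →+* R) (x y : 𝕋) (c d : O) :
    Commute (Φ x - algebraMap O R c) (Φ y - algebraMap O R d) := by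
  have h1 : Commute (Φ x) (Φ y) := by
    show Φ x * Φ y = Φ y * Φ x
    rw [← map_mul, ← map_mul, mul_comm]
  have h2 : Commute (Φ x) (algebraMap O R d) := (Algebra.commutes d (Φ x)).symm
  have h3 : Commute (algebraMap O R c) (Φ y) := Algebra.commutes c (Φ y)
  have h4 : Commute (algebraMap O R c) (algebraMap O R d) := Algebra.commutes c _
  exact (h1.sub_right h2).sub_left (h3.sub_right h4)

/-- **locality from generators** -/
theorem k5lc_nil_of_closure (Φ : 𝕋 →+* R) (G : Set 𝕋) (hG : Subring.closure G = ⊤)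
    (h : ∀ g ∈ G, ∃ c : O, IsNilpotent (Φ g - algebraMap O R c)) (x : 𝕋) :
    ∃ c : O, IsNilpotent (Φ x - algebraMap O R c) := by
  have hx : x ∈ Subring.closure G := by rw [hG]; trivial
  induction hx using Subring.closure_induction with
  | mem g hg => exact h g hg
  | zero => exact ⟨0, by rw [map_zero, map_zero, sub_self]; exact IsNilpotent.zero⟩
  | one => exact ⟨1, by rw [map_one, map_one, sub_self]; exact IsNilpotent.zero⟩
  | add x y _ _ hx hy =>
    obtain ⟨c, hc⟩ := hx
    obtain ⟨d, hd⟩ := hy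
    refine ⟨c + d, ?_⟩
    have e : Φ (x + y) - algebraMap O R (c + d)
        = (Φ x - algebraMap O R c) + (Φ y - algebraMap O R d) := by
      rw [map_add, map_add]; abel
    rw [e]
    exact (k5lc_commute_shift Φ x y c d).isNilpotent_add hc hd
  | neg x _ hx =>
    obtain ⟨c, hc⟩ := hx
    refine ⟨-c, ?_⟩
    have e : Φ (-x) - algebraMap O R (-c) = -(Φ x - algebraMap O R c) := by
      rw [map_neg, map_neg]; abel
    rw [e]
    exact hc.neg
  | mul x y _ _ hx hy =>
    obtain ⟨c, hc⟩ := hx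
    obtain ⟨d, hd⟩ := hy
    refine ⟨c * d, ?_⟩
    have e : Φ (x * y) - algebraMap O R (c * d)
        = (Φ x - algebraMap O R c) * Φ y + algebraMap O R c * (Φ y - algebraMap O R d) := by
      rw [map_mul, map_mul, sub_mul, mul_sub]; abel
    rw [e]
    have hcy : Commute (Φ x - algebraMap O R c) (Φ y) := by
      have := k5lc_commute_shift Φ x y c (0 : O)
      rwa [map_zero, sub_zero] at this
    have hcd : Commute (algebraMap O R c) (Φ y - algebraMap O R d) :=
      Algebra.commutes c _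
    have hcomm : Commute ((Φ x - algebraMap O R c) * Φ y)
        (algebraMap O R c * (Φ y - algebraMap O R d)) := by
      have h1 : Commute (Φ x - algebraMap O R c) (Φ y - algebraMap O R d) :=
        k5lc_commute_shift Φ x y c d
      have h2 : Commute (Φ y) (Φ y - algebraMap O R d) := by
        have := k5lc_commute_shift Φ y y (0 : O) d
        rwa [map_zero, sub_zero] at this
      have h3 : Commute (Φ x - algebraMap O R c) (algebraMap O R c) :=
        (Algebra.commutes c _).symm
      have h4 : Commute (Φ y) (algebraMap O R c) := (Algebra.commutes c _).symm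
      exact (h3.mul_right h1).mul_left (h4.mul_right h2)
    exact hcomm.isNilpotent_add (hcy.isNilpotent_mul_right hc) (hcd.isNilpotent_mul_left hd)

/-- **locality from generators**, two homomorphisms with the same constant -/
theorem k5lc_nil_pair_of_closure {R' : Type*} [Ring R'] [Algebra O R'] (Φ1 : 𝕋 →+* R)
    (Φ2 : 𝕋 →+* R') (G : Set 𝕋) (hG : Subring.closure G = ⊤)
    (h : ∀ g ∈ G, ∃ c : O, IsNilpotent (Φ1 g - algebraMap O R c) ∧
      IsNilpotent (Φ2 g - algebraMap O R' c)) (x : 𝕋) :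
    ∃ c : O, IsNilpotent (Φ1 x - algebraMap O R c) ∧ IsNilpotent (Φ2 x - algebraMap O R' c) := by
  have key := k5lc_nil_of_closure (O := O) (Φ1.prod Φ2) G hG (fun g hg => by
    obtain ⟨c, ⟨n1, h1⟩, ⟨n2, h2⟩⟩ := h g hg
    refine ⟨c, max n1 n2, ?_⟩
    refine Prod.ext ?_ ?_
    · show (Φ1 g - algebraMap O R c) ^ max n1 n2 = 0
      exact pow_eq_zero_of_le (le_max_left _ _) h1
    · show (Φ2 g - algebraMap O R' c) ^ max n1 n2 = 0
      exact pow_eq_zero_of_le (le_max_right _ _) h2) x
  obtain ⟨c, n, hn⟩ := key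
  exact ⟨c, ⟨n, congrArg Prod.fst hn⟩, ⟨n, congrArg Prod.snd hn⟩⟩

end closure

section unipotent

open Polynomial

/-- `(X − 1)^(p^k) ≡ X^(p^k) − 1` modulo `p` in `ℤ[X]` -/
theorem k5lc_sub_one_pow (p : ℕ) [hp : Fact p.Prime] (k : ℕ) :
    ∃ g : ℤ[X], (X - 1 : ℤ[X]) ^ (p ^ k) = (X ^ (p ^ k) - 1) + C (p : ℤ) * g := by
  have hmap : Polynomial.map (Int.castRingHom (ZMod p))
      ((X - 1 : ℤ[X]) ^ (p ^ k) - (X ^ (p ^ k) - 1)) = 0 := by
    simp only [Polynomial.map_sub, Polynomial.map_pow, Polynomial.map_X, Polynomial.map_one]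
    rw [sub_pow_char_pow, one_pow, sub_self]
  -- every coefficient is divisible by `p`
  have hdvd : ∀ n, (p : ℤ) ∣ ((X - 1 : ℤ[X]) ^ (p ^ k) - (X ^ (p ^ k) - 1)).coeff n := by
    intro n
    have := congrArg (fun f => Polynomial.coeff f n) hmap
    simp only [Polynomial.coeff_map, Polynomial.coeff_zero] at this
    exact (ZMod.intCast_zmod_eq_zero_iff_dvd _ p).mp this
  obtain ⟨g, hg⟩ := (Polynomial.C_dvd_iff_dvd_coeff (p : ℤ) _).mpr hdvd
  exact ⟨g, by rw [← hg]; ring⟩

/-- **the diamonds of `p`-power order are unipotent**: `pⁿ = 0` and `u^(p^k) = 1` imply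
`(u − 1)^(p^k n) = 0` -/
theorem k5lc_unip_nilpotent {R : Type*} [Ring R] (p : ℕ) [hp : Fact p.Prime] (k n : ℕ) (u : R)
    (hu : u ^ (p ^ k) = 1) (hpn : (p : R) ^ n = 0) : (u - 1) ^ (p ^ k * n) = 0 := by
  obtain ⟨g, hg⟩ := k5lc_sub_one_pow p k
  have h1 := congrArg (Polynomial.aeval u) hg
  simp only [map_pow, map_sub, map_add, map_mul, map_one, Polynomial.aeval_X,
    Polynomial.aeval_C, hu, sub_self, zero_add] at h1
  have h2 : (algebraMap ℤ R) (p : ℤ) = (p : R) := by simp
  rw [h2] at h1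
  rw [pow_mul, h1]
  have hc : Commute (p : R) (Polynomial.aeval u g) := Nat.cast_commute p _
  rw [hc.mul_pow, hpn, zero_mul]

end unipotent

end Fermat.Agent.RT.K5
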