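import Fermat.Agent.RT.K5.Plan

/-!
# K-machine, piece K5-A2 (helper40): the cyclic step, `stmtAlgCyc : StmtAlgCyc`

`δ^(p^k) = 1` on a finite-dimensional `W` in characteristic `p`, every invariant a norm
`⇒ dim W = p^k · dim ker (δ − 1)`.

With `ν = δ − 1`, `m = p^k`: `Σ_{i<m} δⁱ = ν^(m−1)` and `ν^m = 0` (characteristic `p`), so
`ker ν ≤ range ν^(m−1)`; then `ν^j : ker ν^(j+1) → ker ν` is onto with kernel `ker ν^j`
(`j ≤ m − 1`), hence `dim ker ν^j = j · dim ker ν` for `j ≤ m`.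
-/

set_option autoImplicit false

noncomputable section

namespace Fermat.Agent.RT.K5

open Polynomial

section generic

variable {F : Type*} [Field F] {W : Type*} [AddCommGroup W] [Module F W]

theorem k5a2_pow_succ_apply (ν : W →ₗ[F] W) (j : ℕ) (x : W) :
    (ν ^ (j + 1)) x = ν ((ν ^ j) x) := by
  rw [pow_succ', Module.End.mul_apply]

/-- `ν^j : ker ν^(j+1) → ker ν` -/
def k5a2Map (ν : W →ₗ[F] W) (j : ℕ) :
    ↥(LinearMap.ker (ν ^ (j + 1))) →ₗ[F] ↥(LinearMap.ker ν) :=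
  LinearMap.codRestrict (LinearMap.ker ν)
    ((ν ^ j).comp (LinearMap.ker (ν ^ (j + 1))).subtype) (fun y => by
      rw [LinearMap.mem_ker, LinearMap.comp_apply, Submodule.subtype_apply]
      have h : (ν ^ (j + 1)) (y : W) = 0 := LinearMap.mem_ker.mp y.2
      rw [← k5a2_pow_succ_apply ν j (y : W), h])

theorem k5a2Map_apply (ν : W →ₗ[F] W) (j : ℕ) (y : ↥(LinearMap.ker (ν ^ (j + 1)))) :
    ((k5a2Map ν j y : ↥(LinearMap.ker ν)) : W) = (ν ^ j) (y : W) := rfl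

theorem k5a2_ker_pow_le (ν : W →ₗ[F] W) (j : ℕ) :
    LinearMap.ker (ν ^ j) ≤ LinearMap.ker (ν ^ (j + 1)) := by
  intro x hx
  rw [LinearMap.mem_ker] at hx ⊢
  rw [k5a2_pow_succ_apply, hx, map_zero]

theorem k5a2Map_ker (ν : W →ₗ[F] W) (j : ℕ) :
    LinearMap.ker (k5a2Map ν j) =
      Submodule.comap (LinearMap.ker (ν ^ (j + 1))).subtype (LinearMap.ker (ν ^ j)) := by
  ext y
  rw [LinearMap.mem_ker, Submodule.mem_comap, LinearMap.mem_ker, Submodule.subtype_apply,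
    ← k5a2Map_apply]
  exact ⟨fun h => by rw [h]; rfl, fun h => Subtype.ext h⟩

theorem k5a2Map_surjective (ν : W →ₗ[F] W) (j n : ℕ) (hj : j ≤ n)
    (hsurj : LinearMap.ker ν ≤ LinearMap.range (ν ^ n)) :
    Function.Surjective (k5a2Map ν j) := by
  rintro ⟨x, hx⟩
  obtain ⟨v, hv⟩ := hsurj hx
  have hn : n = j + (n - j) := by omega
  have h1 : (ν ^ j) ((ν ^ (n - j)) v) = x := by
    rw [← Module.End.mul_apply, ← pow_add, ← hn]
    exact hv
  have h2 : (ν ^ (n - j)) v ∈ LinearMap.ker (ν ^ (j + 1)) := by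
    rw [LinearMap.mem_ker, k5a2_pow_succ_apply, h1]
    exact hx
  exact ⟨⟨(ν ^ (n - j)) v, h2⟩, Subtype.ext h1⟩

/-- one step: `dim ker ν^(j+1) = dim ker ν^j + dim ker ν` -/
theorem k5a2_step [Module.Finite F W] (ν : W →ₗ[F] W) (j n : ℕ) (hj : j ≤ n)
    (hsurj : LinearMap.ker ν ≤ LinearMap.range (ν ^ n)) :
    Module.finrank F ↥(LinearMap.ker (ν ^ (j + 1))) =
      Module.finrank F ↥(LinearMap.ker (ν ^ j)) + Module.finrank F ↥(LinearMap.ker ν) := by
  have h1 := LinearMap.finrank_range_add_finrank_ker (k5a2Map ν j)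
  have h2 : LinearMap.range (k5a2Map ν j) = ⊤ :=
    LinearMap.range_eq_top.mpr (k5a2Map_surjective ν j n hj hsurj)
  have h3 : Module.finrank F ↥(LinearMap.ker (k5a2Map ν j)) =
      Module.finrank F ↥(LinearMap.ker (ν ^ j)) := by
    rw [k5a2Map_ker]
    exact LinearEquiv.finrank_eq
      (Submodule.comapSubtypeEquivOfLe (k5a2_ker_pow_le ν j))
  rw [h2, finrank_top, h3] at h1
  omega

theorem k5a2_finrank_ker_pow [Module.Finite F W] (ν : W →ₗ[F] W) (n : ℕ)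
    (hsurj : LinearMap.ker ν ≤ LinearMap.range (ν ^ n)) (j : ℕ) (hj : j ≤ n + 1) :
    Module.finrank F ↥(LinearMap.ker (ν ^ j)) = j * Module.finrank F ↥(LinearMap.ker ν) := by
  induction j with
  | zero =>
      rw [pow_zero, zero_mul]
      have : LinearMap.ker (1 : W →ₗ[F] W) = ⊥ := LinearMap.ker_id
      rw [this]
      exact finrank_bot F W
  | succ j ih =>
      rw [k5a2_step ν j n (by omega) hsurj, ih (by omega)]
      ring

end generic

section charp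

variable (p : ℕ) [Fact p.Prime] {F : Type*} [Field F] [CharP F p]

/-- `Σ_{i < p^k} Xⁱ = (X − 1)^(p^k − 1)` in characteristic `p` -/
theorem k5a2_geom_sum_eq (k : ℕ) :
    (∑ i ∈ Finset.range (p ^ k), (X : F[X]) ^ i) = (X - 1) ^ (p ^ k - 1) := by
  have hX : (X : F[X]) - 1 ≠ 0 := X_sub_C_ne_zero (1 : F) |> fun h => by simpa using h
  have hpos : 0 < p ^ k := pow_pos (Fact.out : p.Prime).pos k
  have h1 : (∑ i ∈ Finset.range (p ^ k), (X : F[X]) ^ i) * (X - 1) = X ^ (p ^ k) - 1 :=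
    geom_sum_mul X (p ^ k)
  have h2 : ((X : F[X]) - 1) ^ (p ^ k) = X ^ (p ^ k) - 1 := by
    rw [sub_pow_char_pow, one_pow]
  have h3 : ((X : F[X]) - 1) ^ (p ^ k - 1) * (X - 1) = (X - 1) ^ (p ^ k) := by
    rw [← pow_succ, Nat.sub_add_cancel hpos]
  exact mul_right_cancel₀ hX (by rw [h1, h3, h2])

variable {W : Type*} [AddCommGroup W] [Module F W]

theorem k5a2_norm_eq (δ : W →ₗ[F] W) (k : ℕ) :
    (∑ i ∈ Finset.range (p ^ k), δ ^ i) = (δ - 1) ^ (p ^ k - 1) := by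
  have h := congrArg (aeval δ) (k5a2_geom_sum_eq p (F := F) k)
  simpa using h

theorem k5a2_nilpotent (δ : W →ₗ[F] W) (k : ℕ) (hδ : δ ^ (p ^ k) = 1) :
    (δ - 1) ^ (p ^ k) = 0 := by
  have h2 : ((X : F[X]) - 1) ^ (p ^ k) = X ^ (p ^ k) - 1 := by
    rw [sub_pow_char_pow, one_pow]
  have h := congrArg (aeval δ) h2
  simp only [map_pow, map_sub, aeval_X, map_one] at h
  rw [h, hδ, sub_self]

end charp

/-- **K5-A2** -/
theorem stmtAlgCyc : StmtAlgCyc := by
  intro p _ F _ _ W _ _ _ δ k hδ hnorm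
  have hpos : 0 < p ^ k := pow_pos (Fact.out : p.Prime).pos k
  have hsurj : LinearMap.ker (δ - 1) ≤ LinearMap.range ((δ - 1) ^ (p ^ k - 1)) := by
    intro w hw
    rw [LinearMap.mem_ker, LinearMap.sub_apply, Module.End.one_apply, sub_eq_zero] at hw
    obtain ⟨v, hv⟩ := hnorm w hw
    refine ⟨v, ?_⟩
    rw [← k5a2_norm_eq p δ k, hv, LinearMap.sum_apply]
  have h1 := k5a2_finrank_ker_pow (δ - 1) (p ^ k - 1) hsurj (p ^ k) (by omega)
  have h2 : LinearMap.ker ((δ - 1) ^ (p ^ k)) = ⊤ := by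
    rw [k5a2_nilpotent p δ k hδ]
    exact LinearMap.ker_zero
  rw [h2, finrank_top] at h1
  exact h1

end Fermat.Agent.RT.K5
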