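import Fermat.Agent.RT.K5.Plan

/-!
# K-machine, piece K5-A3: Fitting decomposition (`StmtAlgFitting`)

For an endomorphism `η` of a finite-dimensional vector space `V`: `V = etaPart η ⊕ ⋃ ker ηⁿ`
and `η` is bijective on `etaPart η = ⋂ ηⁿ V`.
-/

set_option autoImplicit false

namespace Fermat.Agent.RT.K5

section

variable {F : Type*} [Field F] {V : Type*} [AddCommGroup V] [Module F V]

theorem k5a3_pow_apply (η : V →ₗ[F] V) (n : ℕ) (x : V) :
    (((show AddMonoid.End V from η.toAddMonoidHom) ^ n : AddMonoid.End V) : V →+ V) x =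
      (η ^ n) x := by
  induction n generalizing x with
  | zero => rfl
  | succ n ih =>
    rw [pow_succ, pow_succ]
    exact ih (η x)

theorem k5a3_mem_etaPart (η : V →ₗ[F] V) (w : V) :
    w ∈ etaPart η.toAddMonoidHom ↔ ∀ n : ℕ, ∃ u : V, (η ^ n) u = w := by
  unfold etaPart
  rw [AddSubgroup.mem_iInf]
  constructor
  · intro h n
    obtain ⟨u, hu⟩ := AddMonoidHom.mem_range.mp (h n)
    exact ⟨u, (k5a3_pow_apply η n u).symm.trans hu⟩
  · intro h n
    obtain ⟨u, hu⟩ := h n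
    exact AddMonoidHom.mem_range.mpr ⟨u, (k5a3_pow_apply η n u).trans hu⟩

/-- For `n` large: `etaPart η = range (η ^ n)`, `ker (η ^ n)` and `range (η ^ n)` are
complementary. -/
theorem k5a3_exists_stable [Module.Finite F V] (η : V →ₗ[F] V) :
    ∃ N : ℕ, ∀ n, N ≤ n →
      (∀ w : V, w ∈ etaPart η.toAddMonoidHom ↔ w ∈ LinearMap.range (η ^ n)) ∧
      IsCompl (LinearMap.ker (η ^ n)) (LinearMap.range (η ^ n)) := by
  have h1 := LinearMap.eventually_isCompl_ker_pow_range_pow η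
  have h2 := LinearMap.eventually_iInf_range_pow_eq η
  obtain ⟨N, hN⟩ := Filter.eventually_atTop.mp (h1.and h2)
  refine ⟨N, fun n hn => ⟨fun w => ?_, (hN n hn).1⟩⟩
  rw [← (hN n hn).2, Submodule.mem_iInf, k5a3_mem_etaPart]
  rfl

end

theorem stmtAlgFitting : StmtAlgFitting := by
  intro F _ V _ _ _ η
  obtain ⟨N, hN⟩ := k5a3_exists_stable η
  refine ⟨?_, ?_, ?_⟩
  · intro v
    obtain ⟨hmem, hcompl⟩ := hN N le_rfl
    have htop : v ∈ LinearMap.ker (η ^ N) ⊔ LinearMap.range (η ^ N) := by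
      rw [hcompl.sup_eq_top]
      exact Submodule.mem_top
    obtain ⟨k, hk, w, hw, rfl⟩ := Submodule.mem_sup.mp htop
    refine ⟨w, (hmem w).mpr hw, N, ?_⟩
    rw [add_sub_cancel_right]
    exact hk
  · intro w hw hηw
    obtain ⟨hmem, hcompl⟩ := hN (N + 1) (Nat.le_succ N)
    have h1 : w ∈ LinearMap.range (η ^ (N + 1)) := (hmem w).mp hw
    have h2 : w ∈ LinearMap.ker (η ^ (N + 1)) := by
      rw [LinearMap.mem_ker, pow_succ, Module.End.mul_apply, hηw, map_zero]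
    have h3 : w ∈ LinearMap.ker (η ^ (N + 1)) ⊓ LinearMap.range (η ^ (N + 1)) := ⟨h2, h1⟩
    rw [hcompl.inf_eq_bot] at h3
    exact (Submodule.mem_bot F).mp h3
  · intro w hw
    obtain ⟨hmem1, -⟩ := hN (N + 1) (Nat.le_succ N)
    obtain ⟨hmem0, -⟩ := hN N le_rfl
    obtain ⟨u, hu⟩ := (hmem1 w).mp hw
    refine ⟨(η ^ N) u, (hmem0 _).mpr ⟨u, rfl⟩, ?_⟩
    rw [← hu, pow_succ', Module.End.mul_apply]

end Fermat.Agent.RT.K5
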