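import Fermat.Agent.RT.K5.Plan

/-!
# K-machine, piece K5-A1 (helper40): `stmtAlgFree : StmtAlgFree`

`P` a finite `p`-group, `F` a field of characteristic `p`, `W` a finite-dimensional representation,
`I = W^P`.  Then `dim W ≤ |P| · dim I`, and equality implies that `W` is free over `F[P]`.

Proof: choose a projection `π : W → I`; `Φ : W → Fun(P, I)`, `Φ(w)(g) = π(g⁻¹ w)` has a `P`-stable
kernel which meets `I` trivially, so `Φ` is injective (fixed point lemma `k5a1_exists_fixed`).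
If the dimensions agree `Φ` is bijective, and for a basis `e` of `I` the vectors
`b i = Φ⁻¹(δ_1 ⊗ e i)` satisfy `Φ(h · b i) = δ_h ⊗ e i`.
-/

set_option autoImplicit false
set_option linter.style.haveILetI false

noncomputable section

namespace Fermat.Agent.RT.K5

section fixed

variable {p : ℕ} [Fact p.Prime] {P : Type*} [Group P] [Finite P] {F : Type*} [Field F]
  [CharP F p] {W : Type*} [AddCommGroup W] [Module F W]

omit [Fact p.Prime] in
theorem k5a1_nsmul_eq_zero (F : Type*) [Field F] [CharP F p] {W : Type*} [AddCommGroup W]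
    [Module F W] (v : W) : p • v = 0 := by
  rw [← Nat.cast_smul_eq_nsmul F p v, CharP.cast_eq_zero, zero_smul]

omit [CharP F p] in
theorem k5a1_exists_fixed_aux (hP : IsPGroup p P) [Module (ZMod p) W]
    (ρ : P →* (W →ₗ[F] W)) (K : Submodule F W) (hK : ∀ (g : P), ∀ v ∈ K, ρ g v ∈ K)
    {x : W} (hxK : x ∈ K) (hx : x ≠ 0) (hp : ∀ v : W, p • v = 0) :
    ∃ y ∈ K, y ≠ 0 ∧ ∀ g : P, ρ g y = y := by
  classical
  let A : Submodule (ZMod p) W := Submodule.span (ZMod p) (Set.range fun g : P => ρ g x)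
  have hAfin : Module.Finite (ZMod p) ↥A :=
    Module.Finite.span_of_finite (ZMod p) (Set.finite_range fun g : P => ρ g x)
  have hfin : Finite ↥A := Module.finite_of_finite (ZMod p)
  have hAK : ∀ w ∈ A, w ∈ K := by
    intro w hw
    have : A ≤ AddSubgroup.toZModSubmodule p K.toAddSubgroup := by
      apply Submodule.span_le.2
      rintro _ ⟨g, rfl⟩
      exact hK g x hxK
    exact this hw
  have hstab : ∀ (g : P) (w : W), w ∈ A → ρ g w ∈ A := by
    intro g w hw
    induction hw using Submodule.span_induction with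
    | mem v hv =>
      obtain ⟨h, rfl⟩ := hv
      apply Submodule.subset_span
      refine ⟨g * h, ?_⟩
      show ρ (g * h) x = ρ g (ρ h x)
      rw [map_mul, Module.End.mul_apply]
    | zero => rw [map_zero]; exact A.zero_mem
    | add a b _ _ ha hb => rw [map_add]; exact A.add_mem ha hb
    | smul c a _ ha =>
      have : ρ g (c • a) = c • ρ g a := ZMod.map_smul (ρ g).toAddMonoidHom c a
      rw [this]
      exact A.smul_mem c ha
  letI : MulAction P ↥A :=
    { smul := fun g w => ⟨ρ g w.1, hstab g w.1 w.2⟩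
      one_smul := fun w => by
        apply Subtype.ext
        change ρ 1 w.1 = w.1
        rw [map_one, Module.End.one_apply]
      mul_smul := fun g h w => by
        apply Subtype.ext
        change ρ (g * h) w.1 = ρ g (ρ h w.1)
        rw [map_mul, Module.End.mul_apply] }
  have hxA : x ∈ A := Submodule.subset_span ⟨1, by
    show ρ 1 x = x
    rw [map_one, Module.End.one_apply]⟩
  have hdvd : p ∣ Nat.card ↥A := by
    have h1 : addOrderOf (⟨x, hxA⟩ : ↥A) = p := by
      apply addOrderOf_eq_prime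
      · apply Subtype.ext
        simpa using hp x
      · intro h
        exact hx (congrArg Subtype.val h)
    have h2 := addOrderOf_dvd_natCard (⟨x, hxA⟩ : ↥A)
    rwa [h1] at h2
  have h0 : (0 : ↥A) ∈ MulAction.fixedPoints P ↥A := by
    intro g
    apply Subtype.ext
    change ρ g 0 = 0
    rw [map_zero]
  obtain ⟨b, hb, hb0⟩ := hP.exists_fixed_point_of_prime_dvd_card_of_fixed_point ↥A hdvd h0
  refine ⟨b.1, hAK _ b.2, ?_, ?_⟩
  · intro h
    exact hb0 (Subtype.ext h.symm)
  · intro g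
    exact congrArg Subtype.val (hb g)

/-- **Fixed point lemma**: a finite `p`-group acting linearly in characteristic `p` fixes a nonzero
vector of every nonzero stable subspace. -/
theorem k5a1_exists_fixed (hP : IsPGroup p P) (ρ : P →* (W →ₗ[F] W)) (K : Submodule F W)
    (hK : ∀ (g : P), ∀ v ∈ K, ρ g v ∈ K) {x : W} (hxK : x ∈ K) (hx : x ≠ 0) :
    ∃ y ∈ K, y ≠ 0 ∧ ∀ g : P, ρ g y = y :=
  letI : Module (ZMod p) W := AddCommGroup.zmodModule (k5a1_nsmul_eq_zero (p := p) F)
  k5a1_exists_fixed_aux hP ρ K hK hxK hx (k5a1_nsmul_eq_zero (p := p) F)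

end fixed

section embed

variable {P : Type*} [Group P] {F : Type*} [Field F] {W : Type*} [AddCommGroup W] [Module F W]

/-- the invariants `W^P` -/
def k5a1Inv (ρ : P →* (W →ₗ[F] W)) : Submodule F W := ⨅ g : P, LinearMap.ker (ρ g - 1)

theorem k5a1_mem_inv (ρ : P →* (W →ₗ[F] W)) (w : W) :
    w ∈ k5a1Inv ρ ↔ ∀ g : P, ρ g w = w := by
  unfold k5a1Inv
  rw [Submodule.mem_iInf]
  refine forall_congr' fun g => ?_
  rw [LinearMap.mem_ker, LinearMap.sub_apply, Module.End.one_apply, sub_eq_zero]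

/-- `Φ(w)(g) = π(g⁻¹ w)` -/
def k5a1Phi (ρ : P →* (W →ₗ[F] W)) (π : W →ₗ[F] ↥(k5a1Inv ρ)) :
    W →ₗ[F] (P → ↥(k5a1Inv ρ)) :=
  LinearMap.pi fun g => π.comp (ρ g⁻¹)

theorem k5a1Phi_apply (ρ : P →* (W →ₗ[F] W)) (π : W →ₗ[F] ↥(k5a1Inv ρ)) (w : W) (g : P) :
    k5a1Phi ρ π w g = π (ρ g⁻¹ w) := rfl

theorem k5a1Phi_smul (ρ : P →* (W →ₗ[F] W)) (π : W →ₗ[F] ↥(k5a1Inv ρ)) (h : P) (w : W)
    (g : P) : k5a1Phi ρ π (ρ h w) g = k5a1Phi ρ π w (h⁻¹ * g) := by
  rw [k5a1Phi_apply, k5a1Phi_apply, mul_inv_rev, inv_inv, map_mul, Module.End.mul_apply]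

end embed

section main

variable {p : ℕ} [Fact p.Prime] {P : Type*} [Group P] [Fintype P] {F : Type*} [Field F]
  [CharP F p] {W : Type*} [AddCommGroup W] [Module F W]

theorem k5a1Phi_injective (hP : IsPGroup p P) (ρ : P →* (W →ₗ[F] W))
    (π : W →ₗ[F] ↥(k5a1Inv ρ)) (hπ : ∀ w : ↥(k5a1Inv ρ), π (w : W) = w) :
    Function.Injective (k5a1Phi ρ π) := by
  rw [← LinearMap.ker_eq_bot, Submodule.eq_bot_iff]
  intro x hx
  by_contra hx0
  have hK : ∀ (g : P), ∀ v ∈ LinearMap.ker (k5a1Phi ρ π), ρ g v ∈ LinearMap.ker (k5a1Phi ρ π) := by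
    intro g v hv
    rw [LinearMap.mem_ker] at hv ⊢
    funext g'
    rw [k5a1Phi_smul, hv]
    rfl
  obtain ⟨y, hyK, hy0, hyfix⟩ := k5a1_exists_fixed hP ρ _ hK hx hx0
  have hyI : y ∈ k5a1Inv ρ := (k5a1_mem_inv ρ y).mpr hyfix
  have h1 : k5a1Phi ρ π y 1 = 0 := by
    rw [LinearMap.mem_ker.mp hyK]; rfl
  rw [k5a1Phi_apply, inv_one, map_one, Module.End.one_apply] at h1
  have h2 := hπ ⟨y, hyI⟩
  rw [h1] at h2
  exact hy0 (congrArg Subtype.val h2).symm

omit [Fintype P] in
theorem k5a1_exists_proj (ρ : P →* (W →ₗ[F] W)) :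
    ∃ π : W →ₗ[F] ↥(k5a1Inv ρ), ∀ w : ↥(k5a1Inv ρ), π (w : W) = w := by
  obtain ⟨π, hπ⟩ := LinearMap.exists_leftInverse_of_injective (k5a1Inv ρ).subtype
    (Submodule.ker_subtype _)
  exact ⟨π, fun w => LinearMap.congr_fun hπ w⟩

theorem k5a1_finrank_pi [Module.Finite F W] (ρ : P →* (W →ₗ[F] W)) :
    Module.finrank F (P → ↥(k5a1Inv ρ)) = Fintype.card P * Module.finrank F ↥(k5a1Inv ρ) := by
  rw [Module.finrank_pi_fintype]
  simp

end main

/-- **K5-A1** -/
theorem stmtAlgFree : StmtAlgFree := by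
  classical
  intro p _ P _ _ F _ _ W _ _ _ ρ hP
  obtain ⟨π, hπ⟩ := k5a1_exists_proj ρ
  have hinj := k5a1Phi_injective hP ρ π hπ
  have hle : Module.finrank F W ≤ Fintype.card P * Module.finrank F ↥(k5a1Inv ρ) := by
    rw [← k5a1_finrank_pi ρ]
    exact LinearMap.finrank_le_finrank_of_injective hinj
  refine ⟨hle, fun heq => ?_⟩
  have heq' : Module.finrank F W = Module.finrank F (P → ↥(k5a1Inv ρ)) := by
    rw [k5a1_finrank_pi ρ]; exact heq
  have hsurj : Function.Surjective (k5a1Phi ρ π) :=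
    (LinearMap.injective_iff_surjective_of_finrank_eq_finrank heq').mp hinj
  let e := Module.finBasis F ↥(k5a1Inv ρ)
  have hb : ∀ i, ∃ b : W, k5a1Phi ρ π b = Pi.single (1 : P) (e i) := fun i => hsurj _
  choose b hb using hb
  refine ⟨Module.finrank F ↥(k5a1Inv ρ), b, ?_⟩
  have hΦb : ∀ (i : Fin (Module.finrank F ↥(k5a1Inv ρ))) (h g : P),
      k5a1Phi ρ π (ρ h (b i)) g = if g = h then e i else 0 := by
    intro i h g
    rw [k5a1Phi_smul, hb, Pi.single_apply]
    by_cases hgh : g = h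
    · rw [if_pos hgh, if_pos (by rw [hgh, inv_mul_cancel])]
    · rw [if_neg hgh, if_neg (fun h1 => hgh (by
        have := congrArg (fun t => h * t) h1
        simpa using this))]
  have hcomp : ∀ (c : Fin (Module.finrank F ↥(k5a1Inv ρ)) × P → F) (g : P),
      k5a1Phi ρ π (∑ x : Fin (Module.finrank F ↥(k5a1Inv ρ)) × P, c x • ρ x.2 (b x.1)) g =
        e.equivFun.symm (fun i => c (i, g)) := by
    intro c g
    rw [map_sum, Finset.sum_apply, Module.Basis.equivFun_symm_apply, Fintype.sum_prod_type]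
    refine Finset.sum_congr rfl fun i _ => ?_
    have : ∀ h : P, (k5a1Phi ρ π (c (i, h) • ρ h (b i))) g =
        if h = g then c (i, g) • e i else 0 := by
      intro h
      rw [map_smul, Pi.smul_apply, hΦb]
      by_cases hgh : g = h
      · subst hgh; rw [if_pos rfl, if_pos rfl]
      · rw [if_neg hgh, if_neg (fun h1 => hgh h1.symm), smul_zero]
    rw [Finset.sum_congr rfl fun h _ => this h, Finset.sum_ite_eq' Finset.univ g]
    simp
  constructor
  · intro c c' hcc
    funext x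
    obtain ⟨i, g⟩ := x
    beta_reduce at hcc
    have h1 := hcomp c g
    have h2 := hcomp c' g
    rw [hcc, h2] at h1
    have h3 := e.equivFun.symm.injective h1
    exact (congrFun h3 i).symm
  · intro w
    have key : k5a1Phi ρ π (∑ x : Fin (Module.finrank F ↥(k5a1Inv ρ)) × P,
        (e.equivFun (k5a1Phi ρ π w x.2) x.1) • ρ x.2 (b x.1)) = k5a1Phi ρ π w := by
      funext g
      have h1 := hcomp (fun x => e.equivFun (k5a1Phi ρ π w x.2) x.1) g
      have h2 : (fun i => (fun x : Fin (Module.finrank F ↥(k5a1Inv ρ)) × P =>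
          e.equivFun (k5a1Phi ρ π w x.2) x.1) (i, g)) = e.equivFun (k5a1Phi ρ π w g) := rfl
      rw [h2, LinearEquiv.symm_apply_apply] at h1
      exact h1
    exact ⟨fun x => e.equivFun (k5a1Phi ρ π w x.2) x.1, hinj key⟩

end Fermat.Agent.RT.K5
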