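import Fermat.Agent.RT.K5.Plan

/-!
# K-machine, piece K5-A4: lifting a basis from the reduction (`StmtAlgLift`)

A finitely generated torsion-free module `W` over a discrete valuation ring `𝒪` with a family
of vectors which is a basis of `W / 𝔪 W` is free on this family (Nakayama for the generation,
Krull's intersection theorem for the independence).
-/

set_option autoImplicit false

namespace Fermat.Agent.RT.K5

section

variable {𝒪 : Type*} [CommRing 𝒪] [IsDomain 𝒪] [IsDiscreteValuationRing 𝒪]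
  {W : Type*} [AddCommGroup W] [Module 𝒪 W]

/-- A family generating `W` modulo `𝔪 W` generates `W` (`W` finite over the local ring `𝒪`). -/
theorem k5a4_surjective [Module.Finite 𝒪 W] {κ : Type*} [Fintype κ] (v : κ → W)
    (hspan : ∀ w : W, ∃ c : κ → 𝒪,
      w - ∑ x, c x • v x ∈ (IsLocalRing.maximalIdeal 𝒪) • (⊤ : Submodule 𝒪 W)) :
    Function.Surjective (fun c : κ → 𝒪 => ∑ x, c x • v x) := by
  have hle : (⊤ : Submodule 𝒪 W) ≤ LinearMap.range (Fintype.linearCombination 𝒪 v) := by
    refine Submodule.le_of_le_smul_of_le_jacobson_bot (I := IsLocalRing.maximalIdeal 𝒪)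
      Module.Finite.fg_top (IsLocalRing.maximalIdeal_le_jacobson ⊥) ?_
    rintro w -
    obtain ⟨c, hc⟩ := hspan w
    rw [Submodule.mem_sup]
    refine ⟨∑ x, c x • v x, ⟨c, Fintype.linearCombination_apply 𝒪 v c⟩, _, hc, ?_⟩
    rw [add_sub_cancel]
  intro w
  obtain ⟨c, hc⟩ := hle (Submodule.mem_top : w ∈ ⊤)
  exact ⟨c, by rw [← hc, Fintype.linearCombination_apply]⟩

/-- A family which is independent modulo `𝔪 W` is independent (`W` torsion-free). -/
theorem k5a4_injective [Module.IsTorsionFree 𝒪 W] {κ : Type*} [Fintype κ] (v : κ → W)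
    (hindep : ∀ c : κ → 𝒪,
      ∑ x, c x • v x ∈ (IsLocalRing.maximalIdeal 𝒪) • (⊤ : Submodule 𝒪 W) →
      ∀ x, c x ∈ IsLocalRing.maximalIdeal 𝒪) :
    Function.Injective (fun c : κ → 𝒪 => ∑ x, c x • v x) := by
  obtain ⟨ϖ, hϖ⟩ := IsDiscreteValuationRing.exists_irreducible 𝒪
  have hm : IsLocalRing.maximalIdeal 𝒪 = Ideal.span {ϖ} := hϖ.maximalIdeal_eq
  have hϖ0 : ϖ ≠ 0 := hϖ.ne_zero
  -- all coefficients of a relation lie in `𝔪 ^ k`
  have key : ∀ k : ℕ, ∀ c : κ → 𝒪, ∑ x, c x • v x = 0 →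
      ∀ x, c x ∈ IsLocalRing.maximalIdeal 𝒪 ^ k := by
    intro k
    induction k with
    | zero =>
      intro c _ x
      rw [pow_zero, Ideal.one_eq_top]
      exact Submodule.mem_top
    | succ k ih =>
      intro c hc x
      have h1 : ∀ y, ∃ c' : 𝒪, c y = ϖ * c' := by
        intro y
        have := hindep c (by rw [hc]; exact Submodule.zero_mem _) y
        rw [hm, Ideal.mem_span_singleton] at this
        exact this
      choose c' hc' using h1
      have h2 : ϖ • ∑ y, c' y • v y = 0 := by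
        rw [Finset.smul_sum, ← hc]
        refine Finset.sum_congr rfl fun y _ => ?_
        rw [smul_smul, ← hc']
      have h3 : ∑ y, c' y • v y = 0 := (smul_eq_zero_iff_right hϖ0).mp h2
      have h4 := ih c' h3 x
      rw [hc', pow_succ']
      exact Ideal.mul_mem_mul (hm ▸ Ideal.mem_span_singleton_self ϖ) h4
  have hzero : ∀ c : κ → 𝒪, ∑ x, c x • v x = 0 → c = 0 := by
    intro c hc
    funext x
    have h1 : c x ∈ ⨅ k : ℕ, IsLocalRing.maximalIdeal 𝒪 ^ k :=
      (Ideal.mem_iInf).mpr fun k => key k c hc x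
    rw [Ideal.iInf_pow_eq_bot_of_isLocalRing _ (IsLocalRing.maximalIdeal.isMaximal 𝒪).ne_top]
      at h1
    exact h1
  intro c₁ c₂ h
  have h0 : ∑ x, (c₁ - c₂) x • v x = 0 := by
    simp only [Pi.sub_apply, sub_smul, Finset.sum_sub_distrib]
    exact sub_eq_zero.mpr h
  exact sub_eq_zero.mp (hzero _ h0)

end

theorem stmtAlgLift : StmtAlgLift := by
  intro 𝒪 _ _ _ P _ _ W _ _ _ _ ρ n b hspan hindep
  exact ⟨k5a4_injective (fun x : Fin n × P => ρ x.2 (b x.1)) hindep,
    k5a4_surjective (fun x : Fin n × P => ρ x.2 (b x.1)) hspan⟩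

end Fermat.Agent.RT.K5
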