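import Mathlib

/-!
# RT-K5, piece BASE (abstract part): change of a basis by a constant matrix

`R` a commutative ring, `V`, `W` `R`-modules.  `K5IsBasis R X y`: the family `y` is an
`R`-basis of the additive subgroup `X`.

* `k5ba_g_bijective` : if `z` and `y` are `R`-bases of the same (`R`-stable) subgroup `X ≤ W`,
  `y i = ∑ l, C i l • z l`, then `a ↦ (l ↦ ∑ i, a i * C i l)` is a bijection of `Fin r → R`;
* `k5ba_expand` : for `b' i = ∑ l, C i l • b l` and `R`-linear operators `D j`:
  `∑ (i, j), a (i, j) • D j (b' i) = ∑ (l, j), (∑ i, a (i, j) * C i l) • D j (b l)`;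
* `k5ba_inj`, `k5ba_surj` : so unique expansions in the `D j (b l)` give unique expansions in
  the `D j (b' i)`;
* `k5ba_rank` : two finite bases of the same subgroup over a finite nontrivial ring have the
  same number of elements.
-/

set_option autoImplicit false

noncomputable section

namespace Fermat.Agent.RT.K5

/-- the family `y` is an `R`-basis of the additive subgroup `X` -/
def K5IsBasis (R : Type*) {W : Type*} [CommRing R] [AddCommGroup W] [Module R W]
    (X : AddSubgroup W) {κ : Type*} [Fintype κ] (y : κ → W) : Prop :=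
  (∀ i, y i ∈ X) ∧ Function.Injective (fun c : κ → R => ∑ i, c i • y i) ∧
    ∀ φ ∈ X, ∃ c : κ → R, φ = ∑ i, c i • y i

section abs

variable {R V W : Type*} [CommRing R] [AddCommGroup V] [Module R V] [AddCommGroup W]
  [Module R W]

theorem K5IsBasis.reindex {X : AddSubgroup W} {κ κ' : Type*} [Fintype κ] [Fintype κ']
    {y : κ → W} (h : K5IsBasis R X y) (ε : κ' ≃ κ) : K5IsBasis R X (fun j => y (ε j)) := by
  have hs : ∀ c : κ' → R, ∑ j, c j • y (ε j) = ∑ i, c (ε.symm i) • y i := fun c => by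
    rw [← Equiv.sum_comp ε (fun i => c (ε.symm i) • y i)]
    simp only [Equiv.symm_apply_apply]
  refine ⟨fun j => h.1 _, ?_, ?_⟩
  · intro c c' hcc'
    simp only [hs] at hcc'
    have := h.2.1 hcc'
    funext j
    simpa only [Equiv.symm_apply_apply] using congrFun this (ε j)
  · intro φ hφ
    obtain ⟨c, rfl⟩ := h.2.2 φ hφ
    refine ⟨fun j => c (ε j), ?_⟩
    exact (Equiv.sum_comp ε (fun i => c i • y i)).symm

/-- the cardinality of a subgroup with a finite basis -/
theorem K5IsBasis.card {X : AddSubgroup W} {κ : Type*} [Fintype κ] {y : κ → W}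
    (h : K5IsBasis R X y) (hX : ∀ (c : R) (w : W), w ∈ X → c • w ∈ X) :
    Nat.card X = Nat.card R ^ Fintype.card κ := by
  classical
  let F : (κ → R) → X := fun c =>
    ⟨∑ i, c i • y i, AddSubgroup.sum_mem _ fun i _ => hX _ _ (h.1 i)⟩
  have hF : Function.Bijective F := by
    constructor
    · intro c c' hcc'
      exact h.2.1 (congrArg Subtype.val hcc')
    · rintro ⟨φ, hφ⟩
      obtain ⟨c, rfl⟩ := h.2.2 φ hφ
      exact ⟨c, rfl⟩
  rw [← Nat.card_congr (Equiv.ofBijective F hF), Nat.card_fun, Nat.card_eq_fintype_card (α := κ)]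

/-- two finite bases of the same subgroup over a finite nontrivial ring have the same size -/
theorem k5ba_rank [Finite R] [Nontrivial R] {X : AddSubgroup W} {κ κ' : Type*} [Fintype κ]
    [Fintype κ'] {y : κ → W} {y' : κ' → W} (h : K5IsBasis R X y) (h' : K5IsBasis R X y')
    (hX : ∀ (c : R) (w : W), w ∈ X → c • w ∈ X) : Fintype.card κ = Fintype.card κ' := by
  have h1 := h.card hX
  rw [h'.card hX] at h1
  have h2 : 1 < Nat.card R := Finite.one_lt_card
  exact (Nat.pow_right_injective h2 h1).symm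

/-- the change of coefficients `a ↦ a · C` -/
def k5baG {r : ℕ} (C : Fin r → Fin r → R) (a : Fin r → R) : Fin r → R :=
  fun l => ∑ i, a i * C i l

theorem k5ba_F {r : ℕ} (C : Fin r → Fin r → R) (z y : Fin r → W)
    (hy : ∀ i, y i = ∑ l, C i l • z l) (a : Fin r → R) :
    ∑ l, k5baG C a l • z l = ∑ i, a i • y i := by
  simp only [k5baG, hy, Finset.sum_smul, Finset.smul_sum, mul_smul]
  exact Finset.sum_comm

/-- `a ↦ a · C` is bijective when `C` is the matrix of a change of basis -/
theorem k5ba_g_bijective {r : ℕ} (X : AddSubgroup W)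
    (hX : ∀ (c : R) (w : W), w ∈ X → c • w ∈ X) (z y : Fin r → W)
    (hz : K5IsBasis R X z) (hy : K5IsBasis R X y) (C : Fin r → Fin r → R)
    (hC : ∀ i, y i = ∑ l, C i l • z l) : Function.Bijective (k5baG C) := by
  constructor
  · intro a a' haa'
    refine hy.2.1 ?_
    show ∑ i, a i • y i = ∑ i, a' i • y i
    rw [← k5ba_F C z y hC a, ← k5ba_F C z y hC a', haa']
  · intro a'
    have hmem : ∑ l, a' l • z l ∈ X := AddSubgroup.sum_mem _ fun l _ => hX _ _ (hz.1 l)
    obtain ⟨a, ha⟩ := hy.2.2 _ hmem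
    refine ⟨a, hz.2.1 ?_⟩
    show ∑ l, k5baG C a l • z l = ∑ l, a' l • z l
    rw [k5ba_F C z y hC a, ha]

/-- the change of coefficients on `Fin r × Fin m` -/
def k5baG2 {r m : ℕ} (C : Fin r → Fin r → R) (a : Fin r × Fin m → R) : Fin r × Fin m → R :=
  fun x => k5baG C (fun i => a (i, x.2)) x.1

theorem k5ba_G2_bijective {r m : ℕ} (C : Fin r → Fin r → R)
    (hC : Function.Bijective (k5baG C)) : Function.Bijective (k5baG2 (m := m) C) := by
  constructor
  · intro a a' haa'
    funext ⟨i, j⟩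
    have h1 : k5baG C (fun i => a (i, j)) = k5baG C (fun i => a' (i, j)) := by
      funext l
      exact congrFun haa' (l, j)
    exact congrFun (hC.1 h1) i
  · intro a'
    choose f hf using fun j : Fin m => hC.2 (fun l => a' (l, j))
    refine ⟨fun x => f x.2 x.1, ?_⟩
    funext ⟨l, j⟩
    exact congrFun (hf j) l

/-- expansion in the new family -/
theorem k5ba_expand {r m : ℕ} (D : Fin m → V →+ V)
    (hD : ∀ (j : Fin m) (c : R) (v : V), D j (c • v) = c • D j v) (b : Fin r → V)
    (C : Fin r → Fin r → R) (a : Fin r × Fin m → R) :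
    ∑ x : Fin r × Fin m, a x • D x.2 (∑ l, C x.1 l • b l)
      = ∑ x : Fin r × Fin m, k5baG2 C a x • D x.2 (b x.1) := by
  have hL : ∑ x : Fin r × Fin m, a x • D x.2 (∑ l, C x.1 l • b l)
      = ∑ i : Fin r, ∑ j : Fin m, ∑ l : Fin r, (a (i, j) * C i l) • D j (b l) := by
    rw [Fintype.sum_prod_type]
    refine Finset.sum_congr rfl fun i _ => Finset.sum_congr rfl fun j _ => ?_
    rw [map_sum, Finset.smul_sum]
    refine Finset.sum_congr rfl fun l _ => ?_
    rw [hD, mul_smul]
  have hR : ∑ x : Fin r × Fin m, k5baG2 C a x • D x.2 (b x.1)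
      = ∑ l : Fin r, ∑ j : Fin m, ∑ i : Fin r, (a (i, j) * C i l) • D j (b l) := by
    rw [Fintype.sum_prod_type]
    refine Finset.sum_congr rfl fun l _ => Finset.sum_congr rfl fun j _ => ?_
    show (∑ i, a (i, j) * C i l) • D j (b l) = _
    rw [Finset.sum_smul]
  rw [hL, hR]
  calc ∑ i : Fin r, ∑ j : Fin m, ∑ l : Fin r, (a (i, j) * C i l) • D j (b l)
      = ∑ j : Fin m, ∑ i : Fin r, ∑ l : Fin r, (a (i, j) * C i l) • D j (b l) :=
        Finset.sum_comm
    _ = ∑ j : Fin m, ∑ l : Fin r, ∑ i : Fin r, (a (i, j) * C i l) • D j (b l) :=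
        Finset.sum_congr rfl fun j _ => Finset.sum_comm
    _ = ∑ l : Fin r, ∑ j : Fin m, ∑ i : Fin r, (a (i, j) * C i l) • D j (b l) :=
        Finset.sum_comm

theorem k5ba_inj {r m : ℕ} (D : Fin m → V →+ V)
    (hD : ∀ (j : Fin m) (c : R) (v : V), D j (c • v) = c • D j v) (b : Fin r → V)
    (C : Fin r → Fin r → R) (hC : Function.Bijective (k5baG C))
    (h : Function.Injective fun a : Fin r × Fin m → R => ∑ x : Fin r × Fin m, a x • D x.2 (b x.1)) :
    Function.Injective fun a : Fin r × Fin m → R =>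
      ∑ x : Fin r × Fin m, a x • D x.2 (∑ l, C x.1 l • b l) := by
  intro a a' haa'
  simp only [k5ba_expand D hD b C] at haa'
  exact (k5ba_G2_bijective C hC).1 (h haa')

theorem k5ba_surj {r m : ℕ} (D : Fin m → V →+ V)
    (hD : ∀ (j : Fin m) (c : R) (v : V), D j (c • v) = c • D j v) (b : Fin r → V)
    (C : Fin r → Fin r → R) (hC : Function.Bijective (k5baG C)) {ψ : V}
    (h : ∃ a : Fin r × Fin m → R, ψ = ∑ x : Fin r × Fin m, a x • D x.2 (b x.1)) :
    ∃ a : Fin r × Fin m → R, ψ = ∑ x : Fin r × Fin m, a x • D x.2 (∑ l, C x.1 l • b l) := by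
  obtain ⟨a', rfl⟩ := h
  obtain ⟨a, rfl⟩ := (k5ba_G2_bijective (m := m) C hC).2 a'
  exact ⟨a, (k5ba_expand D hD b C a).symm⟩

end abs

end Fermat.Agent.RT.K5
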