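import Fermat.Agent.RT.K5.Plan4
import Fermat.Agent.RT.K5.Step

/-!
# RT-K5, piece K5-COEF: exactness of the `Θ`-part in the coefficients

For an exact sequence `0 → A' →j A →π A'' → 0` of finite `𝒪`-modules with `NoTors Γ A''`:
`0 → Hom(Γ, A') → Hom(Γ, A) → Hom(Γ, A'') → 0` is exact (`stmtLift` on the right), the maps
intertwine `Θ` (`k5n_theta_nat`), all groups are finite (`k5s_finite_homS`), so `etaPart` is exact
(`k5fx_surj`, `k5fx_exact`, `k5fx_card`).

* `k5co_mapS_injective`, `k5co_mapS_exact` : left exactness of `Hom(Γ, ·)`;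
* `stmtCoeffExact : StmtCoeffExact`.
-/

set_option autoImplicit false
set_option linter.style.haveILetI false
set_option linter.unusedSectionVars false
set_option linter.unusedVariables false

noncomputable section

namespace Fermat.Agent.RT.K5

open CongruenceSubgroup Matrix
open scoped MatrixGroups
open Fermat.Agent.ES1 (gammaH diamHom pmH)

section leftexact

variable {Γ : Subgroup SL(2, ℤ)}

/-- `Hom(Γ, ·)` preserves injections -/
theorem k5co_mapS_injective {A B : Type*} [AddCommGroup A] [AddCommGroup B] (f : A →+ B)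
    (hf : Function.Injective f) : Function.Injective (mapS (Γ := Γ) f) := by
  intro φ ψ h
  refine AddMonoidHom.ext fun γ => hf ?_
  exact DFunLike.congr_fun h γ

/-- `Hom(Γ, ·)` is exact in the middle -/
theorem k5co_mapS_exact {A' A A'' : Type*} [AddCommGroup A'] [AddCommGroup A]
    [AddCommGroup A''] (j : A' →+ A) (π : A →+ A'') (hj : Function.Injective j)
    (hex : ∀ a, π a = 0 → ∃ a', j a' = a) (v : HomS Γ A) (hv : mapS π v = 0) :
    ∃ u : HomS Γ A', mapS j u = v := by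
  have h : ∀ γ, ∃ a', j a' = v γ := fun γ => hex _ (DFunLike.congr_fun hv γ)
  choose f hf using h
  refine ⟨AddMonoidHom.mk' f ?_, ?_⟩
  · intro a b
    apply hj
    rw [hf, map_add, map_add, hf, hf]
  · refine AddMonoidHom.ext fun γ => ?_
    exact hf γ

/-- the composite is zero -/
theorem k5co_mapS_comp_zero {A' A A'' : Type*} [AddCommGroup A'] [AddCommGroup A]
    [AddCommGroup A''] (j : A' →+ A) (π : A →+ A'') (hπj : ∀ a', π (j a') = 0)
    (u : HomS Γ A') : mapS π (mapS j u) = 0 := by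
  refine AddMonoidHom.ext fun γ => ?_
  exact hπj (u γ)

end leftexact

/-- **K5-COEF.** -/
theorem stmtCoeffExact : StmtCoeffExact := by
  intro 𝒪 _ L M ℓ₀ _ _ _ 𝔲 K A' A A'' _ _ _ _ _ _ _ _ _ j π hj hπ hex hNT
  haveI : Finite (HomS (gammaH L M K) A') := k5s_finite_homS _ A'
  haveI : Finite (HomS (gammaH L M K) A) := k5s_finite_homS _ A
  haveI : Finite (HomS (gammaH L M K) A'') := k5s_finite_homS _ A''
  -- the three maps
  have hJ : Function.Injective (mapS (Γ := gammaH L M K) j.toAddMonoidHom) :=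
    k5co_mapS_injective _ hj
  have hP : Function.Surjective (mapS (Γ := gammaH L M K) π.toAddMonoidHom) := by
    intro w
    obtain ⟨v, hv⟩ := stmtLift L M K A A'' π.toAddMonoidHom hπ hNT w
    exact ⟨v, hv⟩
  have hE : ∀ v : HomS (gammaH L M K) A, mapS π.toAddMonoidHom v = 0 →
      ∃ u : HomS (gammaH L M K) A', mapS j.toAddMonoidHom u = v :=
    fun v hv => k5co_mapS_exact j.toAddMonoidHom π.toAddMonoidHom hj
      (fun a ha => (hex a).mp ha) v hv
  have hZ : ∀ u : HomS (gammaH L M K) A',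
      mapS π.toAddMonoidHom (mapS j.toAddMonoidHom u) = 0 :=
    fun u => k5co_mapS_comp_zero j.toAddMonoidHom π.toAddMonoidHom
      (fun a' => (hex (j a')).mpr ⟨a', rfl⟩) u
  have hjθ : ∀ u, mapS j.toAddMonoidHom (thetaN 𝔲 ℓ₀ A' K u)
      = thetaN 𝔲 ℓ₀ A K (mapS j.toAddMonoidHom u) := fun u => k5n_theta_nat 𝔲 ℓ₀ j K u
  have hπθ : ∀ v, mapS π.toAddMonoidHom (thetaN 𝔲 ℓ₀ A K v)
      = thetaN 𝔲 ℓ₀ A'' K (mapS π.toAddMonoidHom v) := fun v => k5n_theta_nat 𝔲 ℓ₀ π K v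
  refine ⟨?_, ?_, ?_⟩
  · intro w hw
    exact k5fx_surj (thetaN 𝔲 ℓ₀ A K) (thetaN 𝔲 ℓ₀ A'' K) _ hP hπθ w hw
  · intro v hv h0
    exact k5fx_exact (thetaN 𝔲 ℓ₀ A' K) (thetaN 𝔲 ℓ₀ A K) (thetaN 𝔲 ℓ₀ A'' K) _ _ hJ hE hjθ hπθ
      v hv h0
  · exact k5fx_card (thetaN 𝔲 ℓ₀ A' K) (thetaN 𝔲 ℓ₀ A K) (thetaN 𝔲 ℓ₀ A'' K) _ _ hJ hP hZ hE
      hjθ hπθ

end Fermat.Agent.RT.K5

end
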