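/-
RT-K5, pieces K5-S / K5-L (helper22): the abstract orbit-lifting lemma.

`σ` acts on `X'`, `X` with `σⁿ = 1`, `π : X' → X` equivariant and onto, `f : A → B` onto.
A function `v : X → B` with `Σ_{i<n} v(σⁱ x) = 0`, vanishing at the non-free points, is
`x ↦ Σ_{π x' = x} f (w x')` for some `w : X' → A` with `Σ_{i<n} w(σⁱ x') = 0`  (`k5l_lift`).
-/
import Mathlib

set_option autoImplicit false
set_option linter.unusedSectionVars false
set_option linter.unusedVariables false
set_option linter.style.haveILetI false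

noncomputable section

namespace Fermat.Agent.RT.K5

open Classical

section orbit

variable {G : Type*} [Group G] {X : Type*} [MulAction G X] (σ : G) (n : ℕ)

theorem k5l_pow_mul_smul (hσ : ∀ x : X, σ ^ n • x = x) (t : ℕ) (x : X) :
    σ ^ (n * t) • x = x := by
  induction t with
  | zero => simp
  | succ t ih => rw [Nat.mul_succ, pow_add, mul_smul, hσ, ih]

theorem k5l_pow_mod_smul (hσ : ∀ x : X, σ ^ n • x = x) (a : ℕ) (x : X) :
    σ ^ (a % n) • x = σ ^ a • x := by
  conv_rhs => rw [← Nat.div_add_mod a n, pow_add, mul_smul]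
  rw [k5l_pow_mul_smul σ n hσ]

theorem k5l_smul_of_modEq (hσ : ∀ x : X, σ ^ n • x = x) {a b : ℕ} (h : a ≡ b [MOD n]) (x : X) :
    σ ^ a • x = σ ^ b • x := by
  rw [← k5l_pow_mod_smul σ n hσ a, ← k5l_pow_mod_smul σ n hσ b, h]

/-- `x` is a free point: `σᵏ x = x` only for `n ∣ k` -/
def k5l_free (x : X) : Prop := ∀ k : ℕ, σ ^ k • x = x → n ∣ k

theorem k5l_free_smul {x : X} (hx : k5l_free σ n x) : k5l_free σ n (σ • x) := by
  intro k hk
  apply hx
  have h1 : σ • (σ ^ k • x) = σ • x := by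
    rw [← mul_smul, ← pow_succ', pow_succ, mul_smul]; exact hk
  exact smul_left_cancel σ h1

theorem k5l_free_pow_smul {x : X} (hx : k5l_free σ n x) (i : ℕ) : k5l_free σ n (σ ^ i • x) := by
  induction i with
  | zero => simpa using hx
  | succ i ih =>
    rw [pow_succ', mul_smul]
    exact k5l_free_smul σ n ih

theorem k5l_free_of_pow_smul {x : X} (i : ℕ) (hx : k5l_free σ n (σ ^ i • x)) : k5l_free σ n x := by
  intro k hk
  apply hx
  rw [← mul_smul, ← pow_add, add_comm, pow_add, mul_smul, hk]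

theorem k5l_free_modEq {x : X} (hx : k5l_free σ n x) {a b : ℕ} (h : σ ^ a • x = σ ^ b • x) :
    a ≡ b [MOD n] := by
  have key : ∀ a b : ℕ, a ≤ b → σ ^ a • x = σ ^ b • x → a ≡ b [MOD n] := by
    intro a b hab h
    obtain ⟨d, rfl⟩ := Nat.exists_eq_add_of_le hab
    rw [pow_add, mul_smul] at h
    have h1 : σ ^ d • x = x := (smul_left_cancel (σ ^ a) h).symm
    obtain ⟨t, ht⟩ := hx d h1
    rw [ht]
    exact (Nat.modEq_iff_dvd' (Nat.le_add_right a (n * t))).2 ⟨t, by omega⟩
  rcases le_total a b with hab | hab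
  · exact key a b hab h
  · exact (key b a hab h.symm).symm

/-- the orbit relation of `σ` -/
def k5l_setoid (hn : 0 < n) (hσ : ∀ x : X, σ ^ n • x = x) : Setoid X where
  r x y := ∃ k : ℕ, σ ^ k • x = y
  iseqv :=
    ⟨fun x => ⟨0, by simp⟩,
      fun {x y} ⟨k, hk⟩ => ⟨(n - 1) * k, by
        rw [← hk, ← mul_smul, ← pow_add]
        have : (n - 1) * k + k = n * k := by
          obtain ⟨m, rfl⟩ : ∃ m, n = m + 1 := ⟨n - 1, by omega⟩
          simp only [Nat.add_sub_cancel]
          ring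
        rw [this, k5l_pow_mul_smul σ n hσ]⟩,
      fun {x y z} ⟨k, hk⟩ ⟨l, hl⟩ => ⟨l + k, by rw [pow_add, mul_smul, hk, hl]⟩⟩

/-- a representative of the orbit of `x` -/
def k5l_rep (hn : 0 < n) (hσ : ∀ x : X, σ ^ n • x = x) (x : X) : X :=
  @Quotient.out X (k5l_setoid σ n hn hσ) (@Quotient.mk X (k5l_setoid σ n hn hσ) x)

theorem k5l_rep_spec (hn : 0 < n) (hσ : ∀ x : X, σ ^ n • x = x) (x : X) :
    ∃ k : ℕ, σ ^ k • k5l_rep σ n hn hσ x = x :=
  @Quotient.mk_out X (k5l_setoid σ n hn hσ) x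

theorem k5l_rep_spec' (hn : 0 < n) (hσ : ∀ x : X, σ ^ n • x = x) (x : X) :
    ∃ k : ℕ, k < n ∧ σ ^ k • x = k5l_rep σ n hn hσ x := by
  obtain ⟨k, hk⟩ := (k5l_setoid σ n hn hσ).symm (k5l_rep_spec σ n hn hσ x)
  exact ⟨k % n, Nat.mod_lt _ hn, by rw [k5l_pow_mod_smul σ n hσ, hk]⟩

theorem k5l_rep_smul (hn : 0 < n) (hσ : ∀ x : X, σ ^ n • x = x) (x : X) :
    k5l_rep σ n hn hσ (σ • x) = k5l_rep σ n hn hσ x := by
  unfold k5l_rep
  congr 1
  apply Quotient.sound
  exact (k5l_setoid σ n hn hσ).symm ⟨1, by simp⟩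

theorem k5l_rep_pow_smul (hn : 0 < n) (hσ : ∀ x : X, σ ^ n • x = x) (i : ℕ) (x : X) :
    k5l_rep σ n hn hσ (σ ^ i • x) = k5l_rep σ n hn hσ x := by
  induction i with
  | zero => simp
  | succ i ih => rw [pow_succ', mul_smul, k5l_rep_smul, ih]

/-- the sum over the orbit is invariant -/
theorem k5l_sum_smul {A : Type*} [AddCommGroup A] (hσ : ∀ x : X, σ ^ n • x = x) (u : X → A)
    (x : X) :
    ∑ i ∈ Finset.range n, u (σ ^ i • (σ • x)) = ∑ i ∈ Finset.range n, u (σ ^ i • x) := by
  have h1 : ∀ i : ℕ, σ ^ i • (σ • x) = σ ^ (i + 1) • x := fun i => by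
    rw [pow_succ, mul_smul]
  simp only [h1]
  have h2 := Finset.sum_range_succ (fun i => u (σ ^ i • x)) n
  have h3 := Finset.sum_range_succ' (fun i => u (σ ^ i • x)) n
  rw [h2] at h3
  simp only [hσ, pow_zero, one_smul] at h3
  exact (add_right_cancel h3).symm

theorem k5l_sum_pow_smul {A : Type*} [AddCommGroup A] (hσ : ∀ x : X, σ ^ n • x = x) (u : X → A)
    (j : ℕ) (x : X) :
    ∑ i ∈ Finset.range n, u (σ ^ i • (σ ^ j • x)) = ∑ i ∈ Finset.range n, u (σ ^ i • x) := by
  induction j with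
  | zero => simp
  | succ j ih => rw [pow_succ', mul_smul, k5l_sum_smul σ n hσ, ih]

end orbit

section stepA

variable {G : Type*} [Group G] {X : Type*} [MulAction G X] (σ : G) (n : ℕ)
  {A B : Type*} [AddCommGroup A] [AddCommGroup B]

/-- **Step A**: lifting on `X` itself. -/
theorem k5l_stepA (hn : 0 < n) (hσ : ∀ x : X, σ ^ n • x = x) (f : A →+ B)
    (hf : Function.Surjective f) (v : X → B)
    (hv : ∀ x, ∑ i ∈ Finset.range n, v (σ ^ i • x) = 0)
    (hfix : ∀ x, ¬ k5l_free σ n x → v x = 0) :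
    ∃ a : X → A, (∀ x, f (a x) = v x) ∧ (∀ x, ∑ i ∈ Finset.range n, a (σ ^ i • x) = 0) ∧
      (∀ x, ¬ k5l_free σ n x → a x = 0) := by
  set ℓ : B → A := Function.surjInv hf with hℓ
  have hfℓ : ∀ b, f (ℓ b) = b := Function.surjInv_eq hf
  set T : X → A := fun x => ∑ i ∈ Finset.range n, ℓ (v (σ ^ i • x)) with hT
  have hfT : ∀ x, f (T x) = 0 := by
    intro x
    rw [hT]
    simp only [map_sum, hfℓ]
    exact hv x
  have hTinv : ∀ (j : ℕ) (x : X), T (σ ^ j • x) = T x := fun j x =>
    k5l_sum_pow_smul σ n hσ (fun y => ℓ (v y)) j x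
  set a : X → A := fun x =>
    if k5l_free σ n x then ℓ (v x) - (if x = k5l_rep σ n hn hσ x then T x else 0) else 0 with ha
  refine ⟨a, fun x => ?_, fun x => ?_, fun x hx => ?_⟩
  · by_cases hx : k5l_free σ n x
    · simp only [ha, if_pos hx]
      by_cases hr : x = k5l_rep σ n hn hσ x
      · rw [if_pos hr, map_sub, hfℓ, hfT, sub_zero]
      · rw [if_neg hr, sub_zero, hfℓ]
    · simp only [ha, if_neg hx, map_zero]
      exact (hfix x hx).symm
  · by_cases hx : k5l_free σ n x
    · have h1 : ∀ i ∈ Finset.range n, a (σ ^ i • x)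
          = ℓ (v (σ ^ i • x)) - (if σ ^ i • x = k5l_rep σ n hn hσ x then T x else 0) := by
        intro i _
        simp only [ha, if_pos (k5l_free_pow_smul σ n hx i), k5l_rep_pow_smul, hTinv]
      rw [Finset.sum_congr rfl h1, Finset.sum_sub_distrib]
      obtain ⟨i₀, hi₀, hi₀x⟩ := k5l_rep_spec' σ n hn hσ x
      have h2 : ∑ i ∈ Finset.range n, (if σ ^ i • x = k5l_rep σ n hn hσ x then T x else 0)
          = T x := by
        rw [Finset.sum_eq_single i₀]
        · rw [if_pos hi₀x]
        · intro i hi hne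
          rw [if_neg]
          intro hix
          apply hne
          have hmod : i ≡ i₀ [MOD n] := k5l_free_modEq σ n hx (hix.trans hi₀x.symm)
          have := Nat.ModEq.eq_of_lt_of_lt hmod (Finset.mem_range.1 hi) hi₀
          exact this
        · intro h
          exact absurd (Finset.mem_range.2 hi₀) h
      rw [h2]
      exact sub_self _
    · apply Finset.sum_eq_zero
      intro i _
      have : ¬ k5l_free σ n (σ ^ i • x) := fun h => hx (k5l_free_of_pow_smul σ n i h)
      simp only [ha, if_neg this]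
  · simp only [ha, if_neg hx]

end stepA

section stepB

variable {G : Type*} [Group G] {X' X : Type*} [MulAction G X'] [MulAction G X] [Fintype X']
  (π : X' → X) (σ : G) (n : ℕ) {A B : Type*} [AddCommGroup A] [AddCommGroup B]

/-- **Step B**: spreading along an equivariant section on the free part. -/
theorem k5l_stepB (hπ : Function.Surjective π) (hπe : ∀ (g : G) (x' : X'), π (g • x') = g • π x')
    (hn : 0 < n) (hσ' : ∀ x' : X', σ ^ n • x' = x') (hσ : ∀ x : X, σ ^ n • x = x)
    (a : X → A) (ha : ∀ x, ∑ i ∈ Finset.range n, a (σ ^ i • x) = 0)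
    (ha0 : ∀ x, ¬ k5l_free σ n x → a x = 0) :
    ∃ w : X' → A, (∀ x', ∑ i ∈ Finset.range n, w (σ ^ i • x') = 0) ∧
      ∀ x, ∑ x' ∈ Finset.univ.filter (fun x' => π x' = x), w x' = a x := by
  set s : X → X' := Function.surjInv hπ with hs
  have hπs : ∀ x, π (s x) = x := Function.surjInv_eq hπ
  -- the exponent
  have hk : ∀ x : X, ∃ k : ℕ, σ ^ k • k5l_rep σ n hn hσ x = x := k5l_rep_spec σ n hn hσ
  choose k hkx using hk
  set st : X → X' := fun x => σ ^ (k x) • s (k5l_rep σ n hn hσ x) with hst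
  have hπst : ∀ x, π (st x) = x := by
    intro x
    rw [hst]
    simp only
    rw [hπe, hπs, hkx]
  have hfree_rep : ∀ x, k5l_free σ n x → k5l_free σ n (k5l_rep σ n hn hσ x) := by
    intro x hx
    apply k5l_free_of_pow_smul σ n (k x)
    rw [hkx]
    exact hx
  have hst_smul : ∀ x, k5l_free σ n x → st (σ • x) = σ • st x := by
    intro x hx
    rw [hst]
    simp only
    rw [k5l_rep_smul, ← mul_smul, ← pow_succ']
    apply k5l_smul_of_modEq σ n hσ'
    apply k5l_free_modEq σ n (hfree_rep x hx)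
    rw [pow_succ', mul_smul, hkx]
    have := hkx (σ • x)
    rw [k5l_rep_smul] at this
    exact this
  have hst_pow : ∀ (i : ℕ) x, k5l_free σ n x → st (σ ^ i • x) = σ ^ i • st x := by
    intro i
    induction i with
    | zero => intro x _; simp
    | succ i ih =>
      intro x hx
      rw [pow_succ', mul_smul, hst_smul _ (k5l_free_pow_smul σ n hx i), ih x hx, mul_smul]
  set w : X' → A := fun x' => if x' = st (π x') then a (π x') else 0 with hw
  refine ⟨w, fun x' => ?_, fun x => ?_⟩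
  · by_cases hx : k5l_free σ n (π x')
    · have h1 : ∀ i ∈ Finset.range n, w (σ ^ i • x')
          = if x' = st (π x') then a (σ ^ i • π x') else 0 := by
        intro i _
        simp only [hw]
        have hπi : π (σ ^ i • x') = σ ^ i • π x' := hπe _ _
        rw [hπi, hst_pow i _ hx]
        by_cases hc : x' = st (π x')
        · rw [if_pos hc, if_pos (congrArg (fun y => σ ^ i • y) hc)]
        · rw [if_neg hc, if_neg]
          intro h
          exact hc (smul_left_cancel _ h)
      rw [Finset.sum_congr rfl h1]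
      by_cases hc : x' = st (π x')
      · simp only [if_pos hc]
        exact ha _
      · simp only [if_neg hc]
        exact Finset.sum_const_zero
    · apply Finset.sum_eq_zero
      intro i _
      have hπi : π (σ ^ i • x') = σ ^ i • π x' := hπe _ _
      have : ¬ k5l_free σ n (π (σ ^ i • x')) := by
        rw [hπi]
        exact fun h => hx (k5l_free_of_pow_smul σ n i h)
      simp only [hw, ha0 _ this, ite_self]
  · rw [Finset.sum_eq_single (st x)]
    · simp only [hw, hπst, if_true]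
    · intro x' hx' hne
      rw [Finset.mem_filter] at hx'
      simp only [hw]
      rw [if_neg]
      rw [hx'.2]
      exact hne
    · intro h
      exfalso
      apply h
      rw [Finset.mem_filter]
      exact ⟨Finset.mem_univ _, hπst x⟩

/-- **the orbit-lifting lemma** -/
theorem k5l_lift (hπ : Function.Surjective π) (hπe : ∀ (g : G) (x' : X'), π (g • x') = g • π x')
    (hn : 0 < n) (hσ' : ∀ x' : X', σ ^ n • x' = x') (f : A →+ B) (hf : Function.Surjective f)
    (v : X → B) (hv : ∀ x, ∑ i ∈ Finset.range n, v (σ ^ i • x) = 0)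
    (hfix : ∀ x, ¬ k5l_free σ n x → v x = 0) :
    ∃ w : X' → A, (∀ x', ∑ i ∈ Finset.range n, w (σ ^ i • x') = 0) ∧
      ∀ x, ∑ x' ∈ Finset.univ.filter (fun x' => π x' = x), f (w x') = v x := by
  have hσ : ∀ x : X, σ ^ n • x = x := by
    intro x
    obtain ⟨x', rfl⟩ := hπ x
    rw [← hπe, hσ']
  obtain ⟨a, ha1, ha2, ha3⟩ := k5l_stepA σ n hn hσ f hf v hv hfix
  obtain ⟨w, hw1, hw2⟩ := k5l_stepB π σ n hπ hπe hn hσ' hσ a ha2 ha3
  refine ⟨w, hw1, fun x => ?_⟩
  rw [← map_sum, hw2, ha1]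

end stepB

end Fermat.Agent.RT.K5

end
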