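/-
RT-K5, pieces K5-S / K5-L (helper22): cocycle lifting.

`X' → X` an equivariant surjection of `SL(2, ℤ)`-sets on which `-1` acts trivially, `f : A → B`
onto, `B` without 2-torsion and (without 3-torsion or `U` without fixed points on `X`).  Then
every cocycle `c : SL(2, ℤ) → (X → B)` is `g ↦ Φ (c' g)` for a cocycle `c' : SL(2, ℤ) → (X' → A)`,
where `Φ w x = Σ_{π x' = x} f (w x')`.
(Lift the values at `S` and `U` orbitwise: `k5l_lift`; extend: `S41.PD.stmtCocExt`; compare:
`S41.PD.IsCoc.ext_SU`.)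
-/
import Fermat.Agent.RT.K5.LiftAbs
import Fermat.Agent.S41.PD.Perfect

set_option autoImplicit false
set_option linter.unusedSectionVars false
set_option linter.unusedVariables false
set_option linter.style.haveILetI false

noncomputable section

namespace Fermat.Agent.RT.K5

open Classical
open scoped MatrixGroups
open ModularGroup (S T)
open Fermat.Agent.S41.PD (rho rho_apply rho_add rho_mul IsCoc U S_mul_S U_mul_U_mul_U rhoHom
  stmtCocExt)

section Phi

variable {G : Type*} [Group G] {X' X : Type*} [MulAction G X'] [MulAction G X] [Fintype X']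
  (π : X' → X) {A B : Type*} [AddCommGroup A] [AddCommGroup B] (f : A →+ B)

/-- `Φ w x = Σ_{π x' = x} f (w x')` -/
def k5l_Phi (w : X' → A) : X → B :=
  fun x => ∑ x' ∈ Finset.univ.filter (fun x' => π x' = x), f (w x')

theorem k5l_Phi_apply (w : X' → A) (x : X) :
    k5l_Phi π f w x = ∑ x' ∈ Finset.univ.filter (fun x' => π x' = x), f (w x') := rfl

theorem k5l_Phi_add (w w' : X' → A) : k5l_Phi π f (w + w') = k5l_Phi π f w + k5l_Phi π f w' := by
  funext x
  simp only [k5l_Phi, Pi.add_apply, map_add, Finset.sum_add_distrib]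

theorem k5l_Phi_rho (hπe : ∀ (g : G) (x' : X'), π (g • x') = g • π x') (g : G) (w : X' → A) :
    k5l_Phi π f (rho g w) = rho g (k5l_Phi π f w) := by
  funext x
  rw [rho_apply]
  simp only [k5l_Phi, rho_apply]
  symm
  refine Finset.sum_bij (fun x' _ => g • x') ?_ ?_ ?_ ?_
  · intro x' hx'
    rw [Finset.mem_filter] at hx' ⊢
    refine ⟨Finset.mem_univ _, ?_⟩
    rw [hπe, hx'.2, smul_inv_smul]
  · intro a _ b _ hab
    exact smul_left_cancel g hab
  · intro x' hx'
    rw [Finset.mem_filter] at hx'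
    refine ⟨g⁻¹ • x', ?_, smul_inv_smul g x'⟩
    rw [Finset.mem_filter]
    exact ⟨Finset.mem_univ _, by rw [hπe, hx'.2]⟩
  · intro x' _
    rw [inv_smul_smul]

theorem k5l_isCoc_Phi (hπe : ∀ (g : G) (x' : X'), π (g • x') = g • π x') {c' : G → X' → A}
    (hc' : IsCoc c') : IsCoc (fun g => k5l_Phi π f (c' g)) := by
  intro g h
  show k5l_Phi π f (c' (g * h)) = k5l_Phi π f (c' g) + rho g (k5l_Phi π f (c' h))
  rw [hc', k5l_Phi_add, k5l_Phi_rho π f hπe]

end Phi

section free

variable {G : Type*} [Group G] {X : Type*} [MulAction G X] (σ : G)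

/-- for `n = 2` a non-free point is a fixed point -/
theorem k5l_fixed_of_not_free_two (hσ : ∀ x : X, σ ^ 2 • x = x) {x : X}
    (hx : ¬ k5l_free σ 2 x) : σ • x = x := by
  unfold k5l_free at hx
  push_neg at hx
  obtain ⟨k, hk, hnd⟩ := hx
  have h1 : σ ^ (k % 2) • x = x := by rw [k5l_pow_mod_smul σ 2 hσ, hk]
  have h2 : k % 2 = 1 := by omega
  rw [h2, pow_one] at h1
  exact h1

/-- for `n = 3` a non-free point is a fixed point -/
theorem k5l_fixed_of_not_free_three (hσ : ∀ x : X, σ ^ 3 • x = x) {x : X}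
    (hx : ¬ k5l_free σ 3 x) : σ • x = x := by
  unfold k5l_free at hx
  push_neg at hx
  obtain ⟨k, hk, hnd⟩ := hx
  have h1 : σ ^ (k % 3) • x = x := by rw [k5l_pow_mod_smul σ 3 hσ, hk]
  have h2 : k % 3 = 1 ∨ k % 3 = 2 := by omega
  rcases h2 with h2 | h2
  · rw [h2, pow_one] at h1
    exact h1
  · rw [h2] at h1
    have h3 : σ ^ 3 • x = σ • x := by
      rw [show (3 : ℕ) = 1 + 2 from rfl, pow_add, mul_smul, h1, pow_one]
    rw [← h3, hσ]

end free

section main

variable {X' X : Type} [MulAction SL(2, ℤ) X'] [MulAction SL(2, ℤ) X] [Fintype X']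
  (π : X' → X) {A B : Type} [AddCommGroup A] [AddCommGroup B] (f : A →+ B)

theorem k5l_rho_neg_one {Y : Type} [MulAction SL(2, ℤ) Y] {R : Type} [AddCommGroup R]
    (hneg : ∀ y : Y, (-1 : SL(2, ℤ)) • y = y) (v : Y → R) : rho (-1 : SL(2, ℤ)) v = v := by
  funext y
  rw [rho_apply]
  have : (-1 : SL(2, ℤ))⁻¹ = -1 := by simp
  rw [this, hneg]

theorem k5l_S_inv_sq : (S⁻¹ : SL(2, ℤ)) ^ 2 = -1 := by
  rw [pow_two, ← mul_inv_rev, S_mul_S]
  simp

theorem k5l_U_inv_cube : (U⁻¹ : SL(2, ℤ)) ^ 3 = -1 := by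
  have h : (U⁻¹ : SL(2, ℤ)) ^ 3 = (U * U * U)⁻¹ := by
    simp only [pow_succ, pow_zero, one_mul, mul_inv_rev, mul_assoc]
  rw [h, U_mul_U_mul_U]
  simp

/-- **cocycle lifting** -/
theorem k5l_coc (hπ : Function.Surjective π)
    (hπe : ∀ (g : SL(2, ℤ)) (x' : X'), π (g • x') = g • π x')
    (hneg' : ∀ x' : X', (-1 : SL(2, ℤ)) • x' = x') (hf : Function.Surjective f)
    (h2 : ∀ b : B, 2 • b = 0 → b = 0)
    (h3 : (∀ b : B, 3 • b = 0 → b = 0) ∨ ∀ x : X, U • x ≠ x)
    (c : SL(2, ℤ) → X → B) (hc : IsCoc c) :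
    ∃ c' : SL(2, ℤ) → X' → A, IsCoc c' ∧ ∀ g, k5l_Phi π f (c' g) = c g := by
  have hneg : ∀ x : X, (-1 : SL(2, ℤ)) • x = x := by
    intro x
    obtain ⟨x', rfl⟩ := hπ x
    rw [← hπe, hneg']
  -- `c (-1) = 0`
  have hc1 : c (-1) = 0 := by
    have h := hc (-1) (-1)
    rw [Fermat.Agent.S41.PD.neg_one_mul_neg_one, hc.map_one, k5l_rho_neg_one hneg] at h
    funext x
    apply h2
    have := congrFun h x
    simp only [Pi.zero_apply, Pi.add_apply] at this
    rw [two_nsmul]
    exact this.symm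
  have hcS : c S + rho S (c S) = 0 := by rw [← hc, S_mul_S, hc1]
  have hcU : c U + rho U (c U) + rho U (rho U (c U)) = 0 := by
    have h := hc U (U * U)
    rw [hc U U, ← mul_assoc, U_mul_U_mul_U, hc1, rho_add] at h
    rw [h]
    abel
  -- the values at `S`
  have hS2' : ∀ x' : X', (S⁻¹ : SL(2, ℤ)) ^ 2 • x' = x' := fun x' => by
    rw [k5l_S_inv_sq, hneg']
  have hS2 : ∀ x : X, (S⁻¹ : SL(2, ℤ)) ^ 2 • x = x := fun x => by
    rw [k5l_S_inv_sq, hneg]
  have hU3' : ∀ x' : X', (U⁻¹ : SL(2, ℤ)) ^ 3 • x' = x' := fun x' => by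
    rw [k5l_U_inv_cube, hneg']
  have hU3 : ∀ x : X, (U⁻¹ : SL(2, ℤ)) ^ 3 • x = x := fun x => by
    rw [k5l_U_inv_cube, hneg]
  have hvS : ∀ x, ∑ i ∈ Finset.range 2, c S ((S⁻¹ : SL(2, ℤ)) ^ i • x) = 0 := by
    intro x
    have := congrFun hcS x
    simp only [Pi.add_apply, rho_apply, Pi.zero_apply] at this
    rw [Finset.sum_range_succ, Finset.sum_range_one, pow_zero, one_smul, pow_one]
    exact this
  have hvU : ∀ x, ∑ i ∈ Finset.range 3, c U ((U⁻¹ : SL(2, ℤ)) ^ i • x) = 0 := by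
    intro x
    have := congrFun hcU x
    simp only [Pi.add_apply, rho_apply, Pi.zero_apply] at this
    rw [Finset.sum_range_succ, Finset.sum_range_succ, Finset.sum_range_one, pow_zero, one_smul,
      pow_one, pow_two, mul_smul]
    exact this
  have hfixS : ∀ x, ¬ k5l_free (S⁻¹ : SL(2, ℤ)) 2 x → c S x = 0 := by
    intro x hx
    have hfx := k5l_fixed_of_not_free_two (S⁻¹ : SL(2, ℤ)) hS2 hx
    have := hvS x
    rw [Finset.sum_range_succ, Finset.sum_range_one, pow_zero, one_smul, pow_one, hfx] at this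
    apply h2
    rw [two_nsmul]
    exact this
  have hfixU : ∀ x, ¬ k5l_free (U⁻¹ : SL(2, ℤ)) 3 x → c U x = 0 := by
    intro x hx
    have hfx := k5l_fixed_of_not_free_three (U⁻¹ : SL(2, ℤ)) hU3 hx
    rcases h3 with h3 | h3
    · have := hvU x
      rw [Finset.sum_range_succ, Finset.sum_range_succ, Finset.sum_range_one, pow_zero, one_smul,
        pow_one, pow_two, mul_smul, hfx, hfx] at this
      apply h3
      rw [show (3 : ℕ) = 2 + 1 from rfl, add_nsmul, two_nsmul, one_nsmul]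
      exact this
    · exfalso
      apply h3 x
      have := congrArg (fun y => U • y) hfx
      simp only [smul_inv_smul] at this
      exact this.symm
  obtain ⟨wS, hwS, hwSΦ⟩ := k5l_lift π (S⁻¹ : SL(2, ℤ)) 2 hπ hπe (by norm_num) hS2' f hf (c S)
    hvS hfixS
  obtain ⟨wU, hwU, hwUΦ⟩ := k5l_lift π (U⁻¹ : SL(2, ℤ)) 3 hπ hπe (by norm_num) hU3' f hf (c U)
    hvU hfixU
  have hwS' : wS + rho S wS = 0 := by
    funext x'
    have := hwS x'
    rw [Finset.sum_range_succ, Finset.sum_range_one, pow_zero, one_smul, pow_one] at this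
    simp only [Pi.add_apply, rho_apply, Pi.zero_apply]
    exact this
  have hwU' : wU + rho U wU + rho U (rho U wU) = 0 := by
    funext x'
    have := hwU x'
    rw [Finset.sum_range_succ, Finset.sum_range_succ, Finset.sum_range_one, pow_zero, one_smul,
      pow_one, pow_two, mul_smul] at this
    simp only [Pi.add_apply, rho_apply, Pi.zero_apply]
    exact this
  have hρneg : rhoHom SL(2, ℤ) X' A (-1) = 1 := by
    ext v x'
    show rho (-1 : SL(2, ℤ)) v x' = v x'
    rw [k5l_rho_neg_one hneg']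
  obtain ⟨c', hc', hc'S, hc'U⟩ :=
    stmtCocExt (X' → A) (rhoHom SL(2, ℤ) X' A) hρneg wS wU hwS' hwU'
  have hc'coc : IsCoc c' := fun g h => hc' g h
  refine ⟨c', hc'coc, ?_⟩
  have hΦ : IsCoc (fun g => k5l_Phi π f (c' g)) := k5l_isCoc_Phi π f hπe hc'coc
  have heq : (fun g => k5l_Phi π f (c' g)) = c := by
    apply Fermat.Agent.S41.PD.IsCoc.ext_SU hΦ hc
    · show k5l_Phi π f (c' S) = c S
      rw [hc'S]
      funext x
      exact hwSΦ x
    · show k5l_Phi π f (c' U) = c U
      rw [hc'U]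
      funext x
      exact hwUΦ x
  intro g
  exact congrFun heq g

end main

end Fermat.Agent.RT.K5

end
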