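/-
RT-K5, piece K5-S (helper22): `cores : Hom(Γ', A) → Hom(Γ, A)` is onto.
(Shapiro + cocycle lifting `k5l_coc` along `SL(2, ℤ) ⧸ Γ' → SL(2, ℤ) ⧸ Γ`.)
-/
import Fermat.Agent.RT.K5.Plan
import Fermat.Agent.RT.K5.LiftCoc
import Fermat.Agent.S41.PD.Transfer

set_option autoImplicit false
set_option linter.unusedSectionVars false
set_option linter.unusedVariables false
set_option linter.style.haveILetI false

noncomputable section

namespace Fermat.Agent.RT.K5

open Classical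
open CongruenceSubgroup Matrix
open scoped MatrixGroups
open Fermat.Agent.ES1 (gammaH diamHom pmH)
open Fermat.Agent.S41.PD (rho IsCoc U Represents push)

section general

variable {Γ' Γ : Subgroup SL(2, ℤ)}

theorem k5s_proj_surjective (hle : Γ' ≤ Γ) :
    Function.Surjective (Subgroup.quotientMapOfLE hle) := by
  intro q
  induction q using QuotientGroup.induction_on with
  | H g => exact ⟨(g : SL(2, ℤ) ⧸ Γ'), rfl⟩

theorem k5s_U_smul_ne (hU : ∀ g : SL(2, ℤ), g⁻¹ * U * g ∉ Γ) (x : SL(2, ℤ) ⧸ Γ) : U • x ≠ x := by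
  induction x using QuotientGroup.induction_on with
  | H g =>
    intro h
    have h1 : (((U * g : SL(2, ℤ))) : SL(2, ℤ) ⧸ Γ) = (g : SL(2, ℤ) ⧸ Γ) := h
    rw [QuotientGroup.eq] at h1
    apply hU g
    have h2 := inv_mem h1
    have h3 : ((U * g)⁻¹ * g)⁻¹ = g⁻¹ * U * g := by group
    rw [h3] at h2
    exact h2

/-- **cores is onto** (general form) -/
theorem k5s_cores_surj (hle : Γ' ≤ Γ) [Γ'.FiniteIndex]
    [(Subgroup.inclusion hle).range.FiniteIndex] (hneg : (-1 : SL(2, ℤ)) ∈ Γ')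
    (A : Type) [AddCommGroup A] (h2 : ∀ a : A, 2 • a = 0 → a = 0)
    (h3 : (∀ a : A, 3 • a = 0 → a = 0) ∨ ∀ g : SL(2, ℤ), g⁻¹ * U * g ∉ Γ)
    (φ : HomS Γ A) : ∃ ψ : HomS Γ' A, coresS A hle ψ = φ := by
  letI : Fintype (SL(2, ℤ) ⧸ Γ') := Subgroup.fintypeQuotientOfFiniteIndex
  obtain ⟨c, hc⟩ := Fermat.Agent.S41.PD.exists_represents (Γ := Γ) φ
  have h3' : (∀ a : A, 3 • a = 0 → a = 0) ∨ ∀ x : SL(2, ℤ) ⧸ Γ, U • x ≠ x := by
    rcases h3 with h3 | h3
    · exact Or.inl h3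
    · exact Or.inr (k5s_U_smul_ne h3)
  obtain ⟨c', hc', hΦ⟩ := k5l_coc (Subgroup.quotientMapOfLE hle) (AddMonoidHom.id A)
    (k5s_proj_surjective hle) (fun g x' => Fermat.Agent.S41.PD.proj_smul hle g x')
    (fun x' => Fermat.Agent.S41.PD.neg_one_smul_eq hneg x') (fun a => ⟨a, rfl⟩) h2 h3' c hc.1
  obtain ⟨ψ, hψ⟩ := hc'.exists_represents (Γ := Γ')
  refine ⟨ψ, ?_⟩
  have hmem : ∀ γ : Γ, γ ∈ (Subgroup.inclusion hle).range ↔ (γ : SL(2, ℤ)) ∈ Γ' := by
    intro γ
    constructor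
    · rintro ⟨y, rfl⟩
      exact y.2
    · intro hx
      exact ⟨⟨γ, hx⟩, Subtype.ext rfl⟩
  have hrep := Fermat.Agent.S41.PD.represents_transferAlong hle (Subgroup.inclusion hle)
    (Subgroup.inclusion_injective hle) hmem (A := A) ψ ψ (fun h hh => rfl) hψ
  have hpush : (fun g => push hle (c' g)) = c := by
    funext g
    rw [← hΦ g]
    funext x
    unfold push k5l_Phi
    refine Finset.sum_congr ?_ (fun _ _ => rfl)
    ext q₁
    simp only [Finset.mem_filter, Finset.mem_univ, true_and]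
  rw [hpush] at hrep
  exact Fermat.Agent.S41.PD.Represents.unique hrep hc

end general

/-- **K5-S.** -/
theorem stmtCoresSurj : StmtCoresSurj := by
  intro L M _ _ H' H hle A _ hNT φ
  exact k5s_cores_surj (Fermat.Agent.ES1.gammaH_mono hle)
    (Fermat.Agent.ES1.neg_one_mem_gammaH L M H') A hNT.1 hNT.2 φ

end Fermat.Agent.RT.K5

end
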