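import Fermat.Agent.RT.K5.Coef

/-!
# RT-K5, piece K5-COUNT: the `Θ`-parts with coefficients `𝒪/𝔪ⁿ`

`𝒪` a discrete valuation ring with finite residue field, `𝔪 = (λ)`.
* `k5cn_mulQ` : multiplication by `λᵃ`, `𝒪/𝔪ᵇ → 𝒪/𝔪ᶜ` (`c = a + b`), injective
  (`k5cn_mulQ_injective`), with image the kernel of `redQ : 𝒪/𝔪ᶜ → 𝒪/𝔪ᵃ` (`k5cn_red_mulQ`,
  `k5cn_exact`);
* `k5cn_finite` : `𝒪/𝔪ⁿ` is finite;
* `stmtCount_of : StmtCoeffExact → StmtCount`, `stmtCount : StmtCount`.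
-/

set_option autoImplicit false
set_option linter.style.haveILetI false
set_option linter.unusedSectionVars false
set_option linter.unusedVariables false

noncomputable section

namespace Fermat.Agent.RT.K5

open CongruenceSubgroup Matrix
open scoped MatrixGroups
open Fermat.Agent.ES1 (gammaH diamHom pmH)

section algebra

variable {𝒪 : Type} [CommRing 𝒪] (I : Ideal 𝒪) (lam : 𝒪)

theorem k5cn_redQ_mk {m n : ℕ} (h : m ≤ n) (x : 𝒪) :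
    redQ I h (Submodule.Quotient.mk x) = Submodule.Quotient.mk x := rfl

theorem k5cn_redQ_surjective {m n : ℕ} (h : m ≤ n) : Function.Surjective (redQ I h) := by
  intro y
  obtain ⟨y, rfl⟩ := Submodule.Quotient.mk_surjective _ y
  exact ⟨Submodule.Quotient.mk y, rfl⟩

theorem k5cn_pow_mem (hI : I = Ideal.span {lam}) (a : ℕ) : lam ^ a ∈ I ^ a :=
  Ideal.pow_mem_pow (hI ▸ Ideal.mem_span_singleton_self lam) a

theorem k5cn_mem_pow (hI : I = Ideal.span {lam}) (a : ℕ) (x : 𝒪) :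
    x ∈ I ^ a ↔ ∃ y, y * lam ^ a = x := by
  rw [hI, Ideal.span_singleton_pow, Ideal.mem_span_singleton']

/-- multiplication by `λᵃ` : `𝒪/Iᵇ → 𝒪/Iᶜ`, `c = a + b` -/
def k5cn_mulQ (hI : I = Ideal.span {lam}) (a : ℕ) {b c : ℕ} (h : c = a + b) :
    (𝒪 ⧸ I ^ b) →ₗ[𝒪] (𝒪 ⧸ I ^ c) :=
  Submodule.mapQ (I ^ b) (I ^ c) (LinearMap.lsmul 𝒪 𝒪 (lam ^ a)) (by
    intro x hx
    rw [Submodule.mem_comap]
    show lam ^ a * x ∈ I ^ c
    rw [h, pow_add]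
    exact Ideal.mul_mem_mul (k5cn_pow_mem I lam hI a) hx)

theorem k5cn_mulQ_mk (hI : I = Ideal.span {lam}) (a : ℕ) {b c : ℕ} (h : c = a + b) (x : 𝒪) :
    k5cn_mulQ I lam hI a h (Submodule.Quotient.mk x) = Submodule.Quotient.mk (lam ^ a * x) := rfl

theorem k5cn_mulQ_injective [IsDomain 𝒪] (hI : I = Ideal.span {lam}) (hlam : lam ≠ 0) (a : ℕ)
    {b c : ℕ} (h : c = a + b) : Function.Injective (k5cn_mulQ I lam hI a h) := by
  rw [injective_iff_map_eq_zero]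
  intro x hx
  obtain ⟨x, rfl⟩ := Submodule.Quotient.mk_surjective _ x
  rw [k5cn_mulQ_mk, Submodule.Quotient.mk_eq_zero] at hx
  rw [Submodule.Quotient.mk_eq_zero]
  rw [k5cn_mem_pow I lam hI] at hx ⊢
  obtain ⟨y, hy⟩ := hx
  refine ⟨y, ?_⟩
  apply mul_left_cancel₀ (pow_ne_zero a hlam)
  rw [← hy, h, pow_add]
  ring

theorem k5cn_red_mulQ (hI : I = Ideal.span {lam}) (a : ℕ) {b c : ℕ} (h : c = a + b)
    (hac : a ≤ c) (x : 𝒪 ⧸ I ^ b) : redQ I hac (k5cn_mulQ I lam hI a h x) = 0 := by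
  obtain ⟨x, rfl⟩ := Submodule.Quotient.mk_surjective _ x
  rw [k5cn_mulQ_mk, k5cn_redQ_mk, Submodule.Quotient.mk_eq_zero]
  exact Ideal.mul_mem_right _ _ (k5cn_pow_mem I lam hI a)

theorem k5cn_exact (hI : I = Ideal.span {lam}) (a : ℕ) {b c : ℕ} (h : c = a + b)
    (hac : a ≤ c) (y : 𝒪 ⧸ I ^ c) (hy : redQ I hac y = 0) :
    ∃ x, k5cn_mulQ I lam hI a h x = y := by
  obtain ⟨y, rfl⟩ := Submodule.Quotient.mk_surjective _ y
  rw [k5cn_redQ_mk, Submodule.Quotient.mk_eq_zero, k5cn_mem_pow I lam hI] at hy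
  obtain ⟨z, hz⟩ := hy
  refine ⟨Submodule.Quotient.mk z, ?_⟩
  rw [k5cn_mulQ_mk, ← hz, mul_comm]

theorem k5cn_exact_iff (hI : I = Ideal.span {lam}) (a : ℕ) {b c : ℕ} (h : c = a + b)
    (hac : a ≤ c) (y : 𝒪 ⧸ I ^ c) :
    redQ I hac y = 0 ↔ ∃ x, k5cn_mulQ I lam hI a h x = y :=
  ⟨k5cn_exact I lam hI a h hac y, by rintro ⟨x, rfl⟩; exact k5cn_red_mulQ I lam hI a h hac x⟩

/-- `λ · = (λ ·) ∘ red` on `𝒪/Iᶜ` -/
theorem k5cn_mulQ_red (hI : I = Ideal.span {lam}) {b c : ℕ} (h : c = 1 + b) (hbc : b ≤ c)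
    (y : 𝒪 ⧸ I ^ c) : k5cn_mulQ I lam hI 1 h (redQ I hbc y) = lam • y := by
  obtain ⟨y, rfl⟩ := Submodule.Quotient.mk_surjective _ y
  rw [k5cn_redQ_mk, k5cn_mulQ_mk, pow_one]
  rfl

theorem k5cn_finite (hI : I = Ideal.span {lam}) [Finite (𝒪 ⧸ I)] (n : ℕ) :
    Finite (𝒪 ⧸ I ^ n) :=
  Ideal.finite_quotient_pow (hI ▸ ⟨{lam}, by simp⟩) n

end algebra

section count

variable {Γ : Subgroup SL(2, ℤ)}

theorem k5cn_subsingleton_homS (A : Type*) [AddCommGroup A] [Subsingleton A] :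
    Subsingleton (HomS Γ A) :=
  ⟨fun φ ψ => AddMonoidHom.ext fun γ => Subsingleton.elim _ _⟩

theorem k5cn_card_eq_one {V : Type*} [AddCommGroup V] [Subsingleton V] (S : AddSubgroup V) :
    Nat.card S = 1 := by
  haveI : Subsingleton S := ⟨fun a b => Subtype.ext (Subsingleton.elim _ _)⟩
  exact Nat.card_unique

end count

/-- **K5-COUNT** from **K5-COEF**. -/
theorem stmtCount_of (hC : StmtCoeffExact) : StmtCount := by
  intro 𝒪 _ _ _ _ lam hlam L M ℓ₀ _ _ _ 𝔲 K hNT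
  have hlam0 : lam ≠ 0 := by
    rintro rfl
    apply IsDiscreteValuationRing.not_a_field 𝒪
    rw [hlam]
    simp
  haveI : Finite (𝒪 ⧸ IsLocalRing.maximalIdeal 𝒪) := ‹Finite (IsLocalRing.ResidueField 𝒪)›
  have hfin : ∀ n : ℕ, Finite (𝒪 ⧸ IsLocalRing.maximalIdeal 𝒪 ^ n) :=
    fun n => k5cn_finite (IsLocalRing.maximalIdeal 𝒪) lam hlam n
  -- the two families of exact sequences
  have key : ∀ (a b c : ℕ) (h : c = a + b) (hac : a ≤ c),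
      (∀ w ∈ etaPart (thetaN 𝔲 ℓ₀ (𝒪 ⧸ IsLocalRing.maximalIdeal 𝒪 ^ a) K),
        ∃ v ∈ etaPart (thetaN 𝔲 ℓ₀ (𝒪 ⧸ IsLocalRing.maximalIdeal 𝒪 ^ c) K),
        mapS (redQ (IsLocalRing.maximalIdeal 𝒪) hac).toAddMonoidHom v = w) ∧
      (∀ v ∈ etaPart (thetaN 𝔲 ℓ₀ (𝒪 ⧸ IsLocalRing.maximalIdeal 𝒪 ^ c) K),
        mapS (redQ (IsLocalRing.maximalIdeal 𝒪) hac).toAddMonoidHom v = 0 →
        ∃ u ∈ etaPart (thetaN 𝔲 ℓ₀ (𝒪 ⧸ IsLocalRing.maximalIdeal 𝒪 ^ b) K),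
          mapS (k5cn_mulQ (IsLocalRing.maximalIdeal 𝒪) lam hlam a h).toAddMonoidHom u = v) ∧
      Nat.card (etaPart (thetaN 𝔲 ℓ₀ (𝒪 ⧸ IsLocalRing.maximalIdeal 𝒪 ^ c) K)) =
        Nat.card (etaPart (thetaN 𝔲 ℓ₀ (𝒪 ⧸ IsLocalRing.maximalIdeal 𝒪 ^ b) K)) *
          Nat.card (etaPart (thetaN 𝔲 ℓ₀ (𝒪 ⧸ IsLocalRing.maximalIdeal 𝒪 ^ a) K)) := by
    intro a b c h hac
    haveI := hfin a
    haveI := hfin b
    haveI := hfin c
    exact hC 𝒪 L M ℓ₀ 𝔲 K (𝒪 ⧸ IsLocalRing.maximalIdeal 𝒪 ^ b)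
      (𝒪 ⧸ IsLocalRing.maximalIdeal 𝒪 ^ c) (𝒪 ⧸ IsLocalRing.maximalIdeal 𝒪 ^ a)
      (k5cn_mulQ (IsLocalRing.maximalIdeal 𝒪) lam hlam a h)
      (redQ (IsLocalRing.maximalIdeal 𝒪) hac)
      (k5cn_mulQ_injective (IsLocalRing.maximalIdeal 𝒪) lam hlam hlam0 a h)
      (k5cn_redQ_surjective (IsLocalRing.maximalIdeal 𝒪) hac)
      (fun y => k5cn_exact_iff (IsLocalRing.maximalIdeal 𝒪) lam hlam a h hac y) (hNT a)
  -- the cardinalities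
  have hcard : ∀ n : ℕ,
      Nat.card (etaPart (thetaN 𝔲 ℓ₀ (𝒪 ⧸ IsLocalRing.maximalIdeal 𝒪 ^ n) K)) =
      Nat.card (etaPart (thetaN 𝔲 ℓ₀ (𝒪 ⧸ IsLocalRing.maximalIdeal 𝒪 ^ 1) K)) ^ n := by
    intro n
    induction n with
    | zero =>
      haveI : Subsingleton (𝒪 ⧸ IsLocalRing.maximalIdeal 𝒪 ^ 0) := by
        rw [Ideal.Quotient.subsingleton_iff, pow_zero, Ideal.one_eq_top]
      haveI : Subsingleton (HomS (gammaH L M K) (𝒪 ⧸ IsLocalRing.maximalIdeal 𝒪 ^ 0)) :=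
        k5cn_subsingleton_homS _
      exact (k5cn_card_eq_one _).trans (pow_zero _).symm
    | succ n ih =>
      refine (key n 1 (n + 1) rfl (Nat.le_succ n)).2.2.trans ?_
      rw [ih]
      exact (pow_succ' _ n).symm
  intro n
  refine ⟨hcard n, fun h1 => ⟨?_, ?_⟩⟩
  · -- surjectivity of the reduction
    exact (key 1 (n - 1) n (by omega) h1).1
  · -- the kernel of the reduction
    intro v hv h0
    have hn : n = 1 + (n - 1) := by omega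
    have hle : n - 1 ≤ n := Nat.sub_le n 1
    obtain ⟨u, hu, huv⟩ := (key 1 (n - 1) n hn h1).2.1 v hv h0
    obtain ⟨v', hv', hv'u⟩ := (key (n - 1) 1 n (by omega) hle).1 u hu
    refine ⟨v', hv', ?_⟩
    rw [← huv, ← hv'u]
    refine AddMonoidHom.ext fun γ => ?_
    exact k5cn_mulQ_red (IsLocalRing.maximalIdeal 𝒪) lam hlam hn hle (v' γ)

/-- **K5-COUNT.** -/
theorem stmtCount : StmtCount := stmtCount_of stmtCoeffExact

end Fermat.Agent.RT.K5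

end
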