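import Fermat.Agent.RT.K5.Plan5
import Fermat.Agent.RT.K5.DegComm
import Fermat.Agent.RT.K5.UQ2

/-!
# RT-K5, piece DEGFAM: the constructors of `DegFam` — `stmtDegFam : StmtDegFam`

`DegFam 𝒪 L M q`: a pair of Hecke operators on the levels `L`, `L q` commuting with the four
degeneracy maps at `q`, with `T_q` (level `L`) and with `U_q` (level `L q`).

* `k5dg_hecke`  : `T_ℓ'` / `U_ℓ'` for a prime `ℓ' ≠ q` (`stmtDegComm`, `stmtCommTU`);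
* `k5dg_coeff`  : a scalar `c ∈ 𝒪` (`k5nat_*`);
* `k5dg_add`, `k5dg_comp` : sums and composites;
* `k5dg_one`    : the trivial pair.
-/

set_option autoImplicit false
set_option linter.style.haveILetI false
set_option linter.unusedSectionVars false
set_option linter.unusedVariables false

noncomputable section

namespace Fermat.Agent.RT.K5

open CongruenceSubgroup Matrix
open scoped MatrixGroups
open Fermat.Agent.ES1 (gammaH diamHom pmH)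

section constructors

variable (𝒪 : Type) [CommRing 𝒪] (L M q : ℕ) [NeZero L] [NeZero q] [hML : Fact (M ∣ L)]
  [hMLq : Fact (M ∣ L * q)]

/-- the pair `(T_ℓ', T_ℓ')` resp. `(U_ℓ', U_ℓ')`, `ℓ' ≠ q` prime -/
def k5dg_hecke (hq : q.Prime) (hqL : ¬ q ∣ L) (ℓ' : ℕ) [NeZero ℓ'] (hℓ' : ℓ'.Prime)
    (hne : ℓ' ≠ q) : DegFam 𝒪 L M q where
  lo := NatFam.hecke 𝒪 L M ℓ'
  hi := NatFam.hecke 𝒪 (L * q) M ℓ'
  res_comm A _ _ H φ := (stmtDegComm L M q ℓ' H A hq hℓ' hne.symm hqL).1 φ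
  resD_comm A _ _ H φ := (stmtDegComm L M q ℓ' H A hq hℓ' hne.symm hqL).2.1 φ
  cores_comm A _ _ H ψ := (stmtDegComm L M q ℓ' H A hq hℓ' hne.symm hqL).2.2.1 ψ
  coresD_comm A _ _ H ψ := (stmtDegComm L M q ℓ' H A hq hℓ' hne.symm hqL).2.2.2 ψ
  t_comm A _ _ H φ := (stmtCommTU L M q ℓ' H A hq hℓ' φ).1
  u_comm A _ _ H ψ := (stmtCommTU (L * q) M q ℓ' H A hq hℓ' ψ).1

/-- the pair `(c, c)`, `c ∈ 𝒪` -/
def k5dg_coeff (c : 𝒪) : DegFam 𝒪 L M q where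
  lo := NatFam.coeff 𝒪 L M c
  hi := NatFam.coeff 𝒪 (L * q) M c
  res_comm A _ _ H φ := rfl
  resD_comm A _ _ H φ := rfl
  cores_comm A _ _ H ψ := (k5nat_coresH L M (DistribSMul.toAddMonoidHom A c) q H ψ).symm
  coresD_comm A _ _ H ψ := (k5nat_coresDH L M (DistribSMul.toAddMonoidHom A c) q H ψ).symm
  t_comm A _ _ H φ := (k5nat_tS L M (DistribSMul.toAddMonoidHom A c) q H φ).symm
  u_comm A _ _ H ψ := (k5nat_tS (L * q) M (DistribSMul.toAddMonoidHom A c) q H ψ).symm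

/-- the trivial pair -/
def k5dg_one : DegFam 𝒪 L M q where
  lo := NatFam.one 𝒪 L M
  hi := NatFam.one 𝒪 (L * q) M
  res_comm A _ _ H φ := rfl
  resD_comm A _ _ H φ := rfl
  cores_comm A _ _ H ψ := rfl
  coresD_comm A _ _ H ψ := rfl
  t_comm A _ _ H φ := rfl
  u_comm A _ _ H ψ := rfl

variable {𝒪 L M q}

/-- the sum of two pairs -/
def k5dg_add (𝔡₁ 𝔡₂ : DegFam 𝒪 L M q) : DegFam 𝒪 L M q where
  lo := 𝔡₁.lo.add 𝔡₂.lo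
  hi := 𝔡₁.hi.add 𝔡₂.hi
  res_comm A _ _ H φ := by
    show resH L M q H A ((𝔡₁.lo.fam A).op H φ + (𝔡₂.lo.fam A).op H φ)
      = (𝔡₁.hi.fam A).op H (resH L M q H A φ) + (𝔡₂.hi.fam A).op H (resH L M q H A φ)
    rw [map_add, 𝔡₁.res_comm, 𝔡₂.res_comm]
  resD_comm A _ _ H φ := by
    show resDH L M q H A ((𝔡₁.lo.fam A).op H φ + (𝔡₂.lo.fam A).op H φ)
      = (𝔡₁.hi.fam A).op H (resDH L M q H A φ) + (𝔡₂.hi.fam A).op H (resDH L M q H A φ)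
    rw [map_add, 𝔡₁.resD_comm, 𝔡₂.resD_comm]
  cores_comm A _ _ H ψ := by
    show coresH L M q H A ((𝔡₁.hi.fam A).op H ψ + (𝔡₂.hi.fam A).op H ψ)
      = (𝔡₁.lo.fam A).op H (coresH L M q H A ψ) + (𝔡₂.lo.fam A).op H (coresH L M q H A ψ)
    rw [map_add, 𝔡₁.cores_comm, 𝔡₂.cores_comm]
  coresD_comm A _ _ H ψ := by
    show coresDH L M q H A ((𝔡₁.hi.fam A).op H ψ + (𝔡₂.hi.fam A).op H ψ)
      = (𝔡₁.lo.fam A).op H (coresDH L M q H A ψ) + (𝔡₂.lo.fam A).op H (coresDH L M q H A ψ)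
    rw [map_add, 𝔡₁.coresD_comm, 𝔡₂.coresD_comm]
  t_comm A _ _ H φ := by
    show tS L M q H A ((𝔡₁.lo.fam A).op H φ + (𝔡₂.lo.fam A).op H φ)
      = (𝔡₁.lo.fam A).op H (tS L M q H A φ) + (𝔡₂.lo.fam A).op H (tS L M q H A φ)
    rw [map_add, 𝔡₁.t_comm, 𝔡₂.t_comm]
  u_comm A _ _ H ψ := by
    show tS (L * q) M q H A ((𝔡₁.hi.fam A).op H ψ + (𝔡₂.hi.fam A).op H ψ)
      = (𝔡₁.hi.fam A).op H (tS (L * q) M q H A ψ) + (𝔡₂.hi.fam A).op H (tS (L * q) M q H A ψ)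
    rw [map_add, 𝔡₁.u_comm, 𝔡₂.u_comm]

/-- the composite of two pairs -/
def k5dg_comp (𝔡₁ 𝔡₂ : DegFam 𝒪 L M q) : DegFam 𝒪 L M q where
  lo := 𝔡₁.lo.comp 𝔡₂.lo
  hi := 𝔡₁.hi.comp 𝔡₂.hi
  res_comm A _ _ H φ := by
    show resH L M q H A ((𝔡₁.lo.fam A).op H ((𝔡₂.lo.fam A).op H φ))
      = (𝔡₁.hi.fam A).op H ((𝔡₂.hi.fam A).op H (resH L M q H A φ))
    rw [𝔡₁.res_comm, 𝔡₂.res_comm]
  resD_comm A _ _ H φ := by
    show resDH L M q H A ((𝔡₁.lo.fam A).op H ((𝔡₂.lo.fam A).op H φ))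
      = (𝔡₁.hi.fam A).op H ((𝔡₂.hi.fam A).op H (resDH L M q H A φ))
    rw [𝔡₁.resD_comm, 𝔡₂.resD_comm]
  cores_comm A _ _ H ψ := by
    show coresH L M q H A ((𝔡₁.hi.fam A).op H ((𝔡₂.hi.fam A).op H ψ))
      = (𝔡₁.lo.fam A).op H ((𝔡₂.lo.fam A).op H (coresH L M q H A ψ))
    rw [𝔡₁.cores_comm, 𝔡₂.cores_comm]
  coresD_comm A _ _ H ψ := by
    show coresDH L M q H A ((𝔡₁.hi.fam A).op H ((𝔡₂.hi.fam A).op H ψ))
      = (𝔡₁.lo.fam A).op H ((𝔡₂.lo.fam A).op H (coresDH L M q H A ψ))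
    rw [𝔡₁.coresD_comm, 𝔡₂.coresD_comm]
  t_comm A _ _ H φ := by
    show tS L M q H A ((𝔡₁.lo.fam A).op H ((𝔡₂.lo.fam A).op H φ))
      = (𝔡₁.lo.fam A).op H ((𝔡₂.lo.fam A).op H (tS L M q H A φ))
    rw [𝔡₁.t_comm, 𝔡₂.t_comm]
  u_comm A _ _ H ψ := by
    show tS (L * q) M q H A ((𝔡₁.hi.fam A).op H ((𝔡₂.hi.fam A).op H ψ))
      = (𝔡₁.hi.fam A).op H ((𝔡₂.hi.fam A).op H (tS (L * q) M q H A ψ))
    rw [𝔡₁.u_comm, 𝔡₂.u_comm]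

end constructors

/-- **K5-DEGFAM** -/
theorem stmtDegFam : StmtDegFam := by
  intro 𝒪 _ L M q _ _ hML hMLq hq hqL
  exact ⟨fun ℓ' _ hℓ' hne => ⟨k5dg_hecke 𝒪 L M q hq hqL ℓ' hℓ' hne, rfl, rfl⟩,
    fun c => ⟨k5dg_coeff 𝒪 L M q c, rfl, rfl⟩,
    fun 𝔡₁ 𝔡₂ => ⟨k5dg_add 𝔡₁ 𝔡₂, rfl, rfl⟩,
    fun 𝔡₁ 𝔡₂ => ⟨k5dg_comp 𝔡₁ 𝔡₂, rfl, rfl⟩⟩

end Fermat.Agent.RT.K5
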