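import Mathlib
import Fermat.Agent.S41.TransferFormula
import Fermat.Agent.S41.NewU

/-!
# RT-K5, piece E2 (abstract part): extension of invariant homomorphisms and the transgression

`Γ' ≤ Γ ≤ G`, `Γ'` normalised by `Γ`, `χ : Γ' → A` invariant under conjugation by `Γ`.
* `k5e_pow_mul`  : `(g x)ⁿ = gⁿ y` with `χ y = n χ x` (`g ∈ Γ`, `x ∈ Γ'`);
* `k5e_extend`   : if `Γ/Γ'` is generated by `g₀` of order `m` and `χ (g₀ᵐ) = 0` then `χ` extends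
                   to `Γ`;
* `k5e_transfer_pow` : the transfer computation behind `τ(T_ℓ ψ) = (ℓ + 1) τ(ψ)`.
-/

set_option autoImplicit false
set_option linter.style.haveILetI false
set_option linter.unusedSectionVars false
set_option linter.unusedVariables false

noncomputable section

namespace Fermat.Agent.RT.K5

variable {G : Type*} [Group G] {Γ' Γ : Subgroup G} {A : Type*} [AddCommGroup A]

/-- `χ : Γ' → A` is invariant under conjugation by `Γ`. -/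
def k5e_Inv (Γ' Γ : Subgroup G) (χ : Additive Γ' →+ A) : Prop :=
  ∀ g ∈ Γ, ∀ (x : G) (hx : x ∈ Γ') (hx' : g⁻¹ * x * g ∈ Γ'),
    χ (Additive.ofMul ⟨g⁻¹ * x * g, hx'⟩) = χ (Additive.ofMul ⟨x, hx⟩)

theorem k5e_chi_mul (χ : Additive Γ' →+ A) (a b : G) (ha : a ∈ Γ') (hb : b ∈ Γ')
    (hab : a * b ∈ Γ') :
    χ (Additive.ofMul ⟨a * b, hab⟩) = χ (Additive.ofMul ⟨a, ha⟩) + χ (Additive.ofMul ⟨b, hb⟩) := by
  have : (⟨a * b, hab⟩ : Γ') = ⟨a, ha⟩ * ⟨b, hb⟩ := rfl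
  rw [this, ofMul_mul, map_add]

theorem k5e_chi_congr (χ : Additive Γ' →+ A) {a b : G} (h : a = b) (ha : a ∈ Γ') (hb : b ∈ Γ') :
    χ (Additive.ofMul ⟨a, ha⟩) = χ (Additive.ofMul ⟨b, hb⟩) := by
  subst h; rfl

theorem k5e_chi_one (χ : Additive Γ' →+ A) (h : (1 : G) ∈ Γ') :
    χ (Additive.ofMul ⟨1, h⟩) = 0 := by
  have : (⟨1, h⟩ : Γ') = 1 := rfl
  rw [this, ofMul_one, map_zero]

theorem k5e_chi_zpow (χ : Additive Γ' →+ A) (a : G) (ha : a ∈ Γ') (j : ℤ) (h : a ^ j ∈ Γ') :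
    χ (Additive.ofMul ⟨a ^ j, h⟩) = j • χ (Additive.ofMul ⟨a, ha⟩) := by
  have : (⟨a ^ j, h⟩ : Γ') = ⟨a, ha⟩ ^ j := by
    apply Subtype.ext; simp
  rw [this, ofMul_zpow, map_zsmul]

/-- `(g x)ⁿ = gⁿ y` with `y ∈ Γ'`, `χ y = n χ x`. -/
theorem k5e_pow_mul (hN : ∀ g ∈ Γ, ∀ x ∈ Γ', g⁻¹ * x * g ∈ Γ') (χ : Additive Γ' →+ A)
    (hinv : k5e_Inv Γ' Γ χ) (g : G) (hg : g ∈ Γ) (x : G) (hx : x ∈ Γ') (n : ℕ) :
    ∃ (y : G) (hy : y ∈ Γ'), (g * x) ^ n = g ^ n * y ∧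
      χ (Additive.ofMul ⟨y, hy⟩) = n • χ (Additive.ofMul ⟨x, hx⟩) := by
  induction n with
  | zero => exact ⟨1, one_mem _, by simp, by rw [k5e_chi_one, zero_smul]⟩
  | succ n ih =>
    obtain ⟨y, hy, h1, h2⟩ := ih
    have hy' : g⁻¹ * y * g ∈ Γ' := hN g hg y hy
    refine ⟨g⁻¹ * y * g * x, mul_mem hy' hx, ?_, ?_⟩
    · rw [pow_succ, h1, pow_succ]; group
    · rw [k5e_chi_mul χ _ _ hy' hx, hinv g hg y hy hy', h2, succ_nsmul]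

/-- **Extension.**  If `Γ/Γ'` is generated by `g₀` of order `m`, an invariant `χ` with
`χ (g₀ᵐ) = 0` extends to `Γ`. -/
theorem k5e_extend (hle : Γ' ≤ Γ) (hN : ∀ g ∈ Γ, ∀ x ∈ Γ', g⁻¹ * x * g ∈ Γ')
    (χ : Additive Γ' →+ A) (hinv : k5e_Inv Γ' Γ χ) (g₀ : G) (hg₀ : g₀ ∈ Γ) (m : ℕ)
    (hgen : ∀ γ ∈ Γ, ∃ k : ℕ, γ * g₀ ^ k ∈ Γ')
    (hord : ∀ k : ℤ, g₀ ^ k ∈ Γ' ↔ (m : ℤ) ∣ k)
    (hτ : ∀ h : g₀ ^ m ∈ Γ', χ (Additive.ofMul ⟨g₀ ^ m, h⟩) = 0) :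
    ∃ φ : Additive Γ →+ A, ∀ (x : G) (hx : x ∈ Γ'),
      φ (Additive.ofMul ⟨x, hle hx⟩) = χ (Additive.ofMul ⟨x, hx⟩) := by
  classical
  have hm : g₀ ^ m ∈ Γ' := by
    have := (hord (m : ℤ)).mpr dvd_rfl
    rwa [zpow_natCast] at this
  have hτ' := hτ hm
  -- well-definedness
  have W : ∀ (γ : G) (k k' : ℤ) (h : γ * g₀ ^ k ∈ Γ') (h' : γ * g₀ ^ k' ∈ Γ'),
      χ (Additive.ofMul ⟨γ * g₀ ^ k', h'⟩) = χ (Additive.ofMul ⟨γ * g₀ ^ k, h⟩) := by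
    intro γ k k' h h'
    have h1 : g₀ ^ (k' - k) ∈ Γ' := by
      have : g₀ ^ (k' - k) = (γ * g₀ ^ k)⁻¹ * (γ * g₀ ^ k') := by
        rw [zpow_sub]; group
      rw [this]; exact mul_mem (inv_mem h) h'
    obtain ⟨j, hj⟩ := (hord _).mp h1
    have h2 : γ * g₀ ^ k' = γ * g₀ ^ k * (g₀ ^ m) ^ j := by
      have : k' = k + m * j := by omega
      rw [this, zpow_add, zpow_mul, zpow_natCast, mul_assoc]
    have h3 : (g₀ ^ m) ^ j ∈ Γ' := Subgroup.zpow_mem _ hm j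
    rw [k5e_chi_congr χ h2 h' (mul_mem h h3), k5e_chi_mul χ _ _ h h3,
      k5e_chi_zpow χ _ hm j h3, hτ', smul_zero, add_zero]
  choose k hk using fun γ : Γ => hgen γ γ.2
  have hk' : ∀ γ : Γ, (γ : G) * g₀ ^ ((k γ : ℕ) : ℤ) ∈ Γ' := fun γ => by
    rw [zpow_natCast]; exact hk γ
  let F : Γ → A := fun γ => χ (Additive.ofMul ⟨(γ : G) * g₀ ^ ((k γ : ℕ) : ℤ), hk' γ⟩)
  have hF : ∀ (γ : Γ) (j : ℤ) (h : (γ : G) * g₀ ^ j ∈ Γ'),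
      F γ = χ (Additive.ofMul ⟨(γ : G) * g₀ ^ j, h⟩) := fun γ j h => W _ _ _ h (hk' γ)
  have hadd : ∀ a b : Γ, F (a * b) = F a + F b := by
    intro a b
    have hga : g₀ ^ ((k a : ℕ) : ℤ) ∈ Γ := Subgroup.zpow_mem _ hg₀ _
    have hb' : (g₀ ^ ((k a : ℕ) : ℤ))⁻¹ * ((b : G) * g₀ ^ ((k b : ℕ) : ℤ)) * g₀ ^ ((k a : ℕ) : ℤ) ∈ Γ' :=
      hN _ hga _ (hk' b)
    have e : ((a * b : Γ) : G) * g₀ ^ (((k b : ℕ) : ℤ) + ((k a : ℕ) : ℤ))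
        = ((a : G) * g₀ ^ ((k a : ℕ) : ℤ)) *
          ((g₀ ^ ((k a : ℕ) : ℤ))⁻¹ * ((b : G) * g₀ ^ ((k b : ℕ) : ℤ)) * g₀ ^ ((k a : ℕ) : ℤ)) := by
      rw [zpow_add]; push_cast; group
    have hmem : ((a * b : Γ) : G) * g₀ ^ (((k b : ℕ) : ℤ) + ((k a : ℕ) : ℤ)) ∈ Γ' := by
      rw [e]; exact mul_mem (hk' a) hb'
    rw [hF (a * b) _ hmem, k5e_chi_congr χ e hmem (mul_mem (hk' a) hb'),
      k5e_chi_mul χ _ _ (hk' a) hb', hinv _ hga _ (hk' b) hb']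
  refine ⟨AddMonoidHom.mk' (fun γ => F (Additive.toMul γ)) (fun a b => hadd _ _), ?_⟩
  intro x hx
  show F ⟨x, hle hx⟩ = _
  have h0 : x * g₀ ^ (0 : ℤ) ∈ Γ' := by simpa using hx
  rw [hF ⟨x, hle hx⟩ 0 h0]
  exact k5e_chi_congr χ (by simp) _ _

/-! ## the transfer computation -/

section transfer

variable {K' : Type*} [Group K'] (c ι : K' →* Γ') (hc : Function.Injective c)
  [c.range.FiniteIndex]

/-- **Transgression and transfer.**  `N ⊴ G`; for `y ∈ Γ ∩ N` there is `z ∈ Γ` (`= δ⁻¹ y δ`),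
`z ≡ y mod Γ'`, such that `yⁿ ∈ Γ'` implies `yⁿ = c κ`, `zⁿ = ι κ` for some `κ`.
Then for `g₁ ∈ Γ ∩ N` with `g₁ᵐ ∈ Γ'`, an invariant `ψ` and `m A = 0`:
`transfer_c (ψ ∘ ι) (g₁ᵐ) = [Γ' : c K'] ψ (g₁ᵐ)`. -/
theorem k5e_transfer_pow (hle : Γ' ≤ Γ) (hN : ∀ g ∈ Γ, ∀ x ∈ Γ', g⁻¹ * x * g ∈ Γ')
    (Nn : Subgroup G) [Nn.Normal]
    (hz : ∀ y ∈ Γ, y ∈ Nn → ∃ z ∈ Γ, y⁻¹ * z ∈ Γ' ∧
      ∀ n : ℕ, y ^ n ∈ Γ' → ∃ κ : K', ((c κ : Γ') : G) = y ^ n ∧ ((ι κ : Γ') : G) = z ^ n)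
    (ψ : Additive Γ' →+ A) (hinv : k5e_Inv Γ' Γ ψ) (m : ℕ) (hmA : ∀ a : A, m • a = 0)
    (g₁ : G) (hg₁ : g₁ ∈ Γ) (hg₁N : g₁ ∈ Nn) (hx : g₁ ^ m ∈ Γ') :
    S41.transferAlong A c hc (ψ.comp (MonoidHom.toAdditive ι)) (Additive.ofMul ⟨g₁ ^ m, hx⟩)
      = c.range.index • ψ (Additive.ofMul ⟨g₁ ^ m, hx⟩) := by
  classical
  letI := c.range.fintypeQuotientOfFiniteIndex
  -- for every representative `r` the element `κ`
  have key : ∀ r : Γ', ∃ κ : K', (⟨g₁ ^ m, hx⟩ : Γ') * r = r * c κ ∧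
      ψ (Additive.ofMul (ι κ)) = ψ (Additive.ofMul ⟨g₁ ^ m, hx⟩) := by
    intro r
    have hr : (r : G) ∈ Γ := hle r.2
    have hy : (r : G)⁻¹ * g₁ * r ∈ Γ := mul_mem (mul_mem (inv_mem hr) hg₁) hr
    have hyN : (r : G)⁻¹ * g₁ * r ∈ Nn := by
      have := (inferInstance : Nn.Normal).conj_mem g₁ hg₁N (r : G)⁻¹
      simpa using this
    obtain ⟨z, hzΓ, hyz, hκ⟩ := hz _ hy hyN
    have hpow : ∀ n : ℕ, ((r : G)⁻¹ * g₁ * r) ^ n = (r : G)⁻¹ * g₁ ^ n * r := by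
      intro n
      induction n with
      | zero => simp
      | succ n ih => rw [pow_succ, ih, pow_succ]; group
    have hym : ((r : G)⁻¹ * g₁ * r) ^ m ∈ Γ' := by
      rw [hpow]
      exact mul_mem (mul_mem (inv_mem r.2) hx) r.2
    obtain ⟨κ, hcκ, hικ⟩ := hκ m hym
    refine ⟨κ, ?_, ?_⟩
    · apply Subtype.ext
      show g₁ ^ m * (r : G) = (r : G) * ((c κ : Γ') : G)
      rw [hcκ, hpow]; group
    · -- `z = g₁ γ'`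
      have hγ' : g₁⁻¹ * z ∈ Γ' := by
        have h1 : g₁⁻¹ * ((r : G)⁻¹ * g₁ * r) ∈ Γ' := by
          have h2 : g₁⁻¹ * (r : G)⁻¹ * g₁ ∈ Γ' := hN g₁ hg₁ _ (inv_mem r.2)
          have : g₁⁻¹ * ((r : G)⁻¹ * g₁ * r) = g₁⁻¹ * (r : G)⁻¹ * g₁ * r := by group
          rw [this]; exact mul_mem h2 r.2
        have : g₁⁻¹ * z = g₁⁻¹ * ((r : G)⁻¹ * g₁ * r) * (((r : G)⁻¹ * g₁ * r)⁻¹ * z) := by group
        rw [this]; exact mul_mem h1 hyz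
      obtain ⟨y', hy', e1, e2⟩ := k5e_pow_mul hN ψ hinv g₁ hg₁ _ hγ' m
      have hz_eq : z ^ m = g₁ ^ m * y' := by
        rw [← e1]; congr 1; group
      have hιmem : ((ι κ : Γ') : G) = g₁ ^ m * y' := by rw [hικ, hz_eq]
      have h3 : ι κ = (⟨g₁ ^ m, hx⟩ : Γ') * ⟨y', hy'⟩ := Subtype.ext hιmem
      rw [h3, ofMul_mul, map_add, e2, hmA, add_zero]
  choose κ hκ1 hκ2 using key
  have hr : Function.Bijective fun q : Γ' ⧸ c.range =>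
      (QuotientGroup.mk (S41.tRep c q) : Γ' ⧸ c.range) := by
    have : (fun q : Γ' ⧸ c.range => (QuotientGroup.mk (S41.tRep c q) : Γ' ⧸ c.range)) = id := by
      funext q; exact S41.tRep_mk c q
    rw [this]; exact Function.bijective_id
  rw [S41.transferAlong_eq_sum_of_reps c hc A (S41.tRep c) hr (⟨g₁ ^ m, hx⟩ : Γ') id
    (fun q => κ (S41.tRep c q)) (fun q => hκ1 _)]
  have : ∀ q : Γ' ⧸ c.range,
      (ψ.comp (MonoidHom.toAdditive ι)) (Additive.ofMul (κ (S41.tRep c q)))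
        = ψ (Additive.ofMul ⟨g₁ ^ m, hx⟩) := fun q => hκ2 _
  simp only [this]
  rw [Finset.sum_const, Finset.card_univ, Subgroup.index_eq_card, Nat.card_eq_fintype_card]

end transfer

end Fermat.Agent.RT.K5
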