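import Fermat.Agent.RT.K5.Plan
import Fermat.Agent.RT.K5.E2Abs

/-!
# RT-K5, piece E2 (concrete part): the elements `z = δ⁻¹ y δ`

* `k5e_exists_conjD_preimage` : `y ∈ Γ₀(L)`, `ℓ ∣ y₀₁` ⇒ `y = conjD z`, `z₀₀ = y₀₀`;
* `k5e_diam_eq_of_entry`      : the diamond only depends on the `(0,0)` entry;
* `k5e_hz`                    : the hypothesis `hz` of `k5e_transfer_pow` for `Γ = Γ_H(L)`,
  `Γ' = Γ_H'(L)`, `c = conjDH`, `ι = inclH`, `N = Γ(ℓ)`.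
-/

set_option autoImplicit false
set_option linter.style.haveILetI false
set_option linter.unusedSectionVars false
set_option linter.unusedVariables false

noncomputable section

namespace Fermat.Agent.RT.K5

open CongruenceSubgroup Matrix
open scoped MatrixGroups
open Fermat.Agent.ES1 (gammaH diamHom pmH)

theorem k5e_exists_conjD_preimage (L ℓ : ℕ) [NeZero ℓ] (y : Gamma0 L)
    (h : (ℓ : ℤ) ∣ ((y : SL(2, ℤ)) : Matrix (Fin 2) (Fin 2) ℤ) 0 1) :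
    ∃ z : Gamma0 (L * ℓ), S41.conjD L ℓ z = y ∧
      ((z : SL(2, ℤ)) : Matrix (Fin 2) (Fin 2) ℤ) 0 0
        = ((y : SL(2, ℤ)) : Matrix (Fin 2) (Fin 2) ℤ) 0 0 := by
  have hq' : (ℓ : ℤ) ≠ 0 := by exact_mod_cast NeZero.ne ℓ
  obtain ⟨b, hb⟩ := h
  obtain ⟨c, hc⟩ := S41.dvd_of_mem_Gamma0 y.2
  have hdet : ((y : SL(2, ℤ)) : Matrix (Fin 2) (Fin 2) ℤ).det = 1 := (y : SL(2, ℤ)).2
  rw [Matrix.det_fin_two, hb, hc] at hdet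
  let Mx : Matrix (Fin 2) (Fin 2) ℤ :=
    !![((y : SL(2, ℤ)) : Matrix (Fin 2) (Fin 2) ℤ) 0 0, b;
       ℓ * ((L : ℤ) * c), ((y : SL(2, ℤ)) : Matrix (Fin 2) (Fin 2) ℤ) 1 1]
  have hM : Mx.det = 1 := by
    rw [Matrix.det_fin_two_of]
    linear_combination hdet
  let g : SL(2, ℤ) := ⟨Mx, hM⟩
  have hg : g ∈ Gamma0 (L * ℓ) := by
    apply S41.mem_Gamma0_of_dvd
    show ((L * ℓ : ℕ) : ℤ) ∣ Mx 1 0
    simp only [Mx, Matrix.of_apply, Matrix.cons_val_one, Matrix.cons_val_zero]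
    exact ⟨c, by push_cast; ring⟩
  refine ⟨⟨g, hg⟩, ?_, ?_⟩
  · apply Subtype.ext; apply Subtype.ext
    rw [S41.conjD_coe]
    ext i j
    fin_cases i <;> fin_cases j
    · simp [S41.conjDMat, g, Mx]
    · simp only [S41.conjDMat, g, Mx, Matrix.of_apply, Matrix.cons_val_zero, Matrix.cons_val_one,
        Fin.zero_eta, Fin.mk_one]
      rw [hb]
    · simp only [S41.conjDMat, g, Mx, Matrix.of_apply, Matrix.cons_val_zero, Matrix.cons_val_one,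
        Fin.zero_eta, Fin.mk_one]
      rw [Int.mul_ediv_cancel_left _ hq', hc]
    · simp [S41.conjDMat, g, Mx]
  · simp [g, Mx]

theorem k5e_diam_eq_of_entry {M : ℕ} (a b : SL(2, ℤ)) (ha : a ∈ Gamma0 M) (hb : b ∈ Gamma0 M)
    (h : (a : Matrix (Fin 2) (Fin 2) ℤ) 0 0 = (b : Matrix (Fin 2) (Fin 2) ℤ) 0 0) :
    diamHom M ⟨a, ha⟩ = diamHom M ⟨b, hb⟩ := by
  ext
  rw [Fermat.Agent.ES1.coe_diamHom, Fermat.Agent.ES1.coe_diamHom]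
  exact congrArg _ h

theorem k5e_mem_gammaH_of_diam {L M : ℕ} {H : Subgroup (ZMod M)ˣ} {γ : SL(2, ℤ)}
    (hL : γ ∈ Gamma0 L) (hM : γ ∈ Gamma0 M) (h : diamHom M ⟨γ, hM⟩ ∈ pmH H) :
    γ ∈ gammaH L M H := ⟨hL, hM, h⟩

theorem k5e_diam_mem {L M : ℕ} {H : Subgroup (ZMod M)ˣ} {γ : SL(2, ℤ)}
    (h : γ ∈ gammaH L M H) (hM : γ ∈ Gamma0 M) : diamHom M ⟨γ, hM⟩ ∈ pmH H := h.2.2

theorem k5e_diam_mul {M : ℕ} (a b : SL(2, ℤ)) (ha : a ∈ Gamma0 M) (hb : b ∈ Gamma0 M)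
    (hab : a * b ∈ Gamma0 M) :
    diamHom M ⟨a * b, hab⟩ = diamHom M ⟨a, ha⟩ * diamHom M ⟨b, hb⟩ := by
  have : (⟨a * b, hab⟩ : Gamma0 M) = ⟨a, ha⟩ * ⟨b, hb⟩ := rfl
  rw [this, map_mul]

theorem k5e_diam_inv {M : ℕ} (a : SL(2, ℤ)) (ha : a ∈ Gamma0 M) (ha' : a⁻¹ ∈ Gamma0 M) :
    diamHom M ⟨a⁻¹, ha'⟩ = (diamHom M ⟨a, ha⟩)⁻¹ := by
  have : (⟨a⁻¹, ha'⟩ : Gamma0 M) = (⟨a, ha⟩ : Gamma0 M)⁻¹ := rfl
  rw [this, map_inv]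

theorem k5e_diam_pow {M : ℕ} (a : SL(2, ℤ)) (ha : a ∈ Gamma0 M) (n : ℕ)
    (ha' : a ^ n ∈ Gamma0 M) :
    diamHom M ⟨a ^ n, ha'⟩ = (diamHom M ⟨a, ha⟩) ^ n := by
  have : (⟨a ^ n, ha'⟩ : Gamma0 M) = (⟨a, ha⟩ : Gamma0 M) ^ n := rfl
  rw [this, map_pow]

/-- two elements of `Γ₀(L) ∩ Γ₀(M)` with the same diamond differ by an element of `Γ_{H'}`. -/
theorem k5e_inv_mul_mem {L M : ℕ} (H' : Subgroup (ZMod M)ˣ) {a b : SL(2, ℤ)}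
    (haL : a ∈ Gamma0 L) (haM : a ∈ Gamma0 M) (hbL : b ∈ Gamma0 L) (hbM : b ∈ Gamma0 M)
    (h : diamHom M ⟨a, haM⟩ = diamHom M ⟨b, hbM⟩) : a⁻¹ * b ∈ gammaH L M H' := by
  refine ⟨mul_mem (inv_mem haL) hbL, mul_mem (inv_mem haM) hbM, ?_⟩
  rw [k5e_diam_mul _ _ (inv_mem haM) hbM, k5e_diam_inv _ haM, h, inv_mul_cancel]
  exact one_mem _

section hz

variable (L M ℓ : ℕ) [NeZero L] [NeZero ℓ] [hML : Fact (M ∣ L)] (H' H : Subgroup (ZMod M)ˣ)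

theorem k5e_gamma_dvd {y : SL(2, ℤ)} (hy : y ∈ Gamma ℓ) :
    (ℓ : ℤ) ∣ (y : Matrix (Fin 2) (Fin 2) ℤ) 0 1 := by
  have := (Gamma_mem.mp hy).2.1
  exact (ZMod.intCast_zmod_eq_zero_iff_dvd _ _).mp this

/-- the hypothesis `hz` of `k5e_transfer_pow`. -/
theorem k5e_hz (hle : H' ≤ H) :
    ∀ y ∈ gammaH L M H, y ∈ Gamma ℓ → ∃ z ∈ gammaH L M H, y⁻¹ * z ∈ gammaH L M H' ∧
      ∀ n : ℕ, y ^ n ∈ gammaH L M H' → ∃ κ : gammaH (L * ℓ) M H',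
        ((conjDH L M ℓ H' hML.out κ : gammaH L M H') : SL(2, ℤ)) = y ^ n ∧
        ((inclH L M ℓ H' κ : gammaH L M H') : SL(2, ℤ)) = z ^ n := by
  intro y hy hyN
  obtain ⟨z, hz1, hz2⟩ := k5e_exists_conjD_preimage L ℓ ⟨y, hy.1⟩ (k5e_gamma_dvd ℓ hyN)
  have hzL : (z : SL(2, ℤ)) ∈ Gamma0 L := by
    apply S41.mem_Gamma0_of_dvd
    exact (Int.natCast_dvd_natCast.mpr (dvd_mul_right L ℓ)).trans (S41.dvd_of_mem_Gamma0 z.2)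
  have hzM : (z : SL(2, ℤ)) ∈ Gamma0 M := by
    apply S41.mem_Gamma0_of_dvd
    exact (Int.natCast_dvd_natCast.mpr hML.out).trans (S41.dvd_of_mem_Gamma0 hzL)
  have hyM : y ∈ Gamma0 M := hy.2.1
  have hd : diamHom M ⟨(z : SL(2, ℤ)), hzM⟩ = diamHom M ⟨y, hyM⟩ :=
    k5e_diam_eq_of_entry _ _ hzM hyM hz2
  have hzΓ : (z : SL(2, ℤ)) ∈ gammaH L M H := by
    refine ⟨hzL, hzM, ?_⟩
    rw [hd]; exact hy.2.2
  refine ⟨(z : SL(2, ℤ)), hzΓ, k5e_inv_mul_mem H' hy.1 hyM hzL hzM hd.symm, ?_⟩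
  intro n hn
  have hznM : (z : SL(2, ℤ)) ^ n ∈ Gamma0 M := pow_mem hzM n
  have hynM : y ^ n ∈ Gamma0 M := pow_mem hyM n
  have hzn : (z : SL(2, ℤ)) ^ n ∈ gammaH (L * ℓ) M H' := by
    refine ⟨pow_mem z.2 n, hznM, ?_⟩
    rw [k5e_diam_pow _ hzM, hd, ← k5e_diam_pow _ hyM n hynM]
    exact hn.2.2
  refine ⟨⟨(z : SL(2, ℤ)) ^ n, hzn⟩, ?_, rfl⟩
  rw [conjDH_coe]
  have h1 : (⟨(z : SL(2, ℤ)) ^ n, hzn.1⟩ : Gamma0 (L * ℓ)) = z ^ n := rfl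
  rw [h1, map_pow, hz1]
  rfl

end hz

end Fermat.Agent.RT.K5
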