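import Fermat.Agent.RT.K5.Plan
import Fermat.Agent.RT.K5.E2Abs
import Fermat.Agent.RT.K5.E2Conc

/-!
# RT-K5, piece E2: `T_ℓ − (ℓ + 1)` maps the invariants into the image of `res`

`stmtE2_of : StmtGen → StmtComm → StmtIdxRange → StmtE2`, where `StmtIdxRange` is the index
statement `[Γ_H(L) : δ Γ_H(L ℓ) δ⁻¹] = ℓ + 1`.
-/

set_option autoImplicit false
set_option linter.style.haveILetI false
set_option linter.unusedSectionVars false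
set_option linter.unusedVariables false

noncomputable section

namespace Fermat.Agent.RT.K5

open CongruenceSubgroup Matrix
open scoped MatrixGroups
open Fermat.Agent.ES1 (gammaH diamHom pmH)

/-- the index statement: `[Γ_H(L) : δ Γ_H(L ℓ) δ⁻¹] = ℓ + 1 = [Γ_H(L) : Γ_H(L ℓ)]`. -/
def StmtIdxRange : Prop :=
  ∀ (L M ℓ : ℕ) [NeZero L] [NeZero ℓ] [hML : Fact (M ∣ L)] (H : Subgroup (ZMod M)ˣ),
    ℓ.Prime → ¬ ℓ ∣ L →
    (conjDH L M ℓ H hML.out).range.index = ℓ + 1 ∧ (inclH L M ℓ H).range.index = ℓ + 1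

theorem k5e_inv_of_isInv {L M : ℕ} {H' H : Subgroup (ZMod M)ˣ} {A : Type*} [AddCommGroup A]
    (χ : HomS (gammaH L M H') A) (h : IsInv H' H χ) :
    k5e_Inv (gammaH L M H') (gammaH L M H) χ := by
  intro g hg x hx hx'
  have := congrArg (fun f : HomS (gammaH L M H') A => f (Additive.ofMul ⟨x, hx⟩))
    (h g hg)
  exact this

theorem stmtE2_of (hG : StmtGen) (hC : StmtComm) (hI : StmtIdxRange) : StmtE2 := by
  intro L M ℓ _ _ hML H' H hle A _ hℓ hℓL m g₀ hg₀ hgen hord hm hmA ψ hψ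
  have hΓle : gammaH L M H' ≤ gammaH L M H := Fermat.Agent.ES1.gammaH_mono hle
  have hN : ∀ g ∈ gammaH L M H, ∀ x ∈ gammaH L M H', g⁻¹ * x * g ∈ gammaH L M H' :=
    fun g hg x hx => normalizes_gammaH hg.1 hg.2.1 x hx
  -- `χ = T_ℓ ψ − (ℓ + 1) ψ` is invariant
  obtain ⟨χ, hχ⟩ : ∃ χ : HomS (gammaH L M H') A, χ = tS L M ℓ H' A ψ - (ℓ + 1) • ψ := ⟨_, rfl⟩
  have hχinv : IsInv H' H χ := by
    intro g hg
    have h3 := (hC L M ℓ H' H hle A hℓ hℓL).2.2 g hg.1 hg.2.1 ψ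
    rw [hχ, map_sub, map_nsmul, h3, hψ g hg]
  have hχ' := k5e_inv_of_isInv χ hχinv
  have hψ' := k5e_inv_of_isInv ψ hψ
  -- a generator `g₁ ≡ 1 mod ℓ`
  have hc : Nat.Coprime ℓ L := (Nat.Prime.coprime_iff_not_dvd hℓ).mpr hℓL
  obtain ⟨g₁, hg₁L, hg₁M, hg₁d, hg₁N⟩ := hG L M ℓ hc (diamHom M ⟨g₀, hg₀.2.1⟩)
  have hg₁ : g₁ ∈ gammaH L M H := ⟨hg₁L, hg₁M, by rw [hg₁d]; exact hg₀.2.2⟩
  have h01 : g₀⁻¹ * g₁ ∈ gammaH L M H' := k5e_inv_mul_mem H' hg₀.1 hg₀.2.1 hg₁L hg₁M hg₁d.symm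
  have h10 : g₁⁻¹ * g₀ ∈ gammaH L M H' := k5e_inv_mul_mem H' hg₁L hg₁M hg₀.1 hg₀.2.1 hg₁d
  have hg₀m : g₀ ^ m ∈ gammaH L M H' := by
    have := (hord (m : ℤ)).mpr dvd_rfl
    rwa [zpow_natCast] at this
  have hg₁m : g₁ ^ m ∈ gammaH L M H' := by
    obtain ⟨y, hy, e, -⟩ := k5e_pow_mul hN ψ hψ' g₀ hg₀ _ h01 m
    have : g₁ ^ m = g₀ ^ m * y := by rw [← e]; congr 1; group
    rw [this]; exact mul_mem hg₀m hy
  -- `χ (g₁ᵐ) = 0`
  have h1 : χ (Additive.ofMul ⟨g₁ ^ m, hg₁m⟩) = 0 := by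
    haveI : (Gamma ℓ).Normal := Gamma_normal ℓ
    have ht : tS L M ℓ H' A ψ (Additive.ofMul ⟨g₁ ^ m, hg₁m⟩)
        = (conjDH L M ℓ H' hML.out).range.index • ψ (Additive.ofMul ⟨g₁ ^ m, hg₁m⟩) :=
      k5e_transfer_pow (conjDH L M ℓ H' hML.out) (inclH L M ℓ H')
        (conjDH_injective L M ℓ H' hML.out) hΓle hN (Gamma ℓ) (k5e_hz L M ℓ H' H hle) ψ hψ' m hmA
        g₁ hg₁ hg₁N hg₁m
    rw [hχ, AddMonoidHom.sub_apply, AddMonoidHom.smul_apply, ht, (hI L M ℓ H' hℓ hℓL).1, sub_self]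
  -- `χ (g₀ᵐ) = 0`
  have h0 : ∀ h : g₀ ^ m ∈ gammaH L M H', χ (Additive.ofMul ⟨g₀ ^ m, h⟩) = 0 := by
    intro h
    obtain ⟨y, hy, e, e2⟩ := k5e_pow_mul hN χ hχ' g₁ hg₁ _ h10 m
    have : g₀ ^ m = g₁ ^ m * y := by rw [← e]; congr 1; group
    rw [k5e_chi_congr χ this h (mul_mem hg₁m hy), k5e_chi_mul χ _ _ hg₁m hy, h1, e2, hmA,
      add_zero]
  obtain ⟨φ, hφ⟩ := k5e_extend hΓle hN χ hχ' g₀ hg₀ m hgen hord h0
  refine ⟨φ, ?_⟩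
  refine AddMonoidHom.ext fun γ => ?_
  obtain ⟨γ, rfl⟩ : ∃ γ' : gammaH L M H', Additive.ofMul γ' = γ := ⟨Additive.toMul γ, rfl⟩
  rw [resS_apply, ← hχ]
  exact hφ γ γ.2

end Fermat.Agent.RT.K5

namespace Fermat.Agent.RT.K5

open CongruenceSubgroup Matrix
open scoped MatrixGroups
open Fermat.Agent.ES1 (gammaH diamHom pmH)

/-- `StmtIdx` from the index statement. -/
theorem stmtIdx_of (hI : StmtIdxRange) : StmtIdx := by
  intro L M ℓ _ _ hML H A _ hℓ hℓL φ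
  obtain ⟨h1, h2⟩ := hI L M ℓ H hℓ hℓL
  constructor
  · show S41.transferAlong A (conjDH L M ℓ H hML.out) (conjDH_injective L M ℓ H hML.out)
      (φ.comp (MonoidHom.toAdditive (conjDH L M ℓ H hML.out))) = _
    rw [S41.transferAlong_comp, h1]
  · show S41.transferAlong A (inclH L M ℓ H) (inclH_injective L M ℓ H)
      (φ.comp (MonoidHom.toAdditive (inclH L M ℓ H))) = _
    rw [S41.transferAlong_comp, h2]

end Fermat.Agent.RT.K5
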