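import Fermat.Agent.RT.K5.StepAbs

/-!
# RT-K5, piece FITEX: Fitting for a finite abelian group, exactness of `etaPart`

* `k5fx_fitting` : the three clauses of `k5s_fitting` for every finite abelian group;
* `k5fx_stable` : `etaPart θ = im θ^N` for some `N`;
* `k5fx_surj`, `k5fx_exact` : for an exact sequence `U →j V →π W` of finite groups with
  intertwined endomorphisms, `etaPart` is exact;
* `k5fx_card` : `#etaPart θ_V = #etaPart θ_U · #etaPart θ_W`.
-/

set_option autoImplicit false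
set_option linter.style.haveILetI false
set_option linter.unusedSectionVars false
set_option linter.unusedVariables false

noncomputable section

namespace Fermat.Agent.RT.K5

section fitting

variable {V : Type*} [AddCommGroup V]

theorem k5fx_pow_add (θ : V →+ V) (m n : ℕ) (x : V) :
    k5s_pow θ (m + n) x = k5s_pow θ m (k5s_pow θ n x) := by
  unfold k5s_pow
  rw [pow_add]
  rfl

theorem k5fx_range_anti (θ : V →+ V) {m n : ℕ} (h : m ≤ n) :
    AddMonoidHom.range (k5s_pow θ n) ≤ AddMonoidHom.range (k5s_pow θ m) := by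
  rintro x ⟨u, rfl⟩
  obtain ⟨k, rfl⟩ := Nat.exists_eq_add_of_le h
  exact ⟨k5s_pow θ k u, (k5fx_pow_add θ m k u).symm⟩

/-- the images `im θⁿ` stabilise -/
theorem k5fx_stable [Finite V] (θ : V →+ V) :
    ∃ N : ℕ, ∀ n : ℕ, N ≤ n → AddMonoidHom.range (k5s_pow θ n) = AddMonoidHom.range (k5s_pow θ N) := by
  classical
  -- the cardinalities decrease
  let c : ℕ → ℕ := fun n => Nat.card (AddMonoidHom.range (k5s_pow θ n))
  have hanti : ∀ m n, m ≤ n → c n ≤ c m := fun m n h =>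
    Nat.card_le_card_of_injective (AddSubgroup.inclusion (k5fx_range_anti θ h))
      (AddSubgroup.inclusion_injective _)
  -- a minimal value
  obtain ⟨N, hN⟩ : ∃ N, ∀ n, c N ≤ c n := by
    have hne : (Set.range c).Nonempty := ⟨c 0, ⟨0, rfl⟩⟩
    obtain ⟨N, hN⟩ := Nat.sInf_mem hne
    exact ⟨N, fun n => hN ▸ Nat.sInf_le ⟨n, rfl⟩⟩
  refine ⟨N, fun n hn => ?_⟩
  have hle := k5fx_range_anti θ hn
  have hcard : Nat.card (AddMonoidHom.range (k5s_pow θ N))
      ≤ Nat.card (AddMonoidHom.range (k5s_pow θ n)) := hN n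
  -- equality of finite sets
  have hsub : (AddMonoidHom.range (k5s_pow θ n) : Set V) ⊆ AddMonoidHom.range (k5s_pow θ N) := hle
  have hfin : (AddMonoidHom.range (k5s_pow θ N) : Set V).Finite := Set.toFinite _
  have := Set.eq_of_subset_of_ncard_le hsub (by
    rw [← Nat.card_coe_set_eq, ← Nat.card_coe_set_eq]
    exact hcard) hfin
  exact SetLike.coe_injective this

theorem k5fx_etaPart_eq [Finite V] (θ : V →+ V) :
    ∃ N : ℕ, ∀ x : V, x ∈ etaPart θ ↔ ∃ u, k5s_pow θ N u = x := by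
  obtain ⟨N, hN⟩ := k5fx_stable θ
  refine ⟨N, fun x => ⟨fun hx => (k5s_mem_etaPart θ x).mp hx N, ?_⟩⟩
  rintro ⟨u, rfl⟩
  rw [k5s_mem_etaPart]
  intro n
  rcases le_total n N with h | h
  · exact k5fx_range_anti θ h ⟨u, rfl⟩
  · have : k5s_pow θ N u ∈ AddMonoidHom.range (k5s_pow θ n) := by
      rw [hN n h]; exact ⟨u, rfl⟩
    exact this

/-- **Fitting** for an additive endomorphism of a finite abelian group -/
theorem k5fx_fitting [Finite V] (θ : V →+ V) :
    (∀ v : V, ∃ w ∈ etaPart θ, ∃ n : ℕ, k5s_pow θ n (v - w) = 0) ∧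
    (∀ w ∈ etaPart θ, θ w = 0 → w = 0) ∧
    (∀ w ∈ etaPart θ, ∃ w' ∈ etaPart θ, θ w' = w) := by
  classical
  obtain ⟨N, hN⟩ := k5fx_etaPart_eq θ
  -- `θ` maps `etaPart` onto itself
  have hsurj : ∀ w ∈ etaPart θ, ∃ w' ∈ etaPart θ, θ w' = w := by
    intro w hw
    obtain ⟨u, hu⟩ := (k5s_mem_etaPart θ w).mp hw (N + 1)
    refine ⟨k5s_pow θ N u, (hN _).mpr ⟨u, rfl⟩, ?_⟩
    rw [← k5s_pow_succ', hu]
  -- the restriction
  let r : etaPart θ → etaPart θ := fun w => ⟨θ w, k5s_etaPart_stable θ w.2⟩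
  have hrs : Function.Surjective r := by
    rintro ⟨w, hw⟩
    obtain ⟨w', hw', h⟩ := hsurj w hw
    exact ⟨⟨w', hw'⟩, Subtype.ext h⟩
  have hri : Function.Injective r := Finite.injective_iff_surjective.mpr hrs
  have hinj : ∀ w ∈ etaPart θ, θ w = 0 → w = 0 := by
    intro w hw h0
    have : r ⟨w, hw⟩ = r ⟨0, (etaPart θ).zero_mem⟩ := by
      apply Subtype.ext
      show θ w = θ 0
      rw [h0, map_zero]
    exact congrArg Subtype.val (hri this)
  refine ⟨?_, hinj, hsurj⟩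
  intro v
  -- `θ^N v ∈ etaPart = θ^N etaPart`
  have h1 : k5s_pow θ N v ∈ etaPart θ := (hN _).mpr ⟨v, rfl⟩
  have h2 : ∀ n : ℕ, ∀ w ∈ etaPart θ, ∃ w' ∈ etaPart θ, k5s_pow θ n w' = w := by
    intro n
    induction n with
    | zero => exact fun w hw => ⟨w, hw, rfl⟩
    | succ n ih =>
      intro w hw
      obtain ⟨w₁, hw₁, h⟩ := ih w hw
      obtain ⟨w₂, hw₂, h'⟩ := hsurj w₁ hw₁
      exact ⟨w₂, hw₂, by rw [k5s_pow_succ, h', h]⟩
  obtain ⟨w, hw, h⟩ := h2 N _ h1
  refine ⟨w, hw, N, ?_⟩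
  show k5s_pow θ N (v - w) = 0
  rw [map_sub, h, sub_self]

end fitting

section exact

variable {U V W : Type*} [AddCommGroup U] [AddCommGroup V] [AddCommGroup W]
  (θU : U →+ U) (θV : V →+ V) (θW : W →+ W) (j : U →+ V) (π : V →+ W)

/-- a surjective intertwiner maps `etaPart` ONTO `etaPart` (finite source) -/
theorem k5fx_surj [Finite V] (hπ : Function.Surjective π) (hπθ : ∀ v, π (θV v) = θW (π v))
    (w : W) (hw : w ∈ etaPart θW) : ∃ v ∈ etaPart θV, π v = w := by
  obtain ⟨N, hN⟩ := k5fx_etaPart_eq θV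
  obtain ⟨w', hw'⟩ := (k5s_mem_etaPart θW w).mp hw N
  obtain ⟨v', hv'⟩ := hπ w'
  refine ⟨k5s_pow θV N v', (hN _).mpr ⟨v', rfl⟩, ?_⟩
  rw [k5s_intertwine_pow θV θW π hπθ, hv', hw']

/-- exactness in the middle -/
theorem k5fx_exact [Finite V] [Finite W] (hj : Function.Injective j)
    (hex : ∀ v, π v = 0 → ∃ u, j u = v)
    (hjθ : ∀ u, j (θU u) = θV (j u)) (hπθ : ∀ v, π (θV v) = θW (π v))
    (v : V) (hv : v ∈ etaPart θV) (h0 : π v = 0) : ∃ u ∈ etaPart θU, j u = v := by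
  obtain ⟨-, fW, -⟩ := k5fx_fitting θW
  obtain ⟨-, -, fV⟩ := k5fx_fitting θV
  have hpre : ∀ n : ℕ, ∃ v' ∈ etaPart θV, k5s_pow θV n v' = v := by
    intro n
    induction n with
    | zero => exact ⟨v, hv, rfl⟩
    | succ n ih =>
      obtain ⟨v₁, hv₁, h⟩ := ih
      obtain ⟨v₂, hv₂, h'⟩ := fV v₁ hv₁
      exact ⟨v₂, hv₂, by rw [k5s_pow_succ, h', h]⟩
  obtain ⟨u, hu⟩ := hex v h0
  refine ⟨u, ?_, hu⟩
  rw [k5s_mem_etaPart]
  intro n
  obtain ⟨v', hv', h⟩ := hpre n
  have h1 : π v' ∈ etaPart θW := k5s_intertwine_mem θV θW π hπθ hv'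
  have h2 : k5s_pow θW n (π v') = 0 := by
    rw [← k5s_intertwine_pow θV θW π hπθ, h, h0]
  have h3 : π v' = 0 := k5s_pow_injOn θW fW n h1 h2
  obtain ⟨u', hu'⟩ := hex v' h3
  refine ⟨u', hj ?_⟩
  rw [k5s_intertwine_pow θU θV j hjθ, hu', h, hu]

/-- the cardinalities multiply -/
theorem k5fx_card [Finite U] [Finite V] [Finite W] (hj : Function.Injective j)
    (hπ : Function.Surjective π) (hπj : ∀ u, π (j u) = 0)
    (hex : ∀ v, π v = 0 → ∃ u, j u = v)
    (hjθ : ∀ u, j (θU u) = θV (j u)) (hπθ : ∀ v, π (θV v) = θW (π v)) :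
    Nat.card (etaPart θV) = Nat.card (etaPart θU) * Nat.card (etaPart θW) := by
  classical
  -- the restricted maps
  let π' : etaPart θV →+ etaPart θW :=
    { toFun := fun v => ⟨π (v : V), k5s_intertwine_mem θV θW π hπθ v.2⟩
      map_zero' := Subtype.ext (map_zero π)
      map_add' := fun a b => Subtype.ext (map_add π (a : V) (b : V)) }
  let j' : etaPart θU →+ etaPart θV :=
    { toFun := fun u => ⟨j (u : U), k5s_intertwine_mem θU θV j hjθ u.2⟩
      map_zero' := Subtype.ext (map_zero j)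
      map_add' := fun a b => Subtype.ext (map_add j (a : U) (b : U)) }
  have hπ' : Function.Surjective π' := by
    rintro ⟨w, hw⟩
    obtain ⟨v, hv, h⟩ := k5fx_surj θV θW π hπ hπθ w hw
    exact ⟨⟨v, hv⟩, Subtype.ext h⟩
  have hj' : Function.Injective j' := fun a b h =>
    Subtype.ext (hj (congrArg Subtype.val h))
  have hker : π'.ker = j'.range := by
    ext ⟨v, hv⟩
    rw [AddMonoidHom.mem_ker, AddMonoidHom.mem_range]
    constructor
    · intro h
      have h0 : π v = 0 := congrArg Subtype.val h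
      obtain ⟨u, hu, huv⟩ := k5fx_exact θU θV θW j π hj hex hjθ hπθ v hv h0
      exact ⟨⟨u, hu⟩, Subtype.ext huv⟩
    · rintro ⟨u, hu⟩
      apply Subtype.ext
      have : j u = v := congrArg Subtype.val hu
      show π v = 0
      rw [← this, hπj]
  have h1 : Nat.card (etaPart θV) = Nat.card π'.ker * Nat.card (etaPart θW) := by
    have e := QuotientAddGroup.quotientKerEquivOfSurjective π' hπ'
    rw [← Nat.card_congr e.toEquiv, mul_comm]
    exact (AddSubgroup.card_eq_card_quotient_mul_card_addSubgroup π'.ker)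
  have h2 : Nat.card π'.ker = Nat.card (etaPart θU) := by
    rw [hker]
    exact (Nat.card_congr (Equiv.ofInjective j' hj')).symm
  rw [h1, h2]

end exact

end Fermat.Agent.RT.K5
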