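import Fermat.Agent.RT.K5.StepAbs
import Fermat.Agent.RT.K5.AlgCyc

/-!
# RT-K5, piece FREE (abstract part): the counting step

`𝕎 ⊆ V'` a `δ`-stable subgroup of a finite `p`-torsion group with `δ^p = 1` on `𝕎` and every
`δ`-invariant of `𝕎` a norm from `𝕎`: then `#𝕎 = (#𝕎^δ)^p`  (`stmtAlgCyc` over `ZMod p`).
-/

set_option autoImplicit false
set_option linter.style.haveILetI false
set_option linter.unusedSectionVars false
set_option linter.unusedVariables false

noncomputable section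

namespace Fermat.Agent.RT.K5

theorem k5f_card_aux (p : ℕ) [Fact p.Prime] (W : Type) [AddCommGroup W] [Finite W]
    [Module (ZMod p) W] (δW : W →+ W) (hδp : ∀ w, k5s_pow δW p w = w)
    (hnorm : ∀ w, δW w = w → ∃ v, w = ∑ i ∈ Finset.range p, k5s_pow δW i v) :
    Nat.card W = Nat.card {w : W // δW w = w} ^ p := by
  haveI inst2 : Module.Finite (ZMod p) W := Module.Finite.of_finite
  let δL : W →ₗ[ZMod p] W := δW.toZModLinearMap p
  have hδL : ∀ w : W, δL w = δW w := fun w => rfl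
  have hpow : ∀ (i : ℕ) (w : W), (δL ^ i) w = k5s_pow δW i w := by
    intro i
    induction i with
    | zero => intro w; rfl
    | succ i ih =>
      intro w
      rw [pow_succ, Module.End.mul_apply, ih, hδL, ← k5s_pow_succ]
  have key := stmtAlgCyc
  unfold StmtAlgCyc at key
  have h1 := key p (ZMod p) W δL 1 ?_ ?_
  · rw [Module.natCard_eq_pow_finrank (K := ZMod p) (V := W), h1, pow_one, mul_comm, pow_mul]
    congr 1
    rw [← Module.natCard_eq_pow_finrank (K := ZMod p) (V := ↥(LinearMap.ker (δL - 1)))]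
    refine Nat.card_congr ?_
    refine
      { toFun := fun w => ⟨(w : W), ?_⟩
        invFun := fun w => ⟨w.1, ?_⟩
        left_inv := fun w => rfl
        right_inv := fun w => rfl }
    · have := w.2
      rw [LinearMap.mem_ker, LinearMap.sub_apply, sub_eq_zero] at this
      exact this
    · rw [LinearMap.mem_ker, LinearMap.sub_apply, sub_eq_zero]
      exact w.2
  · rw [pow_one]
    refine LinearMap.ext fun w => ?_
    rw [hpow]
    exact hδp w
  · intro w hw
    obtain ⟨v, hve⟩ := hnorm w hw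
    refine ⟨v, ?_⟩
    rw [hve, pow_one]
    refine Finset.sum_congr rfl fun i _ => ?_
    rw [hpow]

theorem k5f_card_abs (p : ℕ) [Fact p.Prime] {V' : Type} [AddCommGroup V'] [Finite V']
    (hpV' : ∀ v : V', p • v = 0) (𝕎 : AddSubgroup V') (δ : V' →+ V')
    (hδW : ∀ w ∈ 𝕎, δ w ∈ 𝕎) (hδp : ∀ w ∈ 𝕎, k5s_pow δ p w = w)
    (hnorm : ∀ w ∈ 𝕎, δ w = w → ∃ v ∈ 𝕎, w = ∑ i ∈ Finset.range p, k5s_pow δ i v) :
    Nat.card 𝕎 = Nat.card {w : V' // w ∈ 𝕎 ∧ δ w = w} ^ p := by
  have hpW : ∀ w : 𝕎, p • w = 0 := fun w => Subtype.ext (by simpa using hpV' w)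
  let δW : 𝕎 →+ 𝕎 := (δ.comp 𝕎.subtype).codRestrict 𝕎 (fun w => hδW w w.2)
  have hδWv : ∀ w : 𝕎, ((δW w : 𝕎) : V') = δ w := fun w => rfl
  have hpow : ∀ (i : ℕ) (w : 𝕎), ((k5s_pow δW i w : 𝕎) : V') = k5s_pow δ i w := by
    intro i
    induction i with
    | zero => intro w; rfl
    | succ i ih =>
      intro w
      rw [k5s_pow_succ, ih, hδWv, ← k5s_pow_succ]
  have h1 := @k5f_card_aux p _ 𝕎 _ _ (AddCommGroup.zmodModule hpW) δW ?_ ?_
  · rw [h1]
    congr 1
    refine Nat.card_congr ?_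
    refine
      { toFun := fun w => ⟨((w : 𝕎) : V'), (w : 𝕎).2, ?_⟩
        invFun := fun w => ⟨⟨w.1, w.2.1⟩, ?_⟩
        left_inv := fun w => rfl
        right_inv := fun w => rfl }
    · have h2 := congrArg (fun x : 𝕎 => (x : V')) w.2
      exact h2
    · apply Subtype.ext
      exact w.2.2
  · intro w
    apply Subtype.ext
    rw [hpow]
    exact hδp w w.2
  · intro w hw
    have hw' : δ (w : V') = w := congrArg (fun x : 𝕎 => (x : V')) hw
    obtain ⟨v, hv, hve⟩ := hnorm w w.2 hw'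
    refine ⟨⟨v, hv⟩, ?_⟩
    apply Subtype.ext
    rw [hve, AddSubgroup.val_finsetSum]
    refine Finset.sum_congr rfl fun i _ => ?_
    rw [hpow]

end Fermat.Agent.RT.K5
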