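import Fermat.Agent.RT.K5.ResCores

/-!
# RT-K5, piece FREE (group theory in `(ℤ/M)ˣ`): a step of order `p`

If `[±H : ±H'] = p^(k+1)` there is `u ∈ H` of order exactly `p` modulo `±H'`, and
`[±H : ±(H' ⊔ ⟨u⟩)] = p^k`.
-/

set_option autoImplicit false
set_option linter.style.haveILetI false
set_option linter.unusedSectionVars false
set_option linter.unusedVariables false

noncomputable section

namespace Fermat.Agent.RT.K5

open Fermat.Agent.ES1 (pmH)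

section

variable {U : Type*} [CommGroup U]

theorem k5f_mem_pmH_iff {M : ℕ} (H : Subgroup (ZMod M)ˣ) (x : (ZMod M)ˣ) :
    x ∈ pmH H ↔ x ∈ H ∨ -x ∈ H := by
  unfold pmH
  rw [Subgroup.mem_sup]
  constructor
  · rintro ⟨y, hy, z, hz, rfl⟩
    obtain ⟨i, rfl⟩ := Subgroup.mem_zpowers_iff.mp hz
    rcases Int.even_or_odd i with hi | hi
    · left
      rw [Even.neg_one_zpow hi, mul_one]; exact hy
    · right
      rw [Odd.neg_one_zpow hi, mul_neg, mul_one, neg_neg]; exact hy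
  · rintro (h | h)
    · exact ⟨x, h, 1, one_mem _, mul_one x⟩
    · exact ⟨-x, h, -1, Subgroup.mem_zpowers _, by simp⟩

end

theorem k5f_exists_mid {M : ℕ} [NeZero M] (p : ℕ) [hp : Fact p.Prime]
    (H' H : Subgroup (ZMod M)ˣ) (hle : H' ≤ H) (k : ℕ)
    (hidx : ((pmH H').subgroupOf (pmH H)).index = p ^ (k + 1)) :
    ∃ u ∈ H, (∀ j : ℤ, u ^ j ∈ pmH H' ↔ (p : ℤ) ∣ j) ∧
      (∀ x ∈ pmH (H' ⊔ Subgroup.zpowers u), ∃ j : ℕ, x * u ^ j ∈ pmH H') ∧
      ((pmH (H' ⊔ Subgroup.zpowers u)).subgroupOf (pmH H)).index = p ^ k := by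
  classical
  have hP'P : pmH H' ≤ pmH H := sup_le_sup_right hle _
  -- Cauchy in the quotient
  have hcard : Nat.card ((pmH H) ⧸ (pmH H').subgroupOf (pmH H)) = p ^ (k + 1) := by
    rw [← Subgroup.index_eq_card, hidx]
  have hdvd : p ∣ Nat.card ((pmH H) ⧸ (pmH H').subgroupOf (pmH H)) := by
    rw [hcard, pow_succ]; exact dvd_mul_left p _
  obtain ⟨x, hx⟩ := exists_prime_orderOf_dvd_card' p hdvd
  obtain ⟨ũ, rfl⟩ := QuotientGroup.mk_surjective x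
  -- `ũ = ± u` with `u ∈ H`
  obtain ⟨u, hu, huP, hmk⟩ : ∃ u : (ZMod M)ˣ, u ∈ H ∧ ∃ huP : u ∈ pmH H,
      (QuotientGroup.mk (⟨u, huP⟩ : pmH H) : (pmH H) ⧸ (pmH H').subgroupOf (pmH H))
        = QuotientGroup.mk ũ := by
    rcases (k5f_mem_pmH_iff H ũ).mp ũ.2 with h | h
    · exact ⟨ũ, h, ũ.2, rfl⟩
    · refine ⟨-ũ, h, Fermat.Agent.ES1.le_pmH H h, ?_⟩
      rw [QuotientGroup.eq, Subgroup.mem_subgroupOf]
      have : (((⟨-(ũ : (ZMod M)ˣ), Fermat.Agent.ES1.le_pmH H h⟩ : pmH H)⁻¹ * ũ : pmH H) :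
          (ZMod M)ˣ) = -1 := by
        show (-(ũ : (ZMod M)ˣ))⁻¹ * (ũ : (ZMod M)ˣ) = -1
        rw [inv_mul_eq_iff_eq_mul]
        simp
      rw [this]
      exact Fermat.Agent.ES1.neg_one_mem_pmH H'
  rw [← hmk] at hx
  have hord : ∀ j : ℤ, u ^ j ∈ pmH H' ↔ (p : ℤ) ∣ j := by
    intro j
    rw [← hx, orderOf_dvd_iff_zpow_eq_one, ← QuotientGroup.mk_zpow, QuotientGroup.eq_one_iff,
      Subgroup.mem_subgroupOf]
    rfl
  have hgen : ∀ x ∈ pmH (H' ⊔ Subgroup.zpowers u), ∃ j : ℕ, x * u ^ j ∈ pmH H' := by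
    intro x hx
    -- `x = ± h' uⁱ`
    have hx' : ∃ (h' : (ZMod M)ˣ) (i : ℤ), h' ∈ pmH H' ∧ x = h' * u ^ i := by
      have hcase : ∀ y ∈ H' ⊔ Subgroup.zpowers u, ∃ (h' : (ZMod M)ˣ) (i : ℤ),
          h' ∈ H' ∧ y = h' * u ^ i := by
        intro y hy
        obtain ⟨a, ha, b, hb, rfl⟩ := Subgroup.mem_sup.mp hy
        obtain ⟨i, rfl⟩ := Subgroup.mem_zpowers_iff.mp hb
        exact ⟨a, i, ha, rfl⟩
      rcases (k5f_mem_pmH_iff _ x).mp hx with h | h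
      · obtain ⟨h', i, hh', e⟩ := hcase x h
        exact ⟨h', i, Fermat.Agent.ES1.le_pmH H' hh', e⟩
      · obtain ⟨h', i, hh', e⟩ := hcase (-x) h
        refine ⟨-h', i, ?_, ?_⟩
        · rw [k5f_mem_pmH_iff]; right; rw [neg_neg]; exact hh'
        · rw [neg_mul, ← e, neg_neg]
    obtain ⟨h', i, hh', rfl⟩ := hx'
    -- `j ≡ -i mod p`
    refine ⟨((-i) % (p : ℤ)).toNat, ?_⟩
    have hp0 : (p : ℤ) ≠ 0 := by exact_mod_cast hp.out.ne_zero
    have hnn : 0 ≤ (-i) % (p : ℤ) := Int.emod_nonneg _ hp0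
    have e1 : u ^ ((-i) % (p : ℤ)).toNat = u ^ ((-i) % (p : ℤ)) := by
      rw [← zpow_natCast, Int.toNat_of_nonneg hnn]
    rw [e1, mul_assoc, ← zpow_add]
    refine mul_mem hh' ((hord _).mpr ?_)
    have : (p : ℤ) ∣ (-i) % (p : ℤ) - (-i) := by
      rw [Int.emod_def]; exact ⟨-((-i) / p), by ring⟩
    have h2 : i + (-i) % (p : ℤ) = (-i) % (p : ℤ) - (-i) := by ring
    rw [h2]; exact this
  refine ⟨u, hu, hord, hgen, ?_⟩
  -- the index
  set P₁ := pmH (H' ⊔ Subgroup.zpowers u) with hP₁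
  have hP'P₁ : pmH H' ≤ P₁ := sup_le_sup_right le_sup_left _
  have hP₁P : P₁ ≤ pmH H :=
    sup_le_sup_right (sup_le hle ((Subgroup.zpowers_le).mpr hu)) _
  have huP₁ : u ∈ P₁ := Fermat.Agent.ES1.le_pmH _ (le_sup_right (a := H') (Subgroup.mem_zpowers u))
  have hrel : (pmH H').relIndex P₁ = p := by
    let f : pmH H' →* P₁ := Subgroup.inclusion hP'P₁
    have hfr : ∀ x : P₁, x ∈ f.range ↔ (x : (ZMod M)ˣ) ∈ pmH H' := by
      intro x
      constructor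
      · rintro ⟨y, rfl⟩; exact y.2
      · intro h; exact ⟨⟨x, h⟩, Subtype.ext rfl⟩
    haveI : f.range.Normal := inferInstance
    haveI : f.range.FiniteIndex := inferInstance
    have h1 := k5rc_index f (⟨u, huP₁⟩ : P₁) p ?_ ?_ hp.out.pos
    · have h2 : f.range = (pmH H').subgroupOf P₁ := by
        ext x
        rw [hfr, Subgroup.mem_subgroupOf]
      rw [Subgroup.relIndex, ← h2, h1]
    · intro g
      obtain ⟨j, hj⟩ := hgen g g.2
      exact ⟨j, (hfr _).mpr hj⟩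
    · intro j
      rw [hfr, ← hord j]
      rfl
  have hmul := Subgroup.relIndex_mul_relIndex (pmH H') P₁ (pmH H) hP'P₁ hP₁P
  rw [hrel] at hmul
  have hidx' : (pmH H').relIndex (pmH H) = p ^ (k + 1) := hidx
  rw [hidx', pow_succ, mul_comm] at hmul
  exact Nat.eq_of_mul_eq_mul_right hp.out.pos hmul

end Fermat.Agent.RT.K5
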