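import Fermat.Agent.RT.K5.Step
import Fermat.Agent.RT.K5.CoresSurj
import Fermat.Agent.RT.K5.FreeAbs
import Fermat.Agent.RT.K5.FreeGrp

/-!
# RT-K5, piece FREE: `#W(Γ') = #W(Γ)^[Γ:Γ']`, `res : W(Γ) ≅ W(Γ')^Γ`

Induction on `k` (`[±H : ±H'] = p^k`) by steps of order `p` (`k5f_exists_mid`), each step by
`stmtStep` and the counting lemma `k5f_card_abs`.
-/

set_option autoImplicit false
set_option linter.style.haveILetI false
set_option linter.unusedSectionVars false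
set_option linter.unusedVariables false

noncomputable section

namespace Fermat.Agent.RT.K5

open CongruenceSubgroup Matrix
open scoped MatrixGroups
open Fermat.Agent.ES1 (gammaH diamHom pmH)

theorem stmtStep : StmtStep := stmtStep_of stmtCoresSurj

theorem k5f_noTors_mono {Γ₁ Γ : Subgroup SL(2, ℤ)} (h : Γ₁ ≤ Γ) {A : Type*} [AddCommGroup A]
    (hNT : NoTors Γ A) : NoTors Γ₁ A :=
  ⟨hNT.1, hNT.2.imp id fun h3 g hg => h3 g (h hg)⟩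

section

variable {L M : ℕ} [NeZero L] [hML : Fact (M ∣ L)]

theorem k5f_diam_one {H' : Subgroup (ZMod M)ˣ} {A : Type*} [AddCommGroup A]
    (ψ : HomS (gammaH L M H') A) :
    diamS H' A (1 : SL(2, ℤ)) (one_mem _) (one_mem _) ψ = ψ := by
  refine AddMonoidHom.ext fun γ => ?_
  obtain ⟨γ, rfl⟩ : ∃ γ' : gammaH L M H', Additive.ofMul γ' = γ := ⟨Additive.toMul γ, rfl⟩
  show ψ (Additive.ofMul ⟨(1 : SL(2, ℤ))⁻¹ * γ * 1, _⟩) = ψ (Additive.ofMul γ)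
  congr 2
  apply Subtype.ext
  simp

/-- `res` of a homomorphism on `Γ ∋ g` is invariant under `g` -/
theorem k5f_diam_res {H' H : Subgroup (ZMod M)ˣ} (hle : H' ≤ H) {A : Type*} [AddCommGroup A]
    (g : SL(2, ℤ)) (hg : g ∈ gammaH L M H) (φ : HomS (gammaH L M H) A) :
    diamS H' A g hg.1 hg.2.1 (resS A (Fermat.Agent.ES1.gammaH_mono hle) φ)
      = resS A (Fermat.Agent.ES1.gammaH_mono hle) φ := by
  refine AddMonoidHom.ext fun γ => ?_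
  obtain ⟨γ, rfl⟩ : ∃ γ' : gammaH L M H', Additive.ofMul γ' = γ := ⟨Additive.toMul γ, rfl⟩
  show φ (Additive.ofMul ⟨g⁻¹ * γ * g, _⟩) = φ (Additive.ofMul ⟨γ, _⟩)
  have e : (⟨g⁻¹ * γ * g, Fermat.Agent.ES1.gammaH_mono hle
      (normalizes_gammaH hg.1 hg.2.1 γ γ.2)⟩ : gammaH L M H)
      = (⟨g, hg⟩ : gammaH L M H)⁻¹ * ⟨γ, Fermat.Agent.ES1.gammaH_mono hle γ.2⟩ * ⟨g, hg⟩ := rfl
  rw [e, ofMul_mul, ofMul_mul, ofMul_inv, map_add, map_add, map_neg]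
  abel

/-- `res` commutes with the diamond action -/
theorem k5f_res_diam {H' H : Subgroup (ZMod M)ˣ} (hle : H' ≤ H) {A : Type*} [AddCommGroup A]
    (g : SL(2, ℤ)) (hgL : g ∈ Gamma0 L) (hgM : g ∈ Gamma0 M) (φ : HomS (gammaH L M H) A) :
    resS A (Fermat.Agent.ES1.gammaH_mono hle) (diamS H A g hgL hgM φ)
      = diamS H' A g hgL hgM (resS A (Fermat.Agent.ES1.gammaH_mono hle) φ) := by
  refine AddMonoidHom.ext fun γ => ?_
  obtain ⟨γ, rfl⟩ : ∃ γ' : gammaH L M H', Additive.ofMul γ' = γ := ⟨Additive.toMul γ, rfl⟩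
  rfl

end

/-- the diamond action preserves the `η`-part -/
theorem k5f_diam_mem (L M ℓ₀ : ℕ) [NeZero L] [NeZero ℓ₀] [hML : Fact (M ∣ L)]
    (H' : Subgroup (ZMod M)ˣ) (F : Type) [AddCommGroup F] (hℓ : ℓ₀.Prime) (hℓL : ¬ ℓ₀ ∣ L)
    (g : SL(2, ℤ)) (hgL : g ∈ Gamma0 L) (hgM : g ∈ Gamma0 M)
    {ψ : HomS (gammaH L M H') F} (hψ : ψ ∈ etaPart (etaS L M ℓ₀ H' F)) :
    diamS H' F g hgL hgM ψ ∈ etaPart (etaS L M ℓ₀ H' F) := by
  refine k5s_intertwine_mem (etaS L M ℓ₀ H' F) (etaS L M ℓ₀ H' F) (diamS H' F g hgL hgM) ?_ hψ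
  intro x
  have c3 := (stmtComm L M ℓ₀ H' H' le_rfl F hℓ hℓL).2.2 g hgL hgM x
  show diamS H' F g hgL hgM (tS L M ℓ₀ H' F x - (ℓ₀ + 1) • x)
    = tS L M ℓ₀ H' F (diamS H' F g hgL hgM x) - (ℓ₀ + 1) • diamS H' F g hgL hgM x
  rw [map_sub, map_nsmul, c3]

/-- the conclusion of `StmtFree` for a pair `H' ≤ H` and an exponent `n` -/
def k5f_Concl (L M ℓ₀ : ℕ) [NeZero L] [NeZero ℓ₀] [Fact (M ∣ L)]
    (H' H : Subgroup (ZMod M)ˣ) (hle : H' ≤ H) (F : Type) [AddCommGroup F] (n : ℕ) : Prop :=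
  Nat.card ↥(etaPart (etaS L M ℓ₀ H' F)) = Nat.card ↥(etaPart (etaS L M ℓ₀ H F)) ^ n ∧
    (∀ φ ∈ etaPart (etaS L M ℓ₀ H F),
        resS F (Fermat.Agent.ES1.gammaH_mono hle) φ ∈ etaPart (etaS L M ℓ₀ H' F) ∧
        (resS F (Fermat.Agent.ES1.gammaH_mono hle) φ = 0 → φ = 0)) ∧
    (∀ ψ ∈ etaPart (etaS L M ℓ₀ H' F), IsInv H' H ψ →
        ∃ φ ∈ etaPart (etaS L M ℓ₀ H F), resS F (Fermat.Agent.ES1.gammaH_mono hle) φ = ψ)

/-- one step: from the conclusions of `StmtStep` with a generator of order `m = p^k` (`k ≤ 1`) -/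
theorem k5f_one_step (p : ℕ) [Fact p.Prime] (L M ℓ₀ : ℕ) [NeZero L] [NeZero ℓ₀]
    [hML : Fact (M ∣ L)] (H' H : Subgroup (ZMod M)ˣ) (hle : H' ≤ H) (F : Type) [Field F]
    [CharP F p] [Finite F] (hp2 : p ≠ 2) (hℓ : ℓ₀.Prime) (hℓL : ¬ ℓ₀ ∣ L)
    (hNT : NoTors (gammaH L M H) F) (k : ℕ) (hk : k ≤ 1)
    (g₀ : SL(2, ℤ)) (hg₀ : g₀ ∈ gammaH L M H)
    (hgen : ∀ γ ∈ gammaH L M H, ∃ j : ℕ, γ * g₀ ^ j ∈ gammaH L M H')
    (hord : ∀ j : ℤ, g₀ ^ j ∈ gammaH L M H' ↔ ((p ^ k : ℕ) : ℤ) ∣ j) :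
    k5f_Concl L M ℓ₀ H' H hle F (p ^ k) := by
  haveI : Finite (HomS (gammaH L M H) F) := k5s_finite_homS _ F
  haveI : Finite (HomS (gammaH L M H') F) := k5s_finite_homS _ F
  obtain ⟨ha, hb⟩ := stmtStep p L M ℓ₀ H' H hle F hp2 hℓ hℓL hNT k g₀ hg₀ hgen hord
  have hinvg : ∀ ψ : HomS (gammaH L M H') F, IsInv H' H ψ →
      diamS H' F g₀ hg₀.1 hg₀.2.1 ψ = ψ := fun ψ h => h g₀ hg₀
  refine ⟨?_, ha, fun ψ hψ hinv => (hb ψ hψ (hinvg ψ hinv)).1⟩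
  -- the count
  have hbij : Nat.card {w : HomS (gammaH L M H') F // w ∈ etaPart (etaS L M ℓ₀ H' F) ∧
      diamS H' F g₀ hg₀.1 hg₀.2.1 w = w} = Nat.card ↥(etaPart (etaS L M ℓ₀ H F)) := by
    symm
    refine Nat.card_congr (Equiv.ofBijective
      (fun φ : ↥(etaPart (etaS L M ℓ₀ H F)) =>
        (⟨resS F (Fermat.Agent.ES1.gammaH_mono hle) φ, (ha φ φ.2).1,
          k5f_diam_res hle g₀ hg₀ (φ : HomS (gammaH L M H) F)⟩ :
          {w : HomS (gammaH L M H') F // w ∈ etaPart (etaS L M ℓ₀ H' F) ∧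
            diamS H' F g₀ hg₀.1 hg₀.2.1 w = w})) ⟨?_, ?_⟩)
    · intro φ φ' h
      have h1 : resS F (Fermat.Agent.ES1.gammaH_mono hle) (φ : HomS (gammaH L M H) F)
          = resS F (Fermat.Agent.ES1.gammaH_mono hle) (φ' : HomS (gammaH L M H) F) :=
        congrArg Subtype.val h
      have h2 : resS F (Fermat.Agent.ES1.gammaH_mono hle)
          ((φ : HomS (gammaH L M H) F) - (φ' : HomS (gammaH L M H) F)) = 0 := by
        rw [map_sub, h1, sub_self]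
      have h3 := (ha _ ((etaPart (etaS L M ℓ₀ H F)).sub_mem φ.2 φ'.2)).2 h2
      exact Subtype.ext (sub_eq_zero.mp h3)
    · rintro ⟨w, hw, hδ⟩
      obtain ⟨φ, hφ, e⟩ := (hb w hw hδ).1
      exact ⟨⟨φ, hφ⟩, Subtype.ext e⟩
  rcases Nat.eq_zero_or_pos k with hk0 | hkpos
  · subst hk0
    rw [pow_zero, pow_one, ← hbij]
    refine Nat.card_congr
      { toFun := fun w => ⟨w.1, w.2, ?_⟩
        invFun := fun w => ⟨w.1, w.2.1⟩
        left_inv := fun w => rfl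
        right_inv := fun w => rfl }
    -- `Γ = Γ'`: every `ψ` is invariant under `g₀ ∈ Γ'`
    have hg1 : g₀ ∈ gammaH L M H' := by
      have := (hord 1).mpr (by simp)
      simpa using this
    refine AddMonoidHom.ext fun γ => ?_
    obtain ⟨γ, rfl⟩ : ∃ γ' : gammaH L M H', Additive.ofMul γ' = γ := ⟨Additive.toMul γ, rfl⟩
    show (w : HomS (gammaH L M H') F) (Additive.ofMul ⟨g₀⁻¹ * γ * g₀, _⟩) = _
    have e : (⟨g₀⁻¹ * γ * g₀, normalizes_gammaH hg₀.1 hg₀.2.1 γ γ.2⟩ : gammaH L M H')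
        = (⟨g₀, hg1⟩ : gammaH L M H')⁻¹ * γ * ⟨g₀, hg1⟩ := rfl
    rw [e, ofMul_mul, ofMul_mul, ofMul_inv, map_add, map_add, map_neg]
    abel
  · have hk1 : k = 1 := le_antisymm hk hkpos
    subst hk1
    rw [pow_one] at hord ⊢
    rw [← hbij]
    refine k5f_card_abs p (k5s_ptors p _ F) (etaPart (etaS L M ℓ₀ H' F))
      (diamS H' F g₀ hg₀.1 hg₀.2.1) ?_ ?_ ?_
    · intro w hw
      exact k5f_diam_mem L M ℓ₀ H' F hℓ hℓL g₀ hg₀.1 hg₀.2.1 hw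
    · intro w _
      -- `δ^p = 1`
      have hgp : g₀ ^ p ∈ gammaH L M H' := by
        have := (hord (p : ℤ)).mpr dvd_rfl
        rwa [zpow_natCast] at this
      refine AddMonoidHom.ext fun γ => ?_
      obtain ⟨γ, rfl⟩ : ∃ γ' : gammaH L M H', Additive.ofMul γ' = γ := ⟨Additive.toMul γ, rfl⟩
      have hmem : (g₀ ^ p)⁻¹ * (γ : SL(2, ℤ)) * g₀ ^ p ∈ gammaH L M H' :=
        mul_mem (mul_mem (inv_mem hgp) γ.2) hgp
      have h1 := k5rc_diam_pow (H' := H') g₀ hg₀.1 hg₀.2.1 p w γ hmem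
      refine h1.trans ?_
      have e : (⟨(g₀ ^ p)⁻¹ * (γ : SL(2, ℤ)) * g₀ ^ p, hmem⟩ : gammaH L M H')
          = (⟨g₀ ^ p, hgp⟩ : gammaH L M H')⁻¹ * γ * ⟨g₀ ^ p, hgp⟩ := rfl
      rw [e, ofMul_mul, ofMul_mul, ofMul_inv, map_add, map_add, map_neg]
      abel
    · intro w hw hδ
      obtain ⟨v, hv, hve⟩ := (hb w hw hδ).2
      refine ⟨v, hv, ?_⟩
      rw [hve, pow_one]
      rfl

/-- composition of two steps -/
theorem k5f_comp (L M ℓ₀ : ℕ) [NeZero L] [NeZero ℓ₀] [hML : Fact (M ∣ L)]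
    (H' H₁ H : Subgroup (ZMod M)ˣ) (h1 : H' ≤ H₁) (h2 : H₁ ≤ H) (F : Type) [AddCommGroup F]
    (hℓ : ℓ₀.Prime) (hℓL : ¬ ℓ₀ ∣ L) (n₁ n₂ : ℕ)
    (c1 : k5f_Concl L M ℓ₀ H' H₁ h1 F n₁) (c2 : k5f_Concl L M ℓ₀ H₁ H h2 F n₂) :
    k5f_Concl L M ℓ₀ H' H (h1.trans h2) F (n₂ * n₁) := by
  obtain ⟨a1, b1, d1⟩ := c1
  obtain ⟨a2, b2, d2⟩ := c2
  have hres : ∀ φ : HomS (gammaH L M H) F,
      resS F (Fermat.Agent.ES1.gammaH_mono (h1.trans h2)) φ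
        = resS F (Fermat.Agent.ES1.gammaH_mono h1) (resS F (Fermat.Agent.ES1.gammaH_mono h2) φ) :=
    fun φ => rfl
  refine ⟨by rw [a1, a2, pow_mul], ?_, ?_⟩
  · intro φ hφ
    rw [hres]
    obtain ⟨m2, i2⟩ := b2 φ hφ
    obtain ⟨m1, i1⟩ := b1 _ m2
    exact ⟨m1, fun h0 => i2 (i1 h0)⟩
  · intro ψ hψ hinv
    have hinv1 : IsInv H' H₁ ψ := fun g hg => hinv g (Fermat.Agent.ES1.gammaH_mono h2 hg)
    obtain ⟨φ₁, hφ₁, e1⟩ := d1 ψ hψ hinv1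
    have hinv2 : IsInv H₁ H φ₁ := by
      intro g hg
      have hm := k5f_diam_mem L M ℓ₀ H₁ F hℓ hℓL g hg.1 hg.2.1 hφ₁
      have hsub := (etaPart (etaS L M ℓ₀ H₁ F)).sub_mem hm hφ₁
      have h0 : resS F (Fermat.Agent.ES1.gammaH_mono h1)
          (diamS H₁ F g hg.1 hg.2.1 φ₁ - φ₁) = 0 := by
        rw [map_sub, k5f_res_diam h1 g hg.1 hg.2.1 φ₁, e1, hinv g hg, sub_self]
      exact sub_eq_zero.mp ((b1 _ hsub).2 h0)
    obtain ⟨φ, hφ, e2⟩ := d2 φ₁ hφ₁ hinv2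
    exact ⟨φ, hφ, by rw [hres, e2, e1]⟩

theorem k5e_diam_zpow {M : ℕ} (a : SL(2, ℤ)) (ha : a ∈ Gamma0 M) (j : ℤ)
    (ha' : a ^ j ∈ Gamma0 M) :
    diamHom M ⟨a ^ j, ha'⟩ = (diamHom M ⟨a, ha⟩) ^ j := by
  have : (⟨a ^ j, ha'⟩ : Gamma0 M) = (⟨a, ha⟩ : Gamma0 M) ^ j := by
    apply Subtype.ext; simp
  rw [this, map_zpow]

theorem k5f_main (p : ℕ) [Fact p.Prime] (L M ℓ₀ : ℕ) [NeZero L] [NeZero ℓ₀]
    [hML : Fact (M ∣ L)] (H : Subgroup (ZMod M)ˣ) (F : Type) [Field F]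
    [CharP F p] [Finite F] (hp2 : p ≠ 2) (hℓ : ℓ₀.Prime) (hℓL : ¬ ℓ₀ ∣ L)
    (hNT : NoTors (gammaH L M H) F) :
    ∀ (k : ℕ) (H' : Subgroup (ZMod M)ˣ) (hle : H' ≤ H),
      ((pmH H').subgroupOf (pmH H)).index = p ^ k → k5f_Concl L M ℓ₀ H' H hle F (p ^ k) := by
  haveI : NeZero M := ⟨fun h0 => by
    have h1 : M ∣ L := hML.out
    rw [h0, zero_dvd_iff] at h1
    exact NeZero.ne L h1⟩
  intro k
  induction k with
  | zero =>
    intro H' hle hidx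
    rw [pow_zero] at hidx
    have hPP : pmH H ≤ pmH H' := Subgroup.relIndex_eq_one.mp hidx
    refine k5f_one_step p L M ℓ₀ H' H hle F hp2 hℓ hℓL hNT 0 (Nat.zero_le 1) 1 (one_mem _) ?_ ?_
    · intro γ hγ
      exact ⟨0, by
        rw [pow_zero, mul_one]
        exact ⟨hγ.1, hγ.2.1, hPP hγ.2.2⟩⟩
    · intro j
      simp
  | succ k ih =>
    intro H' hle hidx
    obtain ⟨u, hu, hord, hgen, hidx₁⟩ := k5f_exists_mid p H' H hle k hidx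
    have h1 : H' ≤ H' ⊔ Subgroup.zpowers u := le_sup_left
    have h2 : H' ⊔ Subgroup.zpowers u ≤ H := sup_le hle ((Subgroup.zpowers_le).mpr hu)
    obtain ⟨g₀, hgL, hgM, hgd, -⟩ := stmtGen L M 1 (Nat.coprime_one_left L) u
    have hg₀ : g₀ ∈ gammaH L M (H' ⊔ Subgroup.zpowers u) :=
      ⟨hgL, hgM, by
        rw [hgd]
        exact Fermat.Agent.ES1.le_pmH _ (le_sup_right (a := H') (Subgroup.mem_zpowers u))⟩
    have c1 : k5f_Concl L M ℓ₀ H' (H' ⊔ Subgroup.zpowers u) h1 F (p ^ 1) := by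
      refine k5f_one_step p L M ℓ₀ H' _ h1 F hp2 hℓ hℓL
        (k5f_noTors_mono (Fermat.Agent.ES1.gammaH_mono h2) hNT) 1 le_rfl g₀ hg₀ ?_ ?_
      · intro γ hγ
        obtain ⟨j, hj⟩ := hgen _ hγ.2.2
        refine ⟨j, mul_mem hγ.1 (pow_mem hgL j), mul_mem hγ.2.1 (pow_mem hgM j), ?_⟩
        rw [k5e_diam_mul _ _ hγ.2.1 (pow_mem hgM j), k5e_diam_pow _ hgM, hgd]
        exact hj
      · intro j
        rw [pow_one, ← hord j]
        constructor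
        · intro h
          have := h.2.2
          rwa [k5e_diam_zpow _ hgM, hgd] at this
        · intro h
          refine ⟨Subgroup.zpow_mem _ hgL j, Subgroup.zpow_mem _ hgM j, ?_⟩
          rw [k5e_diam_zpow _ hgM, hgd]
          exact h
    have c2 := ih (H' ⊔ Subgroup.zpowers u) h2 hidx₁
    have := k5f_comp L M ℓ₀ H' _ H h1 h2 F hℓ hℓL (p ^ 1) (p ^ k) c1 c2
    rw [pow_one, ← pow_succ] at this
    exact this

theorem stmtFree : StmtFree := by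
  intro p _ L M ℓ₀ _ _ hML H' H hle F _ _ _ hp2 hℓ hℓL hNT k hidx
  exact k5f_main p L M ℓ₀ H F hp2 hℓ hℓL hNT k H' hle hidx

end Fermat.Agent.RT.K5
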