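import Fermat.Agent.RT.K5.Free

/-!
# RT-K5, FREE for a general Hecke summand

`CompatFam L M A`: a family of operators `𝔲_K` on `Hom(Γ_K(L), A)` (all `K ≤ (ℤ/M)ˣ`) commuting
with `res`, `cores` and the diamonds.  For `Θ_K = 𝔲_K ∘ (T_ℓ₀ − ℓ₀ − 1)` the `Θ`-bijective parts
satisfy the conclusions of `StmtFree` (`k5g_main`).  Every Hecke-stable summand of the
non-Eisenstein part is of this form (e.g. a generalised eigenspace of a system of eigenvalues).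
-/

set_option autoImplicit false
set_option linter.style.haveILetI false
set_option linter.unusedSectionVars false
set_option linter.unusedVariables false

noncomputable section

namespace Fermat.Agent.RT.K5

open CongruenceSubgroup Matrix
open scoped MatrixGroups
open Fermat.Agent.ES1 (gammaH diamHom pmH)

/-- a family of operators on all levels `Γ_K(L)` compatible with `res`, `cores`, diamonds -/
structure CompatFam (L M : ℕ) [NeZero L] [Fact (M ∣ L)] (A : Type) [AddCommGroup A] where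
  /-- the operator at level `K` -/
  op : ∀ K : Subgroup (ZMod M)ˣ, HomS (gammaH L M K) A →+ HomS (gammaH L M K) A
  res_comm : ∀ (K' K : Subgroup (ZMod M)ˣ) (h : K' ≤ K) (φ : HomS (gammaH L M K) A),
    resS A (Fermat.Agent.ES1.gammaH_mono h) (op K φ)
      = op K' (resS A (Fermat.Agent.ES1.gammaH_mono h) φ)
  cores_comm : ∀ (K' K : Subgroup (ZMod M)ˣ) (h : K' ≤ K) (ψ : HomS (gammaH L M K') A),
    coresS A (Fermat.Agent.ES1.gammaH_mono h) (op K' ψ)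
      = op K (coresS A (Fermat.Agent.ES1.gammaH_mono h) ψ)
  diam_comm : ∀ (K : Subgroup (ZMod M)ˣ) (g : SL(2, ℤ)) (hgL : g ∈ Gamma0 L) (hgM : g ∈ Gamma0 M)
    (ψ : HomS (gammaH L M K) A),
    diamS K A g hgL hgM (op K ψ) = op K (diamS K A g hgL hgM ψ)

/-- `Θ_K = 𝔲_K ∘ (T_ℓ₀ − ℓ₀ − 1)` -/
def thetaS {L M : ℕ} [NeZero L] [Fact (M ∣ L)] {A : Type} [AddCommGroup A]
    (𝔲 : CompatFam L M A) (ℓ₀ : ℕ) [NeZero ℓ₀] (K : Subgroup (ZMod M)ˣ) :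
    HomS (gammaH L M K) A →+ HomS (gammaH L M K) A :=
  (𝔲.op K).comp (etaS L M ℓ₀ K A)

/-- the trivial family -/
def CompatFam.one (L M : ℕ) [NeZero L] [Fact (M ∣ L)] (A : Type) [AddCommGroup A] :
    CompatFam L M A where
  op _ := AddMonoidHom.id _
  res_comm _ _ _ _ := rfl
  cores_comm _ _ _ _ := rfl
  diam_comm _ _ _ _ _ := rfl

/-- composition of families -/
def CompatFam.comp {L M : ℕ} [NeZero L] [Fact (M ∣ L)] {A : Type} [AddCommGroup A]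
    (𝔲 𝔳 : CompatFam L M A) : CompatFam L M A where
  op K := (𝔲.op K).comp (𝔳.op K)
  res_comm K' K h φ := by
    show resS A (Fermat.Agent.ES1.gammaH_mono h) (𝔲.op K (𝔳.op K φ))
      = 𝔲.op K' (𝔳.op K' (resS A (Fermat.Agent.ES1.gammaH_mono h) φ))
    rw [𝔲.res_comm K' K h, 𝔳.res_comm K' K h]
  cores_comm K' K h ψ := by
    show coresS A (Fermat.Agent.ES1.gammaH_mono h) (𝔲.op K' (𝔳.op K' ψ))
      = 𝔲.op K (𝔳.op K (coresS A (Fermat.Agent.ES1.gammaH_mono h) ψ))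
    rw [𝔲.cores_comm K' K h, 𝔳.cores_comm K' K h]
  diam_comm K g hgL hgM ψ := by
    show diamS K A g hgL hgM (𝔲.op K (𝔳.op K ψ)) = 𝔲.op K (𝔳.op K (diamS K A g hgL hgM ψ))
    rw [𝔲.diam_comm, 𝔳.diam_comm]

/-- sum of families -/
def CompatFam.add {L M : ℕ} [NeZero L] [Fact (M ∣ L)] {A : Type} [AddCommGroup A]
    (𝔲 𝔳 : CompatFam L M A) : CompatFam L M A where
  op K := 𝔲.op K + 𝔳.op K
  res_comm K' K h φ := by
    show resS A (Fermat.Agent.ES1.gammaH_mono h) (𝔲.op K φ + 𝔳.op K φ)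
      = 𝔲.op K' (resS A (Fermat.Agent.ES1.gammaH_mono h) φ)
        + 𝔳.op K' (resS A (Fermat.Agent.ES1.gammaH_mono h) φ)
    rw [map_add, 𝔲.res_comm K' K h, 𝔳.res_comm K' K h]
  cores_comm K' K h ψ := by
    show coresS A (Fermat.Agent.ES1.gammaH_mono h) (𝔲.op K' ψ + 𝔳.op K' ψ)
      = 𝔲.op K (coresS A (Fermat.Agent.ES1.gammaH_mono h) ψ)
        + 𝔳.op K (coresS A (Fermat.Agent.ES1.gammaH_mono h) ψ)
    rw [map_add, 𝔲.cores_comm K' K h, 𝔳.cores_comm K' K h]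
  diam_comm K g hgL hgM ψ := by
    show diamS K A g hgL hgM (𝔲.op K ψ + 𝔳.op K ψ)
      = 𝔲.op K (diamS K A g hgL hgM ψ) + 𝔳.op K (diamS K A g hgL hgM ψ)
    rw [map_add, 𝔲.diam_comm, 𝔳.diam_comm]

/-- the family induced by an endomorphism of the coefficients (e.g. a scalar) -/
def CompatFam.coeff (L M : ℕ) [NeZero L] [Fact (M ∣ L)] {A : Type} [AddCommGroup A]
    (f : A →+ A) : CompatFam L M A where
  op _ := { toFun := fun φ => f.comp φ, map_zero' := by simp, map_add' := fun _ _ => by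
              ext; simp }
  res_comm _ _ _ _ := rfl
  cores_comm K' K h ψ := by
    show S41.transferAlong A _ _ (f.comp ψ) = f.comp (S41.transferAlong A _ _ ψ)
    exact S41.transferAlong_natural _ _ A f ψ
  diam_comm _ _ _ _ _ := rfl

/-- the Hecke operators `T_ℓ`, `ℓ ∤ L` -/
def CompatFam.hecke (L M ℓ : ℕ) [NeZero L] [NeZero ℓ] [Fact (M ∣ L)] (A : Type) [AddCommGroup A]
    (hℓ : ℓ.Prime) (hℓL : ¬ ℓ ∣ L) : CompatFam L M A where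
  op K := tS L M ℓ K A
  res_comm K' K h φ := (stmtComm L M ℓ K' K h A hℓ hℓL).1 φ
  cores_comm K' K h ψ := (stmtComm L M ℓ K' K h A hℓ hℓL).2.1 ψ
  diam_comm K g hgL hgM ψ := (stmtComm L M ℓ K K le_rfl A hℓ hℓL).2.2 g hgL hgM ψ

/-- the `Θ`-part is stable under the diamonds -/
theorem k5g_diam_mem (L M ℓ₀ : ℕ) [NeZero L] [NeZero ℓ₀] [hML : Fact (M ∣ L)]
    {F : Type} [AddCommGroup F] (𝔲 : CompatFam L M F)
    (H' : Subgroup (ZMod M)ˣ) (hℓ : ℓ₀.Prime) (hℓL : ¬ ℓ₀ ∣ L)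
    (g : SL(2, ℤ)) (hgL : g ∈ Gamma0 L) (hgM : g ∈ Gamma0 M)
    {ψ : HomS (gammaH L M H') F} (hψ : ψ ∈ etaPart (thetaS 𝔲 ℓ₀ H')) :
    diamS H' F g hgL hgM ψ ∈ etaPart (thetaS 𝔲 ℓ₀ H') := by
  refine k5s_intertwine_mem (thetaS 𝔲 ℓ₀ H') (thetaS 𝔲 ℓ₀ H') (diamS H' F g hgL hgM) ?_ hψ
  intro x
  have c3 := (stmtComm L M ℓ₀ H' H' le_rfl F hℓ hℓL).2.2 g hgL hgM x
  show diamS H' F g hgL hgM (𝔲.op H' (tS L M ℓ₀ H' F x - (ℓ₀ + 1) • x))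
    = 𝔲.op H' (tS L M ℓ₀ H' F (diamS H' F g hgL hgM x) - (ℓ₀ + 1) • diamS H' F g hgL hgM x)
  rw [𝔲.diam_comm, map_sub, map_nsmul, c3]

/-- **the cyclic step for `Θ`** -/
theorem k5g_step (p : ℕ) [Fact p.Prime] (L M ℓ₀ : ℕ) [NeZero L] [NeZero ℓ₀]
    [hML : Fact (M ∣ L)] {F : Type} [Field F] [CharP F p] [Finite F] (𝔲 : CompatFam L M F)
    (H' H : Subgroup (ZMod M)ˣ) (hle : H' ≤ H) (hp2 : p ≠ 2) (hℓ : ℓ₀.Prime) (hℓL : ¬ ℓ₀ ∣ L)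
    (hNT : NoTors (gammaH L M H) F) (k : ℕ) (g₀ : SL(2, ℤ)) (hg₀ : g₀ ∈ gammaH L M H)
    (hgen : ∀ γ ∈ gammaH L M H, ∃ j : ℕ, γ * g₀ ^ j ∈ gammaH L M H')
    (hord : ∀ j : ℤ, g₀ ^ j ∈ gammaH L M H' ↔ ((p ^ k : ℕ) : ℤ) ∣ j) :
    (∀ φ ∈ etaPart (thetaS 𝔲 ℓ₀ H),
        resS F (Fermat.Agent.ES1.gammaH_mono hle) φ ∈ etaPart (thetaS 𝔲 ℓ₀ H') ∧
        (resS F (Fermat.Agent.ES1.gammaH_mono hle) φ = 0 → φ = 0)) ∧
    (∀ ψ ∈ etaPart (thetaS 𝔲 ℓ₀ H'), diamS H' F g₀ hg₀.1 hg₀.2.1 ψ = ψ →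
        (∃ φ ∈ etaPart (thetaS 𝔲 ℓ₀ H), resS F (Fermat.Agent.ES1.gammaH_mono hle) φ = ψ) ∧
        ∃ v ∈ etaPart (thetaS 𝔲 ℓ₀ H'), ψ = ∑ i ∈ Finset.range (p ^ k),
          (((show AddMonoid.End (HomS (gammaH L M H') F) from diamS H' F g₀ hg₀.1 hg₀.2.1) ^ i :
            AddMonoid.End (HomS (gammaH L M H') F)) : _ →+ _) v) := by
  haveI : Finite (HomS (gammaH L M H) F) := k5s_finite_homS _ F
  haveI : Finite (HomS (gammaH L M H') F) := k5s_finite_homS _ F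
  have hΓle : gammaH L M H' ≤ gammaH L M H := Fermat.Agent.ES1.gammaH_mono hle
  obtain ⟨c1, c2, c3⟩ := stmtComm L M ℓ₀ H' H hle F hℓ hℓL
  have hpk : 0 < p ^ k := pow_pos (Fact.out : p.Prime).pos k
  obtain ⟨r1, r2⟩ := stmtResCores L M H' H hle F (p ^ k) g₀ hg₀ hgen hord hpk
  -- the step for `η` gives `h4`
  have h4η : ∀ ψ : HomS (gammaH L M H') F, diamS H' F g₀ hg₀.1 hg₀.2.1 ψ = ψ →
      ∃ φ, resS F hΓle φ = etaS L M ℓ₀ H' F ψ := by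
    intro ψ hδ
    rcases Nat.eq_zero_or_pos k with hk0 | hkpos
    · subst hk0
      have hg1 : g₀ ∈ gammaH L M H' := by
        have := (hord 1).mpr (by simp)
        simpa using this
      have hΓ' : gammaH L M H ≤ gammaH L M H' := by
        intro γ hγ
        obtain ⟨j, hj⟩ := hgen γ hγ
        have : γ = γ * g₀ ^ j * (g₀ ^ j)⁻¹ := by group
        rw [this]
        exact mul_mem hj (inv_mem (pow_mem hg1 j))
      refine ⟨(etaS L M ℓ₀ H' F ψ).comp (MonoidHom.toAdditive (Subgroup.inclusion hΓ')), ?_⟩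
      refine AddMonoidHom.ext fun x => ?_
      obtain ⟨x, rfl⟩ : ∃ x' : gammaH L M H', Additive.ofMul x' = x := ⟨Additive.toMul x, rfl⟩
      rfl
    · have hmA : ∀ a : F, (p ^ k) • a = 0 := by
        intro a
        rw [nsmul_eq_mul]
        have : ((p ^ k : ℕ) : F) = 0 := by
          rw [Nat.cast_pow, CharP.cast_eq_zero, zero_pow (Nat.pos_iff_ne_zero.mp hkpos)]
        rw [this, zero_mul]
      have hinv : IsInv H' H ψ := k5s_isInv_of_gen g₀ hg₀ hgen ψ hδ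
      exact stmtE2 L M ℓ₀ H' H hle F hℓ hℓL (p ^ k) g₀ hg₀ hgen hord hpk hmA ψ hinv
  have hη1 : ∀ φ : HomS (gammaH L M H) F,
      resS F hΓle (etaS L M ℓ₀ H F φ) = etaS L M ℓ₀ H' F (resS F hΓle φ) := by
    intro φ
    show resS F hΓle (tS L M ℓ₀ H F φ - (ℓ₀ + 1) • φ) = tS L M ℓ₀ H' F (resS F hΓle φ)
      - (ℓ₀ + 1) • resS F hΓle φ
    rw [map_sub, map_nsmul, c1]
  have hη2 : ∀ ψ : HomS (gammaH L M H') F,
      coresS F hΓle (etaS L M ℓ₀ H' F ψ) = etaS L M ℓ₀ H F (coresS F hΓle ψ) := by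
    intro ψ
    show coresS F hΓle (tS L M ℓ₀ H' F ψ - (ℓ₀ + 1) • ψ) = tS L M ℓ₀ H F (coresS F hΓle ψ)
      - (ℓ₀ + 1) • coresS F hΓle ψ
    rw [map_sub, map_nsmul, c2]
  have key := k5s_step_abs p (k5s_ptors p _ F) (k5s_ptors p _ F) (thetaS 𝔲 ℓ₀ H)
    (thetaS 𝔲 ℓ₀ H') (resS F hΓle) (coresS F hΓle) (diamS H' F g₀ hg₀.1 hg₀.2.1)
    (∑ i ∈ Finset.range (p ^ k),
      (((show AddMonoid.End (HomS (gammaH L M H') F) from diamS H' F g₀ hg₀.1 hg₀.2.1) ^ i :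
        AddMonoid.End (HomS (gammaH L M H') F)) : _ →+ _)) ?_ ?_ ?_ ?_ ?_ ?_
  · obtain ⟨ha, hb⟩ := key
    refine ⟨ha, fun ψ hψ hδ => ?_⟩
    obtain ⟨h1, v, hv, hve⟩ := hb ψ hψ hδ
    exact ⟨h1, v, hv, hve.trans (AddMonoidHom.finsetSum_apply _ _ _)⟩
  · intro φ
    show resS F hΓle (𝔲.op H (etaS L M ℓ₀ H F φ)) = 𝔲.op H' (etaS L M ℓ₀ H' F (resS F hΓle φ))
    rw [𝔲.res_comm H' H hle, hη1]
  · intro ψ
    show coresS F hΓle (𝔲.op H' (etaS L M ℓ₀ H' F ψ))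
      = 𝔲.op H (etaS L M ℓ₀ H F (coresS F hΓle ψ))
    rw [𝔲.cores_comm H' H hle, hη2]
  · intro φ h0
    show 𝔲.op H (tS L M ℓ₀ H F φ - (ℓ₀ + 1) • φ) = 0
    rw [stmtE1 L M ℓ₀ H' H hle F hℓ hℓL φ h0, sub_self, map_zero]
  · intro ψ hδ
    obtain ⟨φ, hφ⟩ := h4η ψ hδ
    refine ⟨𝔲.op H φ, ?_⟩
    show resS F hΓle (𝔲.op H φ) = 𝔲.op H' (etaS L M ℓ₀ H' F ψ)
    rw [𝔲.res_comm H' H hle, hφ]
  · intro φ
    exact stmtCoresSurj L M H' H hle F hNT φ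
  · intro ψ
    rw [r1 ψ, AddMonoidHom.finsetSum_apply]
    rfl

/-- the conclusion of `StmtFree` for a pair `H' ≤ H` and an exponent `n` -/
def k5g_Concl {L M : ℕ} [NeZero L] [Fact (M ∣ L)] {F : Type} [AddCommGroup F]
    (𝔲 : CompatFam L M F) (ℓ₀ : ℕ) [NeZero ℓ₀]
    (H' H : Subgroup (ZMod M)ˣ) (hle : H' ≤ H) (n : ℕ) : Prop :=
  Nat.card ↥(etaPart (thetaS 𝔲 ℓ₀ H')) = Nat.card ↥(etaPart (thetaS 𝔲 ℓ₀ H)) ^ n ∧
    (∀ φ ∈ etaPart (thetaS 𝔲 ℓ₀ H),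
        resS F (Fermat.Agent.ES1.gammaH_mono hle) φ ∈ etaPart (thetaS 𝔲 ℓ₀ H') ∧
        (resS F (Fermat.Agent.ES1.gammaH_mono hle) φ = 0 → φ = 0)) ∧
    (∀ ψ ∈ etaPart (thetaS 𝔲 ℓ₀ H'), IsInv H' H ψ →
        ∃ φ ∈ etaPart (thetaS 𝔲 ℓ₀ H), resS F (Fermat.Agent.ES1.gammaH_mono hle) φ = ψ)

/-- one step: from the conclusions of `StmtStep` with a generator of order `m = p^k` (`k ≤ 1`) -/
theorem k5g_one_step (p : ℕ) [Fact p.Prime] (L M ℓ₀ : ℕ) [NeZero L] [NeZero ℓ₀]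
    [hML : Fact (M ∣ L)] {F : Type} [Field F]
    [CharP F p] [Finite F] (𝔲 : CompatFam L M F) (H' H : Subgroup (ZMod M)ˣ) (hle : H' ≤ H) (hp2 : p ≠ 2) (hℓ : ℓ₀.Prime) (hℓL : ¬ ℓ₀ ∣ L)
    (hNT : NoTors (gammaH L M H) F) (k : ℕ) (hk : k ≤ 1)
    (g₀ : SL(2, ℤ)) (hg₀ : g₀ ∈ gammaH L M H)
    (hgen : ∀ γ ∈ gammaH L M H, ∃ j : ℕ, γ * g₀ ^ j ∈ gammaH L M H')
    (hord : ∀ j : ℤ, g₀ ^ j ∈ gammaH L M H' ↔ ((p ^ k : ℕ) : ℤ) ∣ j) :
    k5g_Concl 𝔲 ℓ₀ H' H hle (p ^ k) := by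
  haveI : Finite (HomS (gammaH L M H) F) := k5s_finite_homS _ F
  haveI : Finite (HomS (gammaH L M H') F) := k5s_finite_homS _ F
  obtain ⟨ha, hb⟩ := k5g_step p L M ℓ₀ 𝔲 H' H hle hp2 hℓ hℓL hNT k g₀ hg₀ hgen hord
  have hinvg : ∀ ψ : HomS (gammaH L M H') F, IsInv H' H ψ →
      diamS H' F g₀ hg₀.1 hg₀.2.1 ψ = ψ := fun ψ h => h g₀ hg₀
  refine ⟨?_, ha, fun ψ hψ hinv => (hb ψ hψ (hinvg ψ hinv)).1⟩
  -- the count
  have hbij : Nat.card {w : HomS (gammaH L M H') F // w ∈ etaPart (thetaS 𝔲 ℓ₀ H') ∧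
      diamS H' F g₀ hg₀.1 hg₀.2.1 w = w} = Nat.card ↥(etaPart (thetaS 𝔲 ℓ₀ H)) := by
    symm
    refine Nat.card_congr (Equiv.ofBijective
      (fun φ : ↥(etaPart (thetaS 𝔲 ℓ₀ H)) =>
        (⟨resS F (Fermat.Agent.ES1.gammaH_mono hle) φ, (ha φ φ.2).1,
          k5f_diam_res hle g₀ hg₀ (φ : HomS (gammaH L M H) F)⟩ :
          {w : HomS (gammaH L M H') F // w ∈ etaPart (thetaS 𝔲 ℓ₀ H') ∧
            diamS H' F g₀ hg₀.1 hg₀.2.1 w = w})) ⟨?_, ?_⟩)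
    · intro φ φ' h
      have h1 : resS F (Fermat.Agent.ES1.gammaH_mono hle) (φ : HomS (gammaH L M H) F)
          = resS F (Fermat.Agent.ES1.gammaH_mono hle) (φ' : HomS (gammaH L M H) F) :=
        congrArg Subtype.val h
      have h2 : resS F (Fermat.Agent.ES1.gammaH_mono hle)
          ((φ : HomS (gammaH L M H) F) - (φ' : HomS (gammaH L M H) F)) = 0 := by
        rw [map_sub, h1, sub_self]
      have h3 := (ha _ ((etaPart (thetaS 𝔲 ℓ₀ H)).sub_mem φ.2 φ'.2)).2 h2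
      exact Subtype.ext (sub_eq_zero.mp h3)
    · rintro ⟨w, hw, hδ⟩
      obtain ⟨φ, hφ, e⟩ := (hb w hw hδ).1
      exact ⟨⟨φ, hφ⟩, Subtype.ext e⟩
  rcases Nat.eq_zero_or_pos k with hk0 | hkpos
  · subst hk0
    rw [pow_zero, pow_one, ← hbij]
    refine Nat.card_congr
      { toFun := fun w => ⟨w.1, w.2, ?_⟩
        invFun := fun w => ⟨w.1, w.2.1⟩
        left_inv := fun w => rfl
        right_inv := fun w => rfl }
    -- `Γ = Γ'`: every `ψ` is invariant under `g₀ ∈ Γ'`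
    have hg1 : g₀ ∈ gammaH L M H' := by
      have := (hord 1).mpr (by simp)
      simpa using this
    refine AddMonoidHom.ext fun γ => ?_
    obtain ⟨γ, rfl⟩ : ∃ γ' : gammaH L M H', Additive.ofMul γ' = γ := ⟨Additive.toMul γ, rfl⟩
    show (w : HomS (gammaH L M H') F) (Additive.ofMul ⟨g₀⁻¹ * γ * g₀, _⟩) = _
    have e : (⟨g₀⁻¹ * γ * g₀, normalizes_gammaH hg₀.1 hg₀.2.1 γ γ.2⟩ : gammaH L M H')
        = (⟨g₀, hg1⟩ : gammaH L M H')⁻¹ * γ * ⟨g₀, hg1⟩ := rfl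
    rw [e, ofMul_mul, ofMul_mul, ofMul_inv, map_add, map_add, map_neg]
    abel
  · have hk1 : k = 1 := le_antisymm hk hkpos
    subst hk1
    rw [pow_one] at hord ⊢
    rw [← hbij]
    refine k5f_card_abs p (k5s_ptors p _ F) (etaPart (thetaS 𝔲 ℓ₀ H'))
      (diamS H' F g₀ hg₀.1 hg₀.2.1) ?_ ?_ ?_
    · intro w hw
      exact k5g_diam_mem L M ℓ₀ 𝔲 H' hℓ hℓL g₀ hg₀.1 hg₀.2.1 hw
    · intro w _
      -- `δ^p = 1`
      have hgp : g₀ ^ p ∈ gammaH L M H' := by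
        have := (hord (p : ℤ)).mpr dvd_rfl
        rwa [zpow_natCast] at this
      refine AddMonoidHom.ext fun γ => ?_
      obtain ⟨γ, rfl⟩ : ∃ γ' : gammaH L M H', Additive.ofMul γ' = γ := ⟨Additive.toMul γ, rfl⟩
      have hmem : (g₀ ^ p)⁻¹ * (γ : SL(2, ℤ)) * g₀ ^ p ∈ gammaH L M H' :=
        mul_mem (mul_mem (inv_mem hgp) γ.2) hgp
      have h1 := k5rc_diam_pow (H' := H') g₀ hg₀.1 hg₀.2.1 p w γ hmem
      refine h1.trans ?_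
      have e : (⟨(g₀ ^ p)⁻¹ * (γ : SL(2, ℤ)) * g₀ ^ p, hmem⟩ : gammaH L M H')
          = (⟨g₀ ^ p, hgp⟩ : gammaH L M H')⁻¹ * γ * ⟨g₀ ^ p, hgp⟩ := rfl
      rw [e, ofMul_mul, ofMul_mul, ofMul_inv, map_add, map_add, map_neg]
      abel
    · intro w hw hδ
      obtain ⟨v, hv, hve⟩ := (hb w hw hδ).2
      refine ⟨v, hv, ?_⟩
      rw [hve, pow_one]
      rfl

/-- composition of two steps -/
theorem k5g_comp (L M ℓ₀ : ℕ) [NeZero L] [NeZero ℓ₀] [hML : Fact (M ∣ L)]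
    {F : Type} [AddCommGroup F] (𝔲 : CompatFam L M F)
    (H' H₁ H : Subgroup (ZMod M)ˣ) (h1 : H' ≤ H₁) (h2 : H₁ ≤ H)
    (hℓ : ℓ₀.Prime) (hℓL : ¬ ℓ₀ ∣ L) (n₁ n₂ : ℕ)
    (c1 : k5g_Concl 𝔲 ℓ₀ H' H₁ h1 n₁) (c2 : k5g_Concl 𝔲 ℓ₀ H₁ H h2 n₂) :
    k5g_Concl 𝔲 ℓ₀ H' H (h1.trans h2) (n₂ * n₁) := by
  obtain ⟨a1, b1, d1⟩ := c1
  obtain ⟨a2, b2, d2⟩ := c2
  have hres : ∀ φ : HomS (gammaH L M H) F,
      resS F (Fermat.Agent.ES1.gammaH_mono (h1.trans h2)) φ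
        = resS F (Fermat.Agent.ES1.gammaH_mono h1) (resS F (Fermat.Agent.ES1.gammaH_mono h2) φ) :=
    fun φ => rfl
  refine ⟨by rw [a1, a2, pow_mul], ?_, ?_⟩
  · intro φ hφ
    rw [hres]
    obtain ⟨m2, i2⟩ := b2 φ hφ
    obtain ⟨m1, i1⟩ := b1 _ m2
    exact ⟨m1, fun h0 => i2 (i1 h0)⟩
  · intro ψ hψ hinv
    have hinv1 : IsInv H' H₁ ψ := fun g hg => hinv g (Fermat.Agent.ES1.gammaH_mono h2 hg)
    obtain ⟨φ₁, hφ₁, e1⟩ := d1 ψ hψ hinv1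
    have hinv2 : IsInv H₁ H φ₁ := by
      intro g hg
      have hm := k5g_diam_mem L M ℓ₀ 𝔲 H₁ hℓ hℓL g hg.1 hg.2.1 hφ₁
      have hsub := (etaPart (thetaS 𝔲 ℓ₀ H₁)).sub_mem hm hφ₁
      have h0 : resS F (Fermat.Agent.ES1.gammaH_mono h1)
          (diamS H₁ F g hg.1 hg.2.1 φ₁ - φ₁) = 0 := by
        rw [map_sub, k5f_res_diam h1 g hg.1 hg.2.1 φ₁, e1, hinv g hg, sub_self]
      exact sub_eq_zero.mp ((b1 _ hsub).2 h0)
    obtain ⟨φ, hφ, e2⟩ := d2 φ₁ hφ₁ hinv2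
    exact ⟨φ, hφ, by rw [hres, e2, e1]⟩

theorem k5g_main (p : ℕ) [Fact p.Prime] (L M ℓ₀ : ℕ) [NeZero L] [NeZero ℓ₀]
    [hML : Fact (M ∣ L)] {F : Type} [Field F]
    [CharP F p] [Finite F] (𝔲 : CompatFam L M F) (H : Subgroup (ZMod M)ˣ) (hp2 : p ≠ 2) (hℓ : ℓ₀.Prime) (hℓL : ¬ ℓ₀ ∣ L)
    (hNT : NoTors (gammaH L M H) F) :
    ∀ (k : ℕ) (H' : Subgroup (ZMod M)ˣ) (hle : H' ≤ H),
      ((pmH H').subgroupOf (pmH H)).index = p ^ k → k5g_Concl 𝔲 ℓ₀ H' H hle (p ^ k) := by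
  haveI : NeZero M := ⟨fun h0 => by
    have h1 : M ∣ L := hML.out
    rw [h0, zero_dvd_iff] at h1
    exact NeZero.ne L h1⟩
  intro k
  induction k with
  | zero =>
    intro H' hle hidx
    rw [pow_zero] at hidx
    have hPP : pmH H ≤ pmH H' := Subgroup.relIndex_eq_one.mp hidx
    refine k5g_one_step p L M ℓ₀ 𝔲 H' H hle hp2 hℓ hℓL hNT 0 (Nat.zero_le 1) 1 (one_mem _) ?_ ?_
    · intro γ hγ
      exact ⟨0, by
        rw [pow_zero, mul_one]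
        exact ⟨hγ.1, hγ.2.1, hPP hγ.2.2⟩⟩
    · intro j
      simp
  | succ k ih =>
    intro H' hle hidx
    obtain ⟨u, hu, hord, hgen, hidx₁⟩ := k5f_exists_mid p H' H hle k hidx
    have h1 : H' ≤ H' ⊔ Subgroup.zpowers u := le_sup_left
    have h2 : H' ⊔ Subgroup.zpowers u ≤ H := sup_le hle ((Subgroup.zpowers_le).mpr hu)
    obtain ⟨g₀, hgL, hgM, hgd, -⟩ := stmtGen L M 1 (Nat.coprime_one_left L) u
    have hg₀ : g₀ ∈ gammaH L M (H' ⊔ Subgroup.zpowers u) :=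
      ⟨hgL, hgM, by
        rw [hgd]
        exact Fermat.Agent.ES1.le_pmH _ (le_sup_right (a := H') (Subgroup.mem_zpowers u))⟩
    have c1 : k5g_Concl 𝔲 ℓ₀ H' (H' ⊔ Subgroup.zpowers u) h1 (p ^ 1) := by
      refine k5g_one_step p L M ℓ₀ 𝔲 H' _ h1 hp2 hℓ hℓL
        (k5f_noTors_mono (Fermat.Agent.ES1.gammaH_mono h2) hNT) 1 le_rfl g₀ hg₀ ?_ ?_
      · intro γ hγ
        obtain ⟨j, hj⟩ := hgen _ hγ.2.2
        refine ⟨j, mul_mem hγ.1 (pow_mem hgL j), mul_mem hγ.2.1 (pow_mem hgM j), ?_⟩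
        rw [k5e_diam_mul _ _ hγ.2.1 (pow_mem hgM j), k5e_diam_pow _ hgM, hgd]
        exact hj
      · intro j
        rw [pow_one, ← hord j]
        constructor
        · intro h
          have := h.2.2
          rwa [k5e_diam_zpow _ hgM, hgd] at this
        · intro h
          refine ⟨Subgroup.zpow_mem _ hgL j, Subgroup.zpow_mem _ hgM j, ?_⟩
          rw [k5e_diam_zpow _ hgM, hgd]
          exact h
    have c2 := ih (H' ⊔ Subgroup.zpowers u) h2 hidx₁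
    have := k5g_comp L M ℓ₀ 𝔲 H' _ H h1 h2 hℓ hℓL (p ^ 1) (p ^ k) c1 c2
    rw [pow_one, ← pow_succ] at this
    exact this


end Fermat.Agent.RT.K5
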