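import Fermat.Agent.RT.K5.Plan5
import Fermat.Agent.RT.K5.Count
import Fermat.Agent.RT.K5.CoresSurj

/-!
# K-machine, piece K5-FREE-fin (helper15): `stmtFreeFin_of : StmtFreeF → StmtCount → StmtFreeFin`

`A_n = 𝒪/𝔪ⁿ`, `X_n(K) = etaPart (thetaN 𝔲 ℓ₀ A_n K)`.  Level `1` (`StmtFreeF`) gives `r` and
`b₁ i ∈ X₁(H')` whose `±H`-translates span `X₁(H')`, with `#X₁(H) = q^r`, `#X₁(H') = q^(r p^k)`.
* lift `b₁ i` to `b i ∈ X_n(H')` (`StmtCount`: the reduction is onto);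
* Nakayama by iteration (`k5fn_nak`): `X_n(H') = N + λ X_n(H')` for the span `N` of the
  translates of the `b i` (`StmtCount`: the kernel of the reduction is `λ X_n`), `λⁿ = 0`;
* `cores` maps `X_n(H')` onto `X_n(H)` (`stmtCoresSurj`, `k5fx_surj`) and `cores ∘ ⟨u⟩ = cores`
  for `u ∈ ±H` (`k5fn_cores_diamU`);
* injectivity by counting (`k5fn_inj_of_card`): `#X_n(K) = #X₁(K)ⁿ`, `#A_n = qⁿ`,
  a transversal has `p^k` elements (`k5fn_transversal_card`).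
-/

set_option autoImplicit false
set_option linter.style.haveILetI false
set_option linter.unusedSectionVars false
set_option linter.unusedVariables false

noncomputable section

namespace Fermat.Agent.RT.K5

open CongruenceSubgroup Matrix
open scoped MatrixGroups
open Fermat.Agent.ES1 (gammaH diamHom pmH)

section abstract

/-- Nakayama by iteration: `X ⊆ N + λ X` and `λⁿ X = 0` imply `X ⊆ N` -/
theorem k5fn_nak {R V : Type*} [CommRing R] [AddCommGroup V] [Module R V] (X N : Submodule R V)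
    (lam : R) (n : ℕ) (hn : ∀ v ∈ X, lam ^ n • v = 0)
    (h : ∀ ψ ∈ X, ∃ ν ∈ N, ∃ ψ' ∈ X, ψ = ν + lam • ψ') : X ≤ N := by
  have key : ∀ t : ℕ, ∀ ψ ∈ X, ∃ ν ∈ N, ∃ ψ' ∈ X, ψ = ν + lam ^ t • ψ' := by
    intro t
    induction t with
    | zero => exact fun ψ hψ => ⟨0, N.zero_mem, ψ, hψ, by simp⟩
    | succ t ih =>
      intro ψ hψ
      obtain ⟨ν, hν, ψ', hψ', e⟩ := ih ψ hψ
      obtain ⟨ν', hν', ψ'', hψ'', e'⟩ := h ψ' hψ'
      refine ⟨ν + lam ^ t • ν', N.add_mem hν (N.smul_mem _ hν'), ψ'', hψ'', ?_⟩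
      rw [e, e', smul_add, smul_smul, ← pow_succ, add_assoc]
  intro ψ hψ
  obtain ⟨ν, hν, ψ', hψ', e⟩ := key n ψ hψ
  rw [e, hn ψ' hψ', add_zero]
  exact hν

/-- a spanning family of the right size is free -/
theorem k5fn_inj_of_card {R V : Type*} [CommRing R] [Finite R] [AddCommGroup V] [Module R V]
    (X : AddSubgroup V) {κ : Type*} [Fintype κ] (v : κ → V)
    (hmem : ∀ c : κ → R, ∑ x, c x • v x ∈ X)
    (hspan : ∀ ψ ∈ X, ∃ c : κ → R, ψ = ∑ x, c x • v x)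
    (hcard : Nat.card X = Nat.card R ^ Fintype.card κ) :
    Function.Injective (fun c : κ → R => ∑ x, c x • v x) := by
  let g : (κ → R) → X := fun c => ⟨∑ x, c x • v x, hmem c⟩
  have hg : Function.Surjective g := fun ψ => by
    obtain ⟨c, hc⟩ := hspan ψ ψ.2
    exact ⟨c, Subtype.ext hc.symm⟩
  have hc : Nat.card (κ → R) = Nat.card X := by
    rw [Nat.card_fun, hcard, Nat.card_eq_fintype_card (α := κ)]
  have hb : Function.Bijective g := hg.bijective_of_nat_card_le hc.le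
  intro c c' h
  exact hb.1 (Subtype.ext h)

/-- a system of representatives of `G` modulo `K` has `[G : K]` elements -/
theorem k5fn_card_of_reps {G : Type*} [Group G] (P K : Subgroup G) {m : ℕ} (u : Fin m → G)
    (hu : ∀ j, u j ∈ P) (hex : ∀ v ∈ P, ∃! j, (u j)⁻¹ * v ∈ K) :
    (K.subgroupOf P).index = m := by
  have hbij : Function.Bijective
      (fun j : Fin m => (QuotientGroup.mk (⟨u j, hu j⟩ : P) : P ⧸ K.subgroupOf P)) := by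
    constructor
    · intro j j' h
      have h1 : (⟨u j, hu j⟩ : P)⁻¹ * ⟨u j', hu j'⟩ ∈ K.subgroupOf P := QuotientGroup.eq.mp h
      have h2 : (u j)⁻¹ * u j' ∈ K := h1
      obtain ⟨j₀, -, huniq⟩ := hex (u j') (hu j')
      have e1 := huniq j h2
      have e2 := huniq j' (by
        show (u j')⁻¹ * u j' ∈ K
        rw [inv_mul_cancel]; exact one_mem K)
      rw [e1, e2]
    · intro q
      induction q using QuotientGroup.induction_on with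
      | H v =>
        obtain ⟨j, hj, -⟩ := hex v v.2
        refine ⟨j, ?_⟩
        show (QuotientGroup.mk (⟨u j, hu j⟩ : P) : P ⧸ K.subgroupOf P) = QuotientGroup.mk v
        rw [QuotientGroup.eq]
        exact hj
  have := Nat.card_eq_of_bijective _ hbij
  rw [Nat.card_eq_fintype_card, Fintype.card_fin] at this
  rw [Subgroup.index, ← this]

end abstract

section concrete

variable {𝒪 : Type} [CommRing 𝒪] {L M : ℕ} [NeZero L] [hML : Fact (M ∣ L)]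

/-- the `Θ`-part as an `𝒪`-submodule -/
def k5fn_etaSub (𝔲 : NatFam 𝒪 L M) (ℓ₀ : ℕ) [NeZero ℓ₀] (A : Type) [AddCommGroup A] [Module 𝒪 A]
    (K : Subgroup (ZMod M)ˣ) : Submodule 𝒪 (HomS (gammaH L M K) A) where
  carrier := etaPart (thetaN 𝔲 ℓ₀ A K)
  add_mem' := fun ha hb => (etaPart (thetaN 𝔲 ℓ₀ A K)).add_mem ha hb
  zero_mem' := (etaPart (thetaN 𝔲 ℓ₀ A K)).zero_mem
  smul_mem' c x hx :=
    k5s_intertwine_mem (thetaN 𝔲 ℓ₀ A K) (thetaN 𝔲 ℓ₀ A K)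
      (DistribSMul.toAddMonoidHom (HomS (gammaH L M K) A) c)
      (fun y => (k5n_theta_smul 𝔲 ℓ₀ K c y).symm) hx

theorem k5fn_mem_etaSub (𝔲 : NatFam 𝒪 L M) (ℓ₀ : ℕ) [NeZero ℓ₀] (A : Type) [AddCommGroup A]
    [Module 𝒪 A] (K : Subgroup (ZMod M)ˣ) (ψ : HomS (gammaH L M K) A) :
    ψ ∈ k5fn_etaSub 𝔲 ℓ₀ A K ↔ ψ ∈ etaPart (thetaN 𝔲 ℓ₀ A K) := Iff.rfl

/-- `mapS` as an `𝒪`-linear map -/
def k5fn_mapL {Γ : Subgroup SL(2, ℤ)} {A B : Type} [AddCommGroup A] [Module 𝒪 A]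
    [AddCommGroup B] [Module 𝒪 B] (f : A →ₗ[𝒪] B) : HomS Γ A →ₗ[𝒪] HomS Γ B where
  toFun := mapS f.toAddMonoidHom
  map_add' := map_add _
  map_smul' c φ := by
    refine AddMonoidHom.ext fun γ => ?_
    exact map_smul f c (φ γ)

theorem k5fn_mapL_apply {Γ : Subgroup SL(2, ℤ)} {A B : Type} [AddCommGroup A] [Module 𝒪 A]
    [AddCommGroup B] [Module 𝒪 B] (f : A →ₗ[𝒪] B) (φ : HomS Γ A) :
    k5fn_mapL (Γ := Γ) f φ = mapS f.toAddMonoidHom φ := rfl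

/-- the scalars of `𝒪/I` act through `𝒪` -/
theorem k5fn_mk_smul {Γ : Subgroup SL(2, ℤ)} (I : Ideal 𝒪) (a : 𝒪) (ψ : HomS Γ (𝒪 ⧸ I)) :
    (Ideal.Quotient.mk I a) • ψ = a • ψ := by
  refine AddMonoidHom.ext fun γ => ?_
  show (Ideal.Quotient.mk I a) • ψ γ = a • ψ γ
  rw [Algebra.smul_def a (ψ γ), Ideal.Quotient.algebraMap_eq, smul_eq_mul]

/-- `cores` commutes with the scalars -/
theorem k5fn_cores_smul {Γ' Γ : Subgroup SL(2, ℤ)} (h : Γ' ≤ Γ)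
    [(Subgroup.inclusion h).range.FiniteIndex] {A : Type} [AddCommGroup A] [Module 𝒪 A]
    (c : 𝒪) (ψ : HomS Γ' A) : coresS A h (c • ψ) = c • coresS A h ψ :=
  S41.transferAlong_natural _ _ A (DistribSMul.toAddMonoidHom A c) ψ

/-- `cores ∘ ⟨g⟩ = cores` for `g ∈ Γ_H` -/
theorem k5fn_cores_diamS {H' H : Subgroup (ZMod M)ˣ} (hle : H' ≤ H) (A : Type) [AddCommGroup A]
    (g : SL(2, ℤ)) (hg : g ∈ gammaH L M H) (ψ : HomS (gammaH L M H') A) :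
    coresS A (Fermat.Agent.ES1.gammaH_mono hle) (diamS H' A g hg.1 hg.2.1 ψ)
      = coresS A (Fermat.Agent.ES1.gammaH_mono hle) ψ := by
  let f : gammaH L M H' →* gammaH L M H :=
    Subgroup.inclusion (Fermat.Agent.ES1.gammaH_mono (L := L) hle)
  have hf : Function.Injective f := Subgroup.inclusion_injective _
  let aH : gammaH L M H' →* gammaH L M H' := conjHom g (normalizes_gammaH hg.1 hg.2.1)
  let aG : gammaH L M H ≃* gammaH L M H := k5c_conjEquiv L M H g hg.1 hg.2.1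
  have hcomp : ∀ h : gammaH L M H', aG (f h) = f (aH h) := fun h => rfl
  have hsurj : Function.Surjective aH := by
    intro γ
    refine ⟨⟨g * γ * g⁻¹, Fermat.Agent.ES1.conj_mem_gammaH hg.1 hg.2.1 γ.2⟩, ?_⟩
    apply Subtype.ext
    show g⁻¹ * (g * (γ : SL(2, ℤ)) * g⁻¹) * g = γ
    group
  have hE := S41.transferAlong_equivariant f hf A aH aG hcomp hsurj ψ
  have h1 : coresS A (Fermat.Agent.ES1.gammaH_mono hle) (diamS H' A g hg.1 hg.2.1 ψ)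
      = S41.transferAlong A f hf (ψ.comp (MonoidHom.toAdditive aH)) := rfl
  have h2 : coresS A (Fermat.Agent.ES1.gammaH_mono hle) ψ = S41.transferAlong A f hf ψ := rfl
  rw [h1, h2, hE]
  refine AddMonoidHom.ext fun x => ?_
  obtain ⟨x, rfl⟩ : ∃ x' : gammaH L M H, Additive.ofMul x' = x := ⟨Additive.toMul x, rfl⟩
  show S41.transferAlong A f hf ψ (Additive.ofMul (aG x))
    = S41.transferAlong A f hf ψ (Additive.ofMul x)
  have e : aG x = (⟨g, hg⟩ : gammaH L M H)⁻¹ * x * ⟨g, hg⟩ := rfl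
  rw [e, ofMul_mul, ofMul_mul, ofMul_inv, map_add, map_add, map_neg]
  abel

/-- `cores ∘ ⟨u⟩ = cores` for `u ∈ ±H` -/
theorem k5fn_cores_diamU {H' H : Subgroup (ZMod M)ˣ} (hle : H' ≤ H) (A : Type) [AddCommGroup A]
    {u : (ZMod M)ˣ} (hu : u ∈ pmH H) (ψ : HomS (gammaH L M H') A) :
    coresS A (Fermat.Agent.ES1.gammaH_mono hle) (diamU L M H' A u ψ)
      = coresS A (Fermat.Agent.ES1.gammaH_mono hle) ψ :=
  k5fn_cores_diamS hle A (k5act_rep L M u) (k5act_rep_mem_gammaH L M H hu) ψ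

end concrete

section spans

variable {𝒪 : Type} [CommRing 𝒪] {L M : ℕ} [NeZero L] [hML : Fact (M ∣ L)]

/-- linear combinations with coefficients in `𝒪/I` stay in the `Θ`-part -/
theorem k5fn_sum_mem (𝔲 : NatFam 𝒪 L M) (ℓ₀ : ℕ) [NeZero ℓ₀] (I : Ideal 𝒪)
    (K : Subgroup (ZMod M)ˣ) {κ : Type} [Fintype κ] (v : κ → HomS (gammaH L M K) (𝒪 ⧸ I))
    (hv : ∀ x, v x ∈ etaPart (thetaN 𝔲 ℓ₀ (𝒪 ⧸ I) K)) (c : κ → 𝒪 ⧸ I) :
    ∑ x, c x • v x ∈ etaPart (thetaN 𝔲 ℓ₀ (𝒪 ⧸ I) K) := by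
  refine AddSubgroup.sum_mem _ fun x _ => ?_
  obtain ⟨a, ha⟩ := Ideal.Quotient.mk_surjective (c x)
  rw [← ha, k5fn_mk_smul]
  exact (k5fn_etaSub 𝔲 ℓ₀ (𝒪 ⧸ I) K).smul_mem a (hv x)

/-- the span of the `±H`-translates in terms of a transversal -/
theorem k5fn_span_trans (I : Ideal 𝒪) (H' H : Subgroup (ZMod M)ˣ) {r m : ℕ}
    (b : Fin r → HomS (gammaH L M H') (𝒪 ⧸ I)) (u : Fin m → (ZMod M)ˣ)
    (hu : IsTransversal H' H u) {ψ : HomS (gammaH L M H') (𝒪 ⧸ I)}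
    (hψ : ψ ∈ Submodule.span 𝒪
      {χ | ∃ i, ∃ v ∈ pmH H, χ = diamU L M H' (𝒪 ⧸ I) v (b i)}) :
    ∃ c : Fin r × Fin m → 𝒪 ⧸ I,
      ψ = ∑ x : Fin r × Fin m, c x • diamU L M H' (𝒪 ⧸ I) (u x.2) (b x.1) := by
  induction hψ using Submodule.span_induction with
  | mem χ hχ =>
    obtain ⟨i, v, hv, rfl⟩ := hχ
    obtain ⟨j, hj, -⟩ := hu.2 v hv
    refine ⟨Pi.single (i, j) 1, ?_⟩
    rw [Finset.sum_eq_single (i, j)]
    · rw [Pi.single_eq_same, one_smul, k5act_diamU_congr L M H' (𝒪 ⧸ I) hj]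
    · intro x _ hx
      rw [Pi.single_eq_of_ne hx, zero_smul]
    · intro h
      exact absurd (Finset.mem_univ _) h
  | zero => exact ⟨0, by simp⟩
  | add x y _ _ hx hy =>
    obtain ⟨c, hc⟩ := hx
    obtain ⟨c', hc'⟩ := hy
    refine ⟨c + c', ?_⟩
    rw [hc, hc', ← Finset.sum_add_distrib]
    refine Finset.sum_congr rfl fun x _ => ?_
    rw [Pi.add_apply, add_smul]
  | smul a x _ hx =>
    obtain ⟨c, hc⟩ := hx
    refine ⟨fun x => Ideal.Quotient.mk I a * c x, ?_⟩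
    rw [hc, Finset.smul_sum]
    refine Finset.sum_congr rfl fun x _ => ?_
    rw [mul_smul, k5fn_mk_smul]

/-- `cores` of the span of the `±H`-translates -/
theorem k5fn_span_cores (I : Ideal 𝒪) {H' H : Subgroup (ZMod M)ˣ} (hle : H' ≤ H) {r : ℕ}
    (b : Fin r → HomS (gammaH L M H') (𝒪 ⧸ I)) {ψ : HomS (gammaH L M H') (𝒪 ⧸ I)}
    (hψ : ψ ∈ Submodule.span 𝒪
      {χ | ∃ i, ∃ v ∈ pmH H, χ = diamU L M H' (𝒪 ⧸ I) v (b i)}) :
    ∃ c : Fin r → 𝒪 ⧸ I,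
      coresS (𝒪 ⧸ I) (Fermat.Agent.ES1.gammaH_mono hle) ψ
        = ∑ i : Fin r, c i • coresS (𝒪 ⧸ I) (Fermat.Agent.ES1.gammaH_mono hle) (b i) := by
  induction hψ using Submodule.span_induction with
  | mem χ hχ =>
    obtain ⟨i, v, hv, rfl⟩ := hχ
    refine ⟨Pi.single i 1, ?_⟩
    rw [Finset.sum_eq_single i]
    · rw [Pi.single_eq_same, one_smul, k5fn_cores_diamU hle (𝒪 ⧸ I) hv]
    · intro x _ hx
      rw [Pi.single_eq_of_ne hx, zero_smul]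
    · intro h
      exact absurd (Finset.mem_univ _) h
  | zero => exact ⟨0, by simp⟩
  | add x y _ _ hx hy =>
    obtain ⟨c, hc⟩ := hx
    obtain ⟨c', hc'⟩ := hy
    refine ⟨c + c', ?_⟩
    rw [map_add, hc, hc', ← Finset.sum_add_distrib]
    refine Finset.sum_congr rfl fun x _ => ?_
    rw [Pi.add_apply, add_smul]
  | smul a x _ hx =>
    obtain ⟨c, hc⟩ := hx
    refine ⟨fun x => Ideal.Quotient.mk I a * c x, ?_⟩
    rw [k5fn_cores_smul, hc, Finset.smul_sum]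
    refine Finset.sum_congr rfl fun x _ => ?_
    rw [mul_smul, k5fn_mk_smul]

end spans

section main

variable {𝒪 : Type} [CommRing 𝒪] [IsDomain 𝒪] [IsDiscreteValuationRing 𝒪]
  {L M : ℕ} [NeZero L] [hML : Fact (M ∣ L)]

/-- `#(𝒪/𝔪ⁿ) = #(𝒪/𝔪¹)ⁿ` -/
theorem k5fn_card_quot (n : ℕ) :
    Nat.card (𝒪 ⧸ IsLocalRing.maximalIdeal 𝒪 ^ n)
      = Nat.card (𝒪 ⧸ IsLocalRing.maximalIdeal 𝒪 ^ 1) ^ n := by
  have h := fun i : ℕ => cardQuot_pow_of_prime (P := IsLocalRing.maximalIdeal 𝒪)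
    (IsDiscreteValuationRing.not_a_field 𝒪) (i := i)
  have h1 := h 1
  have hn := h n
  rw [Submodule.cardQuot_apply, Submodule.cardQuot_apply] at h1 hn
  rw [hn, h1, pow_one]

/-- **Nakayama**: the `Θ`-part at level `n` is spanned by the `±H`-translates of any lift of a
family whose translates span the `Θ`-part at level `1` -/
theorem k5fn_le_span (lam : 𝒪) (hlam : IsLocalRing.maximalIdeal 𝒪 = Ideal.span {lam})
    (𝔲 : NatFam 𝒪 L M) (ℓ₀ : ℕ) [NeZero ℓ₀] (H' H : Subgroup (ZMod M)ˣ) (n : ℕ) (h1 : 1 ≤ n)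
    {r : ℕ} (b₁ : Fin r → HomS (gammaH L M H') (𝒪 ⧸ IsLocalRing.maximalIdeal 𝒪 ^ 1))
    (b : Fin r → HomS (gammaH L M H') (𝒪 ⧸ IsLocalRing.maximalIdeal 𝒪 ^ n))
    (hb : ∀ i, b i ∈ etaPart (thetaN 𝔲 ℓ₀ (𝒪 ⧸ IsLocalRing.maximalIdeal 𝒪 ^ n) H'))
    (hbred : ∀ i, mapS (redQ (IsLocalRing.maximalIdeal 𝒪) h1).toAddMonoidHom (b i) = b₁ i)
    (hspan₁ : ∀ ψ ∈ etaPart (thetaN 𝔲 ℓ₀ (𝒪 ⧸ IsLocalRing.maximalIdeal 𝒪 ^ 1) H'),
      ψ ∈ Submodule.span 𝒪 {χ | ∃ i, ∃ u ∈ pmH H,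
        χ = diamU L M H' (𝒪 ⧸ IsLocalRing.maximalIdeal 𝒪 ^ 1) u (b₁ i)})
    (hker : ∀ v ∈ etaPart (thetaN 𝔲 ℓ₀ (𝒪 ⧸ IsLocalRing.maximalIdeal 𝒪 ^ n) H'),
      mapS (redQ (IsLocalRing.maximalIdeal 𝒪) h1).toAddMonoidHom v = 0 →
      ∃ v' ∈ etaPart (thetaN 𝔲 ℓ₀ (𝒪 ⧸ IsLocalRing.maximalIdeal 𝒪 ^ n) H'), v = lam • v') :
    ∀ ψ ∈ etaPart (thetaN 𝔲 ℓ₀ (𝒪 ⧸ IsLocalRing.maximalIdeal 𝒪 ^ n) H'),
      ψ ∈ Submodule.span 𝒪 {χ | ∃ i, ∃ u ∈ pmH H,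
        χ = diamU L M H' (𝒪 ⧸ IsLocalRing.maximalIdeal 𝒪 ^ n) u (b i)} := by
  intro ψ hψ
  have hSX : Submodule.span 𝒪 {χ | ∃ i, ∃ u ∈ pmH H,
      χ = diamU L M H' (𝒪 ⧸ IsLocalRing.maximalIdeal 𝒪 ^ n) u (b i)}
      ≤ k5fn_etaSub 𝔲 ℓ₀ (𝒪 ⧸ IsLocalRing.maximalIdeal 𝒪 ^ n) H' :=
    Submodule.span_le.mpr (by
      rintro χ ⟨i, u, hu, rfl⟩
      exact k5act_thetaS_mem L M H' _ (𝔲.fam _) ℓ₀ u (hb i))
  refine k5fn_nak (k5fn_etaSub 𝔲 ℓ₀ (𝒪 ⧸ IsLocalRing.maximalIdeal 𝒪 ^ n) H') _ lam n ?_ ?_ hψ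
  · intro v _
    refine AddMonoidHom.ext fun γ => ?_
    show lam ^ n • v γ = 0
    obtain ⟨y, hy⟩ := Ideal.Quotient.mk_surjective (v γ)
    rw [← hy, Algebra.smul_def, Ideal.Quotient.algebraMap_eq, ← map_mul,
      Ideal.Quotient.eq_zero_iff_mem]
    exact Ideal.mul_mem_right _ _ (k5cn_pow_mem _ lam hlam n)
  · intro ψ hψ
    have hr : mapS (redQ (IsLocalRing.maximalIdeal 𝒪) h1).toAddMonoidHom ψ
        ∈ etaPart (thetaN 𝔲 ℓ₀ (𝒪 ⧸ IsLocalRing.maximalIdeal 𝒪 ^ 1) H') :=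
      k5s_intertwine_mem _ _ (mapS (redQ (IsLocalRing.maximalIdeal 𝒪) h1).toAddMonoidHom)
        (fun x => k5n_theta_nat 𝔲 ℓ₀ (redQ (IsLocalRing.maximalIdeal 𝒪) h1) H' x) hψ
    have hs := hspan₁ _ hr
    have hsub : {χ | ∃ i, ∃ u ∈ pmH H,
        χ = diamU L M H' (𝒪 ⧸ IsLocalRing.maximalIdeal 𝒪 ^ 1) u (b₁ i)}
        ⊆ (k5fn_mapL (Γ := gammaH L M H') (redQ (IsLocalRing.maximalIdeal 𝒪) h1)) ''
          {χ | ∃ i, ∃ u ∈ pmH H,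
            χ = diamU L M H' (𝒪 ⧸ IsLocalRing.maximalIdeal 𝒪 ^ n) u (b i)} := by
      rintro χ ⟨i, u, hu, rfl⟩
      refine ⟨diamU L M H' _ u (b i), ⟨i, u, hu, rfl⟩, ?_⟩
      rw [k5fn_mapL_apply, k5act_mapS, hbred]
    have hs' := Submodule.span_mono hsub hs
    rw [← Submodule.map_span] at hs'
    obtain ⟨ν, hν, hνψ⟩ := hs'
    have hd : ψ - ν ∈ k5fn_etaSub 𝔲 ℓ₀ (𝒪 ⧸ IsLocalRing.maximalIdeal 𝒪 ^ n) H' :=
      Submodule.sub_mem _ hψ (hSX hν)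
    have h0 : mapS (redQ (IsLocalRing.maximalIdeal 𝒪) h1).toAddMonoidHom (ψ - ν) = 0 := by
      rw [map_sub, sub_eq_zero]
      exact hνψ.symm
    obtain ⟨v', hv', e⟩ := hker _ hd h0
    exact ⟨ν, hν, v', hv', by rw [← e]; abel⟩

/-- **K5-FREE-fin** from **K5-FREE-F** and **K5-COUNT**. -/
theorem stmtFreeFin_of (hF : StmtFreeF) (hC : StmtCount) : StmtFreeFin := by
  intro p _ 𝒪 _ _ _ _ L M ℓ₀ _ _ _ H' H k hyp 𝔲
  obtain ⟨r, b₁, hb₁, hcardH, hcardH', hspan₁⟩ := hF p 𝒪 L M ℓ₀ H' H k hyp 𝔲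
  refine ⟨r, fun n => ?_⟩
  rcases Nat.eq_zero_or_pos n with rfl | hn
  · haveI : Subsingleton (𝒪 ⧸ IsLocalRing.maximalIdeal 𝒪 ^ 0) := by
      rw [Ideal.Quotient.subsingleton_iff, pow_zero, Ideal.one_eq_top]
    haveI : Subsingleton (HomS (gammaH L M H') (𝒪 ⧸ IsLocalRing.maximalIdeal 𝒪 ^ 0)) :=
      k5cn_subsingleton_homS _
    haveI : Subsingleton (HomS (gammaH L M H) (𝒪 ⧸ IsLocalRing.maximalIdeal 𝒪 ^ 0)) :=
      k5cn_subsingleton_homS _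
    exact ⟨fun _ => 0, ⟨fun i => AddSubgroup.zero_mem _,
      fun m u hu => ⟨Function.injective_of_subsingleton _,
        fun ψ _ => ⟨0, Subsingleton.elim _ _⟩⟩,
      Function.injective_of_subsingleton _, fun φ _ => ⟨0, Subsingleton.elim _ _⟩⟩⟩
  · obtain ⟨lam, hirr⟩ := IsDiscreteValuationRing.exists_irreducible 𝒪
    have hlam : IsLocalRing.maximalIdeal 𝒪 = Ideal.span {lam} := hirr.maximalIdeal_eq
    have hNT' : ∀ n : ℕ, NoTors (gammaH L M H') (𝒪 ⧸ IsLocalRing.maximalIdeal 𝒪 ^ n) :=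
      fun n => k5f_noTors_mono (Fermat.Agent.ES1.gammaH_mono hyp.le) (hyp.noTors n)
    obtain ⟨hcn', hred'⟩ := hC 𝒪 lam hlam L M ℓ₀ 𝔲 H' hNT' n
    obtain ⟨hsurj', hker'⟩ := hred' hn
    obtain ⟨hcn, -⟩ := hC 𝒪 lam hlam L M ℓ₀ 𝔲 H hyp.noTors n
    choose b hb hbred using fun i => hsurj' (b₁ i) (hb₁ i)
    have hspan := k5fn_le_span lam hlam 𝔲 ℓ₀ H' H n hn b₁ b hb hbred hspan₁ hker'
    haveI : Finite (𝒪 ⧸ IsLocalRing.maximalIdeal 𝒪) := ‹Finite (IsLocalRing.ResidueField 𝒪)›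
    haveI hfin : Finite (𝒪 ⧸ IsLocalRing.maximalIdeal 𝒪 ^ n) :=
      k5cn_finite (IsLocalRing.maximalIdeal 𝒪) lam hlam n
    haveI : Finite (HomS (gammaH L M H') (𝒪 ⧸ IsLocalRing.maximalIdeal 𝒪 ^ n)) :=
      k5s_finite_homS _ _
    -- `cores` maps the `Θ`-part to the `Θ`-part
    have hcb : ∀ i, coresS (𝒪 ⧸ IsLocalRing.maximalIdeal 𝒪 ^ n)
        (Fermat.Agent.ES1.gammaH_mono hyp.le) (b i)
        ∈ etaPart (thetaN 𝔲 ℓ₀ (𝒪 ⧸ IsLocalRing.maximalIdeal 𝒪 ^ n) H) := fun i =>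
      k5s_intertwine_mem _ _ (coresS (𝒪 ⧸ IsLocalRing.maximalIdeal 𝒪 ^ n)
        (Fermat.Agent.ES1.gammaH_mono hyp.le))
        (fun x => k5n_theta_cores 𝔲 ℓ₀ hyp.le x) (hb i)
    have hspC : ∀ φ ∈ etaPart (thetaN 𝔲 ℓ₀ (𝒪 ⧸ IsLocalRing.maximalIdeal 𝒪 ^ n) H),
        ∃ c : Fin r → 𝒪 ⧸ IsLocalRing.maximalIdeal 𝒪 ^ n,
          φ = ∑ i : Fin r, c i • coresS (𝒪 ⧸ IsLocalRing.maximalIdeal 𝒪 ^ n)
            (Fermat.Agent.ES1.gammaH_mono hyp.le) (b i) := by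
      intro φ hφ
      obtain ⟨ψ, hψ, rfl⟩ := k5fx_surj
        (thetaN 𝔲 ℓ₀ (𝒪 ⧸ IsLocalRing.maximalIdeal 𝒪 ^ n) H')
        (thetaN 𝔲 ℓ₀ (𝒪 ⧸ IsLocalRing.maximalIdeal 𝒪 ^ n) H)
        (coresS (𝒪 ⧸ IsLocalRing.maximalIdeal 𝒪 ^ n) (Fermat.Agent.ES1.gammaH_mono hyp.le))
        (fun φ => stmtCoresSurj L M H' H hyp.le _ (hyp.noTors n) φ)
        (fun x => k5n_theta_cores 𝔲 ℓ₀ hyp.le x) φ hφ
      exact k5fn_span_cores _ hyp.le b (hspan ψ hψ)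
    refine ⟨b, hb, fun m u hu => ?_, ?_, hspC⟩
    · have hsp : ∀ ψ ∈ etaPart (thetaN 𝔲 ℓ₀ (𝒪 ⧸ IsLocalRing.maximalIdeal 𝒪 ^ n) H'),
          ∃ c : Fin r × Fin m → 𝒪 ⧸ IsLocalRing.maximalIdeal 𝒪 ^ n,
            ψ = ∑ x : Fin r × Fin m, c x •
              diamU L M H' (𝒪 ⧸ IsLocalRing.maximalIdeal 𝒪 ^ n) (u x.2) (b x.1) :=
        fun ψ hψ => k5fn_span_trans _ H' H b u hu (hspan ψ hψ)
      have hm : m = p ^ k := by
        rw [← hyp.index]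
        exact (k5fn_card_of_reps (pmH H) (pmH H') u hu.1 hu.2).symm
      refine ⟨k5fn_inj_of_card (etaPart (thetaN 𝔲 ℓ₀ (𝒪 ⧸ IsLocalRing.maximalIdeal 𝒪 ^ n) H'))
        (fun x : Fin r × Fin m =>
          diamU L M H' (𝒪 ⧸ IsLocalRing.maximalIdeal 𝒪 ^ n) (u x.2) (b x.1)) ?_ hsp ?_, hsp⟩
      · exact k5fn_sum_mem 𝔲 ℓ₀ _ H' _
          (fun x => k5act_thetaS_mem L M H' _ (𝔲.fam _) ℓ₀ (u x.2) (hb x.1))
      · rw [hcn', hcardH', k5fn_card_quot n, Fintype.card_prod, Fintype.card_fin,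
          Fintype.card_fin, ← pow_mul, ← pow_mul, hm]
        congr 1
        ring
    · refine k5fn_inj_of_card (etaPart (thetaN 𝔲 ℓ₀ (𝒪 ⧸ IsLocalRing.maximalIdeal 𝒪 ^ n) H))
        (fun i : Fin r => coresS (𝒪 ⧸ IsLocalRing.maximalIdeal 𝒪 ^ n)
          (Fermat.Agent.ES1.gammaH_mono hyp.le) (b i)) ?_ hspC ?_
      · exact k5fn_sum_mem 𝔲 ℓ₀ _ H _ hcb
      · rw [hcn, hcardH, k5fn_card_quot n, Fintype.card_fin, ← pow_mul, ← pow_mul, mul_comm]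

end main

end Fermat.Agent.RT.K5

end
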