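import Fermat.Agent.RT.K5.FreeFin
import Fermat.Agent.RT.K5.FreeF

/-!
# K-machine, piece K5-FREE-fin (helper15), final: `stmtFreeFin : StmtFreeFin`

`stmtFreeFin_of` (`FreeFin.lean`) applied to `stmtFreeF` (helper7) and `stmtCount` (helper47).
-/

set_option autoImplicit false

namespace Fermat.Agent.RT.K5

/-- **K5-FREE-fin.** -/
theorem stmtFreeFin : StmtFreeFin := stmtFreeFin_of stmtFreeF stmtCount

end Fermat.Agent.RT.K5
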