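import Fermat.Agent.RT.K5.E2
import Fermat.Agent.RT.K5.Gen
import Fermat.Agent.S41.AlphaTAlpha

/-!
# RT-K5, piece IDX: `[Γ_H(L) : Γ_H(L ℓ)] = ℓ + 1 = [Γ_H(L) : δ Γ_H(L ℓ) δ⁻¹]`

By comparison with `Γ₀(L)` (`S41`): `Γ_H(L) / R ≅ Γ₀(L) / R₀` because the diamond character is
onto on `Γ₀(L) ∩ Γ(ℓ)` (`stmtGen`).
-/

set_option autoImplicit false
set_option linter.style.haveILetI false
set_option linter.unusedSectionVars false
set_option linter.unusedVariables false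

noncomputable section

namespace Fermat.Agent.RT.K5

open CongruenceSubgroup Matrix
open scoped MatrixGroups
open Fermat.Agent.ES1 (gammaH diamHom pmH)

/-- comparison of indices along a homomorphism `j : Γ → G₀` with `Γ · R₀ = G₀`, `R = j⁻¹ R₀`. -/
theorem k5i_index_eq {Γ G₀ : Type*} [Group Γ] [Group G₀] (j : Γ →* G₀) (R : Subgroup Γ)
    (R₀ : Subgroup G₀) (hR : ∀ a : Γ, a ∈ R ↔ j a ∈ R₀)
    (hsurj : ∀ γ : G₀, ∃ a : Γ, (j a)⁻¹ * γ ∈ R₀) : R.index = R₀.index := by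
  rw [Subgroup.index_eq_card, Subgroup.index_eq_card]
  have hrel : ∀ a b : Γ, QuotientGroup.leftRel R a b → QuotientGroup.leftRel R₀ (j a) (j b) := by
    intro a b h
    rw [QuotientGroup.leftRel_apply] at h ⊢
    rw [← map_inv, ← map_mul]
    exact (hR _).mp h
  let Φ : Γ ⧸ R → G₀ ⧸ R₀ := Quotient.map' j hrel
  have hΦ : ∀ a : Γ, Φ (QuotientGroup.mk a) = QuotientGroup.mk (j a) := fun a => rfl
  have hinj : Function.Injective Φ := by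
    intro x y hxy
    obtain ⟨a, rfl⟩ := QuotientGroup.mk_surjective x
    obtain ⟨b, rfl⟩ := QuotientGroup.mk_surjective y
    rw [hΦ, hΦ, QuotientGroup.eq] at hxy
    rw [QuotientGroup.eq]
    rw [← map_inv, ← map_mul] at hxy
    exact (hR _).mpr hxy
  have hsur : Function.Surjective Φ := by
    intro y
    obtain ⟨γ, rfl⟩ := QuotientGroup.mk_surjective y
    obtain ⟨a, ha⟩ := hsurj γ
    exact ⟨QuotientGroup.mk a, by rw [hΦ, QuotientGroup.eq]; exact ha⟩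
  exact Nat.card_congr (Equiv.ofBijective Φ ⟨hinj, hsur⟩)

section

variable (L M ℓ : ℕ) [NeZero L] [NeZero ℓ] [hML : Fact (M ∣ L)] (H : Subgroup (ZMod M)ˣ)

/-- the inclusion `Γ_H(L) → Γ₀(L)` -/
def k5i_j : gammaH L M H →* Gamma0 L :=
  Subgroup.inclusion (Fermat.Agent.ES1.gammaH_le_gamma0 L M H)

theorem k5i_mem_Gamma0M {γ : SL(2, ℤ)} (h : γ ∈ Gamma0 L) : γ ∈ Gamma0 M := by
  apply S41.mem_Gamma0_of_dvd
  exact (Int.natCast_dvd_natCast.mpr hML.out).trans (S41.dvd_of_mem_Gamma0 h)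

/-- every class of `Γ₀(L)` modulo `Γ_H(L)` contains an element of `Γ(ℓ)` -/
theorem k5i_exists (hc : Nat.Coprime ℓ L) (γ : Gamma0 L) :
    ∃ a : gammaH L M H, ∃ g : SL(2, ℤ), g ∈ Gamma0 L ∧ g ∈ Gamma ℓ ∧
      ((a : SL(2, ℤ)))⁻¹ * (γ : SL(2, ℤ)) = g := by
  have hγM : (γ : SL(2, ℤ)) ∈ Gamma0 M := k5i_mem_Gamma0M L M γ.2
  obtain ⟨g, hgL, hgM, hgd, hgN⟩ := stmtGen L M ℓ hc (diamHom M ⟨γ, hγM⟩)
  have h1 : (g⁻¹)⁻¹ * (γ : SL(2, ℤ))⁻¹ ∈ gammaH L M H := by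
    refine k5e_inv_mul_mem H (inv_mem hgL) (inv_mem hgM) (inv_mem γ.2) (inv_mem hγM) ?_
    rw [k5e_diam_inv _ hgM, k5e_diam_inv _ hγM, hgd]
  have h2 : (γ : SL(2, ℤ)) * g⁻¹ ∈ gammaH L M H := by
    have : (γ : SL(2, ℤ)) * g⁻¹ = ((g⁻¹)⁻¹ * (γ : SL(2, ℤ))⁻¹)⁻¹ := by group
    rw [this]; exact inv_mem h1
  exact ⟨⟨_, h2⟩, g, hgL, hgN, by group⟩

theorem k5i_Gamma_mem_mul (hc : Nat.Coprime ℓ L) {g : SL(2, ℤ)} (hgL : g ∈ Gamma0 L)
    (hgN : g ∈ Gamma ℓ) : g ∈ Gamma0 (L * ℓ) := by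
  apply S41.mem_Gamma0_of_dvd
  have h1 : (L : ℤ) ∣ g 1 0 := S41.dvd_of_mem_Gamma0 hgL
  have h2 : (ℓ : ℤ) ∣ g 1 0 :=
    (ZMod.intCast_zmod_eq_zero_iff_dvd _ _).mp (Gamma_mem.mp hgN).2.2.1
  have hcop : IsCoprime (L : ℤ) (ℓ : ℤ) := by
    exact_mod_cast (Nat.isCoprime_iff_coprime.mpr hc.symm)
  have := hcop.mul_dvd h1 h2
  push_cast
  exact this

end

theorem stmtIdxRange : StmtIdxRange := by
  intro L M ℓ _ _ hML H hℓ hℓL
  haveI : Fact ℓ.Prime := ⟨hℓ⟩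
  have hc : Nat.Coprime ℓ L := (Nat.Prime.coprime_iff_not_dvd hℓ).mpr hℓL
  constructor
  · rw [k5i_index_eq (k5i_j L M H) (conjDH L M ℓ H hML.out).range (S41.conjD L ℓ).range,
      S41.ata_index_eq hc (S41.ata_hint_conjD L ℓ) (S41.ata_hrange_conjD L ℓ)
        (S41.ata_htrans_delta' hc), S41.ata_card_heckeRep]
    · intro a
      constructor
      · rintro ⟨z, rfl⟩
        exact ⟨⟨z, z.2.1⟩, Subtype.ext rfl⟩
      · rintro ⟨z₀, hz₀⟩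
        have hz₀L : (z₀ : SL(2, ℤ)) ∈ Gamma0 L := by
          apply S41.mem_Gamma0_of_dvd
          exact (Int.natCast_dvd_natCast.mpr (dvd_mul_right L ℓ)).trans
            (S41.dvd_of_mem_Gamma0 z₀.2)
        have hz₀M : (z₀ : SL(2, ℤ)) ∈ Gamma0 M := k5i_mem_Gamma0M L M hz₀L
        have hentry : ((z₀ : SL(2, ℤ)) : Matrix (Fin 2) (Fin 2) ℤ) 0 0
            = ((a : SL(2, ℤ)) : Matrix (Fin 2) (Fin 2) ℤ) 0 0 := by
          have := congrArg (fun x : Gamma0 L => ((x : SL(2, ℤ)) : Matrix (Fin 2) (Fin 2) ℤ) 0 0) hz₀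
          simpa [S41.conjD_coe, S41.conjDMat, k5i_j] using this
        have hmem : (z₀ : SL(2, ℤ)) ∈ gammaH (L * ℓ) M H := by
          refine ⟨z₀.2, hz₀M, ?_⟩
          rw [k5e_diam_eq_of_entry _ _ hz₀M a.2.2.1 hentry]
          exact a.2.2.2
        refine ⟨⟨(z₀ : SL(2, ℤ)), hmem⟩, ?_⟩
        apply Subtype.ext
        rw [conjDH_coe]
        exact congrArg (fun x : Gamma0 L => (x : SL(2, ℤ))) hz₀
    · intro γ
      obtain ⟨a, g, hgL, hgN, hag⟩ := k5i_exists L M ℓ H hc γ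
      obtain ⟨z, hz, -⟩ := k5e_exists_conjD_preimage L ℓ ⟨g, hgL⟩ (k5e_gamma_dvd ℓ hgN)
      refine ⟨a, z, ?_⟩
      rw [hz]
      apply Subtype.ext
      exact hag.symm
  · rw [k5i_index_eq (k5i_j L M H) (inclH L M ℓ H).range (S41.incl L ℓ).range,
      S41.ata_index_eq hc (S41.ata_hint_incl L ℓ) (S41.ata_hrange_incl L ℓ)
        (S41.ata_htrans_delta hc), S41.ata_card_heckeRep]
    · intro a
      constructor
      · rintro ⟨z, rfl⟩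
        exact ⟨⟨z, z.2.1⟩, Subtype.ext rfl⟩
      · rintro ⟨z₀, hz₀⟩
        have he : (z₀ : SL(2, ℤ)) = (a : SL(2, ℤ)) :=
          congrArg (fun x : Gamma0 L => (x : SL(2, ℤ))) hz₀
        have hmem : (z₀ : SL(2, ℤ)) ∈ gammaH (L * ℓ) M H := by
          refine ⟨z₀.2, ?_⟩
          rw [he]
          exact a.2.2
        exact ⟨⟨(z₀ : SL(2, ℤ)), hmem⟩, Subtype.ext he⟩
    · intro γ
      obtain ⟨a, g, hgL, hgN, hag⟩ := k5i_exists L M ℓ H hc γ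
      refine ⟨a, ⟨g, k5i_Gamma_mem_mul L ℓ hc hgL hgN⟩, ?_⟩
      apply Subtype.ext
      exact hag.symm

theorem stmtIdx : StmtIdx := stmtIdx_of stmtIdxRange

end Fermat.Agent.RT.K5
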