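import Fermat.Agent.RT.K5.Indep
import Fermat.Agent.RT.K5.LocExpr
import Fermat.Agent.RT.K5.TWIter

/-!
# RT-K5, piece INDEP (helper7), concrete part at `H = ⊤`: `K5TWCond` and the independence of the
base module from the Hecke expression

`V = Hom(Γ₀(L), A)` (`Γ₀(L) = gammaH L M ⊤`), `X ≤ V` a subgroup (in the application the `Θ`-part
`etaPart (thetaN (e.eval L M) ℓ₀ A ⊤)`), `𝕋` a commutative ring acting on `J` (package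
`Rtk7bPkg p L J Tr`) and on `V` (`E : 𝕋 →+* End V`, in the application `es1infHomEval`, `e = 1`),
`a : ℕ → 𝒪` lifts of the residual traces (`charpoly ρ̄(Frob_ℓ) = X² − a_ℓ X + ℓ`, `ℓ ∉ S₀`).

* `K5inData` : the compatibilities (`E (Tr ℓ) = tS ℓ`, scalars, stability of `X`, FAITH on `X`);
* `k5in_nil_all` : if `T_ℓ − a_ℓ` is nilpotent on `X` for the primes `ℓ ∉ S₀ ∪ S`, then
  `T_q − a_q` is nilpotent on `X` for EVERY prime `q ∉ S₀`;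
* `k5in_twcond` : hence `K5TWCond` for every list of Taylor–Wiles primes;
* `k5in_le`, `k5in_indep` : hence the `Θ`-part does not depend on the admissible pair `(e, ℓ₀)`.
-/

set_option autoImplicit false
set_option linter.unusedSectionVars false
set_option linter.unusedVariables false
set_option linter.style.haveILetI false

noncomputable section

namespace Fermat.Agent.RT.K5

open CongruenceSubgroup Matrix
open scoped MatrixGroups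
open Fermat.Agent.ES1 (gammaH diamHom pmH)
open Fermat.Agent.ES Fermat.Agent.S30 Fermat.Agent.S31 Fermat.Agent.RT
open IsLocalRing Polynomial

section restr

variable {S V : Type} [Ring S] [AddCommGroup V]

/-- restriction of a ring of operators to a stable subgroup -/
def k5inRestr (F : S →+* AddMonoid.End V) (X : AddSubgroup V)
    (h : ∀ s, ∀ v ∈ X, F s v ∈ X) : S →+* AddMonoid.End X where
  toFun s := AddMonoidHom.codRestrict ((F s : V →+ V).comp X.subtype) X (fun x => h s x x.2)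
  map_one' := by
    refine AddMonoidHom.ext fun x => Subtype.ext ?_
    show F 1 (x : V) = x
    rw [map_one]; rfl
  map_mul' s t := by
    refine AddMonoidHom.ext fun x => Subtype.ext ?_
    show F (s * t) (x : V) = F s (F t (x : V))
    rw [map_mul]; rfl
  map_zero' := by
    refine AddMonoidHom.ext fun x => Subtype.ext ?_
    show F 0 (x : V) = 0
    rw [map_zero]; rfl
  map_add' s t := by
    refine AddMonoidHom.ext fun x => Subtype.ext ?_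
    show F (s + t) (x : V) = F s (x : V) + F t (x : V)
    rw [map_add]; rfl

theorem k5inRestr_apply (F : S →+* AddMonoid.End V) (X : AddSubgroup V)
    (h : ∀ s, ∀ v ∈ X, F s v ∈ X) (s : S) (x : X) :
    ((k5inRestr F X h s x : X) : V) = F s (x : V) := rfl

/-- powers of an endomorphism of a subgroup which is the restriction of `θ` -/
theorem k5in_pow_coe (X : AddSubgroup V) (D : AddMonoid.End X) (θ : V →+ V)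
    (h : ∀ x : X, ((D x : X) : V) = θ (x : V)) (m : ℕ) (x : X) :
    (((D ^ m) x : X) : V) = k5s_pow θ m (x : V) := by
  induction m generalizing x with
  | zero => rfl
  | succ m ih =>
    rw [pow_succ, k5s_pow_succ, ← h x, ← ih (D x)]
    rfl

/-- nilpotency of a restricted endomorphism, elementwise -/
theorem k5in_isNilpotent_iff (X : AddSubgroup V) (D : AddMonoid.End X) (θ : V →+ V)
    (h : ∀ x : X, ((D x : X) : V) = θ (x : V)) :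
    IsNilpotent D ↔ ∃ m : ℕ, ∀ v ∈ X, k5s_pow θ m v = 0 := by
  constructor
  · rintro ⟨m, hm⟩
    refine ⟨m, fun v hv => ?_⟩
    rw [← k5in_pow_coe X D θ h m ⟨v, hv⟩, hm]
    rfl
  · rintro ⟨m, hm⟩
    refine ⟨m, AddMonoidHom.ext fun x => Subtype.ext ?_⟩
    exact (k5in_pow_coe X D θ h m x).trans (hm _ x.2)

end restr

section data

variable (p L M : ℕ) [NeZero L] [hML : Fact (M ∣ L)] (𝒪 : Type) [CommRing 𝒪]
  (A : Type) [AddCommGroup A] [Module 𝒪 A]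
  {𝕋 : Type} [CommRing 𝕋] (J : Type) [AddCommGroup J] [Module 𝕋 J] [DistribMulAction GQ J]
  (Tr : ℕ → 𝕋)
  (E : 𝕋 →+* AddMonoid.End (HomS (gammaH L M (⊤ : Subgroup (ZMod M)ˣ)) A))
  (X : AddSubgroup (HomS (gammaH L M (⊤ : Subgroup (ZMod M)ˣ)) A)) (n₀ : ℕ)

/-- **the data of K5-INDEP**: a ring `𝕋` acting on `J` (package) and on `Hom(Γ₀(L), A)`
(by `E`, with `E (Tr ℓ) = T_ℓ`), commuting with the scalars, a stable subgroup `X` on which the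
action is faithful at the level `n₀`. -/
structure K5inData : Prop where
  pkg : Rtk7bPkg p L J Tr
  tr : ∀ (ℓ : ℕ) [NeZero ℓ], ℓ.Prime → ¬ ℓ ∣ L * p →
    ∀ φ : HomS (gammaH L M (⊤ : Subgroup (ZMod M)ˣ)) A, E (Tr ℓ) φ = tS L M ℓ ⊤ A φ
  smul : ∀ (t : 𝕋) (c : 𝒪) (φ : HomS (gammaH L M (⊤ : Subgroup (ZMod M)ˣ)) A),
    E t (c • φ) = c • E t φ
  stab : ∀ t, ∀ φ ∈ X, E t φ ∈ X
  sstab : ∀ c : 𝒪, ∀ φ ∈ X, c • φ ∈ X
  faith : ∀ t : 𝕋, (∀ y : J, p ^ n₀ • y = 0 → t • y = 0) → ∀ φ ∈ X, E t φ = 0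

variable {p L M 𝒪 A J Tr E X n₀}

/-- the action of `𝕋` on `X` -/
def K5inData.act (D : K5inData p L M 𝒪 A J Tr E X n₀) : 𝕋 →+* AddMonoid.End X :=
  k5inRestr E X D.stab

/-- the scalars on `X` -/
def K5inData.sc (D : K5inData p L M 𝒪 A J Tr E X n₀) : 𝒪 →+* AddMonoid.End X :=
  k5inRestr (Module.toAddMonoidEnd 𝒪 (HomS (gammaH L M (⊤ : Subgroup (ZMod M)ˣ)) A)) X D.sstab

theorem K5inData.act_coe (D : K5inData p L M 𝒪 A J Tr E X n₀) (t : 𝕋) (x : X) :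
    ((D.act t x : X) : HomS (gammaH L M (⊤ : Subgroup (ZMod M)ˣ)) A) = E t (x : _) := rfl

theorem K5inData.sc_coe (D : K5inData p L M 𝒪 A J Tr E X n₀) (c : 𝒪) (x : X) :
    ((D.sc c x : X) : HomS (gammaH L M (⊤ : Subgroup (ZMod M)ˣ)) A) = c • (x : _) := rfl

theorem K5inData.commute (D : K5inData p L M 𝒪 A J Tr E X n₀) (c : 𝒪) (t : 𝕋) :
    Commute (D.sc c) (D.act t) := by
  refine AddMonoidHom.ext fun x => Subtype.ext ?_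
  show c • E t (x : _) = E t (c • (x : _))
  rw [D.smul]

theorem K5inData.act_eq_zero (D : K5inData p L M 𝒪 A J Tr E X n₀) (t : 𝕋)
    (ht : ∀ y : J, p ^ n₀ • y = 0 → t • y = 0) : D.act t = 0 := by
  refine AddMonoidHom.ext fun x => Subtype.ext ?_
  exact D.faith t ht x x.2

/-- `T_ℓ − c` is nilpotent on `X`, in the ring of endomorphisms of `X` and elementwise -/
theorem K5inData.rel_iff (D : K5inData p L M 𝒪 A J Tr E X n₀) {ℓ : ℕ} [NeZero ℓ]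
    (hℓ : ℓ.Prime) (hℓLp : ¬ ℓ ∣ L * p) (c : 𝒪) :
    K5inRel D.act D.sc (Tr ℓ) c ↔
      ∃ m : ℕ, ∀ v ∈ X, k5s_pow (k5lcS L M ℓ c A ⊤) m v = 0 := by
  refine k5in_isNilpotent_iff X (D.act (Tr ℓ) - D.sc c) (k5lcS L M ℓ c A ⊤) fun x => ?_
  show E (Tr ℓ) (x : _) - c • (x : _) = _
  rw [D.tr ℓ hℓ hℓLp, k5lcS_apply]

/-- elementwise nilpotency from the generalised kernel (`A` finite) -/
theorem k5in_exists_pow [Finite A] {ℓ : ℕ} [NeZero ℓ] (c : 𝒪)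
    (h : ∀ v ∈ X, v ∈ k5lcKer (k5lcS L M ℓ c A ⊤)) :
    ∃ m : ℕ, ∀ v ∈ X, k5s_pow (k5lcS L M ℓ c A ⊤) m v = 0 := by
  haveI : Finite (HomS (gammaH L M (⊤ : Subgroup (ZMod M)ˣ)) A) := k5s_finite_homS _ A
  obtain ⟨m, -, hm⟩ := k5lc_exists_uniform (HomS (gammaH L M (⊤ : Subgroup (ZMod M)ˣ)) A)
  exact ⟨m, fun v hv => ((hm _).2.2 v).mp (h v hv)⟩

end data

section main

variable {p L M : ℕ} [Fact p.Prime] [NeZero L] [hML : Fact (M ∣ L)]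
  {𝒪 : Type} [CommRing 𝒪] [IsLocalRing 𝒪]
  {A : Type} [AddCommGroup A] [Module 𝒪 A]
  {𝕋 : Type} [CommRing 𝕋] {J : Type} [AddCommGroup J] [Module 𝕋 J] [DistribMulAction GQ J]
  {Tr : ℕ → 𝕋}
  {E : 𝕋 →+* AddMonoid.End (HomS (gammaH L M (⊤ : Subgroup (ZMod M)ˣ)) A)}
  {X : AddSubgroup (HomS (gammaH L M (⊤ : Subgroup (ZMod M)ˣ)) A)} {n₀ : ℕ}

/-- **the residual data of K5-INDEP**: `a ℓ ∈ 𝒪` lifts the trace of `ρ̄(Frob_ℓ)` and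
`det ρ̄(Frob_ℓ) = ℓ`, for the primes `ℓ ∉ S₀`; the primes outside `S₀` are good. -/
structure K5inRes (p L : ℕ) (ρbar : ResidualGaloisRep (ResidueField 𝒪)) (a : ℕ → 𝒪)
    (S₀ : Finset ℕ) : Prop where
  good : ∀ r : ℕ, r.Prime → r ∉ S₀ → ¬ r ∣ L * p
  frob : ∀ ℓ : ℕ, ℓ.Prime → ℓ ∉ S₀ →
    ∀ 𝔄 : ValuationSubring (AlgebraicClosure ℚ), 𝔄.LiesOverPrime ℓ →
      ∀ τ : GQ, 𝔄.IsFrobeniusAt τ ℓ →
        LinearMap.charpoly (ρbar.ρ τ) =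
          Polynomial.X ^ 2 - C (residue 𝒪 (a ℓ)) * Polynomial.X + C ((ℓ : ResidueField 𝒪))
  ex : ∀ ℓ : ℕ, ℓ.Prime → ∃ (𝔄 : ValuationSubring (AlgebraicClosure ℚ)) (τ : GQ),
    𝔄.LiesOverPrime ℓ ∧ 𝔄.IsFrobeniusAt τ ℓ

variable {ρbar : ResidualGaloisRep (ResidueField 𝒪)} {a : ℕ → 𝒪} {S₀ : Finset ℕ}

theorem K5inRes.trace (R : K5inRes p L ρbar a S₀) {ℓ : ℕ} (hℓ : ℓ.Prime) (hℓS : ℓ ∉ S₀)
    {𝔄 : ValuationSubring (AlgebraicClosure ℚ)} (h𝔄 : 𝔄.LiesOverPrime ℓ) {τ : GQ}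
    (hτ : 𝔄.IsFrobeniusAt τ ℓ) :
    LinearMap.trace (ResidueField 𝒪) ρbar.V (ρbar.ρ τ) = residue 𝒪 (a ℓ) :=
  trace_of_charpoly ρbar.finrank_eq _ _ _ (R.frob ℓ hℓ hℓS 𝔄 h𝔄 τ hτ)

/-- a scalar of the maximal ideal is nilpotent on `X` -/
theorem K5inData.sc_nilpotent (D : K5inData p L M 𝒪 A J Tr E X n₀)
    (hA : ∀ c ∈ maximalIdeal 𝒪, ∃ n : ℕ, ∀ x : A, c ^ n • x = 0) {c : 𝒪}
    (hc : c ∈ maximalIdeal 𝒪) : IsNilpotent (D.sc c) := by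
  obtain ⟨n, hn⟩ := hA c hc
  refine ⟨n, ?_⟩
  rw [← map_pow]
  refine AddMonoidHom.ext fun x => Subtype.ext ?_
  show c ^ n • (x : HomS (gammaH L M (⊤ : Subgroup (ZMod M)ˣ)) A) = 0
  refine AddMonoidHom.ext fun γ => ?_
  exact hn _

/-- **K5-INDEP (A).**  If `T_ℓ − a_ℓ` is nilpotent on `X` for the primes `ℓ ∉ S₀ ∪ S`, then
`T_q − a_q` is nilpotent on `X` for every prime `q ∉ S₀`; form `K5inRel`. -/
theorem k5in_rel_all [Finite A] (hcheb : Cheb.WeakChebotarev)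
    (D : K5inData p L M 𝒪 A J Tr E X n₀) (R : K5inRes p L ρbar a S₀)
    (hA : ∀ c ∈ maximalIdeal 𝒪, ∃ n : ℕ, ∀ x : A, c ^ n • x = 0) (S : Finset ℕ)
    (hnil : ∀ (ℓ : ℕ) [NeZero ℓ], ℓ.Prime → ℓ ∉ S₀ → ℓ ∉ S →
      ∀ v ∈ X, v ∈ k5lcKer (k5lcS L M ℓ (a ℓ) A ⊤))
    {q : ℕ} (hq : q.Prime) (hqS₀ : q ∉ S₀) : K5inRel D.act D.sc (Tr q) (a q) := by
  obtain ⟨𝔄, τ, h𝔄, hτ⟩ := R.ex q hq
  have hgood : ∀ r : ℕ, r.Prime → r ∉ S₀ ∪ S → ¬ r ∣ L * p := fun r hr hrS =>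
    R.good r hr fun h => hrS (Finset.mem_union_left _ h)
  have key := k5in_resid_frob hcheb D.pkg ρbar D.act D.sc D.commute (S₀ ∪ S) hgood ⊤
    (fun _ _ _ => Subring.mem_top _) n₀ (fun x _ hx => D.act_eq_zero x hx)
    (fun ℓ hℓ hℓS 𝔅 h𝔅 σ hσ => by
      rw [Finset.mem_union, not_or] at hℓS
      haveI : NeZero ℓ := ⟨hℓ.ne_zero⟩
      exact ⟨a ℓ, (R.trace hℓ hℓS.1 h𝔅 hσ).symm,
        (D.rel_iff hℓ (R.good ℓ hℓ hℓS.1) (a ℓ)).mpr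
          (k5in_exists_pow (a ℓ) (hnil ℓ hℓ hℓS.1 hℓS.2))⟩)
    (fun ℓ hℓ hℓS 𝔅 h𝔅 σ hσ => by
      rw [Finset.mem_union, not_or] at hℓS
      rw [R.trace hℓ hℓS.1 h𝔅 hσ]
      exact R.frob ℓ hℓ hℓS.1 𝔅 h𝔅 σ hσ)
    hq (R.good q hq hqS₀) (Subring.mem_top _) h𝔄 hτ
  obtain ⟨c, hc, hrel⟩ := key
  refine hrel.congr D.commute (D.sc_nilpotent hA ?_)
  rw [← IsLocalRing.residue_eq_zero_iff, map_sub, hc, R.trace hq hqS₀ h𝔄 hτ, sub_self]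

/-- **K5-INDEP (A)**, elementwise. -/
theorem k5in_nil_all [Finite A] (hcheb : Cheb.WeakChebotarev)
    (D : K5inData p L M 𝒪 A J Tr E X n₀) (R : K5inRes p L ρbar a S₀)
    (hA : ∀ c ∈ maximalIdeal 𝒪, ∃ n : ℕ, ∀ x : A, c ^ n • x = 0) (S : Finset ℕ)
    (hnil : ∀ (ℓ : ℕ) [NeZero ℓ], ℓ.Prime → ℓ ∉ S₀ → ℓ ∉ S →
      ∀ v ∈ X, v ∈ k5lcKer (k5lcS L M ℓ (a ℓ) A ⊤))
    (q : ℕ) [NeZero q] (hq : q.Prime) (hqS₀ : q ∉ S₀) :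
    ∀ v ∈ X, v ∈ k5lcKer (k5lcS L M q (a q) A ⊤) := by
  obtain ⟨m, hm⟩ := (D.rel_iff hq (R.good q hq hqS₀) (a q)).mp
    (k5in_rel_all hcheb D R hA S hnil hq hqS₀)
  exact fun v hv => ⟨m, hm v hv⟩

/-- comparison of the coefficients of two monic quadratic polynomials -/
theorem k5in_coeffs {k : Type} [Field k] {s t α β : k}
    (h : (Polynomial.X ^ 2 - C s * Polynomial.X + C t : k[X])
      = (Polynomial.X - C α) * (Polynomial.X - C β)) : s = α + β ∧ t = α * β := by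
  have h2 : (Polynomial.X - C α) * (Polynomial.X - C β)
      = (Polynomial.X ^ 2 - C (α + β) * Polynomial.X + C (α * β) : k[X]) := by
    rw [map_add, map_mul]; ring
  rw [h2] at h
  have e1 := congrArg (fun P : k[X] => P.coeff 1) h
  have e0 := congrArg (fun P : k[X] => P.coeff 0) h
  simp only [coeff_add, coeff_sub, coeff_X_pow, coeff_C_mul, coeff_X, coeff_C] at e1 e0
  norm_num at e1 e0
  refine ⟨?_, e0⟩
  have := neg_inj.mp (e1.trans (by ring : -β + -α = -(α + β)))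
  exact this

/-- **K5-INDEP (B): the Taylor–Wiles condition.**  `X = ` the `Θ_e`-part of `Hom(Γ₀(L), A)`; if
`T_ℓ − a_ℓ` is nilpotent on `X` for the primes `ℓ ∉ S₀ ∪ S`, then `(q + 1)² − T_q²` is injective
on `X` for every prime `q ∉ S₀` with `q = 1` in the residue field such that `ρ̄(Frob_q)` has
distinct eigenvalues. -/
theorem k5in_twcond [Finite A] (hcheb : Cheb.WeakChebotarev) (e : HExpr 𝒪) (ℓ₀ : ℕ)
    [NeZero ℓ₀]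
    (D : K5inData p L M 𝒪 A J Tr E (etaPart (thetaN (e.eval L M) ℓ₀ A ⊤)) n₀)
    (R : K5inRes p L ρbar a S₀)
    (hA : ∀ c ∈ maximalIdeal 𝒪, ∃ n : ℕ, ∀ x : A, c ^ n • x = 0) (S : Finset ℕ)
    (hnil : ∀ (ℓ : ℕ) [NeZero ℓ], ℓ.Prime → ℓ ∉ S₀ → ℓ ∉ S →
      ∀ v ∈ etaPart (thetaN (e.eval L M) ℓ₀ A ⊤), v ∈ k5lcKer (k5lcS L M ℓ (a ℓ) A ⊤))
    (Q : List ℕ) (hQ : ∀ q ∈ Q, q.Prime ∧ q ∉ S₀ ∧ (q : ResidueField 𝒪) = 1)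
    (hQs : ∀ q ∈ Q, ∀ 𝔄 : ValuationSubring (AlgebraicClosure ℚ), 𝔄.LiesOverPrime q →
      ∀ τ : GQ, 𝔄.IsFrobeniusAt τ q → ∃ α β : ResidueField 𝒪, α ≠ β ∧
        LinearMap.charpoly (ρbar.ρ τ) = (Polynomial.X - C α) * (Polynomial.X - C β)) :
    K5TWCond 𝒪 L M ℓ₀ e Q A := by
  intro q _ hqQ φ hφ h
  obtain ⟨hq, hqS₀, hq1⟩ := hQ q hqQ
  have rel := k5in_rel_all hcheb D R hA S hnil hq hqS₀
  obtain ⟨𝔄, τ, h𝔄, hτ⟩ := R.ex q hq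
  obtain ⟨α, β, hαβ, hch⟩ := hQs q hqQ 𝔄 h𝔄 τ hτ
  obtain ⟨hsum, hprod⟩ := k5in_coeffs ((R.frob q hq hqS₀ 𝔄 h𝔄 τ hτ).symm.trans hch)
  have hu := k5in_unit_of_tw hαβ hsum (hprod.symm.trans hq1) hq1
  obtain ⟨V, hV⟩ := k5in_isUnit_of_nil D.sc (fun d => D.commute d (Tr q)) rel hu
  have e0 : (D.sc (((q : 𝒪) + 1) ^ 2) - D.act (Tr q) ^ 2) ⟨φ, hφ⟩ = 0 := by
    refine Subtype.ext ?_
    show ((q : 𝒪) + 1) ^ 2 • φ - E (Tr q) (E (Tr q) φ) = 0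
    rw [D.tr q hq (R.good q hq hqS₀), D.tr q hq (R.good q hq hqS₀), ← h, pow_two, mul_smul]
    have : ((q : 𝒪) + 1) = ((q + 1 : ℕ) : 𝒪) := by push_cast; rfl
    rw [this, Nat.cast_smul_eq_nsmul, Nat.cast_smul_eq_nsmul]
  set x : etaPart (thetaN (e.eval L M) ℓ₀ A ⊤) := ⟨φ, hφ⟩ with hx
  have h2 : ((V⁻¹ : (AddMonoid.End (etaPart (thetaN (e.eval L M) ℓ₀ A ⊤)))ˣ) :
      AddMonoid.End (etaPart (thetaN (e.eval L M) ℓ₀ A ⊤))) * (V : AddMonoid.End _) = 1 :=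
    Units.inv_mul V
  have h1 : ((V⁻¹ : (AddMonoid.End (etaPart (thetaN (e.eval L M) ℓ₀ A ⊤)))ˣ) :
      AddMonoid.End (etaPart (thetaN (e.eval L M) ℓ₀ A ⊤))) ((V : AddMonoid.End _) x) = x :=
    congrArg (fun f : AddMonoid.End (etaPart (thetaN (e.eval L M) ℓ₀ A ⊤)) => f x) h2
  rw [hV, e0, map_zero] at h1
  exact (congrArg Subtype.val h1).symm

/-- **K5-INDEP (C): one inclusion.**  If `T_ℓ − a_ℓ` is nilpotent on `X` for the primes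
`ℓ ∉ S₀ ∪ S`, then `X` is contained in the `η_{ℓ₀'}`-part and in the generalised kernels of ALL
`T_ℓ − a_ℓ`, `ℓ ∉ S₀`, for every non-Eisenstein prime `ℓ₀' ∉ S₀`; hence in every subgroup `X'`
containing their intersection. -/
theorem k5in_le [Finite A] (hcheb : Cheb.WeakChebotarev)
    (D : K5inData p L M 𝒪 A J Tr E X n₀) (R : K5inRes p L ρbar a S₀)
    (hA : ∀ c ∈ maximalIdeal 𝒪, ∃ n : ℕ, ∀ x : A, c ^ n • x = 0) (S : Finset ℕ)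
    (hnil : ∀ (ℓ : ℕ) [NeZero ℓ], ℓ.Prime → ℓ ∉ S₀ → ℓ ∉ S →
      ∀ v ∈ X, v ∈ k5lcKer (k5lcS L M ℓ (a ℓ) A ⊤))
    {ℓ₀' : ℕ} [NeZero ℓ₀'] (hℓ₀' : ℓ₀'.Prime) (hℓ₀'S : ℓ₀' ∉ S₀)
    (hne : residue 𝒪 (a ℓ₀') ≠ (ℓ₀' : ResidueField 𝒪) + 1)
    (X' : AddSubgroup (HomS (gammaH L M (⊤ : Subgroup (ZMod M)ˣ)) A)) (S' : Finset ℕ)
    (hX' : ∀ φ, φ ∈ etaPart (etaS L M ℓ₀' ⊤ A) →
      (∀ (ℓ : ℕ) [NeZero ℓ], ℓ.Prime → ℓ ∉ S₀ → ℓ ∉ S' →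
        φ ∈ k5lcKer (k5lcS L M ℓ (a ℓ) A ⊤)) → φ ∈ X') :
    X ≤ X' := by
  intro φ hφ
  refine hX' φ ?_ (fun ℓ _ hℓ hℓS₀ _ => k5in_nil_all hcheb D R hA S hnil ℓ hℓ hℓS₀ φ hφ)
  -- `η_{ℓ₀'}` is a unit on `X`
  have rel := k5in_rel_all hcheb D R hA S hnil hℓ₀' hℓ₀'S
  have hu : IsUnit (a ℓ₀' - ((ℓ₀' : 𝒪) + 1)) := by
    rw [← IsLocalRing.residue_ne_zero_iff_isUnit, map_sub, map_add, map_natCast, map_one]
    exact sub_ne_zero.mpr hne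
  have hcomm : Commute (D.act (Tr ℓ₀') - D.sc (a ℓ₀')) (D.sc (a ℓ₀' - ((ℓ₀' : 𝒪) + 1))) :=
    Commute.sub_left (D.commute _ _).symm (k5in_commute_sc _ _)
  have hU : IsUnit (D.sc (a ℓ₀' - ((ℓ₀' : 𝒪) + 1)) + (D.act (Tr ℓ₀') - D.sc (a ℓ₀'))) :=
    IsNilpotent.isUnit_add_left_of_commute rel (hu.map D.sc) hcomm
  set η : AddMonoid.End X := D.sc (a ℓ₀' - ((ℓ₀' : 𝒪) + 1)) + (D.act (Tr ℓ₀') - D.sc (a ℓ₀'))
    with hη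
  have hηcoe : ∀ x : X, ((η x : X) : HomS (gammaH L M (⊤ : Subgroup (ZMod M)ˣ)) A)
      = etaS L M ℓ₀' ⊤ A (x : _) := by
    intro x
    show (a ℓ₀' - ((ℓ₀' : 𝒪) + 1)) • (x : HomS (gammaH L M (⊤ : Subgroup (ZMod M)ˣ)) A)
      + (E (Tr ℓ₀') (x : _) - a ℓ₀' • (x : _)) = tS L M ℓ₀' ⊤ A (x : _) - (ℓ₀' + 1) • (x : _)
    rw [D.tr ℓ₀' hℓ₀' (R.good ℓ₀' hℓ₀' hℓ₀'S), sub_smul]
    have : ((ℓ₀' : 𝒪) + 1) = ((ℓ₀' + 1 : ℕ) : 𝒪) := by push_cast; rfl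
    rw [this, Nat.cast_smul_eq_nsmul]
    abel
  rw [k5s_mem_etaPart]
  intro n
  obtain ⟨W, hW⟩ := hU.pow n
  refine ⟨((((W⁻¹ : (AddMonoid.End X)ˣ) : AddMonoid.End X) ⟨φ, hφ⟩ : X) : _), ?_⟩
  rw [← k5in_pow_coe X η (etaS L M ℓ₀' ⊤ A) hηcoe n, ← hW]
  have h2 : (W : AddMonoid.End X) * ((W⁻¹ : (AddMonoid.End X)ˣ) : AddMonoid.End X) = 1 :=
    Units.mul_inv W
  have h3 : (W : AddMonoid.End X) (((W⁻¹ : (AddMonoid.End X)ˣ) : AddMonoid.End X) ⟨φ, hφ⟩)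
      = ⟨φ, hφ⟩ := congrArg (fun f : AddMonoid.End X => f ⟨φ, hφ⟩) h2
  exact congrArg Subtype.val h3

/-- **the intrinsic description** of a subgroup `X` of `Hom(Γ₀(L), A)`: the part of the
`η_{ℓ₀}`-part on which `T_ℓ − a_ℓ` is nilpotent for all primes `ℓ ∉ S₀ ∪ S`. -/
def K5inIntr (L M : ℕ) [NeZero L] [Fact (M ∣ L)] (A : Type) [AddCommGroup A] [Module 𝒪 A]
    (a : ℕ → 𝒪) (S₀ S : Finset ℕ) (ℓ₀ : ℕ) [NeZero ℓ₀]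
    (X : AddSubgroup (HomS (gammaH L M (⊤ : Subgroup (ZMod M)ˣ)) A)) : Prop :=
  ∀ φ, φ ∈ X ↔ φ ∈ etaPart (etaS L M ℓ₀ ⊤ A) ∧
    ∀ (ℓ : ℕ) [NeZero ℓ], ℓ.Prime → ℓ ∉ S₀ → ℓ ∉ S → φ ∈ k5lcKer (k5lcS L M ℓ (a ℓ) A ⊤)

/-- **K5-INDEP (C): independence.**  Two subgroups with intrinsic descriptions (for finite sets
`S`, `S'` and non-Eisenstein primes `ℓ₀`, `ℓ₀' ∉ S₀`), each with faithful Hecke action, are
equal. -/
theorem k5in_indep [Finite A] (hcheb : Cheb.WeakChebotarev)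
    {𝕋' : Type} [CommRing 𝕋'] {J' : Type} [AddCommGroup J'] [Module 𝕋' J']
    [DistribMulAction GQ J'] {Tr' : ℕ → 𝕋'}
    {E' : 𝕋' →+* AddMonoid.End (HomS (gammaH L M (⊤ : Subgroup (ZMod M)ˣ)) A)}
    {X' : AddSubgroup (HomS (gammaH L M (⊤ : Subgroup (ZMod M)ˣ)) A)} {n₀' : ℕ}
    (D : K5inData p L M 𝒪 A J Tr E X n₀) (D' : K5inData p L M 𝒪 A J' Tr' E' X' n₀')
    (R : K5inRes p L ρbar a S₀)
    (hA : ∀ c ∈ maximalIdeal 𝒪, ∃ n : ℕ, ∀ x : A, c ^ n • x = 0) (S S' : Finset ℕ)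
    {ℓ₀ ℓ₀' : ℕ} [NeZero ℓ₀] [NeZero ℓ₀'] (hℓ₀ : ℓ₀.Prime) (hℓ₀' : ℓ₀'.Prime)
    (hℓ₀S : ℓ₀ ∉ S₀) (hℓ₀'S : ℓ₀' ∉ S₀)
    (hne : residue 𝒪 (a ℓ₀) ≠ (ℓ₀ : ResidueField 𝒪) + 1)
    (hne' : residue 𝒪 (a ℓ₀') ≠ (ℓ₀' : ResidueField 𝒪) + 1)
    (hX : K5inIntr L M A a S₀ S ℓ₀ X) (hX' : K5inIntr L M A a S₀ S' ℓ₀' X') : X = X' :=
  le_antisymm
    (k5in_le hcheb D R hA S (fun ℓ _ hℓ h1 h2 v hv => ((hX v).mp hv).2 ℓ hℓ h1 h2) hℓ₀' hℓ₀'S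
      hne' X' S' (fun φ h1 h2 => (hX' φ).mpr ⟨h1, h2⟩))
    (k5in_le hcheb D' R hA S' (fun ℓ _ hℓ h1 h2 v hv => ((hX' v).mp hv).2 ℓ hℓ h1 h2) hℓ₀ hℓ₀S
      hne X S (fun φ h1 h2 => (hX φ).mpr ⟨h1, h2⟩))

end main

section quot

variable {𝒪 : Type} [CommRing 𝒪] [IsLocalRing 𝒪]

/-- the maximal ideal is nilpotent on `𝒪 ⧸ 𝔪ⁿ` -/
theorem k5in_hA_quot (n : ℕ) :
    ∀ c ∈ maximalIdeal 𝒪, ∃ m : ℕ, ∀ x : 𝒪 ⧸ maximalIdeal 𝒪 ^ n, c ^ m • x = 0 := by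
  intro c hc
  refine ⟨n, fun x => ?_⟩
  obtain ⟨y, rfl⟩ := Ideal.Quotient.mk_surjective x
  show Ideal.Quotient.mk _ (c ^ n * y) = 0
  rw [Ideal.Quotient.eq_zero_iff_mem]
  exact Ideal.mul_mem_right _ _ (Ideal.pow_mem_pow hc n)

end quot

section expr

variable {𝒪 : Type} [CommRing 𝒪] [IsDomain 𝒪] [IsDiscreteValuationRing 𝒪]
  [Finite (IsLocalRing.ResidueField 𝒪)]
  (L M : ℕ) [NeZero L] [hML : Fact (M ∣ L)]

/-- **K5-INDEP (D): the expression.**  For every finite set `S` there is a Hecke expression `e`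
in the `T_ℓ`, `ℓ ∉ S₀ ∪ S` prime, such that for all `n` the `Θ_e`-part of `Hom(Γ₀(L), 𝒪/𝔪ⁿ)`
has the intrinsic description `K5inIntr` (K5-LOC, `k5lc_main_expr`). -/
theorem k5in_exists_expr (a : ℕ → 𝒪) (S₀ S : Finset ℕ) (ℓ₀ : ℕ) [NeZero ℓ₀] (hℓ₀ : ℓ₀.Prime)
    (hℓ₀L : ¬ ℓ₀ ∣ L)
    (hNT : ∀ n : ℕ, NoTors (gammaH L M (⊤ : Subgroup (ZMod M)ˣ))
      (𝒪 ⧸ IsLocalRing.maximalIdeal 𝒪 ^ n)) :
    ∃ e : HExpr 𝒪, e.IsPrimes ∧ (∀ q : ℕ, (q ∈ S₀ ∨ q ∈ S) → e.Avoids q) ∧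
      ∀ n : ℕ, K5inIntr L M (𝒪 ⧸ IsLocalRing.maximalIdeal 𝒪 ^ n) a S₀ S ℓ₀
        (etaPart (thetaN (e.eval L M) ℓ₀ (𝒪 ⧸ IsLocalRing.maximalIdeal 𝒪 ^ n) ⊤)) := by
  classical
  let ι : Type := {ℓ : ℕ // ℓ.Prime ∧ ℓ ∉ S₀ ∧ ℓ ∉ S}
  let ℓf : ι → ℕ := fun i => i.1
  haveI : ∀ i : ι, NeZero (ℓf i) := fun i => ⟨i.2.1.ne_zero⟩
  obtain ⟨N, l, hN, h⟩ := k5lc_main_expr L M ℓf (fun i => i.2.1) (fun i => a i.1)
    (⊤ : Subgroup (ZMod M)ˣ) ℓ₀ hℓ₀ hℓ₀L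
  refine ⟨k5lcExpr ℓf (fun i => a i.1) N l,
    k5lc_expr_isPrimes ℓf _ N l (fun i _ => i.2.1), fun q hq => ?_, fun n φ => ?_⟩
  · refine k5lc_expr_avoids ℓf _ N q l (fun i _ => ⟨i.2.1, ?_⟩)
    rintro rfl
    rcases hq with hq | hq
    · exact i.2.2.1 hq
    · exact i.2.2.2 hq
  · have key := h ⊤ le_rfl hNT HExpr.one trivial n φ
    have e1 : thetaN (((k5lcExpr ℓf (fun i => a i.1) N l).comp HExpr.one).eval L M) ℓ₀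
        (𝒪 ⧸ IsLocalRing.maximalIdeal 𝒪 ^ n) ⊤
        = thetaN ((k5lcExpr ℓf (fun i => a i.1) N l).eval L M) ℓ₀
          (𝒪 ⧸ IsLocalRing.maximalIdeal 𝒪 ^ n) ⊤ := rfl
    have e2 : thetaN ((HExpr.one : HExpr 𝒪).eval L M) ℓ₀
        (𝒪 ⧸ IsLocalRing.maximalIdeal 𝒪 ^ n) ⊤
        = etaS L M ℓ₀ ⊤ (𝒪 ⧸ IsLocalRing.maximalIdeal 𝒪 ^ n) := rfl
    rw [e1, e2] at key
    rw [key]
    constructor
    · rintro ⟨h1, h2⟩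
      exact ⟨h1, fun ℓ _ hℓ hS₀ hS => h2 ⟨ℓ, hℓ, hS₀, hS⟩⟩
    · rintro ⟨h1, h2⟩
      exact ⟨h1, fun i => h2 i.1 i.2.1 i.2.2.1 i.2.2.2⟩

end expr

end Fermat.Agent.RT.K5
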