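import Fermat.Agent.RT.K5.Indep2

/-!
# RT-K5, piece INDEP (helper7), part 3: ONE Hecke expression for the base AND the top level

The contract of the concrete module side wants, for every Taylor–Wiles family, ONE expression
`e : HExpr 𝒪` which
* at the BASE level `(L₀, M₀, ⊤)` cuts out the intrinsic `𝔪`-part (`K5inIntr`; this gives
  `K5TWCond` by `k5in_twcond` and the independence of the base module by `k5in_indep`), and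
* at the TOP level `(L, M, K)`, `K ≥ H'`, has a `Θ_{e.twist Q}`-part on which `T_ℓ − a_ℓ` is
  nilpotent for all primes `ℓ ∉ S₀ ∪ S` (the field `resid`).

`k5lc_main_expr` gives such an expression PER LEVEL: `P₁` at the base, `P₂` at the top.  We take
`e = P₁ P₂` (`k5in_exists_expr2`).
-/

set_option autoImplicit false
set_option linter.unusedSectionVars false
set_option linter.unusedVariables false
set_option linter.style.haveILetI false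

noncomputable section

namespace Fermat.Agent.RT.K5

open CongruenceSubgroup Matrix
open scoped MatrixGroups
open Fermat.Agent.ES1 (gammaH diamHom pmH)
open Fermat.Agent.ES Fermat.Agent.S30 Fermat.Agent.S31 Fermat.Agent.RT
open IsLocalRing

section swap

variable {𝒪 : Type} [CommRing 𝒪] (L M : ℕ) [NeZero L] [hML : Fact (M ∣ L)]

/-- `Θ_{(P₁ P₂).twist Q} = Θ_{P₂ (P₁ (1.twist Q))}` -/
theorem k5in_theta_swap (P₁ P₂ : HExpr 𝒪) (h₁ : P₁.IsPrimes) (h₂ : P₂.IsPrimes)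
    (Q : List ℕ) (ℓ₀ : ℕ) [NeZero ℓ₀] (A : Type) [AddCommGroup A] [Module 𝒪 A]
    (K : Subgroup (ZMod M)ˣ) :
    thetaN (((P₁.comp P₂).twist Q).eval L M) ℓ₀ A K
      = thetaN ((P₂.comp (P₁.comp ((HExpr.one : HExpr 𝒪).twist Q))).eval L M) ℓ₀ A K := by
  rw [k5lc_twist_theta]
  refine AddMonoidHom.ext fun φ => ?_
  exact k5hx_comm L M A K P₁ P₂ h₁ h₂ _

end swap

section expr2

variable {𝒪 : Type} [CommRing 𝒪] [IsDomain 𝒪] [IsDiscreteValuationRing 𝒪]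
  [Finite (IsLocalRing.ResidueField 𝒪)]

/-- the intrinsic description passes from `P₁` to `P₁ P₂` (`P₂ = k5lcExpr …` ANY list, any
exponent `> 0`): the abstract step. -/
theorem k5in_intr_comp (L M : ℕ) [NeZero L] [hML : Fact (M ∣ L)] {ι : Type} (ℓ : ι → ℕ)
    [∀ i, NeZero (ℓ i)] (hℓ : ∀ i, (ℓ i).Prime) (a : ι → 𝒪) (ℓ₀ : ℕ) [NeZero ℓ₀]
    (hℓ₀ : ℓ₀.Prime) {N₂ : ℕ} (hN₂ : 0 < N₂) (l₂ : List ι) (A : Type) [AddCommGroup A]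
    [Module 𝒪 A] [Finite A] (K : Subgroup (ZMod M)ˣ) (φ : HomS (gammaH L M K) A)
    (hk : ∀ i, φ ∈ k5lcKer (k5lcS L M (ℓ i) (a i) A K)) :
    φ ∈ etaPart (thetaN ((k5lcExpr ℓ a N₂ l₂).eval L M) ℓ₀ A K) ↔
      φ ∈ etaPart (etaS L M ℓ₀ K A) := by
  have hP₂ : (k5lcExpr ℓ a N₂ l₂).IsPrimes := k5lc_expr_isPrimes ℓ a N₂ l₂ (fun i _ => hℓ i)
  have hTT : ∀ i j, NatFam.Commutes ((HExpr.hecke (ℓ i) : HExpr 𝒪).eval L M)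
      ((HExpr.hecke (ℓ j) : HExpr 𝒪).eval L M) :=
    fun i j => k5lc_commutes_of_isPrimes L M _ _ (hℓ i) (hℓ j)
  have hTη : ∀ i, NatFam.Commutes ((HExpr.hecke (ℓ i) : HExpr 𝒪).eval L M)
      (NatFam.hecke 𝒪 L M ℓ₀) := fun i => by
    rw [← HExpr.eval_hecke L M ℓ₀]
    exact k5lc_commutes_of_isPrimes L M _ _ (hℓ i) hℓ₀
  constructor
  · intro hφ
    refine k5lc_theta_le_eta ((k5lcExpr ℓ a N₂ l₂).eval L M) ℓ₀ ?_ A K hφ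
    rw [← HExpr.eval_hecke L M ℓ₀]
    exact k5lc_commutes_of_isPrimes L M _ _ hP₂ hℓ₀
  · intro hφ
    have h1 := k5lc_intrinsic_ge (fun i => (HExpr.hecke (ℓ i) : HExpr 𝒪).eval L M) a hTT
      ((HExpr.one : HExpr 𝒪).eval L M) ℓ₀
      (fun i => k5lc_commutes_of_isPrimes L M _ _ (hℓ i) trivial) hTη hN₂ l₂ A K
      (φ := φ) hφ (fun i _ => by rw [k5lc_shift_hecke_op]; exact hk i)
    rw [← k5lc_expr_eval] at h1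
    exact h1

/-- **K5-INDEP (D′): ONE expression for the base and the top level.**  `e = P₁ P₂`, `P₁`
from K5-LOC at the base level `(L₀, M₀, ⊤)` and `P₂` from K5-LOC at the top level `(L, M, H')`:
* `e` is an expression in the `T_ℓ`, `ℓ ∉ S₀ ∪ S` prime;
* at the base level its `Θ`-part has the intrinsic description `K5inIntr`, every `n`;
* at the top level, every `K ≥ H'`, every list `Q` of primes and every `n`: on the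
  `Θ_{e.twist Q}`-part of `Hom(Γ_K(L), 𝒪/𝔪ⁿ)` all `T_ℓ − a_ℓ`, `ℓ ∉ S₀ ∪ S` prime, are
  locally nilpotent. -/
theorem k5in_exists_expr2 (L₀ M₀ : ℕ) [NeZero L₀] [hML₀ : Fact (M₀ ∣ L₀)]
    (L M : ℕ) [NeZero L] [hML : Fact (M ∣ L)]
    (a : ℕ → 𝒪) (S₀ S : Finset ℕ) (ℓ₀ : ℕ) [NeZero ℓ₀] (hℓ₀ : ℓ₀.Prime)
    (hℓ₀L₀ : ¬ ℓ₀ ∣ L₀) (hℓ₀L : ¬ ℓ₀ ∣ L) (H' : Subgroup (ZMod M)ˣ)
    (hNT₀ : ∀ n : ℕ, NoTors (gammaH L₀ M₀ (⊤ : Subgroup (ZMod M₀)ˣ))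
      (𝒪 ⧸ IsLocalRing.maximalIdeal 𝒪 ^ n)) :
    ∃ e : HExpr 𝒪, e.IsPrimes ∧ (∀ q : ℕ, (q ∈ S₀ ∨ q ∈ S) → e.Avoids q) ∧
      (∀ n : ℕ, K5inIntr L₀ M₀ (𝒪 ⧸ IsLocalRing.maximalIdeal 𝒪 ^ n) a S₀ S ℓ₀
        (etaPart (thetaN (e.eval L₀ M₀) ℓ₀ (𝒪 ⧸ IsLocalRing.maximalIdeal 𝒪 ^ n) ⊤))) ∧
      ∀ (K : Subgroup (ZMod M)ˣ), H' ≤ K →
        (∀ n : ℕ, NoTors (gammaH L M K) (𝒪 ⧸ IsLocalRing.maximalIdeal 𝒪 ^ n)) →
        ∀ (Q : List ℕ), (∀ q ∈ Q, q.Prime) →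
        ∀ (n : ℕ) (ℓ : ℕ) [NeZero ℓ], ℓ.Prime → ℓ ∉ S₀ → ℓ ∉ S →
          ∀ φ ∈ etaPart (thetaN ((e.twist Q).eval L M) ℓ₀
              (𝒪 ⧸ IsLocalRing.maximalIdeal 𝒪 ^ n) K),
            φ ∈ k5lcKer (k5lcS L M ℓ (a ℓ) (𝒪 ⧸ IsLocalRing.maximalIdeal 𝒪 ^ n) K) := by
  classical
  obtain ⟨lam, hirr⟩ := IsDiscreteValuationRing.exists_irreducible 𝒪
  have hlam : IsLocalRing.maximalIdeal 𝒪 = Ideal.span {lam} := hirr.maximalIdeal_eq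
  haveI : Finite (𝒪 ⧸ IsLocalRing.maximalIdeal 𝒪) := ‹Finite (IsLocalRing.ResidueField 𝒪)›
  have hfin : ∀ n : ℕ, Finite (𝒪 ⧸ IsLocalRing.maximalIdeal 𝒪 ^ n) :=
    fun n => k5cn_finite (IsLocalRing.maximalIdeal 𝒪) lam hlam n
  let ι : Type := {ℓ : ℕ // ℓ.Prime ∧ ℓ ∉ S₀ ∧ ℓ ∉ S}
  let ℓf : ι → ℕ := fun i => i.1
  haveI : ∀ i : ι, NeZero (ℓf i) := fun i => ⟨i.2.1.ne_zero⟩
  have hℓf : ∀ i : ι, (ℓf i).Prime := fun i => i.2.1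
  obtain ⟨N₁, l₁, hN₁, h₁⟩ := k5lc_main_expr L₀ M₀ ℓf hℓf (fun i => a i.1)
    (⊤ : Subgroup (ZMod M₀)ˣ) ℓ₀ hℓ₀ hℓ₀L₀
  obtain ⟨N₂, l₂, hN₂, h₂⟩ := k5lc_main_expr L M ℓf hℓf (fun i => a i.1) H' ℓ₀ hℓ₀ hℓ₀L
  have hP₁ : (k5lcExpr ℓf (fun i => a i.1) N₁ l₁).IsPrimes :=
    k5lc_expr_isPrimes ℓf _ N₁ l₁ (fun i _ => hℓf i)
  have hP₂ : (k5lcExpr ℓf (fun i => a i.1) N₂ l₂).IsPrimes :=
    k5lc_expr_isPrimes ℓf _ N₂ l₂ (fun i _ => hℓf i)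
  have hav : ∀ (N : ℕ) (l : List ι) (q : ℕ), (q ∈ S₀ ∨ q ∈ S) →
      (k5lcExpr ℓf (fun i => a i.1) N l).Avoids q := by
    intro N l q hq
    refine k5lc_expr_avoids ℓf _ N q l (fun i _ => ⟨i.2.1, ?_⟩)
    intro h
    have h' : i.1 = q := h
    rcases hq with hq | hq
    · exact i.2.2.1 (h' ▸ hq)
    · exact i.2.2.2 (h' ▸ hq)
  refine ⟨(k5lcExpr ℓf (fun i => a i.1) N₁ l₁).comp (k5lcExpr ℓf (fun i => a i.1) N₂ l₂),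
    ⟨hP₁, hP₂⟩, fun q hq => ⟨hav N₁ l₁ q hq, hav N₂ l₂ q hq⟩, fun n φ => ?_,
    fun K hle hNT Q hQ n ℓ _ hℓ hℓS₀ hℓS φ hφ => ?_⟩
  · -- the base level
    haveI := hfin n
    have key := h₁ ⊤ le_rfl hNT₀ (k5lcExpr ℓf (fun i => a i.1) N₂ l₂) hP₂ n φ
    rw [key]
    constructor
    · rintro ⟨h1, h2⟩
      exact ⟨(k5in_intr_comp L₀ M₀ ℓf hℓf (fun i => a i.1) ℓ₀ hℓ₀ hN₂ l₂ _ ⊤ φ h2).mp h1,
        fun ℓ _ hℓ hS₀ hS => h2 ⟨ℓ, hℓ, hS₀, hS⟩⟩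
    · rintro ⟨h1, h2⟩
      have h2' : ∀ i : ι, φ ∈ k5lcKer (k5lcS L₀ M₀ (ℓf i) (a i.1)
          (𝒪 ⧸ IsLocalRing.maximalIdeal 𝒪 ^ n) ⊤) := fun i => h2 i.1 i.2.1 i.2.2.1 i.2.2.2
      exact ⟨(k5in_intr_comp L₀ M₀ ℓf hℓf (fun i => a i.1) ℓ₀ hℓ₀ hN₂ l₂ _ ⊤ φ h2').mpr h1, h2'⟩
  · -- the top level
    rw [k5in_theta_swap L M _ _ hP₁ hP₂] at hφ
    have key := (h₂ K hle hNT ((k5lcExpr ℓf (fun i => a i.1) N₁ l₁).comp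
      ((HExpr.one : HExpr 𝒪).twist Q)) ⟨hP₁, HExpr.isPrimes_twist (e := (HExpr.one : HExpr 𝒪)) trivial hQ⟩ n φ).mp hφ
    exact key.2 ⟨ℓ, hℓ, hℓS₀, hℓS⟩

end expr2

end Fermat.Agent.RT.K5

end
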