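import Fermat.Agent.RT.K5.Indep3

/-!
# RT-K5, piece INDEP (helper7), part 4: the residual relation at ALL primes `q ∤ L p`

`K5inRes` knows the characteristic polynomials of Frobenius only outside a finite set `S₀` (the
bad primes of the integral model); the Taylor–Wiles primes and the primes of the field `resid`
are only known to be prime to `L p`.  By weak Chebotarev (`k5in_resid_frob`):

* `k5in_rel_frob` : for EVERY prime `q ∤ L p` and every Frobenius `τ` at `q` there is a lift `c`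
  of `tr ρ̄(τ)` with `T_q − c` nilpotent on `X`;
* `k5in_nil_frob` : the same, elementwise (`(T_q − c)^m = 0` on `X`);
* `k5in_twcond2` : `K5TWCond` for lists `Q` of primes `q ∤ L p`, `q = 1` in the residue field,
  such that `ρ̄(Frob_q)` has distinct eigenvalues with product `1`.
-/

set_option autoImplicit false
set_option linter.unusedSectionVars false
set_option linter.unusedVariables false
set_option linter.style.haveILetI false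

noncomputable section

namespace Fermat.Agent.RT.K5

open CongruenceSubgroup Matrix
open scoped MatrixGroups
open Fermat.Agent.ES1 (gammaH diamHom pmH)
open Fermat.Agent.ES Fermat.Agent.S30 Fermat.Agent.S31 Fermat.Agent.RT
open IsLocalRing Polynomial

section main

variable {p L M : ℕ} [Fact p.Prime] [NeZero L] [hML : Fact (M ∣ L)]
  {𝒪 : Type} [CommRing 𝒪] [IsLocalRing 𝒪]
  {A : Type} [AddCommGroup A] [Module 𝒪 A]
  {𝕋 : Type} [CommRing 𝕋] {J : Type} [AddCommGroup J] [Module 𝕋 J] [DistribMulAction GQ J]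
  {Tr : ℕ → 𝕋}
  {E : 𝕋 →+* AddMonoid.End (HomS (gammaH L M (⊤ : Subgroup (ZMod M)ˣ)) A)}
  {X : AddSubgroup (HomS (gammaH L M (⊤ : Subgroup (ZMod M)ˣ)) A)} {n₀ : ℕ}
  {ρbar : ResidualGaloisRep (ResidueField 𝒪)} {a : ℕ → 𝒪} {S₀ : Finset ℕ}

/-- **the residual relation at every prime `q ∤ L p`** (also at the primes of `S₀`) -/
theorem k5in_rel_frob [Finite A] (hcheb : Cheb.WeakChebotarev)
    (D : K5inData p L M 𝒪 A J Tr E X n₀) (R : K5inRes p L ρbar a S₀)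
    (S : Finset ℕ)
    (hnil : ∀ (ℓ : ℕ) [NeZero ℓ], ℓ.Prime → ℓ ∉ S₀ → ℓ ∉ S →
      ∀ v ∈ X, v ∈ k5lcKer (k5lcS L M ℓ (a ℓ) A ⊤))
    {q : ℕ} (hq : q.Prime) (hqLp : ¬ q ∣ L * p)
    {𝔄 : ValuationSubring (AlgebraicClosure ℚ)} (h𝔄 : 𝔄.LiesOverPrime q)
    {τ : GQ} (hτ : 𝔄.IsFrobeniusAt τ q) :
    ∃ c : 𝒪, residue 𝒪 c = LinearMap.trace (ResidueField 𝒪) ρbar.V (ρbar.ρ τ) ∧
      K5inRel D.act D.sc (Tr q) c := by
  have hgood : ∀ r : ℕ, r.Prime → r ∉ S₀ ∪ S → ¬ r ∣ L * p := fun r hr hrS =>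
    R.good r hr fun h => hrS (Finset.mem_union_left _ h)
  exact k5in_resid_frob hcheb D.pkg ρbar D.act D.sc D.commute (S₀ ∪ S) hgood ⊤
    (fun _ _ _ => Subring.mem_top _) n₀ (fun x _ hx => D.act_eq_zero x hx)
    (fun ℓ hℓ hℓS 𝔅 h𝔅 σ hσ => by
      rw [Finset.mem_union, not_or] at hℓS
      haveI : NeZero ℓ := ⟨hℓ.ne_zero⟩
      exact ⟨a ℓ, (R.trace hℓ hℓS.1 h𝔅 hσ).symm,
        (D.rel_iff hℓ (R.good ℓ hℓ hℓS.1) (a ℓ)).mpr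
          (k5in_exists_pow (a ℓ) (hnil ℓ hℓ hℓS.1 hℓS.2))⟩)
    (fun ℓ hℓ hℓS 𝔅 h𝔅 σ hσ => by
      rw [Finset.mem_union, not_or] at hℓS
      rw [R.trace hℓ hℓS.1 h𝔅 hσ]
      exact R.frob ℓ hℓ hℓS.1 𝔅 h𝔅 σ hσ)
    hq hqLp (Subring.mem_top _) h𝔄 hτ

/-- the residual relation at every prime `q ∤ L p`, elementwise -/
theorem k5in_nil_frob [Finite A] (hcheb : Cheb.WeakChebotarev)
    (D : K5inData p L M 𝒪 A J Tr E X n₀) (R : K5inRes p L ρbar a S₀)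
    (S : Finset ℕ)
    (hnil : ∀ (ℓ : ℕ) [NeZero ℓ], ℓ.Prime → ℓ ∉ S₀ → ℓ ∉ S →
      ∀ v ∈ X, v ∈ k5lcKer (k5lcS L M ℓ (a ℓ) A ⊤))
    (q : ℕ) [NeZero q] (hq : q.Prime) (hqLp : ¬ q ∣ L * p)
    (𝔄 : ValuationSubring (AlgebraicClosure ℚ)) (h𝔄 : 𝔄.LiesOverPrime q)
    (τ : GQ) (hτ : 𝔄.IsFrobeniusAt τ q) :
    ∃ (c : 𝒪) (m : ℕ), residue 𝒪 c = LinearMap.trace (ResidueField 𝒪) ρbar.V (ρbar.ρ τ) ∧
      ∀ v ∈ X, k5s_pow (k5lcS L M q c A ⊤) m v = 0 := by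
  obtain ⟨c, hc, hrel⟩ := k5in_rel_frob hcheb D R S hnil hq hqLp h𝔄 hτ
  obtain ⟨m, hm⟩ := (D.rel_iff hq hqLp c).mp hrel
  exact ⟨c, m, hc, hm⟩

/-- **K5-INDEP (B′): the Taylor–Wiles condition at primes `q ∤ L p`.**  `X = ` the `Θ_e`-part
of `Hom(Γ₀(L), A)`; if `T_ℓ − a_ℓ` is nilpotent on `X` for the primes `ℓ ∉ S₀ ∪ S`, then
`(q + 1)² − T_q²` is injective on `X` for every prime `q ∤ L p` with `q = 1` in the residue field
such that `ρ̄(Frob_q)` has distinct eigenvalues of product `1`. -/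
theorem k5in_twcond2 [Finite A] (hcheb : Cheb.WeakChebotarev) (e : HExpr 𝒪) (ℓ₀ : ℕ)
    [NeZero ℓ₀]
    (D : K5inData p L M 𝒪 A J Tr E (etaPart (thetaN (e.eval L M) ℓ₀ A ⊤)) n₀)
    (R : K5inRes p L ρbar a S₀) (S : Finset ℕ)
    (hnil : ∀ (ℓ : ℕ) [NeZero ℓ], ℓ.Prime → ℓ ∉ S₀ → ℓ ∉ S →
      ∀ v ∈ etaPart (thetaN (e.eval L M) ℓ₀ A ⊤), v ∈ k5lcKer (k5lcS L M ℓ (a ℓ) A ⊤))
    (Q : List ℕ) (hQ : ∀ q ∈ Q, q.Prime ∧ ¬ q ∣ L * p ∧ (q : ResidueField 𝒪) = 1)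
    (hQs : ∀ q ∈ Q, ∀ 𝔄 : ValuationSubring (AlgebraicClosure ℚ), 𝔄.LiesOverPrime q →
      ∀ τ : GQ, 𝔄.IsFrobeniusAt τ q → ∃ α β : ResidueField 𝒪, α ≠ β ∧ α * β = 1 ∧
        LinearMap.charpoly (ρbar.ρ τ) = (Polynomial.X - C α) * (Polynomial.X - C β)) :
    K5TWCond 𝒪 L M ℓ₀ e Q A := by
  intro q _ hqQ φ hφ h
  obtain ⟨hq, hqLp, hq1⟩ := hQ q hqQ
  obtain ⟨𝔄, τ, h𝔄, hτ⟩ := R.ex q hq
  obtain ⟨c, hc, rel⟩ := k5in_rel_frob hcheb D R S hnil hq hqLp h𝔄 hτ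
  obtain ⟨α, β, hαβ, hprod, hch⟩ := hQs q hqQ 𝔄 h𝔄 τ hτ
  have hch' : LinearMap.charpoly (ρbar.ρ τ)
      = Polynomial.X ^ 2 - C (α + β) * Polynomial.X + C (α * β) := by
    rw [hch, map_add, map_mul]; ring
  have htr : LinearMap.trace (ResidueField 𝒪) ρbar.V (ρbar.ρ τ) = α + β :=
    trace_of_charpoly ρbar.finrank_eq _ _ _ hch'
  have hu := k5in_unit_of_tw hαβ (hc.trans htr) hprod hq1
  obtain ⟨V, hV⟩ := k5in_isUnit_of_nil D.sc (fun d => D.commute d (Tr q)) rel hu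
  have e0 : (D.sc (((q : 𝒪) + 1) ^ 2) - D.act (Tr q) ^ 2) ⟨φ, hφ⟩ = 0 := by
    refine Subtype.ext ?_
    show ((q : 𝒪) + 1) ^ 2 • φ - E (Tr q) (E (Tr q) φ) = 0
    rw [D.tr q hq hqLp, D.tr q hq hqLp, ← h, pow_two, mul_smul]
    have : ((q : 𝒪) + 1) = ((q + 1 : ℕ) : 𝒪) := by push_cast; rfl
    rw [this, Nat.cast_smul_eq_nsmul, Nat.cast_smul_eq_nsmul]
  set x : etaPart (thetaN (e.eval L M) ℓ₀ A ⊤) := ⟨φ, hφ⟩ with hx
  have h2 : ((V⁻¹ : (AddMonoid.End (etaPart (thetaN (e.eval L M) ℓ₀ A ⊤)))ˣ) :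
      AddMonoid.End (etaPart (thetaN (e.eval L M) ℓ₀ A ⊤))) * (V : AddMonoid.End _) = 1 :=
    Units.inv_mul V
  have h1 : ((V⁻¹ : (AddMonoid.End (etaPart (thetaN (e.eval L M) ℓ₀ A ⊤)))ˣ) :
      AddMonoid.End (etaPart (thetaN (e.eval L M) ℓ₀ A ⊤))) ((V : AddMonoid.End _) x) = x :=
    congrArg (fun f : AddMonoid.End (etaPart (thetaN (e.eval L M) ℓ₀ A ⊤)) => f x) h2
  rw [hV, e0, map_zero] at h1
  exact (congrArg Subtype.val h1).symm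

end main

end Fermat.Agent.RT.K5

end
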