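/-
RT-K5, piece K5-L (helper22): `Hom(Γ, A) → Hom(Γ, B)` is onto for `A ↠ B`.
(Shapiro + cocycle lifting `k5l_coc` for the identity of `SL(2, ℤ) ⧸ Γ`.)
-/
import Fermat.Agent.RT.K5.Plan
import Fermat.Agent.RT.K5.LiftCoc
import Fermat.Agent.RT.K5.CoresSurj

set_option autoImplicit false
set_option linter.unusedSectionVars false
set_option linter.unusedVariables false
set_option linter.style.haveILetI false

noncomputable section

namespace Fermat.Agent.RT.K5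

open Classical
open CongruenceSubgroup Matrix
open scoped MatrixGroups
open Fermat.Agent.ES1 (gammaH diamHom pmH)
open Fermat.Agent.S41.PD (rho IsCoc U Represents)

/-- **homomorphisms lift** (general form) -/
theorem k5l_hom_lift (Γ : Subgroup SL(2, ℤ)) [Γ.FiniteIndex] (hneg : (-1 : SL(2, ℤ)) ∈ Γ)
    (A B : Type) [AddCommGroup A] [AddCommGroup B] (f : A →+ B) (hf : Function.Surjective f)
    (h2 : ∀ b : B, 2 • b = 0 → b = 0)
    (h3 : (∀ b : B, 3 • b = 0 → b = 0) ∨ ∀ g : SL(2, ℤ), g⁻¹ * U * g ∉ Γ)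
    (φ : HomS Γ B) : ∃ φ' : HomS Γ A, f.comp φ' = φ := by
  letI : Fintype (SL(2, ℤ) ⧸ Γ) := Subgroup.fintypeQuotientOfFiniteIndex
  obtain ⟨c, hc⟩ := Fermat.Agent.S41.PD.exists_represents (Γ := Γ) φ
  have h3' : (∀ b : B, 3 • b = 0 → b = 0) ∨ ∀ x : SL(2, ℤ) ⧸ Γ, U • x ≠ x := by
    rcases h3 with h3 | h3
    · exact Or.inl h3
    · exact Or.inr (k5s_U_smul_ne h3)
  obtain ⟨c', hc', hΦ⟩ := k5l_coc (id : SL(2, ℤ) ⧸ Γ → SL(2, ℤ) ⧸ Γ) f
    Function.surjective_id (fun g x' => rfl)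
    (fun x' => Fermat.Agent.S41.PD.neg_one_smul_eq hneg x') hf h2 h3' c hc.1
  obtain ⟨φ', hφ'⟩ := hc'.exists_represents (Γ := Γ)
  refine ⟨φ', ?_⟩
  refine AddMonoidHom.ext fun γ => ?_
  obtain ⟨γ, rfl⟩ : ∃ γ' : Γ, Additive.ofMul γ' = γ := ⟨Additive.toMul γ, rfl⟩
  rw [AddMonoidHom.comp_apply, ← hφ'.2 γ, ← hc.2 γ, ← hΦ (γ : SL(2, ℤ))]
  unfold k5l_Phi
  simp only [id]
  rw [Finset.sum_eq_single ((1 : SL(2, ℤ)) : SL(2, ℤ) ⧸ Γ)]
  · intro b hb hne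
    rw [Finset.mem_filter] at hb
    exact absurd hb.2 hne
  · intro h
    exfalso
    apply h
    rw [Finset.mem_filter]
    exact ⟨Finset.mem_univ _, rfl⟩

/-- **K5-L.** -/
theorem stmtLift : StmtLift := by
  intro L M _ _ H A B _ _ f hf hNT φ
  exact k5l_hom_lift (gammaH L M H) (Fermat.Agent.ES1.neg_one_mem_gammaH L M H) A B f hf
    hNT.1 hNT.2 φ

end Fermat.Agent.RT.K5

end
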