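import Fermat.Agent.RT.K5.FitEx
import Fermat.Agent.RT.K5.FitOAbs

/-!
# K-machine, piece K5-LOC (helper15), abstract part: generalised eigenspaces of commuting
endomorphisms of a finite abelian group are cut out by an idempotent polynomial

`V` a finite abelian group, `θ : V →+ V`.
* `k5lcKer θ = ⋃ ker θⁿ`, the generalised kernel;
* `k5lc_exists_idem` : some power `E = θ^m` (`m > 0`) is idempotent, `E x = x ↔ x ∈ etaPart θ`,
  `E x = 0 ↔ x ∈ k5lcKer θ`;
* `k5lcProj θ m = 1 − θ^m`; for commuting `θ i` and such exponents `m i` the composite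
  `k5lcProd` of the `1 − (θ i)^(m i)` over a list is idempotent with image `⋂ k5lcKer (θ i)`
  (`k5lc_prod_fix_iff`), and `etaPart` of it is this image (`k5lc_etaPart_of_idem`);
* `k5lc_exists_finset` : in a finite group an arbitrary intersection of subgroups is a finite one.
-/

set_option autoImplicit false
set_option linter.style.haveILetI false
set_option linter.unusedSectionVars false
set_option linter.unusedVariables false

noncomputable section

namespace Fermat.Agent.RT.K5

section genker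

variable {V : Type*} [AddCommGroup V]

/-- the generalised kernel `⋃ ker θⁿ` -/
def k5lcKer (θ : V →+ V) : AddSubgroup V where
  carrier := {x | ∃ n : ℕ, k5s_pow θ n x = 0}
  zero_mem' := ⟨0, map_zero _⟩
  add_mem' := by
    rintro x y ⟨n, hn⟩ ⟨m, hm⟩
    refine ⟨m + n, ?_⟩
    rw [map_add, k5fx_pow_add θ m n x, hn, map_zero, add_comm m n, k5fx_pow_add θ n m y, hm,
      map_zero, add_zero]
  neg_mem' := by
    rintro x ⟨n, hn⟩
    exact ⟨n, by rw [map_neg, hn, neg_zero]⟩

theorem k5lc_mem_ker (θ : V →+ V) (x : V) : x ∈ k5lcKer θ ↔ ∃ n : ℕ, k5s_pow θ n x = 0 :=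
  Iff.rfl

theorem k5lc_pow_mul (θ : V →+ V) (m n : ℕ) (x : V) :
    k5s_pow θ (m * n) x = k5s_pow (k5s_pow θ m) n x := by
  unfold k5s_pow
  rw [pow_mul]

theorem k5lc_pow_eq_zero_of_le (θ : V →+ V) {m n : ℕ} (h : m ≤ n) {x : V}
    (hx : k5s_pow θ m x = 0) : k5s_pow θ n x = 0 := by
  obtain ⟨k, rfl⟩ := Nat.exists_eq_add_of_le h
  rw [add_comm, k5fx_pow_add, hx, map_zero]

/-- powers of an idempotent -/
theorem k5lc_idem_pow (E : V →+ V) (hE : ∀ x, E (E x) = E x) (n : ℕ) (x : V) :
    k5s_pow E (n + 1) x = E x := by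
  induction n with
  | zero => rfl
  | succ n ih => rw [k5s_pow_succ', ih, hE]

/-- `etaPart` of an idempotent is its image -/
theorem k5lc_etaPart_of_idem (E : V →+ V) (hE : ∀ x, E (E x) = E x) (x : V) :
    x ∈ etaPart E ↔ E x = x := by
  rw [k5s_mem_etaPart]
  constructor
  · intro h
    obtain ⟨u, hu⟩ := h 1
    have : E u = x := hu
    rw [← this, hE]
  · intro h n
    refine ⟨x, ?_⟩
    cases n with
    | zero => rfl
    | succ n => rw [k5lc_idem_pow E hE, h]

/-- **Fitting idempotent**: some power of `θ` is the projector onto `etaPart θ` along the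
generalised kernel -/
theorem k5lc_exists_idem [Finite V] (θ : V →+ V) :
    ∃ m : ℕ, 0 < m ∧ (∀ x, k5s_pow θ m (k5s_pow θ m x) = k5s_pow θ m x) ∧
      (∀ x, x ∈ etaPart θ ↔ k5s_pow θ m x = x) ∧
      (∀ x, x ∈ k5lcKer θ ↔ k5s_pow θ m x = 0) := by
  haveI : Finite (AddMonoid.End V) :=
    Finite.of_injective (fun f : AddMonoid.End V => ((f : V →+ V) : V → V))
      (fun f g h => DFunLike.coe_injective h)
  obtain ⟨m, hm, hidem⟩ := k5of_exists_idem_pow (show AddMonoid.End V from θ)
  have hE : ∀ x, k5s_pow θ m (k5s_pow θ m x) = k5s_pow θ m x := fun x =>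
    DFunLike.congr_fun hidem x
  refine ⟨m, hm, hE, fun x => ⟨?_, ?_⟩, fun x => ⟨?_, fun h => ⟨m, h⟩⟩⟩
  · intro hx
    obtain ⟨u, hu⟩ := (k5s_mem_etaPart θ x).mp hx m
    rw [← hu, hE]
  · intro hx
    rw [k5s_mem_etaPart]
    intro n
    -- `x = E^(n) x = θ^(m n) x`
    have h1 : k5s_pow θ (m * (n + 1)) x = x := by
      rw [k5lc_pow_mul, k5lc_idem_pow _ hE, hx]
    have h2 : n ≤ m * (n + 1) := by nlinarith
    obtain ⟨k, hk⟩ := Nat.exists_eq_add_of_le h2
    refine ⟨k5s_pow θ k x, ?_⟩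
    rw [← k5fx_pow_add, ← hk, h1]
  · rintro ⟨n, hn⟩
    have h1 : k5s_pow θ (m * (n + 1)) x = k5s_pow θ m x := by
      rw [k5lc_pow_mul, k5lc_idem_pow _ hE]
    rw [← h1]
    exact k5lc_pow_eq_zero_of_le θ (by nlinarith) hn

/-- one exponent for all endomorphisms of a finite group -/
theorem k5lc_exists_uniform (V : Type*) [AddCommGroup V] [Finite V] :
    ∃ N : ℕ, 0 < N ∧ ∀ θ : V →+ V,
      (∀ x, k5s_pow θ N (k5s_pow θ N x) = k5s_pow θ N x) ∧
      (∀ x, x ∈ etaPart θ ↔ k5s_pow θ N x = x) ∧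
      (∀ x, x ∈ k5lcKer θ ↔ k5s_pow θ N x = 0) := by
  classical
  haveI : Finite (V →+ V) :=
    Finite.of_injective (fun f : V →+ V => (f : V → V)) (fun f g h => DFunLike.coe_injective h)
  letI : Fintype (V →+ V) := Fintype.ofFinite _
  choose m hm0 hidem heta hker using fun θ : V →+ V => k5lc_exists_idem θ
  refine ⟨∏ θ : V →+ V, m θ, Finset.prod_pos fun θ _ => hm0 θ, fun θ => ?_⟩
  obtain ⟨k, hk⟩ : m θ ∣ ∏ θ : V →+ V, m θ := Finset.dvd_prod_of_mem m (Finset.mem_univ θ)
  have hk0 : 0 < k := by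
    rcases Nat.eq_zero_or_pos k with h | h
    · have hpos : 0 < ∏ θ : V →+ V, m θ := Finset.prod_pos fun θ _ => hm0 θ
      rw [hk, h, mul_zero] at hpos
      exact absurd hpos (lt_irrefl 0)
    · exact h
  obtain ⟨k', rfl⟩ : ∃ k', k = k' + 1 := ⟨k - 1, by omega⟩
  have hpow : ∀ x, k5s_pow θ (∏ θ : V →+ V, m θ) x = k5s_pow θ (m θ) x := fun x => by
    rw [hk, k5lc_pow_mul, k5lc_idem_pow _ (hidem θ)]
  refine ⟨fun x => ?_, fun x => ?_, fun x => ?_⟩
  · rw [hpow, hpow, hidem]
  · rw [hpow]; exact heta θ x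
  · rw [hpow]; exact hker θ x

end genker

section product

variable {V : Type*} [AddCommGroup V]

/-- `1 − θ^m` -/
def k5lcProj (θ : V →+ V) (m : ℕ) : V →+ V := AddMonoidHom.id V - k5s_pow θ m

theorem k5lcProj_apply (θ : V →+ V) (m : ℕ) (x : V) : k5lcProj θ m x = x - k5s_pow θ m x := rfl

/-- the composite of the `1 − (θ i)^(m i)` over a list -/
def k5lcProd {ι : Type*} (θ : ι → V →+ V) (m : ι → ℕ) : List ι → V →+ V
  | [] => AddMonoidHom.id V
  | i :: l => (k5lcProj (θ i) (m i)).comp (k5lcProd θ m l)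

theorem k5lc_pow_comm (θ η : V →+ V) (h : ∀ x, θ (η x) = η (θ x)) (n : ℕ) (x : V) :
    k5s_pow θ n (η x) = η (k5s_pow θ n x) := by
  induction n generalizing x with
  | zero => rfl
  | succ n ih => rw [k5s_pow_succ, h, ih, ← k5s_pow_succ]

theorem k5lc_proj_comm (θ η : V →+ V) (h : ∀ x, θ (η x) = η (θ x)) (n : ℕ) (x : V) :
    k5lcProj θ n (η x) = η (k5lcProj θ n x) := by
  rw [k5lcProj_apply, k5lcProj_apply, k5lc_pow_comm θ η h, map_sub]

theorem k5lc_prod_comm {ι : Type*} (θ : ι → V →+ V) (m : ι → ℕ) (η : V →+ V)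
    (h : ∀ i x, θ i (η x) = η (θ i x)) (l : List ι) (x : V) :
    k5lcProd θ m l (η x) = η (k5lcProd θ m l x) := by
  induction l generalizing x with
  | nil => rfl
  | cons i l ih =>
    show k5lcProj (θ i) (m i) (k5lcProd θ m l (η x)) = η (k5lcProj (θ i) (m i) (k5lcProd θ m l x))
    rw [ih, k5lc_proj_comm (θ i) η (h i)]

/-- the fixed points of the product of commuting projectors -/
theorem k5lc_prod_fix_iff {ι : Type*} (θ : ι → V →+ V) (m : ι → ℕ)
    (hcomm : ∀ i j x, θ i (θ j x) = θ j (θ i x))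
    (hidem : ∀ i x, k5s_pow (θ i) (m i) (k5s_pow (θ i) (m i) x) = k5s_pow (θ i) (m i) x)
    (l : List ι) (x : V) :
    k5lcProd θ m l x = x ↔ ∀ i ∈ l, k5s_pow (θ i) (m i) x = 0 := by
  induction l generalizing x with
  | nil => simp [k5lcProd]
  | cons i l ih =>
    have hc : ∀ y, k5s_pow (θ i) (m i) (k5lcProd θ m l y) = k5lcProd θ m l (k5s_pow (θ i) (m i) y) :=
      fun y => (k5lc_prod_comm θ m (k5s_pow (θ i) (m i))
        (fun j z => (k5lc_pow_comm (θ i) (θ j) (fun w => hcomm i j w) (m i) z).symm) l y).symm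
    constructor
    · intro h
      have h' : k5lcProd θ m l x - k5s_pow (θ i) (m i) (k5lcProd θ m l x) = x := h
      -- apply `E`
      have hE : k5s_pow (θ i) (m i) x = 0 := by
        have := congrArg (k5s_pow (θ i) (m i)) h'
        rw [map_sub, hidem, sub_self] at this
        exact this.symm
      have hP : k5lcProd θ m l x = x := by
        rw [hc, hE, map_zero, sub_zero] at h'
        exact h'
      intro j hj
      rcases List.mem_cons.mp hj with rfl | hj
      · exact hE
      · exact (ih x).mp hP j hj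
    · intro h
      have hE : k5s_pow (θ i) (m i) x = 0 := h i List.mem_cons_self
      have hP : k5lcProd θ m l x = x :=
        (ih x).mpr fun j hj => h j (List.mem_cons_of_mem _ hj)
      show k5lcProd θ m l x - k5s_pow (θ i) (m i) (k5lcProd θ m l x) = x
      rw [hP, hE, sub_zero]

/-- the product of commuting projectors is idempotent -/
theorem k5lc_prod_idem {ι : Type*} (θ : ι → V →+ V) (m : ι → ℕ)
    (hcomm : ∀ i j x, θ i (θ j x) = θ j (θ i x))
    (hidem : ∀ i x, k5s_pow (θ i) (m i) (k5s_pow (θ i) (m i) x) = k5s_pow (θ i) (m i) x)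
    (l : List ι) (x : V) :
    k5lcProd θ m l (k5lcProd θ m l x) = k5lcProd θ m l x := by
  rw [k5lc_prod_fix_iff θ m hcomm hidem]
  intro i hi
  induction l generalizing x with
  | nil => simp at hi
  | cons j l ih =>
    have hcj : ∀ y, k5s_pow (θ i) (m i) (k5lcProj (θ j) (m j) y)
        = k5lcProj (θ j) (m j) (k5s_pow (θ i) (m i) y) := fun y =>
      (k5lc_proj_comm (θ j) (k5s_pow (θ i) (m i))
        (fun z => (k5lc_pow_comm (θ i) (θ j) (fun w => hcomm i j w) (m i) z).symm) (m j) y).symm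
    show k5s_pow (θ i) (m i) (k5lcProj (θ j) (m j) (k5lcProd θ m l x)) = 0
    rcases List.mem_cons.mp hi with rfl | hi
    · rw [k5lcProj_apply, map_sub, hidem, sub_self]
    · rw [hcj, ih x hi, map_zero]

end product

section finset

variable {V : Type*} [AddCommGroup V] [Finite V]

/-- in a finite group, an arbitrary intersection of subgroups is a finite intersection -/
theorem k5lc_exists_list {ι : Type*} (K : ι → AddSubgroup V) :
    ∃ l : List ι, ∀ x : V, (∀ i ∈ l, x ∈ K i) → ∀ i, x ∈ K i := by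
  classical
  -- minimise the cardinality of the finite intersections
  let c : List ι → ℕ := fun l => Nat.card ↥{x : V | ∀ i ∈ l, x ∈ K i}
  obtain ⟨l, hl⟩ : ∃ l, ∀ l', c l ≤ c l' := by
    have hne : (Set.range c).Nonempty := ⟨c [], ⟨[], rfl⟩⟩
    obtain ⟨l, hl⟩ := Nat.sInf_mem hne
    exact ⟨l, fun l' => hl ▸ Nat.sInf_le ⟨l', rfl⟩⟩
  refine ⟨l, fun x hx j => ?_⟩
  by_contra hxj
  -- `j :: l` has a strictly smaller intersection
  have hlt : c (j :: l) < c l := by
    have hsub : {x : V | ∀ i ∈ j :: l, x ∈ K i} ⊂ {x : V | ∀ i ∈ l, x ∈ K i} := by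
      refine ⟨fun y hy i hi => hy i (List.mem_cons_of_mem _ hi), fun h => ?_⟩
      exact hxj (h hx j List.mem_cons_self)
    have := Set.ncard_lt_ncard hsub (Set.toFinite _)
    rw [← Nat.card_coe_set_eq, ← Nat.card_coe_set_eq] at this
    exact this
  exact absurd (hl (j :: l)) (not_le.mpr hlt)

end finset

end Fermat.Agent.RT.K5

end
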