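import Fermat.Agent.RT.K5.Plan6
import Fermat.Agent.RT.K5.LocAbs

/-!
# K-machine, piece K5-LOC (helper15): `stmtLocAbs : StmtLocAbs`, `stmtLocRing : StmtLocRing`

* `stmtLocAbs` : on a finite abelian group the projector onto the generalised eigenspace of a
  commuting family is a finite product `∏ (1 − (T i − a i)^N)` (`LocAbs.lean`);
* `stmtLocRing` : a commutative `𝒪`-algebra acting faithfully on a finite nonzero module and
  generated by elements `s` with `s − c_s` nilpotent is local with the residue field of `𝒪`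
  (`A₀ = 𝒪·1 + nilradical`; a non-unit of `𝒪` is nilpotent on a finite module).
-/

set_option autoImplicit false
set_option linter.style.haveILetI false
set_option linter.unusedSectionVars false
set_option linter.unusedVariables false

noncomputable section

namespace Fermat.Agent.RT.K5

section locabs

variable {V : Type} [AddCommGroup V]

theorem k5lc_list_prod_eq {ι : Type} (θ : ι → AddMonoid.End V) (N : ℕ) (l : List ι) :
    ((l.map fun i => 1 - θ i ^ N).prod : AddMonoid.End V)
      = k5lcProd (fun i => (θ i : V →+ V)) (fun _ => N) l := by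
  induction l with
  | nil => rfl
  | cons i l ih =>
    rw [List.map_cons, List.prod_cons, ih]
    rfl

/-- **K5-LOC (abstract).** -/
theorem stmtLocAbs : StmtLocAbs := by
  intro V ι _ _ T a hTT haT haa
  obtain ⟨N, hN0, hN⟩ := k5lc_exists_uniform V
  -- the commuting family `θ i = T i − a i`
  let θ : ι → AddMonoid.End V := fun i => T i - a i
  have hcomm : ∀ i j, Commute (θ i) (θ j) := fun i j =>
    ((hTT i j).sub_left ((haT i j))).sub_right
      (((haT j i).symm).sub_left (haa i j))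
  have hcomm' : ∀ i j x, (θ i : V →+ V) ((θ j : V →+ V) x) = (θ j : V →+ V) ((θ i : V →+ V) x) :=
    fun i j x => DFunLike.congr_fun (hcomm i j).eq x
  obtain ⟨l, hl⟩ := k5lc_exists_list (fun i => k5lcKer (θ i : V →+ V))
  have hgen : ∀ v : V, v ∈ genEig T a ↔ ∀ i, v ∈ k5lcKer (θ i : V →+ V) := fun v => Iff.rfl
  have hfix := k5lc_prod_fix_iff (fun i => (θ i : V →+ V)) (fun _ => N) hcomm'
    (fun i x => (hN (θ i)).1 x) l
  have hidem := k5lc_prod_idem (fun i => (θ i : V →+ V)) (fun _ => N) hcomm'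
    (fun i x => (hN (θ i)).1 x) l
  have hfix' : ∀ v, k5lcProd (fun i => (θ i : V →+ V)) (fun _ => N) l v = v ↔ v ∈ genEig T a := by
    intro v
    rw [hfix, hgen]
    constructor
    · intro h
      exact hl v fun i hi => ((hN (θ i)).2.2 v).mpr (h i hi)
    · intro h i _
      exact ((hN (θ i)).2.2 v).mp (h i)
  refine ⟨N, l, hN0, fun v hv => ?_, fun v => ?_⟩
  · rw [k5lc_list_prod_eq θ N l]
    exact (hfix' v).mpr hv
  · rw [k5lc_list_prod_eq θ N l]
    exact (hfix' _).mp (hidem v)

end locabs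

section locring

/-- a non-unit of a local ring is nilpotent on a finite module -/
theorem k5lc_nonunit_nilpotent (𝒪 : Type) [CommRing 𝒪] [IsLocalRing 𝒪] (X : Type)
    [AddCommGroup X] [Module 𝒪 X] [Finite X] (c : 𝒪) (hc : ¬ IsUnit c) :
    IsNilpotent (algebraMap 𝒪 (Module.End 𝒪 X) c) := by
  haveI : Finite (Module.End 𝒪 X) :=
    Finite.of_injective (fun f : Module.End 𝒪 X => (f : X → X))
      (fun f g h => DFunLike.coe_injective h)
  obtain ⟨m, hm, hidem⟩ := k5of_exists_idem_pow (algebraMap 𝒪 (Module.End 𝒪 X) c)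
  refine ⟨m, ?_⟩
  have hu : IsUnit (1 - c ^ m) :=
    IsLocalRing.isUnit_one_sub_self_of_mem_nonunits _
      (fun h => hc ((isUnit_pow_iff hm.ne').mp h))
  rw [← map_pow] at hidem ⊢
  have h0 : algebraMap 𝒪 (Module.End 𝒪 X) (c ^ m)
      * algebraMap 𝒪 (Module.End 𝒪 X) (1 - c ^ m) = 0 := by
    rw [map_sub, map_one, mul_sub, mul_one, hidem, sub_self]
  obtain ⟨u, hu⟩ := hu
  have h1 : algebraMap 𝒪 (Module.End 𝒪 X) (c ^ m)
      * algebraMap 𝒪 (Module.End 𝒪 X) (1 - c ^ m)
      * algebraMap 𝒪 (Module.End 𝒪 X) ((u⁻¹ : 𝒪ˣ) : 𝒪) = 0 := by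
    rw [h0, zero_mul]
  rw [mul_assoc, ← map_mul, ← hu, Units.mul_inv, map_one, mul_one] at h1
  exact h1

/-- **K5-LOC (ring).** -/
theorem stmtLocRing : StmtLocRing := by
  intro 𝒪 _ _ X _ _ _ _ A₀ _ _ j S hj hS hnil
  haveI hfinE : Finite (Module.End 𝒪 X) :=
    Finite.of_injective (fun f : Module.End 𝒪 X => (f : X → X))
      (fun f g h => DFunLike.coe_injective h)
  have hfin : Finite A₀ := Finite.of_injective j hj
  haveI : Nontrivial A₀ := by
    refine ⟨⟨0, 1, fun h => ?_⟩⟩
    have h1 : (1 : Module.End 𝒪 X) = 0 := by rw [← map_one j, ← h, map_zero]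
    obtain ⟨x, hx⟩ := exists_ne (0 : X)
    apply hx
    have := congrArg (fun f : Module.End 𝒪 X => f x) h1
    simpa using this
  -- nilpotency is detected on `X`
  have hjnil : ∀ a : A₀, IsNilpotent (j a) → IsNilpotent a := by
    rintro a ⟨n, hn⟩
    exact ⟨n, hj (by rw [map_pow, hn, map_zero])⟩
  -- the non-units of `𝒪` are nilpotent in `A₀`
  have hm : ∀ c : 𝒪, ¬ IsUnit c → IsNilpotent (algebraMap 𝒪 A₀ c) := fun c hc =>
    hjnil _ (by rw [AlgHom.commutes]; exact k5lc_nonunit_nilpotent 𝒪 X c hc)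
  -- every element is a scalar plus a nilpotent
  have hdec : ∀ a : A₀, ∃ c : 𝒪, IsNilpotent (a - algebraMap 𝒪 A₀ c) := by
    intro a
    have ha : a ∈ Algebra.adjoin 𝒪 S := by rw [hS]; trivial
    induction ha using Algebra.adjoin_induction with
    | mem s hs =>
      obtain ⟨c, hc⟩ := hnil s hs
      exact ⟨c, hjnil _ (by rw [map_sub, AlgHom.commutes]; exact hc)⟩
    | algebraMap r => exact ⟨r, by rw [sub_self]; exact IsNilpotent.zero⟩
    | add x y _ _ hx hy =>
      obtain ⟨c, hc⟩ := hx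
      obtain ⟨d, hd⟩ := hy
      refine ⟨c + d, ?_⟩
      have e : x + y - algebraMap 𝒪 A₀ (c + d)
          = (x - algebraMap 𝒪 A₀ c) + (y - algebraMap 𝒪 A₀ d) := by
        rw [map_add]; ring
      rw [e]
      exact (Commute.all _ _).isNilpotent_add hc hd
    | mul x y _ _ hx hy =>
      obtain ⟨c, hc⟩ := hx
      obtain ⟨d, hd⟩ := hy
      refine ⟨c * d, ?_⟩
      have e : x * y - algebraMap 𝒪 A₀ (c * d)
          = (x - algebraMap 𝒪 A₀ c) * y + algebraMap 𝒪 A₀ c * (y - algebraMap 𝒪 A₀ d) := by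
        rw [map_mul]; ring
      rw [e]
      exact (Commute.all _ _).isNilpotent_add
        ((Commute.all _ _).isNilpotent_mul_right hc)
        ((Commute.all _ _).isNilpotent_mul_left hd)
  -- the non-units are the nilpotents
  have hnn : ∀ a : A₀, IsNilpotent a → ¬ IsUnit a := fun a ha hu => by
    obtain ⟨n, hn⟩ := ha
    have := hu.pow n
    rw [hn] at this
    exact not_isUnit_zero this
  have hnu : ∀ a : A₀, ¬ IsUnit a → IsNilpotent a := by
    intro a ha
    obtain ⟨c, hc⟩ := hdec a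
    by_cases hcu : IsUnit c
    · exfalso
      apply ha
      have e : a = algebraMap 𝒪 A₀ c + (a - algebraMap 𝒪 A₀ c) := by ring
      rw [e]
      exact hc.isUnit_add_left_of_commute (hcu.map _) (Commute.all _ _)
    · have e : a = (a - algebraMap 𝒪 A₀ c) + algebraMap 𝒪 A₀ c := by ring
      rw [e]
      exact (Commute.all _ _).isNilpotent_add hc (hm c hcu)
  have hloc : IsLocalRing A₀ := IsLocalRing.of_nonunits_add fun a b ha hb =>
    hnn _ ((Commute.all _ _).isNilpotent_add (hnu a ha) (hnu b hb))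
  refine ⟨hfin, hloc, ⟨fun c hc => ?_⟩, fun y => ?_, fun s hs c hc => ?_⟩
  · by_contra hcu
    exact hnn _ (hm c hcu) hc
  · obtain ⟨a, rfl⟩ := IsLocalRing.residue_surjective y
    obtain ⟨c, hc⟩ := hdec a
    refine ⟨c, ?_⟩
    have h0 : IsLocalRing.residue A₀ (a - algebraMap 𝒪 A₀ c) = 0 := by
      rw [IsLocalRing.residue_eq_zero_iff]
      exact hnn _ hc
    rw [map_sub, sub_eq_zero] at h0
    exact h0.symm
  · rw [IsLocalRing.mem_maximalIdeal]
    exact hnn _ (hjnil _ (by rw [map_sub, AlgHom.commutes]; exact hc))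

end locring

end Fermat.Agent.RT.K5

end
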