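import Fermat.Agent.RT.K5.LocAbs

/-!
# K-machine, piece K5-LOC (helper15), abstract part 2: `etaPart (P ∘ Θ)` for a product of
unipotent-on-the-eigenspace factors `P = ∏ (1 − (S i)^N)`

`V` a finite abelian group, `Θ`, `S i` commuting endomorphisms, `P = k5lcProd S (fun _ => N) l`.
* `k5lc_subset_etaPart` : a finite subgroup mapped injectively into itself by `f` lies in
  `etaPart f`;
* `k5lc_proj_inj` : `1 − S^N` (`N > 0`) is injective on the generalised kernel of `S`;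
* `k5lc_mem_etaPart_comp` : `etaPart Θ ∩ ⋂_{i ∈ l} k5lcKer (S i) ⊆ etaPart (P ∘ Θ)`;
* `k5lc_etaPart_comp_le` : `etaPart (P ∘ Θ) ⊆ etaPart Θ`;
* `k5lc_etaPart_comp_surj` : `P` maps `etaPart (P ∘ Θ)` onto itself.
-/

set_option autoImplicit false
set_option linter.style.haveILetI false
set_option linter.unusedSectionVars false
set_option linter.unusedVariables false

noncomputable section

namespace Fermat.Agent.RT.K5

section abs2

variable {V : Type*} [AddCommGroup V]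

/-- a finite subgroup mapped injectively into itself lies in the bijective part -/
theorem k5lc_subset_etaPart (f : V →+ V) (W : AddSubgroup V) [Finite W]
    (hW : ∀ w ∈ W, f w ∈ W) (hinj : ∀ w ∈ W, f w = 0 → w = 0) {v : V} (hv : v ∈ W) :
    v ∈ etaPart f := by
  -- `f` restricted to `W` is a bijection
  let r : W → W := fun w => ⟨f w, hW w w.2⟩
  have hri : Function.Injective r := by
    intro x y hxy
    have h1 : f x = f y := congrArg Subtype.val hxy
    have h2 : f ((x : V) - y) = 0 := by rw [map_sub, h1, sub_self]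
    have h3 := hinj _ (W.sub_mem x.2 y.2) h2
    exact Subtype.ext (sub_eq_zero.mp h3)
  have hrs : Function.Surjective r := Finite.injective_iff_surjective.mp hri
  rw [k5s_mem_etaPart]
  intro n
  induction n generalizing v with
  | zero => exact ⟨v, rfl⟩
  | succ n ih =>
    obtain ⟨w, hw⟩ := hrs ⟨v, hv⟩
    obtain ⟨u, hu⟩ := ih w.2
    refine ⟨u, ?_⟩
    rw [k5s_pow_succ', hu]
    exact congrArg Subtype.val hw

/-- `1 − S^N`, `N > 0`, is injective on the generalised kernel of `S` -/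
theorem k5lc_proj_inj (S : V →+ V) {N : ℕ} (hN : 0 < N) {x : V} (hx : x ∈ k5lcKer S)
    (h0 : k5lcProj S N x = 0) : x = 0 := by
  have h1 : k5s_pow S N x = x := by
    rw [k5lcProj_apply, sub_eq_zero] at h0
    exact h0.symm
  obtain ⟨n, hn⟩ := hx
  have h2 : ∀ k : ℕ, k5s_pow S (N * k) x = x := by
    intro k
    induction k with
    | zero => rfl
    | succ k ih => rw [Nat.mul_succ, add_comm, k5fx_pow_add, ih, h1]
  rw [← h2 n]
  exact k5lc_pow_eq_zero_of_le S (Nat.le_mul_of_pos_left n hN) hn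

/-- the generalised kernel of `S` is stable under every endomorphism commuting with `S` -/
theorem k5lc_ker_stable (S f : V →+ V) (h : ∀ x, S (f x) = f (S x)) {x : V}
    (hx : x ∈ k5lcKer S) : f x ∈ k5lcKer S := by
  obtain ⟨n, hn⟩ := hx
  exact ⟨n, by rw [k5lc_pow_comm S f h, hn, map_zero]⟩

/-- `k5lcProj` preserves the generalised kernels -/
theorem k5lc_proj_ker_stable (S S' : V →+ V) (h : ∀ x, S (S' x) = S' (S x)) (N : ℕ) {x : V}
    (hx : x ∈ k5lcKer S) : k5lcProj S' N x ∈ k5lcKer S := by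
  rw [k5lcProj_apply]
  refine (k5lcKer S).sub_mem hx ?_
  obtain ⟨n, hn⟩ := hx
  refine ⟨n, ?_⟩
  have hc : ∀ y, S (k5s_pow S' N y) = k5s_pow S' N (S y) :=
    fun y => (k5lc_pow_comm S' S (fun z => (h z).symm) N y).symm
  rw [k5lc_pow_comm S _ hc, hn, map_zero]

/-- the product `∏ (1 − (S i)^N)` is injective on `⋂_{i ∈ l} k5lcKer (S i)` -/
theorem k5lc_prod_inj {ι : Type*} (S : ι → V →+ V) (hcomm : ∀ i j x, S i (S j x) = S j (S i x))
    {N : ℕ} (hN : 0 < N) (l : List ι) {x : V} (hx : ∀ i ∈ l, x ∈ k5lcKer (S i))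
    (h0 : k5lcProd S (fun _ => N) l x = 0) : x = 0 := by
  induction l generalizing x with
  | nil => exact h0
  | cons i l ih =>
    -- `k5lcProd (i :: l) x = (1 − S_i^N) (k5lcProd l x)`, and `k5lcProd l x ∈ ker S_i^∞`
    have hmem : k5lcProd S (fun _ => N) l x ∈ k5lcKer (S i) := by
      obtain ⟨n, hn⟩ := hx i List.mem_cons_self
      refine ⟨n, ?_⟩
      rw [← k5lc_prod_comm S (fun _ => N) (k5s_pow (S i) n)
        (fun j z => (k5lc_pow_comm (S i) (S j) (fun w => hcomm i j w) n z).symm) l x, hn,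
        map_zero]
    have h1 : k5lcProd S (fun _ => N) l x = 0 := k5lc_proj_inj (S i) hN hmem h0
    exact ih (fun j hj => hx j (List.mem_cons_of_mem _ hj)) h1

/-- the product `∏ (1 − (S i)^N)` preserves `k5lcKer (S j)` -/
theorem k5lc_prod_ker_stable {ι : Type*} (S : ι → V →+ V)
    (hcomm : ∀ i j x, S i (S j x) = S j (S i x)) (N : ℕ) (l : List ι) (j : ι) {x : V}
    (hx : x ∈ k5lcKer (S j)) : k5lcProd S (fun _ => N) l x ∈ k5lcKer (S j) := by
  induction l with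
  | nil => exact hx
  | cons i l ih => exact k5lc_proj_ker_stable (S j) (S i) (fun y => hcomm j i y) N ih

variable [Finite V]

/-- **(⊇)**: `etaPart Θ ∩ ⋂_{i ∈ l} k5lcKer (S i) ⊆ etaPart (P ∘ Θ)` -/
theorem k5lc_mem_etaPart_comp {ι : Type*} (S : ι → V →+ V) (Θ : V →+ V)
    (hcomm : ∀ i j x, S i (S j x) = S j (S i x)) (hΘ : ∀ i x, S i (Θ x) = Θ (S i x))
    {N : ℕ} (hN : 0 < N) (l : List ι) {v : V} (hv : v ∈ etaPart Θ)
    (hk : ∀ i ∈ l, v ∈ k5lcKer (S i)) :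
    v ∈ etaPart ((k5lcProd S (fun _ => N) l).comp Θ) := by
  -- the subgroup `W = etaPart Θ ∩ ⋂ ker`
  let W : AddSubgroup V := etaPart Θ ⊓ ⨅ i : {i // i ∈ l}, k5lcKer (S i.1)
  have hmemW : ∀ w, w ∈ W ↔ w ∈ etaPart Θ ∧ ∀ i ∈ l, w ∈ k5lcKer (S i) := by
    intro w
    simp only [W, AddSubgroup.mem_inf, AddSubgroup.mem_iInf, Subtype.forall]
  have hΘP : ∀ x, k5lcProd S (fun _ => N) l (Θ x) = Θ (k5lcProd S (fun _ => N) l x) :=
    fun x => k5lc_prod_comm S (fun _ => N) Θ hΘ l x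
  refine k5lc_subset_etaPart _ W ?_ ?_ ((hmemW v).mpr ⟨hv, hk⟩)
  · intro w hw
    obtain ⟨hw1, hw2⟩ := (hmemW w).mp hw
    refine (hmemW _).mpr ⟨?_, fun i hi => ?_⟩
    · show k5lcProd S (fun _ => N) l (Θ w) ∈ etaPart Θ
      rw [hΘP]
      exact k5s_etaPart_stable Θ
        (k5s_intertwine_mem Θ Θ (k5lcProd S (fun _ => N) l) hΘP hw1)
    · show k5lcProd S (fun _ => N) l (Θ w) ∈ k5lcKer (S i)
      exact k5lc_prod_ker_stable S hcomm N l i (k5lc_ker_stable (S i) Θ (hΘ i) (hw2 i hi))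
  · intro w hw h0
    obtain ⟨hw1, hw2⟩ := (hmemW w).mp hw
    have h1 : Θ w = 0 :=
      k5lc_prod_inj S hcomm hN l (fun i hi => k5lc_ker_stable (S i) Θ (hΘ i) (hw2 i hi)) h0
    exact (k5fx_fitting Θ).2.1 w hw1 h1

/-- powers of a composite of commuting endomorphisms -/
theorem k5lc_pow_comp (P Θ : V →+ V) (hPΘ : ∀ x, P (Θ x) = Θ (P x)) (n : ℕ) (u : V) :
    k5s_pow (P.comp Θ) n u = k5s_pow Θ n (k5s_pow P n u) := by
  induction n generalizing u with
  | zero => rfl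
  | succ n ih =>
    have h1 : k5s_pow (P.comp Θ) (n + 1) u = k5s_pow (P.comp Θ) n (P (Θ u)) :=
      k5s_pow_succ _ n u
    rw [h1, ih, ← k5s_pow_succ P n (Θ u), k5lc_pow_comm P Θ hPΘ, ← k5s_pow_succ Θ n]

/-- `etaPart (P ∘ Θ) ⊆ etaPart Θ` for commuting `P`, `Θ` -/
theorem k5lc_etaPart_comp_le (P Θ : V →+ V) (hPΘ : ∀ x, P (Θ x) = Θ (P x)) {v : V}
    (hv : v ∈ etaPart (P.comp Θ)) : v ∈ etaPart Θ := by
  rw [k5s_mem_etaPart] at hv ⊢
  intro n
  obtain ⟨u, hu⟩ := hv n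
  exact ⟨k5s_pow P n u, by rw [← hu, k5lc_pow_comp P Θ hPΘ]⟩

/-- `P` maps `etaPart (P ∘ Θ)` onto itself -/
theorem k5lc_etaPart_comp_surj (P Θ : V →+ V) (hPΘ : ∀ x, P (Θ x) = Θ (P x)) {v : V}
    (hv : v ∈ etaPart (P.comp Θ)) : ∃ w ∈ etaPart (P.comp Θ), P w = v := by
  obtain ⟨w, hw, h⟩ := (k5fx_fitting (P.comp Θ)).2.2 v hv
  refine ⟨Θ w, ?_, h⟩
  refine k5s_intertwine_mem (P.comp Θ) (P.comp Θ) Θ (fun x => ?_) hw
  show Θ (P (Θ x)) = P (Θ (Θ x))
  rw [hPΘ x, hPΘ (Θ x), hPΘ x]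

end abs2

end Fermat.Agent.RT.K5

end
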