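import Fermat.Agent.RT.K5.Plan6
import Fermat.Agent.RT.K5.LocAbs2
import Fermat.Agent.RT.K5.Count
import Fermat.Agent.RT.K5.E1
import Fermat.Agent.RT.K5.Step
import Fermat.Agent.RT.K5.Coef

/-!
# K-machine, piece K5-LOC (helper15), concrete part: the `𝔪`-part of the `Θ`-part

`𝔱 i` (`i : ι`) commuting natural families (e.g. `NatFam.hecke (ℓ i)`), `a i ∈ 𝒪`,
`S i = 𝔱 i − a i`, `P = k5lcFam 𝔱 a N l = ∏_{i ∈ l} (1 − (S i)^N)` (a natural family again).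
For every natural family `𝔳` commuting with the `𝔱 i`:

* `k5lc_fam_op`   : the operator of `P` is `k5lcProd` of the operators of the `S i`;
* `k5lc_intrinsic_ge` : `etaPart Θ_𝔳 ∩ ⋂_i ker (S i)^∞ ⊆ etaPart Θ_{P 𝔳}`  (every finite `A`);
* `k5lc_intrinsic_le` : if `etaPart Θ_{P 𝔳} ⊆ ⋂_i ker (S i)^∞` with coefficients `𝒪/𝔪` then the
  same holds with coefficients `𝒪/𝔪ⁿ`, every `n` (dévissage, `stmtCoeffExact`);
* `k5lc_valid_of_le` : validity at `H'` (all of `Hom(Γ_{H'}, 𝒪/𝔪)`) gives validity at every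
  `K ≥ H'` (`res` is injective on the `η`-part, `stmtE1`);
* `k5lc_exists` : `N`, `l` exist (`LocAbs.lean`);
* `k5lc_main` : the INTRINSIC description
  `etaPart Θ_{P 𝔳} = etaPart Θ_𝔳 ∩ ⋂_i ker (S i)^∞` for all `n`, `K ≥ H'`, `𝔳`;
* `k5lc_nilpotent` : on `etaPart Θ_{P 𝔳}` every `S i` is nilpotent (uniform exponent).
-/

set_option autoImplicit false
set_option linter.style.haveILetI false
set_option linter.unusedSectionVars false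
set_option linter.unusedVariables false

noncomputable section

namespace Fermat.Agent.RT.K5

open CongruenceSubgroup Matrix
open scoped MatrixGroups
open Fermat.Agent.ES1 (gammaH diamHom pmH)

section fam

variable {𝒪 : Type} [CommRing 𝒪] {L M : ℕ} [NeZero L] [hML : Fact (M ∣ L)]

/-- two natural families commute -/
def NatFam.Commutes (𝔲 𝔳 : NatFam 𝒪 L M) : Prop :=
  ∀ (A : Type) [AddCommGroup A] [Module 𝒪 A] (K : Subgroup (ZMod M)ˣ)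
    (φ : HomS (gammaH L M K) A),
    (𝔲.fam A).op K ((𝔳.fam A).op K φ) = (𝔳.fam A).op K ((𝔲.fam A).op K φ)

/-- the `n`-th power of a natural family -/
def k5lcPowFam (𝔰 : NatFam 𝒪 L M) : ℕ → NatFam 𝒪 L M
  | 0 => NatFam.one 𝒪 L M
  | n + 1 => 𝔰.comp (k5lcPowFam 𝔰 n)

/-- `S = 𝔱 − a` -/
def k5lcShift (𝔱 : NatFam 𝒪 L M) (a : 𝒪) : NatFam 𝒪 L M := 𝔱.add (NatFam.coeff 𝒪 L M (-a))

/-- `1 − Sᴺ` -/
def k5lcFac (𝔰 : NatFam 𝒪 L M) (N : ℕ) : NatFam 𝒪 L M :=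
  (NatFam.one 𝒪 L M).add ((NatFam.coeff 𝒪 L M (-1)).comp (k5lcPowFam 𝔰 N))

/-- `P = ∏_{i ∈ l} (1 − (𝔱 i − a i)ᴺ)` -/
def k5lcFam {ι : Type} (𝔱 : ι → NatFam 𝒪 L M) (a : ι → 𝒪) (N : ℕ) : List ι → NatFam 𝒪 L M
  | [] => NatFam.one 𝒪 L M
  | i :: l => (k5lcFac (k5lcShift (𝔱 i) (a i)) N).comp (k5lcFam 𝔱 a N l)

variable (A : Type) [AddCommGroup A] [Module 𝒪 A] (K : Subgroup (ZMod M)ˣ)

theorem k5lc_coeff_op (c : 𝒪) (φ : HomS (gammaH L M K) A) :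
    ((NatFam.coeff 𝒪 L M c).fam A).op K φ = c • φ := rfl

theorem k5lc_shift_op (𝔱 : NatFam 𝒪 L M) (a : 𝒪) (φ : HomS (gammaH L M K) A) :
    ((k5lcShift 𝔱 a).fam A).op K φ = (𝔱.fam A).op K φ - a • φ := by
  show (𝔱.fam A).op K φ + (-a) • φ = _
  rw [neg_smul, sub_eq_add_neg]

theorem k5lc_pow_op (𝔰 : NatFam 𝒪 L M) (n : ℕ) (φ : HomS (gammaH L M K) A) :
    ((k5lcPowFam 𝔰 n).fam A).op K φ = k5s_pow ((𝔰.fam A).op K) n φ := by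
  induction n with
  | zero => rfl
  | succ n ih =>
    show (𝔰.fam A).op K (((k5lcPowFam 𝔰 n).fam A).op K φ) = _
    rw [ih, k5s_pow_succ']

theorem k5lc_fac_op (𝔰 : NatFam 𝒪 L M) (N : ℕ) :
    ((k5lcFac 𝔰 N).fam A).op K = k5lcProj ((𝔰.fam A).op K) N := by
  refine AddMonoidHom.ext fun φ => ?_
  show φ + (-1 : 𝒪) • ((k5lcPowFam 𝔰 N).fam A).op K φ = φ - k5s_pow ((𝔰.fam A).op K) N φ
  rw [k5lc_pow_op, neg_smul, one_smul, sub_eq_add_neg]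

/-- the operator of `P` -/
theorem k5lc_fam_op {ι : Type} (𝔱 : ι → NatFam 𝒪 L M) (a : ι → 𝒪) (N : ℕ) (l : List ι) :
    ((k5lcFam 𝔱 a N l).fam A).op K
      = k5lcProd (fun i => ((k5lcShift (𝔱 i) (a i)).fam A).op K) (fun _ => N) l := by
  induction l with
  | nil => rfl
  | cons i l ih =>
    show (((k5lcFac (k5lcShift (𝔱 i) (a i)) N).fam A).op K).comp
        (((k5lcFam 𝔱 a N l).fam A).op K) = _
    rw [ih, k5lc_fac_op]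
    rfl

/-- `Θ_{P 𝔳} = P ∘ Θ_𝔳` -/
theorem k5lc_theta_comp (𝔭 𝔳 : NatFam 𝒪 L M) (ℓ₀ : ℕ) [NeZero ℓ₀] :
    thetaN (𝔭.comp 𝔳) ℓ₀ A K = ((𝔭.fam A).op K).comp (thetaN 𝔳 ℓ₀ A K) := rfl

section comm

variable {ι : Type} (𝔱 : ι → NatFam 𝒪 L M) (a : ι → 𝒪)

/-- the operators `S i` commute with each other -/
theorem k5lc_shift_comm (hTT : ∀ i j, NatFam.Commutes (𝔱 i) (𝔱 j)) (i j : ι)
    (φ : HomS (gammaH L M K) A) :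
    ((k5lcShift (𝔱 i) (a i)).fam A).op K (((k5lcShift (𝔱 j) (a j)).fam A).op K φ)
      = ((k5lcShift (𝔱 j) (a j)).fam A).op K (((k5lcShift (𝔱 i) (a i)).fam A).op K φ) := by
  simp only [k5lc_shift_op, map_sub, k5n_op_smul, hTT i j A K φ, smul_sub]
  rw [smul_comm (a i) (a j)]
  abel

/-- the operators `S i` commute with every family commuting with `𝔱 i` -/
theorem k5lc_shift_comm_fam (𝔳 : NatFam 𝒪 L M) (i : ι) (hTv : NatFam.Commutes (𝔱 i) 𝔳)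
    (φ : HomS (gammaH L M K) A) :
    ((k5lcShift (𝔱 i) (a i)).fam A).op K ((𝔳.fam A).op K φ)
      = (𝔳.fam A).op K (((k5lcShift (𝔱 i) (a i)).fam A).op K φ) := by
  simp only [k5lc_shift_op, map_sub, k5n_op_smul, hTv A K φ]

/-- the operators `S i` commute with `Θ_𝔳` -/
theorem k5lc_shift_comm_theta (𝔳 : NatFam 𝒪 L M) (ℓ₀ : ℕ) [NeZero ℓ₀] (i : ι)
    (hTv : NatFam.Commutes (𝔱 i) 𝔳) (hTη : NatFam.Commutes (𝔱 i) (NatFam.hecke 𝒪 L M ℓ₀))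
    (φ : HomS (gammaH L M K) A) :
    ((k5lcShift (𝔱 i) (a i)).fam A).op K (thetaN 𝔳 ℓ₀ A K φ)
      = thetaN 𝔳 ℓ₀ A K (((k5lcShift (𝔱 i) (a i)).fam A).op K φ) := by
  show ((k5lcShift (𝔱 i) (a i)).fam A).op K ((𝔳.fam A).op K (etaS L M ℓ₀ K A φ))
    = (𝔳.fam A).op K (etaS L M ℓ₀ K A (((k5lcShift (𝔱 i) (a i)).fam A).op K φ))
  rw [k5lc_shift_comm_fam A K 𝔱 a 𝔳 i hTv]
  congr 1
  show ((k5lcShift (𝔱 i) (a i)).fam A).op K (tS L M ℓ₀ K A φ - (ℓ₀ + 1) • φ)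
    = tS L M ℓ₀ K A (((k5lcShift (𝔱 i) (a i)).fam A).op K φ)
      - (ℓ₀ + 1) • ((k5lcShift (𝔱 i) (a i)).fam A).op K φ
  rw [map_sub, map_nsmul]
  congr 1
  exact k5lc_shift_comm_fam A K 𝔱 a (NatFam.hecke 𝒪 L M ℓ₀) i hTη φ

end comm

end fam

section ge

variable {𝒪 : Type} [CommRing 𝒪] {L M : ℕ} [NeZero L] [hML : Fact (M ∣ L)]
  {ι : Type} (𝔱 : ι → NatFam 𝒪 L M) (a : ι → 𝒪)

/-- the `Θ`-part is stable under the scalars -/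
theorem k5lc_smul_mem (𝔲 : NatFam 𝒪 L M) (ℓ₀ : ℕ) [NeZero ℓ₀] (A : Type) [AddCommGroup A]
    [Module 𝒪 A] (K : Subgroup (ZMod M)ˣ) (c : 𝒪) {φ : HomS (gammaH L M K) A}
    (hφ : φ ∈ etaPart (thetaN 𝔲 ℓ₀ A K)) : c • φ ∈ etaPart (thetaN 𝔲 ℓ₀ A K) :=
  k5s_intertwine_mem (thetaN 𝔲 ℓ₀ A K) (thetaN 𝔲 ℓ₀ A K)
    (DistribSMul.toAddMonoidHom (HomS (gammaH L M K) A) c)
    (fun y => (k5n_theta_smul 𝔲 ℓ₀ K c y).symm) hφ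

/-- `S i` commutes with the operator of `P` -/
theorem k5lc_shift_comm_P (hTT : ∀ i j, NatFam.Commutes (𝔱 i) (𝔱 j)) (N : ℕ) (l : List ι)
    (A : Type) [AddCommGroup A] [Module 𝒪 A] (K : Subgroup (ZMod M)ˣ) (i : ι)
    (φ : HomS (gammaH L M K) A) :
    ((k5lcShift (𝔱 i) (a i)).fam A).op K (((k5lcFam 𝔱 a N l).fam A).op K φ)
      = ((k5lcFam 𝔱 a N l).fam A).op K (((k5lcShift (𝔱 i) (a i)).fam A).op K φ) := by
  rw [k5lc_fam_op]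
  exact (k5lc_prod_comm _ _ _ (fun j x => k5lc_shift_comm A K 𝔱 a hTT j i x) l φ).symm

/-- the operator of `P` commutes with `Θ_𝔳` -/
theorem k5lc_P_comm_theta (hTT : ∀ i j, NatFam.Commutes (𝔱 i) (𝔱 j)) (𝔳 : NatFam 𝒪 L M)
    (ℓ₀ : ℕ) [NeZero ℓ₀] (hTv : ∀ i, NatFam.Commutes (𝔱 i) 𝔳)
    (hTη : ∀ i, NatFam.Commutes (𝔱 i) (NatFam.hecke 𝒪 L M ℓ₀)) (N : ℕ) (l : List ι)
    (A : Type) [AddCommGroup A] [Module 𝒪 A] (K : Subgroup (ZMod M)ˣ)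
    (φ : HomS (gammaH L M K) A) :
    ((k5lcFam 𝔱 a N l).fam A).op K (thetaN 𝔳 ℓ₀ A K φ)
      = thetaN 𝔳 ℓ₀ A K (((k5lcFam 𝔱 a N l).fam A).op K φ) := by
  rw [k5lc_fam_op]
  exact k5lc_prod_comm _ _ _
    (fun j x => k5lc_shift_comm_theta A K 𝔱 a 𝔳 ℓ₀ j (hTv j) (hTη j) x) l φ

/-- `S i` commutes with `Θ_{P 𝔳}` -/
theorem k5lc_shift_comm_thetaP (hTT : ∀ i j, NatFam.Commutes (𝔱 i) (𝔱 j)) (𝔳 : NatFam 𝒪 L M)
    (ℓ₀ : ℕ) [NeZero ℓ₀] (hTv : ∀ i, NatFam.Commutes (𝔱 i) 𝔳)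
    (hTη : ∀ i, NatFam.Commutes (𝔱 i) (NatFam.hecke 𝒪 L M ℓ₀)) (N : ℕ) (l : List ι)
    (A : Type) [AddCommGroup A] [Module 𝒪 A] (K : Subgroup (ZMod M)ˣ) (i : ι)
    (φ : HomS (gammaH L M K) A) :
    ((k5lcShift (𝔱 i) (a i)).fam A).op K (thetaN ((k5lcFam 𝔱 a N l).comp 𝔳) ℓ₀ A K φ)
      = thetaN ((k5lcFam 𝔱 a N l).comp 𝔳) ℓ₀ A K (((k5lcShift (𝔱 i) (a i)).fam A).op K φ) := by
  show ((k5lcShift (𝔱 i) (a i)).fam A).op K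
      (((k5lcFam 𝔱 a N l).fam A).op K (thetaN 𝔳 ℓ₀ A K φ))
    = ((k5lcFam 𝔱 a N l).fam A).op K
      (thetaN 𝔳 ℓ₀ A K (((k5lcShift (𝔱 i) (a i)).fam A).op K φ))
  rw [k5lc_shift_comm_P 𝔱 a hTT, k5lc_shift_comm_theta A K 𝔱 a 𝔳 ℓ₀ i (hTv i) (hTη i)]

/-- **(⊇)** the generalised eigenspace inside the `Θ_𝔳`-part lies in the `Θ_{P 𝔳}`-part -/
theorem k5lc_intrinsic_ge (hTT : ∀ i j, NatFam.Commutes (𝔱 i) (𝔱 j)) (𝔳 : NatFam 𝒪 L M)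
    (ℓ₀ : ℕ) [NeZero ℓ₀] (hTv : ∀ i, NatFam.Commutes (𝔱 i) 𝔳)
    (hTη : ∀ i, NatFam.Commutes (𝔱 i) (NatFam.hecke 𝒪 L M ℓ₀)) {N : ℕ} (hN : 0 < N)
    (l : List ι) (A : Type) [AddCommGroup A] [Module 𝒪 A] [Finite A]
    (K : Subgroup (ZMod M)ˣ) {φ : HomS (gammaH L M K) A}
    (hφ : φ ∈ etaPart (thetaN 𝔳 ℓ₀ A K))
    (hk : ∀ i ∈ l, φ ∈ k5lcKer (((k5lcShift (𝔱 i) (a i)).fam A).op K)) :
    φ ∈ etaPart (thetaN ((k5lcFam 𝔱 a N l).comp 𝔳) ℓ₀ A K) := by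
  haveI : Finite (HomS (gammaH L M K) A) := k5s_finite_homS _ A
  rw [k5lc_theta_comp, k5lc_fam_op]
  exact k5lc_mem_etaPart_comp _ _ (fun i j x => k5lc_shift_comm A K 𝔱 a hTT i j x)
    (fun i x => k5lc_shift_comm_theta A K 𝔱 a 𝔳 ℓ₀ i (hTv i) (hTη i) x) hN l hφ hk

/-- the `Θ_{P 𝔳}`-part lies in the `Θ_𝔳`-part -/
theorem k5lc_thetaP_le (hTT : ∀ i j, NatFam.Commutes (𝔱 i) (𝔱 j)) (𝔳 : NatFam 𝒪 L M)
    (ℓ₀ : ℕ) [NeZero ℓ₀] (hTv : ∀ i, NatFam.Commutes (𝔱 i) 𝔳)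
    (hTη : ∀ i, NatFam.Commutes (𝔱 i) (NatFam.hecke 𝒪 L M ℓ₀)) (N : ℕ)
    (l : List ι) (A : Type) [AddCommGroup A] [Module 𝒪 A] [Finite A]
    (K : Subgroup (ZMod M)ˣ) {φ : HomS (gammaH L M K) A}
    (hφ : φ ∈ etaPart (thetaN ((k5lcFam 𝔱 a N l).comp 𝔳) ℓ₀ A K)) :
    φ ∈ etaPart (thetaN 𝔳 ℓ₀ A K) := by
  haveI : Finite (HomS (gammaH L M K) A) := k5s_finite_homS _ A
  rw [k5lc_theta_comp] at hφ
  exact k5lc_etaPart_comp_le _ _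
    (fun x => k5lc_P_comm_theta 𝔱 a hTT 𝔳 ℓ₀ hTv hTη N l A K x) hφ

/-- the `Θ_𝔳`-part lies in the `η`-part -/
theorem k5lc_theta_le_eta (𝔳 : NatFam 𝒪 L M) (ℓ₀ : ℕ) [NeZero ℓ₀]
    (hvη : NatFam.Commutes 𝔳 (NatFam.hecke 𝒪 L M ℓ₀))
    (A : Type) [AddCommGroup A] [Module 𝒪 A] [Finite A]
    (K : Subgroup (ZMod M)ˣ) {φ : HomS (gammaH L M K) A}
    (hφ : φ ∈ etaPart (thetaN 𝔳 ℓ₀ A K)) : φ ∈ etaPart (etaS L M ℓ₀ K A) := by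
  haveI : Finite (HomS (gammaH L M K) A) := k5s_finite_homS _ A
  refine k5lc_etaPart_comp_le ((𝔳.fam A).op K) (etaS L M ℓ₀ K A) (fun x => ?_) hφ
  show (𝔳.fam A).op K (tS L M ℓ₀ K A x - (ℓ₀ + 1) • x)
    = tS L M ℓ₀ K A ((𝔳.fam A).op K x) - (ℓ₀ + 1) • (𝔳.fam A).op K x
  rw [map_sub, map_nsmul]
  congr 1
  exact hvη A K x

end ge

section le

variable {𝒪 : Type} [CommRing 𝒪] [IsDomain 𝒪] [IsDiscreteValuationRing 𝒪]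
  [Finite (IsLocalRing.ResidueField 𝒪)]
  {L M : ℕ} [NeZero L] [hML : Fact (M ∣ L)]
  {ι : Type} (𝔱 : ι → NatFam 𝒪 L M) (a : ι → 𝒪)

/-- **(⊆), dévissage**: if the `Θ_{P 𝔳}`-part with coefficients `𝒪/𝔪` lies in the generalised
kernel of `S i`, so does the `Θ_{P 𝔳}`-part with coefficients `𝒪/𝔪ⁿ`, every `n`. -/
theorem k5lc_intrinsic_le (hTT : ∀ i j, NatFam.Commutes (𝔱 i) (𝔱 j)) (𝔳 : NatFam 𝒪 L M)
    (ℓ₀ : ℕ) [NeZero ℓ₀] (hTv : ∀ i, NatFam.Commutes (𝔱 i) 𝔳)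
    (hTη : ∀ i, NatFam.Commutes (𝔱 i) (NatFam.hecke 𝒪 L M ℓ₀)) (N : ℕ) (l : List ι)
    (K : Subgroup (ZMod M)ˣ)
    (hNT : ∀ n : ℕ, NoTors (gammaH L M K) (𝒪 ⧸ IsLocalRing.maximalIdeal 𝒪 ^ n)) (i : ι)
    (hval : ∀ φ ∈ etaPart (thetaN ((k5lcFam 𝔱 a N l).comp 𝔳) ℓ₀
        (𝒪 ⧸ IsLocalRing.maximalIdeal 𝒪 ^ 1) K),
      φ ∈ k5lcKer (((k5lcShift (𝔱 i) (a i)).fam (𝒪 ⧸ IsLocalRing.maximalIdeal 𝒪 ^ 1)).op K))
    (n : ℕ) {φ : HomS (gammaH L M K) (𝒪 ⧸ IsLocalRing.maximalIdeal 𝒪 ^ n)}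
    (hφ : φ ∈ etaPart (thetaN ((k5lcFam 𝔱 a N l).comp 𝔳) ℓ₀
        (𝒪 ⧸ IsLocalRing.maximalIdeal 𝒪 ^ n) K)) :
    φ ∈ k5lcKer (((k5lcShift (𝔱 i) (a i)).fam (𝒪 ⧸ IsLocalRing.maximalIdeal 𝒪 ^ n)).op K) := by
  obtain ⟨lam, hirr⟩ := IsDiscreteValuationRing.exists_irreducible 𝒪
  have hlam : IsLocalRing.maximalIdeal 𝒪 = Ideal.span {lam} := hirr.maximalIdeal_eq
  have hlam0 : lam ≠ 0 := hirr.ne_zero
  haveI : Finite (𝒪 ⧸ IsLocalRing.maximalIdeal 𝒪) := ‹Finite (IsLocalRing.ResidueField 𝒪)›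
  have hfin : ∀ n : ℕ, Finite (𝒪 ⧸ IsLocalRing.maximalIdeal 𝒪 ^ n) :=
    fun n => k5cn_finite (IsLocalRing.maximalIdeal 𝒪) lam hlam n
  rcases Nat.eq_zero_or_pos n with rfl | hn
  · haveI : Subsingleton (𝒪 ⧸ IsLocalRing.maximalIdeal 𝒪 ^ 0) := by
      rw [Ideal.Quotient.subsingleton_iff, pow_zero, Ideal.one_eq_top]
    haveI : Subsingleton (HomS (gammaH L M K) (𝒪 ⧸ IsLocalRing.maximalIdeal 𝒪 ^ 0)) :=
      k5cn_subsingleton_homS _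
    exact ⟨0, Subsingleton.elim _ _⟩
  · have hn1 : n = 1 + (n - 1) := by omega
    have hn2 : n = (n - 1) + 1 := by omega
    have hle : n - 1 ≤ n := Nat.sub_le n 1
    haveI := hfin 1
    haveI := hfin n
    haveI := hfin (n - 1)
    have hex := (stmtCoeffExact 𝒪 L M ℓ₀ ((k5lcFam 𝔱 a N l).comp 𝔳) K
      (𝒪 ⧸ IsLocalRing.maximalIdeal 𝒪 ^ 1) (𝒪 ⧸ IsLocalRing.maximalIdeal 𝒪 ^ n)
      (𝒪 ⧸ IsLocalRing.maximalIdeal 𝒪 ^ (n - 1))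
      (k5cn_mulQ (IsLocalRing.maximalIdeal 𝒪) lam hlam (n - 1) hn2)
      (redQ (IsLocalRing.maximalIdeal 𝒪) hle)
      (k5cn_mulQ_injective (IsLocalRing.maximalIdeal 𝒪) lam hlam hlam0 (n - 1) hn2)
      (k5cn_redQ_surjective (IsLocalRing.maximalIdeal 𝒪) hle)
      (fun y => k5cn_exact_iff (IsLocalRing.maximalIdeal 𝒪) lam hlam (n - 1) hn2 hle y)
      (hNT (n - 1))).2.1
    -- the statement for the elements killed by `λᵗ`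
    have key : ∀ t : ℕ, ∀ y ∈ etaPart (thetaN ((k5lcFam 𝔱 a N l).comp 𝔳) ℓ₀
        (𝒪 ⧸ IsLocalRing.maximalIdeal 𝒪 ^ n) K), lam ^ t • y = 0 →
        y ∈ k5lcKer (((k5lcShift (𝔱 i) (a i)).fam
          (𝒪 ⧸ IsLocalRing.maximalIdeal 𝒪 ^ n)).op K) := by
      intro t
      induction t with
      | zero =>
        intro y _ h0
        rw [pow_zero, one_smul] at h0
        rw [h0]
        exact AddSubgroup.zero_mem _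
      | succ t ih =>
        intro y hy h0
        have hz := k5lc_smul_mem ((k5lcFam 𝔱 a N l).comp 𝔳) ℓ₀ _ K (lam ^ t) hy
        have hz0 : lam • (lam ^ t • y) = 0 := by
          rw [smul_smul, ← pow_succ']
          exact h0
        -- the reduction of `z = λᵗ y` vanishes
        have hred : mapS (redQ (IsLocalRing.maximalIdeal 𝒪) hle).toAddMonoidHom
            (lam ^ t • y) = 0 := by
          apply k5co_mapS_injective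
            (k5cn_mulQ (IsLocalRing.maximalIdeal 𝒪) lam hlam 1 hn1).toAddMonoidHom
            (k5cn_mulQ_injective (IsLocalRing.maximalIdeal 𝒪) lam hlam hlam0 1 hn1)
          rw [map_zero]
          refine AddMonoidHom.ext fun γ => ?_
          exact (k5cn_mulQ_red (IsLocalRing.maximalIdeal 𝒪) lam hlam hn1 hle
            ((lam ^ t • y) γ)).trans (DFunLike.congr_fun hz0 γ)
        obtain ⟨u, hu, huz⟩ := hex _ hz hred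
        obtain ⟨m, hm⟩ := hval u hu
        -- `Sᵐ z = 0`
        have hSz : k5s_pow (((k5lcShift (𝔱 i) (a i)).fam
            (𝒪 ⧸ IsLocalRing.maximalIdeal 𝒪 ^ n)).op K) m (lam ^ t • y) = 0 := by
          rw [← huz, ← k5s_intertwine_pow
            (((k5lcShift (𝔱 i) (a i)).fam (𝒪 ⧸ IsLocalRing.maximalIdeal 𝒪 ^ 1)).op K)
            (((k5lcShift (𝔱 i) (a i)).fam (𝒪 ⧸ IsLocalRing.maximalIdeal 𝒪 ^ n)).op K)
            (mapS (k5cn_mulQ (IsLocalRing.maximalIdeal 𝒪) lam hlam (n - 1)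
              hn2).toAddMonoidHom)
            (fun x => (k5lcShift (𝔱 i) (a i)).nat _ _
              (k5cn_mulQ (IsLocalRing.maximalIdeal 𝒪) lam hlam (n - 1) hn2) K x) m u,
            hm, map_zero]
        -- `Sᵐ y` is in the `Θ`-part and killed by `λᵗ`
        have hSy : k5s_pow (((k5lcShift (𝔱 i) (a i)).fam
            (𝒪 ⧸ IsLocalRing.maximalIdeal 𝒪 ^ n)).op K) m y
            ∈ etaPart (thetaN ((k5lcFam 𝔱 a N l).comp 𝔳) ℓ₀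
              (𝒪 ⧸ IsLocalRing.maximalIdeal 𝒪 ^ n) K) :=
          k5s_intertwine_mem _ _ _ (fun x => k5lc_pow_comm _ _
            (fun z => k5lc_shift_comm_thetaP 𝔱 a hTT 𝔳 ℓ₀ hTv hTη N l _ K i z) m x) hy
        have h1 : lam ^ t • k5s_pow (((k5lcShift (𝔱 i) (a i)).fam
            (𝒪 ⧸ IsLocalRing.maximalIdeal 𝒪 ^ n)).op K) m y = 0 := by
          rw [← hSz]
          exact (k5lc_pow_comm _
            (DistribSMul.toAddMonoidHom (HomS (gammaH L M K)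
              (𝒪 ⧸ IsLocalRing.maximalIdeal 𝒪 ^ n)) (lam ^ t))
            (fun z => k5n_op_smul (k5lcShift (𝔱 i) (a i)) K (lam ^ t) z) m y).symm
        obtain ⟨m', hm'⟩ := ih _ hSy h1
        exact ⟨m' + m, by rw [k5fx_pow_add, hm']⟩
    refine key n φ hφ ?_
    refine AddMonoidHom.ext fun γ => ?_
    show lam ^ n • φ γ = 0
    obtain ⟨y, hy⟩ := Ideal.Quotient.mk_surjective (φ γ)
    rw [← hy, Algebra.smul_def, Ideal.Quotient.algebraMap_eq, ← map_mul,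
      Ideal.Quotient.eq_zero_iff_mem]
    exact Ideal.mul_mem_right _ _ (k5cn_pow_mem _ lam hlam n)

end le

section valid

variable {𝒪 : Type} [CommRing 𝒪] {L M : ℕ} [NeZero L] [hML : Fact (M ∣ L)]
  {ι : Type} (𝔱 : ι → NatFam 𝒪 L M) (a : ι → 𝒪)

/-- `res` is injective on the `η`-part -/
theorem k5lc_res_inj (ℓ₀ : ℕ) [NeZero ℓ₀] (hℓ : ℓ₀.Prime) (hℓL : ¬ ℓ₀ ∣ L)
    {H' K : Subgroup (ZMod M)ˣ} (hle : H' ≤ K) (A : Type) [AddCommGroup A] [Finite A]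
    {φ : HomS (gammaH L M K) A} (hφ : φ ∈ etaPart (etaS L M ℓ₀ K A))
    (h0 : resS A (Fermat.Agent.ES1.gammaH_mono hle) φ = 0) : φ = 0 := by
  haveI : Finite (HomS (gammaH L M K) A) := k5s_finite_homS _ A
  refine (k5fx_fitting (etaS L M ℓ₀ K A)).2.1 φ hφ ?_
  show tS L M ℓ₀ K A φ - (ℓ₀ + 1) • φ = 0
  rw [stmtE1 L M ℓ₀ H' K hle A hℓ hℓL φ h0, sub_self]

/-- **validity goes up**: if `P` maps `Hom(Γ_{H'}, A)` into the generalised kernel of `S i`,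
then the `Θ_{P 𝔳}`-part at every `K ≥ H'` lies in the generalised kernel of `S i`. -/
theorem k5lc_valid_of_le (hTT : ∀ i j, NatFam.Commutes (𝔱 i) (𝔱 j)) (𝔳 : NatFam 𝒪 L M)
    (ℓ₀ : ℕ) [NeZero ℓ₀] (hℓ : ℓ₀.Prime) (hℓL : ¬ ℓ₀ ∣ L)
    (hTv : ∀ i, NatFam.Commutes (𝔱 i) 𝔳)
    (hTη : ∀ i, NatFam.Commutes (𝔱 i) (NatFam.hecke 𝒪 L M ℓ₀))
    (hvη : NatFam.Commutes 𝔳 (NatFam.hecke 𝒪 L M ℓ₀)) (N : ℕ) (l : List ι)
    {H' K : Subgroup (ZMod M)ˣ} (hle : H' ≤ K) (A : Type) [AddCommGroup A] [Module 𝒪 A]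
    [Finite A] (i : ι)
    (hval : ∀ ψ : HomS (gammaH L M H') A, ((k5lcFam 𝔱 a N l).fam A).op H' ψ
      ∈ k5lcKer (((k5lcShift (𝔱 i) (a i)).fam A).op H'))
    {φ : HomS (gammaH L M K) A}
    (hφ : φ ∈ etaPart (thetaN ((k5lcFam 𝔱 a N l).comp 𝔳) ℓ₀ A K)) :
    φ ∈ k5lcKer (((k5lcShift (𝔱 i) (a i)).fam A).op K) := by
  haveI : Finite (HomS (gammaH L M K) A) := k5s_finite_homS _ A
  -- `φ = P φ'`
  obtain ⟨φ', hφ', rfl⟩ := k5lc_etaPart_comp_surj (((k5lcFam 𝔱 a N l).fam A).op K)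
    (thetaN 𝔳 ℓ₀ A K) (fun x => k5lc_P_comm_theta 𝔱 a hTT 𝔳 ℓ₀ hTv hTη N l A K x)
    (by rw [← k5lc_theta_comp]; exact hφ)
  -- `res (P φ') = P (res φ')` is in the generalised kernel
  obtain ⟨m, hm⟩ := hval (resS A (Fermat.Agent.ES1.gammaH_mono hle) φ')
  refine ⟨m, ?_⟩
  -- `Sᵐ (P φ')` is in the `η`-part and `res` kills it
  have hmem : k5s_pow (((k5lcShift (𝔱 i) (a i)).fam A).op K) m
      (((k5lcFam 𝔱 a N l).fam A).op K φ') ∈ etaPart (etaS L M ℓ₀ K A) := by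
    refine k5lc_theta_le_eta 𝔳 ℓ₀ hvη A K (k5lc_thetaP_le 𝔱 a hTT 𝔳 ℓ₀ hTv hTη N l A K ?_)
    exact k5s_intertwine_mem _ _ _ (fun x => k5lc_pow_comm _ _
      (fun z => k5lc_shift_comm_thetaP 𝔱 a hTT 𝔳 ℓ₀ hTv hTη N l A K i z) m x) hφ
  refine k5lc_res_inj ℓ₀ hℓ hℓL hle A hmem ?_
  rw [k5s_intertwine_pow (((k5lcShift (𝔱 i) (a i)).fam A).op K)
    (((k5lcShift (𝔱 i) (a i)).fam A).op H') (resS A (Fermat.Agent.ES1.gammaH_mono hle))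
    (fun x => ((k5lcShift (𝔱 i) (a i)).fam A).res_comm H' K hle x) m,
    ((k5lcFam 𝔱 a N l).fam A).res_comm H' K hle φ', hm]

/-- **existence** of `N` and `l` (for one finite coefficient module and one group) -/
theorem k5lc_exists (H' : Subgroup (ZMod M)ˣ) (A : Type) [AddCommGroup A] [Module 𝒪 A]
    [Finite A] (hTT : ∀ i j, NatFam.Commutes (𝔱 i) (𝔱 j)) :
    ∃ (N : ℕ) (l : List ι), 0 < N ∧ ∀ (i : ι) (ψ : HomS (gammaH L M H') A),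
      ((k5lcFam 𝔱 a N l).fam A).op H' ψ ∈ k5lcKer (((k5lcShift (𝔱 i) (a i)).fam A).op H') := by
  haveI : Finite (HomS (gammaH L M H') A) := k5s_finite_homS _ A
  obtain ⟨N, hN0, hN⟩ := k5lc_exists_uniform (HomS (gammaH L M H') A)
  obtain ⟨l, hl⟩ := k5lc_exists_list
    (fun i => k5lcKer (((k5lcShift (𝔱 i) (a i)).fam A).op H'))
  refine ⟨N, l, hN0, fun i ψ => ?_⟩
  rw [k5lc_fam_op]
  have hcomm : ∀ i j x, ((k5lcShift (𝔱 i) (a i)).fam A).op H'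
      (((k5lcShift (𝔱 j) (a j)).fam A).op H' x)
      = ((k5lcShift (𝔱 j) (a j)).fam A).op H' (((k5lcShift (𝔱 i) (a i)).fam A).op H' x) :=
    fun i j x => k5lc_shift_comm A H' 𝔱 a hTT i j x
  have hidem := k5lc_prod_idem (fun i => ((k5lcShift (𝔱 i) (a i)).fam A).op H') (fun _ => N)
    hcomm (fun i x => (hN _).1 x) l ψ
  have hfix := (k5lc_prod_fix_iff (fun i => ((k5lcShift (𝔱 i) (a i)).fam A).op H')
    (fun _ => N) hcomm (fun i x => (hN _).1 x) l _).mp hidem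
  exact hl _ (fun j hj => ((hN _).2.2 _).mpr (hfix j hj)) i

end valid

section mainthm

variable {𝒪 : Type} [CommRing 𝒪] [IsDomain 𝒪] [IsDiscreteValuationRing 𝒪]
  [Finite (IsLocalRing.ResidueField 𝒪)]
  {L M : ℕ} [NeZero L] [hML : Fact (M ∣ L)]
  {ι : Type} (𝔱 : ι → NatFam 𝒪 L M) (a : ι → 𝒪)

/-- **K5-LOC (concrete), the INTRINSIC description of the `𝔪`-part.**  There are `N > 0` and a
finite list `l` of indices such that for `P = ∏_{i ∈ l} (1 − (𝔱 i − a i)ᴺ)`, every `K ≥ H'`,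
every natural family `𝔳` commuting with the `𝔱 i` and with `T_ℓ₀`, and every `n`:
`etaPart Θ_{P 𝔳} = etaPart Θ_𝔳 ∩ ⋂_i ker (𝔱 i − a i)^∞` on `Hom(Γ_K(L), 𝒪/𝔪ⁿ)`. -/
theorem k5lc_main (H' : Subgroup (ZMod M)ˣ) (ℓ₀ : ℕ) [NeZero ℓ₀] (hℓ : ℓ₀.Prime)
    (hℓL : ¬ ℓ₀ ∣ L) (hTT : ∀ i j, NatFam.Commutes (𝔱 i) (𝔱 j))
    (hTη : ∀ i, NatFam.Commutes (𝔱 i) (NatFam.hecke 𝒪 L M ℓ₀)) :
    ∃ (N : ℕ) (l : List ι), 0 < N ∧
      ∀ (K : Subgroup (ZMod M)ˣ), H' ≤ K →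
      (∀ n : ℕ, NoTors (gammaH L M K) (𝒪 ⧸ IsLocalRing.maximalIdeal 𝒪 ^ n)) →
      ∀ (𝔳 : NatFam 𝒪 L M), (∀ i, NatFam.Commutes (𝔱 i) 𝔳) →
        NatFam.Commutes 𝔳 (NatFam.hecke 𝒪 L M ℓ₀) →
      ∀ (n : ℕ) (φ : HomS (gammaH L M K) (𝒪 ⧸ IsLocalRing.maximalIdeal 𝒪 ^ n)),
        φ ∈ etaPart (thetaN ((k5lcFam 𝔱 a N l).comp 𝔳) ℓ₀
            (𝒪 ⧸ IsLocalRing.maximalIdeal 𝒪 ^ n) K) ↔
          φ ∈ etaPart (thetaN 𝔳 ℓ₀ (𝒪 ⧸ IsLocalRing.maximalIdeal 𝒪 ^ n) K) ∧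
          ∀ i, φ ∈ k5lcKer (((k5lcShift (𝔱 i) (a i)).fam
            (𝒪 ⧸ IsLocalRing.maximalIdeal 𝒪 ^ n)).op K) := by
  obtain ⟨lam, hirr⟩ := IsDiscreteValuationRing.exists_irreducible 𝒪
  have hlam : IsLocalRing.maximalIdeal 𝒪 = Ideal.span {lam} := hirr.maximalIdeal_eq
  haveI : Finite (𝒪 ⧸ IsLocalRing.maximalIdeal 𝒪) := ‹Finite (IsLocalRing.ResidueField 𝒪)›
  have hfin : ∀ n : ℕ, Finite (𝒪 ⧸ IsLocalRing.maximalIdeal 𝒪 ^ n) :=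
    fun n => k5cn_finite (IsLocalRing.maximalIdeal 𝒪) lam hlam n
  haveI := hfin 1
  obtain ⟨N, l, hN0, hval⟩ :=
    k5lc_exists 𝔱 a H' (𝒪 ⧸ IsLocalRing.maximalIdeal 𝒪 ^ 1) hTT
  refine ⟨N, l, hN0, fun K hle hNT 𝔳 hTv hvη n φ => ?_⟩
  haveI := hfin n
  constructor
  · intro hφ
    refine ⟨k5lc_thetaP_le 𝔱 a hTT 𝔳 ℓ₀ hTv hTη N l _ K hφ, fun i => ?_⟩
    exact k5lc_intrinsic_le 𝔱 a hTT 𝔳 ℓ₀ hTv hTη N l K hNT i
      (fun ψ hψ => k5lc_valid_of_le 𝔱 a hTT 𝔳 ℓ₀ hℓ hℓL hTv hTη hvη N l hle _ i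
        (fun χ => hval i χ) hψ) n hφ
  · rintro ⟨hφ, hk⟩
    exact k5lc_intrinsic_ge 𝔱 a hTT 𝔳 ℓ₀ hTv hTη hN0 l _ K hφ (fun i _ => hk i)

/-- **nilpotency**: on the `Θ_{P 𝔳}`-part every `𝔱 i − a i` is nilpotent. -/
theorem k5lc_nilpotent_of_mem (A : Type) [AddCommGroup A] [Module 𝒪 A] [Finite A]
    (K : Subgroup (ZMod M)ˣ) (𝔲 : NatFam 𝒪 L M) (ℓ₀ : ℕ) [NeZero ℓ₀] (i : ι)
    (h : ∀ φ ∈ etaPart (thetaN 𝔲 ℓ₀ A K),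
      φ ∈ k5lcKer (((k5lcShift (𝔱 i) (a i)).fam A).op K)) :
    ∃ m : ℕ, ∀ φ ∈ etaPart (thetaN 𝔲 ℓ₀ A K),
      k5s_pow (((k5lcShift (𝔱 i) (a i)).fam A).op K) m φ = 0 := by
  haveI : Finite (HomS (gammaH L M K) A) := k5s_finite_homS _ A
  obtain ⟨m, -, hm⟩ := k5lc_exists_uniform (HomS (gammaH L M K) A)
  exact ⟨m, fun φ hφ => ((hm _).2.2 φ).mp (h φ hφ)⟩

end mainthm

end Fermat.Agent.RT.K5

end
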