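import Fermat.Agent.RT.Base.BridgePar
import Fermat.Agent.RT.K5.LocExpr
import Fermat.Agent.RT.K5.BaseAbs
import Fermat.Agent.ES.EigenSupport

/-!
# K-machine, piece K5-NZ (helper46): the system occurs — the base module is not zero

`f` a normalized eigenform of level `N`, `𝔪 ⊂ ℤ̄` a proper ideal containing `p`, `α ℓ ∈ ℤ` with
`a_ℓ(f) ≡ α ℓ` modulo `𝔪` for the primes `ℓ ∈ S` (`ℓ ∤ N p`).

* `k5nz_eigen_gamma0` : there is a nonzero parabolic `x : Γ₀(N) → 𝔽_p` with `T_ℓ x = α ℓ • x`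
  for all these `ℓ` (`ES.eigenSupport_words`, i.e. S21 + the lattice `Hom_par(Γ₀(N), ℤ)`);
* `k5nz_eigen` : the same in `Hom(Γ_⊤(N), A)` for every abelian group `A` with an element of
  order `p` (e.g. `A = 𝒪 ⧸ 𝔪 ^ ν`, `ν ≥ 1`), for the operators `K5.tS`;
* `k5nzVal α e`, `k5nzIn S e`, `k5nz_op_eigen` : a joint eigenvector of the `tS ℓ` (`ℓ ∈ S`) is
  an eigenvector of every Hecke expression `e` in these operators, with eigenvalue `k5nzVal α e`;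
* `k5nz_mem_etaPart` : if `k5nzVal α e * (α ℓ₀ − ℓ₀ − 1)` is a unit, the eigenvector lies in the
  `Θ`-part `etaPart (thetaN (e.eval L M) ℓ₀ A K)`;
* `k5nz_lcExpr_in`, `k5nz_lcExpr_val` : the projector `k5lcExpr ℓ a n l` has value `1`;
* `k5nz_main` : the `Θ`-part of `Hom(Γ₀(N), A)` is not zero;
* `k5nz_quot` : the case `A = 𝒪 ⧸ 𝔪 ^ ν`, `ν ≥ 1`, `𝒪` a discrete valuation ring;
* `k5nz_rank_pos` : hence every `K5IsBasis` of it has positive rank.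
-/

set_option autoImplicit false
set_option linter.style.haveILetI false
set_option linter.unusedSectionVars false
set_option linter.unusedVariables false

noncomputable section

namespace Fermat.Agent.RT.K5

open CongruenceSubgroup Matrix ModularCurve ModularCurve.Period ModularFormClass
open scoped MatrixGroups
open Fermat.Agent.ES1 (gammaH diamHom pmH)
open Fermat.Agent.ES Fermat.Agent.RT.Base

/-! ## the eigenvector on `Γ₀(N)` with coefficients `𝔽_p` -/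

section gamma0

variable {N p : ℕ} [NeZero N] [Fact p.Prime]

/-- a good prime from a prime `ℓ ∤ N`, `ℓ ≠ p` -/
def k5nzGood (N p : ℕ) [Fact p.Prime] (ℓ : ℕ) (hℓ : ℓ.Prime) (hℓN : ¬ ℓ ∣ N) (hℓp : ℓ ≠ p) :
    GoodPrime N p :=
  ⟨⟨ℓ, hℓ⟩, by
    show ¬ ℓ ∣ N * p
    intro h
    rcases (Nat.Prime.dvd_mul hℓ).mp h with h | h
    · exact hℓN h
    · exact hℓp ((Nat.prime_dvd_prime_iff_eq hℓ (Fact.out : p.Prime)).mp h)⟩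

/-- **the system occurs modulo `p`** on `Γ₀(N)` -/
theorem k5nz_eigen_gamma0 (f : CuspForm (Gamma0 N) 2) (hf : f.IsNormalizedEigenform)
    (𝔪 : Ideal Zbar) (h𝔪 : 𝔪 ≠ ⊤) (hp : (p : Zbar) ∈ 𝔪) :
    ∃ x : Additive (Gamma0 N) →+ ZMod p, x ≠ 0 ∧ IsParabolicHom (Gamma0 N) x ∧
      ∀ (ℓ : ℕ) [Fact ℓ.Prime] (hℓN : ¬ ℓ ∣ N), ℓ ≠ p → ∀ a : ℤ,
        (∃ z ∈ 𝔪, (z : ℂ) = qCoeff ⇑f ℓ - (a : ℂ)) →
        HeckeP.heckeHom hℓN x = a • x := by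
  obtain ⟨x, hxP, hx0, hx⟩ := eigenSupport_words (p := p) f hf 𝔪 h𝔪 hp
  refine ⟨(Int.castAddHom (ZMod p)).comp x, hx0, ?_, ?_⟩
  · intro γ hγ
    rw [AddMonoidHom.comp_apply, hxP γ hγ, map_zero]
  · intro ℓ hℓ hℓN hℓp a hz
    have hw := hx (FreeAlgebra.ι ℤ (k5nzGood N p ℓ hℓ.out hℓN hℓp)
      - algebraMap ℤ (FreeAlgebra ℤ (GoodPrime N p)) a) (by
        obtain ⟨z, hz𝔪, hzv⟩ := hz
        refine ⟨z, hz𝔪, ?_⟩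
        rw [hzv, map_sub, FreeAlgebra.lift_ι_apply, AlgHom.commutes]
        rfl)
    rw [map_sub, LinearMap.sub_apply, wordOp_ι, AlgHom.commutes, Module.algebraMap_end_apply,
      sub_eq_zero, heckeOp_apply] at hw
    exact hw

end gamma0

/-! ## transport to `Hom(Γ_⊤(N), A)` -/

section transport

variable {N M p : ℕ} [NeZero N] [hMN : Fact (M ∣ N)] [Fact p.Prime]

/-- an element of order `p` gives an injection `𝔽_p → A` -/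
def k5nzJ (p : ℕ) {A : Type} [AddCommGroup A] (y : A) (hpy : p • y = 0) : ZMod p →+ A :=
  ZMod.lift p ⟨zmultiplesHom A y, by
    rw [zmultiplesHom_apply, natCast_zsmul]
    exact hpy⟩

theorem k5nzJ_intCast {A : Type} [AddCommGroup A] (y : A) (hpy : p • y = 0) (k : ℤ) :
    k5nzJ p y hpy (k : ZMod p) = k • y := by
  unfold k5nzJ
  rw [ZMod.lift_coe]
  rfl

theorem k5nzJ_injective {A : Type} [AddCommGroup A] (y : A) (hy : y ≠ 0) (hpy : p • y = 0) :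
    Function.Injective (k5nzJ p y hpy) := by
  rw [injective_iff_map_eq_zero]
  intro z hz
  obtain ⟨k, rfl⟩ := ZMod.intCast_surjective z
  rw [k5nzJ_intCast] at hz
  rw [ZMod.intCast_zmod_eq_zero_iff_dvd]
  by_contra hnd
  have hcop : IsCoprime k (p : ℤ) := by
    have hpp : Prime (p : ℤ) := Nat.prime_iff_prime_int.mp (Fact.out : p.Prime)
    exact (IsCoprime.symm ((Prime.coprime_iff_not_dvd hpp).mpr hnd))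
  obtain ⟨u, v, huv⟩ := hcop
  apply hy
  have h1 : (u * k + v * (p : ℤ)) • y = 0 := by
    rw [add_smul, mul_smul, mul_smul, hz, smul_zero, natCast_zsmul, hpy, smul_zero, add_zero]
  rw [huv, one_smul] at h1
  exact h1

/-- the inverse of the transport `rtbbTr` -/
def k5nzTrInv (N M : ℕ) [Fact (M ∣ N)] (A : Type) [AddCommGroup A]
    (x : Additive (Gamma0 N) →+ A) : HomS (gammaH N M (⊤ : Subgroup (ZMod M)ˣ)) A :=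
  x.comp (MonoidHom.toAdditive (rtbbE0 N M).toMonoidHom)

theorem k5nz_tr_trInv {A : Type} [AddCommGroup A] (x : Additive (Gamma0 N) →+ A) :
    rtbbTr N M A (k5nzTrInv N M A x) = x := by
  refine AddMonoidHom.ext fun γ => ?_
  obtain ⟨γ, rfl⟩ : ∃ γ' : Gamma0 N, Additive.ofMul γ' = γ := ⟨Additive.toMul γ, rfl⟩
  show x (Additive.ofMul (rtbbE0 N M ((rtbbE0 N M).symm γ))) = _
  rw [MulEquiv.apply_symm_apply]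

/-- **the system occurs** in `Hom(Γ_⊤(N), A)`, for every `A` with an element of order `p` -/
theorem k5nz_eigen (f : CuspForm (Gamma0 N) 2) (hf : f.IsNormalizedEigenform)
    (𝔪 : Ideal Zbar) (h𝔪 : 𝔪 ≠ ⊤) (hp : (p : Zbar) ∈ 𝔪) (A : Type) [AddCommGroup A]
    (y : A) (hy : y ≠ 0) (hpy : p • y = 0) :
    ∃ φ : HomS (gammaH N M (⊤ : Subgroup (ZMod M)ˣ)) A, φ ≠ 0 ∧
      IsParabolicHom (gammaH N M (⊤ : Subgroup (ZMod M)ˣ)) φ ∧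
      ∀ (ℓ : ℕ) [NeZero ℓ], ℓ.Prime → ¬ ℓ ∣ N → ℓ ≠ p → ∀ a : ℤ,
        (∃ z ∈ 𝔪, (z : ℂ) = qCoeff ⇑f ℓ - (a : ℂ)) →
        tS N M ℓ ⊤ A φ = a • φ := by
  obtain ⟨x, hx0, hxP, hx⟩ := k5nz_eigen_gamma0 (p := p) f hf 𝔪 h𝔪 hp
  have hJ := k5nzJ_injective (p := p) y hy hpy
  refine ⟨k5nzTrInv N M A ((k5nzJ p y hpy).comp x), ?_, ?_, ?_⟩
  · intro h0
    have h1 := congrArg (rtbbTr N M A) h0
    rw [k5nz_tr_trInv, map_zero] at h1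
    apply hx0
    refine AddMonoidHom.ext fun γ => ?_
    have h2 := DFunLike.congr_fun h1 γ
    rw [AddMonoidHom.comp_apply, AddMonoidHom.zero_apply] at h2
    rw [AddMonoidHom.zero_apply]
    exact hJ (h2.trans (map_zero _).symm)
  · apply rtbb_parabolic_of_tr
    rw [k5nz_tr_trInv]
    intro γ hγ
    rw [AddMonoidHom.comp_apply, hxP γ hγ, map_zero]
  · intro ℓ _ hℓ hℓN hℓp a hz
    haveI : Fact ℓ.Prime := ⟨hℓ⟩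
    apply rtbbTr_injective
    rw [rtbbTr_tS ℓ hℓN, map_zsmul, k5nz_tr_trInv, HeckeP.heckeHom_comp, hx ℓ hℓN hℓp a hz]
    refine AddMonoidHom.ext fun γ => ?_
    rw [AddMonoidHom.comp_apply, AddMonoidHom.smul_apply, map_zsmul, AddMonoidHom.smul_apply,
      AddMonoidHom.comp_apply]

end transport

/-! ## eigenvectors of Hecke expressions -/

section expr

variable {𝒪 : Type} [CommRing 𝒪]

/-- the value of an expression on the eigensystem `α` -/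
def k5nzVal (α : ℕ → 𝒪) : HExpr 𝒪 → 𝒪
  | HExpr.one => 1
  | HExpr.hecke ℓ => if ℓ = 0 then 1 else α ℓ
  | HExpr.coeff c => c
  | HExpr.add e₁ e₂ => k5nzVal α e₁ + k5nzVal α e₂
  | HExpr.comp e₁ e₂ => k5nzVal α e₁ * k5nzVal α e₂

/-- every `hecke ℓ` in `e` has `ℓ ∈ S` -/
def k5nzIn (S : Set ℕ) : HExpr 𝒪 → Prop
  | HExpr.one => True
  | HExpr.hecke ℓ => ℓ ∈ S
  | HExpr.coeff _ => True
  | HExpr.add e₁ e₂ => k5nzIn S e₁ ∧ k5nzIn S e₂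
  | HExpr.comp e₁ e₂ => k5nzIn S e₁ ∧ k5nzIn S e₂

theorem k5nz_in_pow {S : Set ℕ} {e : HExpr 𝒪} (h : k5nzIn S e) : ∀ n : ℕ, k5nzIn S (e.pow n)
  | 0 => trivial
  | n + 1 => ⟨h, k5nz_in_pow h n⟩

theorem k5nz_val_pow (α : ℕ → 𝒪) (e : HExpr 𝒪) :
    ∀ n : ℕ, k5nzVal α (e.pow n) = k5nzVal α e ^ n
  | 0 => (pow_zero _).symm
  | n + 1 => by
    show k5nzVal α e * k5nzVal α (e.pow n) = _
    rw [k5nz_val_pow α e n, pow_succ']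

/-- the projector `k5lcExpr ℓ a n l` only involves the `ℓ i`, `i ∈ l` -/
theorem k5nz_lcExpr_in {ι : Type} (S : Set ℕ) (ℓ : ι → ℕ) (a : ι → 𝒪) (n : ℕ) :
    ∀ l : List ι, (∀ i ∈ l, ℓ i ∈ S) → k5nzIn S (k5lcExpr ℓ a n l)
  | [], _ => trivial
  | i :: l, h =>
    ⟨⟨trivial, trivial, k5nz_in_pow
        (show k5nzIn S (HExpr.add (HExpr.hecke (ℓ i)) (HExpr.coeff (-(a i))) : HExpr 𝒪) from
          ⟨h i List.mem_cons_self, trivial⟩) n⟩,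
      k5nz_lcExpr_in S ℓ a n l fun j hj => h j (List.mem_cons_of_mem _ hj)⟩

/-- the value of the projector on an eigensystem with `α (ℓ i) = a i` is `1` -/
theorem k5nz_lcExpr_val {ι : Type} (α : ℕ → 𝒪) (ℓ : ι → ℕ) (a : ι → 𝒪) (n : ℕ) (hn : 0 < n) :
    ∀ l : List ι, (∀ i ∈ l, ℓ i ≠ 0 ∧ α (ℓ i) = a i) → k5nzVal α (k5lcExpr ℓ a n l) = 1
  | [], _ => rfl
  | i :: l, h => by
    show (1 + (-1) * k5nzVal α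
        ((HExpr.add (HExpr.hecke (ℓ i)) (HExpr.coeff (-(a i))) : HExpr 𝒪).pow n))
      * k5nzVal α (k5lcExpr ℓ a n l) = 1
    rw [k5nz_lcExpr_val α ℓ a n hn l fun j hj => h j (List.mem_cons_of_mem _ hj),
      k5nz_val_pow]
    have h1 : k5nzVal α (HExpr.add (HExpr.hecke (ℓ i)) (HExpr.coeff (-(a i))) : HExpr 𝒪) = 0 := by
      show (if ℓ i = 0 then 1 else α (ℓ i)) + -(a i) = 0
      rw [if_neg (h i List.mem_cons_self).1, (h i List.mem_cons_self).2, add_neg_cancel]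
    rw [h1, zero_pow hn.ne', mul_zero, add_zero, mul_one]

variable {L M : ℕ} [NeZero L] [hML : Fact (M ∣ L)] {A : Type} [AddCommGroup A] [Module 𝒪 A]
  (K : Subgroup (ZMod M)ˣ)

/-- **a joint eigenvector is an eigenvector of every expression** -/
theorem k5nz_op_eigen (S : Set ℕ) (α : ℕ → 𝒪) (φ : HomS (gammaH L M K) A)
    (hφ : ∀ ℓ ∈ S, ∀ [NeZero ℓ], tS L M ℓ K A φ = α ℓ • φ) :
    ∀ e : HExpr 𝒪, k5nzIn S e → ((e.eval L M).fam A).op K φ = k5nzVal α e • φ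
  | HExpr.one, _ => (one_smul 𝒪 φ).symm
  | HExpr.hecke ℓ, h => by
    by_cases h0 : ℓ = 0
    · subst h0
      show _ = (if (0 : ℕ) = 0 then (1 : 𝒪) else α 0) • φ
      rw [if_pos rfl, one_smul]
      rfl
    · haveI : NeZero ℓ := ⟨h0⟩
      show _ = (if ℓ = 0 then (1 : 𝒪) else α ℓ) • φ
      rw [if_neg h0, HExpr.op_hecke, hφ ℓ h]
  | HExpr.coeff c, _ => rfl
  | HExpr.add e₁ e₂, h => by
    show ((e₁.eval L M).fam A).op K φ + ((e₂.eval L M).fam A).op K φ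
      = (k5nzVal α e₁ + k5nzVal α e₂) • φ
    rw [k5nz_op_eigen S α φ hφ e₁ h.1, k5nz_op_eigen S α φ hφ e₂ h.2, add_smul]
  | HExpr.comp e₁ e₂, h => by
    show ((e₁.eval L M).fam A).op K (((e₂.eval L M).fam A).op K φ)
      = (k5nzVal α e₁ * k5nzVal α e₂) • φ
    rw [k5nz_op_eigen S α φ hφ e₂ h.2, k5n_op_smul, k5nz_op_eigen S α φ hφ e₁ h.1, smul_smul,
      mul_comm]

/-- `Θ` on a joint eigenvector -/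
theorem k5nz_theta_eigen (S : Set ℕ) (α : ℕ → 𝒪) (φ : HomS (gammaH L M K) A)
    (hφ : ∀ ℓ ∈ S, ∀ [NeZero ℓ], tS L M ℓ K A φ = α ℓ • φ) (e : HExpr 𝒪) (he : k5nzIn S e)
    (ℓ₀ : ℕ) [NeZero ℓ₀] (hℓ₀ : ℓ₀ ∈ S) :
    thetaN (e.eval L M) ℓ₀ A K φ = (k5nzVal α e * (α ℓ₀ - ((ℓ₀ : 𝒪) + 1))) • φ := by
  show ((e.eval L M).fam A).op K (tS L M ℓ₀ K A φ - (ℓ₀ + 1) • φ) = _
  have h1 : tS L M ℓ₀ K A φ - (ℓ₀ + 1) • φ = (α ℓ₀ - ((ℓ₀ : 𝒪) + 1)) • φ := by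
    rw [hφ ℓ₀ hℓ₀, sub_smul]
    congr 1
    rw [← Nat.cast_smul_eq_nsmul 𝒪 (ℓ₀ + 1) φ]
    push_cast
    rfl
  rw [h1, k5n_op_smul, k5nz_op_eigen K S α φ hφ e he, smul_smul, mul_comm]

/-- **a joint eigenvector with unit `Θ`-eigenvalue lies in the `Θ`-part** -/
theorem k5nz_mem_etaPart (S : Set ℕ) (α : ℕ → 𝒪) (φ : HomS (gammaH L M K) A)
    (hφ : ∀ ℓ ∈ S, ∀ [NeZero ℓ], tS L M ℓ K A φ = α ℓ • φ) (e : HExpr 𝒪) (he : k5nzIn S e)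
    (ℓ₀ : ℕ) [NeZero ℓ₀] (hℓ₀ : ℓ₀ ∈ S)
    (hu : IsUnit (k5nzVal α e * (α ℓ₀ - ((ℓ₀ : 𝒪) + 1)))) :
    φ ∈ etaPart (thetaN (e.eval L M) ℓ₀ A K) := by
  obtain ⟨u, hu⟩ := hu.exists_left_inv
  rw [k5s_mem_etaPart]
  intro n
  refine ⟨u ^ n • φ, ?_⟩
  induction n with
  | zero => rw [pow_zero, one_smul]; rfl
  | succ n ih =>
    rw [k5s_pow_succ, k5n_theta_smul, k5nz_theta_eigen K S α φ hφ e he ℓ₀ hℓ₀, smul_smul,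
      pow_succ, mul_assoc, hu, mul_one]
    exact ih

end expr

/-! ## the base module is not zero -/

section main

variable {𝒪 : Type} [CommRing 𝒪] {N M p : ℕ} [NeZero N] [hMN : Fact (M ∣ N)] [Fact p.Prime]

/-- **K5-NZ.**  The `Θ`-part of `Hom(Γ₀(N), A)` is not zero: it contains a nonzero parabolic
joint eigenvector of the `T_ℓ`, `ℓ ∈ S`, with eigenvalues `α ℓ`. -/
theorem k5nz_main (f : CuspForm (Gamma0 N) 2) (hf : f.IsNormalizedEigenform)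
    (𝔪 : Ideal Zbar) (h𝔪 : 𝔪 ≠ ⊤) (hp : (p : Zbar) ∈ 𝔪) (A : Type) [AddCommGroup A]
    [Module 𝒪 A] (y : A) (hy : y ≠ 0) (hpy : p • y = 0) (S : Set ℕ) (α : ℕ → ℤ)
    (hS : ∀ ℓ ∈ S, ℓ.Prime ∧ ¬ ℓ ∣ N ∧ ℓ ≠ p ∧
      ∃ z ∈ 𝔪, (z : ℂ) = qCoeff ⇑f ℓ - ((α ℓ : ℤ) : ℂ))
    (e : HExpr 𝒪) (he : k5nzIn S e) (ℓ₀ : ℕ) [NeZero ℓ₀] (hℓ₀ : ℓ₀ ∈ S)
    (hu : IsUnit (k5nzVal (fun ℓ => ((α ℓ : ℤ) : 𝒪)) e
      * (((α ℓ₀ : ℤ) : 𝒪) - ((ℓ₀ : 𝒪) + 1)))) :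
    ∃ φ ∈ etaPart (thetaN (e.eval N M) ℓ₀ A (⊤ : Subgroup (ZMod M)ˣ)), φ ≠ 0 ∧
      IsParabolicHom (gammaH N M (⊤ : Subgroup (ZMod M)ˣ)) φ ∧
      ∀ ℓ ∈ S, ∀ [NeZero ℓ], tS N M ℓ ⊤ A φ = ((α ℓ : ℤ) : 𝒪) • φ := by
  obtain ⟨φ, hφ0, hφP, hφ⟩ := k5nz_eigen (M := M) (p := p) f hf 𝔪 h𝔪 hp A y hy hpy
  have hφ' : ∀ ℓ ∈ S, ∀ [NeZero ℓ], tS N M ℓ ⊤ A φ = ((α ℓ : ℤ) : 𝒪) • φ := by
    intro ℓ hℓS _
    obtain ⟨h1, h2, h3, h4⟩ := hS ℓ hℓS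
    rw [hφ ℓ h1 h2 h3 (α ℓ) h4, Int.cast_smul_eq_zsmul]
  exact ⟨φ, k5nz_mem_etaPart ⊤ S _ φ hφ' e he ℓ₀ hℓ₀ hu, hφ0, hφP, hφ'⟩

end main

/-! ## coefficients `𝒪 ⧸ 𝔪 ^ ν` -/

section quot

open IsLocalRing

variable {𝒪 : Type} [CommRing 𝒪] [IsDomain 𝒪] [IsDiscreteValuationRing 𝒪]

/-- `𝒪 ⧸ 𝔪 ^ ν` (`ν ≥ 1`) has an element of additive order `p` -/
theorem k5nz_exists_order (p : ℕ) (hp𝒪 : (p : 𝒪) ∈ maximalIdeal 𝒪) (ν : ℕ) (hν : 0 < ν) :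
    ∃ y : 𝒪 ⧸ maximalIdeal 𝒪 ^ ν, y ≠ 0 ∧ p • y = 0 := by
  obtain ⟨ϖ, hϖ⟩ := IsDiscreteValuationRing.exists_irreducible 𝒪
  have hmax : maximalIdeal 𝒪 = Ideal.span {ϖ} := hϖ.maximalIdeal_eq
  have hpow : maximalIdeal 𝒪 ^ ν = Ideal.span {ϖ ^ ν} := by
    rw [hmax, Ideal.span_singleton_pow]
  obtain ⟨k, rfl⟩ : ∃ k, ν = k + 1 := ⟨ν - 1, by omega⟩
  refine ⟨Ideal.Quotient.mk _ (ϖ ^ k), ?_, ?_⟩
  · intro h0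
    rw [Ideal.Quotient.eq_zero_iff_mem, hpow, Ideal.mem_span_singleton] at h0
    have := (pow_dvd_pow_iff hϖ.ne_zero hϖ.not_isUnit).mp h0
    omega
  · rw [← map_nsmul, Ideal.Quotient.eq_zero_iff_mem, hpow, Ideal.mem_span_singleton,
      nsmul_eq_mul]
    rw [hmax, Ideal.mem_span_singleton] at hp𝒪
    obtain ⟨c, hc⟩ := hp𝒪
    exact ⟨c, by rw [hc, pow_succ]; ring⟩

variable {N M p : ℕ} [NeZero N] [hMN : Fact (M ∣ N)] [Fact p.Prime]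

/-- **K5-NZ** with coefficients `𝒪 ⧸ 𝔪 ^ ν`, `ν ≥ 1`. -/
theorem k5nz_quot (hp𝒪 : (p : 𝒪) ∈ maximalIdeal 𝒪) (f : CuspForm (Gamma0 N) 2)
    (hf : f.IsNormalizedEigenform) (𝔪 : Ideal Zbar) (h𝔪 : 𝔪 ≠ ⊤) (hp : (p : Zbar) ∈ 𝔪)
    (S : Set ℕ) (α : ℕ → ℤ)
    (hS : ∀ ℓ ∈ S, ℓ.Prime ∧ ¬ ℓ ∣ N ∧ ℓ ≠ p ∧
      ∃ z ∈ 𝔪, (z : ℂ) = qCoeff ⇑f ℓ - ((α ℓ : ℤ) : ℂ))
    (e : HExpr 𝒪) (he : k5nzIn S e) (ℓ₀ : ℕ) [NeZero ℓ₀] (hℓ₀ : ℓ₀ ∈ S)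
    (hu : IsUnit (k5nzVal (fun ℓ => ((α ℓ : ℤ) : 𝒪)) e
      * (((α ℓ₀ : ℤ) : 𝒪) - ((ℓ₀ : 𝒪) + 1)))) (ν : ℕ) (hν : 0 < ν) :
    ∃ φ ∈ etaPart (thetaN (e.eval N M) ℓ₀ (𝒪 ⧸ maximalIdeal 𝒪 ^ ν)
        (⊤ : Subgroup (ZMod M)ˣ)), φ ≠ 0 ∧
      IsParabolicHom (gammaH N M (⊤ : Subgroup (ZMod M)ˣ)) φ ∧
      ∀ ℓ ∈ S, ∀ [NeZero ℓ],
        tS N M ℓ ⊤ (𝒪 ⧸ maximalIdeal 𝒪 ^ ν) φ = ((α ℓ : ℤ) : 𝒪) • φ := by
  obtain ⟨y, hy, hpy⟩ := k5nz_exists_order p hp𝒪 ν hν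
  exact k5nz_main f hf 𝔪 h𝔪 hp _ y hy hpy S α hS e he ℓ₀ hℓ₀ hu

/-- **K5-NZ for the projector** `P = k5lcExpr ℓ a n l`, `a i = α (ℓ i)`: if `α ℓ₀ ≢ ℓ₀ + 1`
modulo `𝔪_𝒪`, the `Θ_{P, ℓ₀}`-part of `Hom(Γ₀(N), 𝒪 ⧸ 𝔪 ^ ν)` is not zero (`ν ≥ 1`). -/
theorem k5nz_lc (hp𝒪 : (p : 𝒪) ∈ maximalIdeal 𝒪) (f : CuspForm (Gamma0 N) 2)
    (hf : f.IsNormalizedEigenform) (𝔪 : Ideal Zbar) (h𝔪 : 𝔪 ≠ ⊤) (hp : (p : Zbar) ∈ 𝔪)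
    {ι : Type} (ℓ : ι → ℕ) (α : ℕ → ℤ) (n : ℕ) (hn : 0 < n) (l : List ι)
    (hl : ∀ i ∈ l, (ℓ i).Prime ∧ ¬ ℓ i ∣ N ∧ ℓ i ≠ p ∧
      ∃ z ∈ 𝔪, (z : ℂ) = qCoeff ⇑f (ℓ i) - ((α (ℓ i) : ℤ) : ℂ))
    (ℓ₀ : ℕ) [NeZero ℓ₀] (hℓ₀ : ℓ₀.Prime ∧ ¬ ℓ₀ ∣ N ∧ ℓ₀ ≠ p ∧
      ∃ z ∈ 𝔪, (z : ℂ) = qCoeff ⇑f ℓ₀ - ((α ℓ₀ : ℤ) : ℂ))
    (hne : ((α ℓ₀ : ℤ) : 𝒪) - ((ℓ₀ : 𝒪) + 1) ∉ maximalIdeal 𝒪) (ν : ℕ) (hν : 0 < ν) :
    ∃ φ ∈ etaPart (thetaN ((k5lcExpr ℓ (fun i => ((α (ℓ i) : ℤ) : 𝒪)) n l).eval N M) ℓ₀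
        (𝒪 ⧸ maximalIdeal 𝒪 ^ ν) (⊤ : Subgroup (ZMod M)ˣ)), φ ≠ 0 ∧
      IsParabolicHom (gammaH N M (⊤ : Subgroup (ZMod M)ˣ)) φ ∧
      (∀ [NeZero ℓ₀], tS N M ℓ₀ ⊤ (𝒪 ⧸ maximalIdeal 𝒪 ^ ν) φ = ((α ℓ₀ : ℤ) : 𝒪) • φ) ∧
      ∀ i ∈ l, ∀ [NeZero (ℓ i)],
        tS N M (ℓ i) ⊤ (𝒪 ⧸ maximalIdeal 𝒪 ^ ν) φ = ((α (ℓ i) : ℤ) : 𝒪) • φ := by
  set S : Set ℕ := {x | x = ℓ₀ ∨ ∃ i ∈ l, x = ℓ i} with hSdef
  have hS : ∀ x ∈ S, x.Prime ∧ ¬ x ∣ N ∧ x ≠ p ∧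
      ∃ z ∈ 𝔪, (z : ℂ) = qCoeff ⇑f x - ((α x : ℤ) : ℂ) := by
    rintro x (rfl | ⟨i, hi, rfl⟩)
    · exact hℓ₀
    · exact hl i hi
  have hin : k5nzIn S (k5lcExpr ℓ (fun i => ((α (ℓ i) : ℤ) : 𝒪)) n l) :=
    k5nz_lcExpr_in S ℓ _ n l fun i hi => Or.inr ⟨i, hi, rfl⟩
  have hval : k5nzVal (fun x => ((α x : ℤ) : 𝒪))
      (k5lcExpr ℓ (fun i => ((α (ℓ i) : ℤ) : 𝒪)) n l) = 1 :=
    k5nz_lcExpr_val _ ℓ _ n hn l fun i hi => ⟨(hl i hi).1.ne_zero, rfl⟩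
  have hu : IsUnit (k5nzVal (fun x => ((α x : ℤ) : 𝒪))
      (k5lcExpr ℓ (fun i => ((α (ℓ i) : ℤ) : 𝒪)) n l)
        * (((α ℓ₀ : ℤ) : 𝒪) - ((ℓ₀ : 𝒪) + 1))) := by
    rw [hval, one_mul]
    by_contra h
    exact hne ((mem_maximalIdeal _).mpr h)
  obtain ⟨φ, hφ, hφ0, hφP, hφe⟩ := k5nz_quot (M := M) hp𝒪 f hf 𝔪 h𝔪 hp S α hS _ hin ℓ₀
    (Or.inl rfl) hu ν hν
  exact ⟨φ, hφ, hφ0, hφP, hφe ℓ₀ (Or.inl rfl), fun i hi => hφe (ℓ i) (Or.inr ⟨i, hi, rfl⟩)⟩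

end quot

/-! ## the rank is positive -/

/-- a basis of a nonzero subgroup is not empty -/
theorem k5nz_rank_pos {R W : Type*} [CommRing R] [AddCommGroup W] [Module R W]
    {X : AddSubgroup W} {r : ℕ} {y : Fin r → W} (hy : K5IsBasis R X y) {φ : W} (hφ : φ ∈ X)
    (h0 : φ ≠ 0) : 0 < r := by
  rcases Nat.eq_zero_or_pos r with h | h
  · subst h
    obtain ⟨c, hc⟩ := hy.2.2 φ hφ
    rw [Finset.univ_eq_empty, Finset.sum_empty] at hc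
    exact absurd hc h0
  · exact h

end Fermat.Agent.RT.K5

end
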