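import Fermat.Agent.RT.K5.NZIntr
import Fermat.Agent.RT.K5.Indep2

/-!
# K-machine, piece K5-NZ (helper46): the intrinsic part is not zero

`k5nz_setup_intrMem` : for a setup `Y` and `P.ModularRepOfLevel N` there is a finite set `Sbad`
such that for every `ν ≥ 1` there is ONE nonzero parabolic `φ ∈ Hom(Γ₀(N), 𝒪 ⧸ 𝔪 ^ ν)` lying in
EVERY subgroup `X` with an intrinsic description `K5inIntr N M _ a S₀ S ℓ₀ X`
(`ℓ₀ ∉ Sbad` non-Eisenstein, `Sbad ⊆ S₀ ∪ S`, `a ℓ = a_ℓ(Y.W)` outside `S₀ ∪ S`):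
the base module of `k5in_exists_expr2` is not zero.
-/

set_option autoImplicit false
set_option linter.style.haveILetI false
set_option linter.unusedSectionVars false
set_option linter.unusedVariables false

noncomputable section

namespace Fermat.Agent.RT.K5

open CongruenceSubgroup Matrix ModularCurve ModularCurve.Period ModularFormClass
open scoped MatrixGroups
open Fermat.Agent.ES1 (gammaH diamHom pmH)
open Fermat.Agent.ES Fermat.Agent.RT.Base Fermat.Agent.RT Fermat.Agent.RT.Prod IsLocalRing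

variable {P : FreyPackage} {N q : ℕ} [NeZero N]

/-- **K5-NZ, intrinsic form**: ONE nonzero parabolic `φ` lying in every intrinsically described
subgroup. -/
theorem k5nz_setup_intrMem (Y : KSetup P N q) (hmod : P.ModularRepOfLevel N) :
    ∃ Sbad : Finset ℕ, P.p ∈ Sbad ∧ (∀ ℓ : ℕ, ℓ.Prime → ℓ ∣ N → ℓ ∈ Sbad) ∧
      (∀ ℓ : ℕ, ℓ.Prime → ℓ ∉ Sbad → Y.W.IsGoodPrimeFor ℓ) ∧
      ∀ (M : ℕ) [Fact (M ∣ N)] (ν : ℕ), 0 < ν →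
        ∃ φ : HomS (gammaH N M (⊤ : Subgroup (ZMod M)ˣ)) (Y.O ⧸ maximalIdeal Y.O ^ ν),
          φ ≠ 0 ∧ IsParabolicHom (gammaH N M (⊤ : Subgroup (ZMod M)ˣ)) φ ∧
          ∀ (a : ℕ → Y.O) (S₀ S : Finset ℕ) (ℓ₀ : ℕ) [NeZero ℓ₀]
            (X : AddSubgroup (HomS (gammaH N M (⊤ : Subgroup (ZMod M)ˣ))
              (Y.O ⧸ maximalIdeal Y.O ^ ν))),
            ℓ₀.Prime → ℓ₀ ∉ Sbad →
            ((Y.W.apOfModel ℓ₀ : ℤ) : ResidueField Y.O) ≠ (ℓ₀ : ResidueField Y.O) + 1 →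
            (∀ ℓ : ℕ, ℓ.Prime → ℓ ∉ S₀ → ℓ ∉ S →
              ℓ ∉ Sbad ∧ a ℓ = ((Y.W.apOfModel ℓ : ℤ) : Y.O)) →
            K5inIntr N M (Y.O ⧸ maximalIdeal Y.O ^ ν) a S₀ S ℓ₀ X → φ ∈ X := by
  obtain ⟨Sbad, h1, h2, h3, h4⟩ := k5nz_setup_intr Y hmod
  refine ⟨Sbad, h1, h2, h3, fun M _ ν hν => ?_⟩
  obtain ⟨φ, hφ0, hφP, -, hker, heta⟩ := h4 M ν hν
  refine ⟨φ, hφ0, hφP, fun a S₀ S ℓ₀ _ X hℓ₀ hℓ₀S hne ha hX => ?_⟩
  refine (hX φ).mpr ⟨(heta ℓ₀ hℓ₀ hℓ₀S hne).1, fun ℓ _ hℓ hℓS₀ hℓS => ?_⟩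
  obtain ⟨hb, hab⟩ := ha ℓ hℓ hℓS₀ hℓS
  rw [hab]
  exact hker ℓ hℓ hb

end Fermat.Agent.RT.K5

end
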