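import Fermat.Agent.RT.K5.NZ
import Fermat.Agent.RT.Hecke.Resid
import Fermat.Agent.S41.NonEisCore
import Fermat.Agent.RED.LinkAll
import Fermat.Agent.Common.FrobExists

/-!
# K-machine, piece K5-NZ (helper46): the base module of a setup is not zero

* `k5nz_model_cong` (**MODEL-CMP**): two integral models `W₁`, `W₂` of the same elliptic curve
  over `ℚ` have `a_ℓ(W₁) ≡ a_ℓ(W₂)` modulo `p` at every prime `ℓ ≠ p` of good reduction of both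
  (the Frobenius relation `τ² − a_ℓ τ + ℓ = 0` on `E[p]`, `RED.frobenius_relation_of_torsion_all`);
* `k5nzBad Y W'` : the finite set of primes excluded: `p`, the primes of `N`, the bad primes of
  the two models;
* `k5nz_setup` : for a setup `Y : KSetup P N q` and `P.ModularRepOfLevel N` there is a finite set
  `Sbad ∋ p` containing the primes of `N` such that for every projector
  `k5lcExpr ℓ a n l` (`n > 0`, `ℓ i ∉ Sbad` primes, `a i = a_{ℓ i}(Y.W)`), every prime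
  `ℓ₀ ∉ Sbad` with `a_ℓ₀(Y.W) ≢ ℓ₀ + 1` and every `ν ≥ 1` the `Θ`-part of
  `Hom(Γ₀(N), 𝒪 ⧸ 𝔪 ^ ν)` is NOT zero;
* `k5nz_setup_exists` : such primes `ℓ₀` exist outside every finite set (`rthk_r_nonEis`);
* `k5nz_setup_rank` : every basis of the `Θ`-part has positive rank.
-/

set_option autoImplicit false
set_option linter.style.haveILetI false
set_option linter.unusedSectionVars false
set_option linter.unusedVariables false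

noncomputable section

namespace Fermat.Agent.RT.K5

open CongruenceSubgroup Matrix ModularCurve ModularCurve.Period ModularFormClass
open scoped MatrixGroups
open Fermat.Agent.ES1 (gammaH diamHom pmH)
open Fermat.Agent.ES Fermat.Agent.RT.Base Fermat.Agent.RT Fermat.Agent.RT.Prod IsLocalRing
open WeierstrassCurve WeierstrassCurve.Affine WeierstrassCurve.Affine.Point

local notation "Qbar" => AlgebraicClosure ℚ
local notation "GQ'" => (AlgebraicClosure ℚ ≃ₐ[ℚ] AlgebraicClosure ℚ)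

/-! ## MODEL-CMP -/

/-- **MODEL-CMP.**  Two integral models of the same elliptic curve have the same `a_ℓ` modulo
`p` at the common primes of good reduction `ℓ ≠ p`. -/
theorem k5nz_model_cong (E : WeierstrassCurve ℚ) (hΔ : E.Δ ≠ 0) (W₁ W₂ : WeierstrassCurve ℤ)
    (h₁ : W₁.IsIntegralModelOf E) (h₂ : W₂.IsIntegralModelOf E) {p ℓ : ℕ} (hp : p.Prime)
    (hℓ : ℓ.Prime) (hℓp : ℓ ≠ p) (hg₁ : W₁.IsGoodPrimeFor ℓ) (hg₂ : W₂.IsGoodPrimeFor ℓ) :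
    (p : ℤ) ∣ W₁.apOfModel ℓ - W₂.apOfModel ℓ := by
  obtain ⟨A, τ, hA, hτ⟩ := Fermat.Agent.Common.exists_isFrobeniusAt ℓ hℓ
  obtain ⟨C₁, hC₁⟩ := h₁
  obtain ⟨C₂, hC₂⟩ := h₂
  have hnd : ¬ ℓ ∣ p := fun h => hℓp ((Nat.prime_dvd_prime_iff_eq hℓ hp).1 h)
  have r₁ : ∀ Q : (E⁄Qbar).toAffine.Point, p • Q = 0 →
      τ • τ • Q - W₁.apOfModel ℓ • τ • Q + (ℓ : ℤ) • Q = 0 := fun Q hQ =>
    Fermat.Agent.S41.nonEis_rel_transport E (W₁.map (Int.castRingHom ℚ)) C₁ hC₁ τ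
      (W₁.apOfModel ℓ) ℓ p
      (fun P hP => Fermat.Agent.RED.frobenius_relation_of_torsion_all W₁ hℓ hg₁ A hA τ hτ hnd
        P hP) Q hQ
  have r₂ : ∀ Q : (E⁄Qbar).toAffine.Point, p • Q = 0 →
      τ • τ • Q - W₂.apOfModel ℓ • τ • Q + (ℓ : ℤ) • Q = 0 := fun Q hQ =>
    Fermat.Agent.S41.nonEis_rel_transport E (W₂.map (Int.castRingHom ℚ)) C₂ hC₂ τ
      (W₂.apOfModel ℓ) ℓ p
      (fun P hP => Fermat.Agent.RED.frobenius_relation_of_torsion_all W₂ hℓ hg₂ A hA τ hτ hnd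
        P hP) Q hQ
  -- a nonzero point of order `p`
  have hΔ' : (E⁄Qbar).Δ ≠ 0 := by
    change (E.map (algebraMap ℚ Qbar)).Δ ≠ 0
    rw [WeierstrassCurve.map_Δ]
    exact (_root_.map_ne_zero _).2 hΔ
  have hcard : Nat.card (Submodule.torsionBy ℤ (E⁄Qbar).toAffine.Point ((p : ℕ) : ℤ)) = p ^ 2 :=
    Fermat.Agent.EC.ec_card_torsionBy hΔ' two_ne_zero (Nat.cast_ne_zero.2 hp.ne_zero)
  have hfin : Finite (Submodule.torsionBy ℤ (E⁄Qbar).toAffine.Point ((p : ℕ) : ℤ)) :=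
    Nat.finite_of_card_ne_zero (by rw [hcard]; exact pow_ne_zero _ hp.ne_zero)
  have hnt : Nontrivial (Submodule.torsionBy ℤ (E⁄Qbar).toAffine.Point ((p : ℕ) : ℤ)) := by
    rw [← Finite.one_lt_card_iff_nontrivial, hcard]
    exact Nat.one_lt_pow (by norm_num) hp.one_lt
  obtain ⟨x, hx0⟩ := exists_ne (0 : Submodule.torsionBy ℤ (E⁄Qbar).toAffine.Point ((p : ℕ) : ℤ))
  have hxp : p • (x : (E⁄Qbar).toAffine.Point) = 0 := by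
    have := x.2
    rw [Submodule.mem_torsionBy_iff, natCast_zsmul] at this
    exact this
  by_contra hndvd
  have hcop : IsCoprime (W₁.apOfModel ℓ - W₂.apOfModel ℓ) (p : ℤ) :=
    (IsCoprime.symm ((Prime.coprime_iff_not_dvd (Nat.prime_iff_prime_int.mp hp)).mpr hndvd))
  obtain ⟨u, v, huv⟩ := hcop
  have h3 : (W₁.apOfModel ℓ - W₂.apOfModel ℓ) • τ • (x : (E⁄Qbar).toAffine.Point) = 0 := by
    have e1 := r₁ x hxp
    have e2 := r₂ x hxp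
    have e3 : (W₁.apOfModel ℓ - W₂.apOfModel ℓ) • τ • (x : (E⁄Qbar).toAffine.Point)
        = (τ • τ • (x : (E⁄Qbar).toAffine.Point) - W₂.apOfModel ℓ • τ • (x : (E⁄Qbar).toAffine.Point)
            + (ℓ : ℤ) • (x : (E⁄Qbar).toAffine.Point))
          - (τ • τ • (x : (E⁄Qbar).toAffine.Point)
            - W₁.apOfModel ℓ • τ • (x : (E⁄Qbar).toAffine.Point)
            + (ℓ : ℤ) • (x : (E⁄Qbar).toAffine.Point)) := by
      rw [sub_smul]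
      abel
    rw [e3, e1, e2, sub_zero]
  have h4 : (p : ℤ) • τ • (x : (E⁄Qbar).toAffine.Point) = 0 := by
    rw [← WeierstrassCurve.Affine.Point.algEquiv_smul_zsmul, natCast_zsmul, hxp, smul_zero]
  have huv' : (W₁.apOfModel ℓ - W₂.apOfModel ℓ) * u + (p : ℤ) * v = 1 := by
    rw [← huv]; ring
  have h5 : τ • (x : (E⁄Qbar).toAffine.Point) = 0 := by
    have h6 : τ • (x : (E⁄Qbar).toAffine.Point)
        = u • ((W₁.apOfModel ℓ - W₂.apOfModel ℓ) • τ • (x : (E⁄Qbar).toAffine.Point))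
          + v • ((p : ℤ) • τ • (x : (E⁄Qbar).toAffine.Point)) := by
      rw [← mul_zsmul', ← mul_zsmul', ← add_zsmul, huv', one_zsmul]
    rw [h6, h3, h4, zsmul_zero, zsmul_zero, add_zero]
  apply hx0
  apply Subtype.ext
  exact (smul_eq_zero_iff_eq τ).mp h5

/-! ## the base module of a setup -/

section setup

variable {P : FreyPackage} {N q : ℕ} [NeZero N]

/-- the discriminant of the Frey curve -/
theorem k5nz_freyCurve_Δ (P : FreyPackage) : P.freyCurve.Δ ≠ 0 := by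
  rw [← Fermat.Agent.S04.freyCurveInt_map, WeierstrassCurve.map_Δ]
  have := Fermat.Agent.S04.freyCurveInt_Δ_ne_zero P
  simpa using this

/-- the discriminant of an integral model -/
theorem k5nz_model_Δ (E : WeierstrassCurve ℚ) (hΔ : E.Δ ≠ 0) (W : WeierstrassCurve ℤ)
    (hW : W.IsIntegralModelOf E) : W.Δ ≠ 0 := by
  obtain ⟨C, hC⟩ := hW
  intro h0
  have h1 : (C • E).Δ = 0 := by
    rw [hC, WeierstrassCurve.map_Δ, h0, _root_.map_zero]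
  rw [WeierstrassCurve.variableChange_Δ] at h1
  have hu : ((C.u⁻¹ : ℚˣ) : ℚ) ^ 12 ≠ 0 := pow_ne_zero _ (Units.ne_zero _)
  exact hΔ ((mul_eq_zero.1 h1).resolve_left hu)

/-- the excluded primes: `p`, the primes of `N`, the bad primes of the two models -/
def k5nzBad (Y : KSetup P N q) (W' : WeierstrassCurve ℤ) : Finset ℕ :=
  insert P.p (N.primeFactors ∪ W'.Δ.natAbs.primeFactors ∪ Y.W.Δ.natAbs.primeFactors)

theorem k5nz_not_mem_bad (Y : KSetup P N q) (W' : WeierstrassCurve ℤ)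
    (hW' : W'.IsIntegralModelOf P.freyCurve) {ℓ : ℕ} (hℓ : ℓ.Prime) (h : ℓ ∉ k5nzBad Y W') :
    ℓ ≠ P.p ∧ ¬ ℓ ∣ N ∧ W'.IsGoodPrimeFor ℓ ∧ Y.W.IsGoodPrimeFor ℓ := by
  simp only [k5nzBad, Finset.mem_insert, Finset.mem_union, not_or] at h
  obtain ⟨h1, ⟨h2, h3⟩, h4⟩ := h
  have hΔ' := k5nz_model_Δ P.freyCurve (k5nz_freyCurve_Δ P) W' hW'
  have hΔ := k5nz_model_Δ P.freyCurve (k5nz_freyCurve_Δ P) Y.W Y.hW
  refine ⟨h1, fun hdvd => h2 (Nat.mem_primeFactors.mpr ⟨hℓ, hdvd, NeZero.ne N⟩),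
    fun hdvd => h3 ?_, fun hdvd => h4 ?_⟩
  · exact Nat.mem_primeFactors.mpr ⟨hℓ, Int.natCast_dvd.mp hdvd, Int.natAbs_ne_zero.mpr hΔ'⟩
  · exact Nat.mem_primeFactors.mpr ⟨hℓ, Int.natCast_dvd.mp hdvd, Int.natAbs_ne_zero.mpr hΔ⟩

/-- **K5-NZ over a setup.**  There is a finite set `Sbad ∋ p` of primes, containing the primes
of `N` and the bad primes of `Y.W`, such that for every projector `P = k5lcExpr ℓ a n l`
(`n > 0`, the `ℓ i` primes outside `Sbad`, `a i = a_{ℓ i}(Y.W)`), every prime `ℓ₀ ∉ Sbad` with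
`a_ℓ₀(Y.W) ≢ ℓ₀ + 1` and every `ν ≥ 1` the `Θ_{P, ℓ₀}`-part of `Hom(Γ₀(N), 𝒪 ⧸ 𝔪 ^ ν)` contains a
nonzero parabolic eigenvector. -/
theorem k5nz_setup (Y : KSetup P N q) (hmod : P.ModularRepOfLevel N) :
    ∃ Sbad : Finset ℕ, P.p ∈ Sbad ∧ (∀ ℓ : ℕ, ℓ.Prime → ℓ ∣ N → ℓ ∈ Sbad) ∧
      (∀ ℓ : ℕ, ℓ.Prime → ℓ ∉ Sbad → Y.W.IsGoodPrimeFor ℓ) ∧
      ∀ (M : ℕ) [Fact (M ∣ N)] {ι : Type} (ℓ : ι → ℕ) (n : ℕ), 0 < n → ∀ l : List ι,
        (∀ i ∈ l, (ℓ i).Prime ∧ ℓ i ∉ Sbad) →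
        ∀ (ℓ₀ : ℕ) [NeZero ℓ₀], ℓ₀.Prime → ℓ₀ ∉ Sbad →
          ((Y.W.apOfModel ℓ₀ : ℤ) : ResidueField Y.O) ≠ (ℓ₀ : ResidueField Y.O) + 1 →
          ∀ ν : ℕ, 0 < ν →
            ∃ φ ∈ etaPart (thetaN
                ((k5lcExpr ℓ (fun i => ((Y.W.apOfModel (ℓ i) : ℤ) : Y.O)) n l).eval N M) ℓ₀
                (Y.O ⧸ maximalIdeal Y.O ^ ν) (⊤ : Subgroup (ZMod M)ˣ)), φ ≠ 0 ∧
              IsParabolicHom (gammaH N M (⊤ : Subgroup (ZMod M)ˣ)) φ ∧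
              tS N M ℓ₀ ⊤ (Y.O ⧸ maximalIdeal Y.O ^ ν) φ
                = ((Y.W.apOfModel ℓ₀ : ℤ) : Y.O) • φ ∧
              ∀ i ∈ l, ∀ [NeZero (ℓ i)], tS N M (ℓ i) ⊤ (Y.O ⧸ maximalIdeal Y.O ^ ν) φ
                = ((Y.W.apOfModel (ℓ i) : ℤ) : Y.O) • φ := by
  obtain ⟨f, W', 𝔪, hf, hW', h𝔪max, hp𝔪, hcong⟩ := hmod
  haveI : Fact P.p.Prime := ⟨P.pp⟩
  refine ⟨k5nzBad Y W', Finset.mem_insert_self _ _, fun ℓ hℓ hℓN => ?_, fun ℓ hℓ hℓS =>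
    (k5nz_not_mem_bad Y W' hW' hℓ hℓS).2.2.2, ?_⟩
  · exact Finset.mem_insert_of_mem (Finset.mem_union_left _ (Finset.mem_union_left _
      (Nat.mem_primeFactors.mpr ⟨hℓ, hℓN, NeZero.ne N⟩)))
  intro M _ ι ℓ n hn l hl ℓ₀ _ hℓ₀ hℓ₀S hne ν hν
  have key : ∀ x : ℕ, x.Prime → x ∉ k5nzBad Y W' → x.Prime ∧ ¬ x ∣ N ∧ x ≠ P.p ∧
      ∃ z ∈ 𝔪, (z : ℂ) = qCoeff ⇑f x - ((Y.W.apOfModel x : ℤ) : ℂ) := by
    intro x hx hxS
    obtain ⟨h1, h2, h3, h4⟩ := k5nz_not_mem_bad Y W' hW' hx hxS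
    obtain ⟨a, ha, ha𝔪⟩ := hcong x hx h3 h2 h1
    obtain ⟨k, hk⟩ := k5nz_model_cong P.freyCurve (k5nz_freyCurve_Δ P) W' Y.W hW' Y.hW P.pp hx
      h1 h3 h4
    refine ⟨hx, h2, h1, a - ((Y.W.apOfModel x : ℤ) : Zbar), ?_, ?_⟩
    · have hk' : ((W'.apOfModel x : ℤ) : Zbar) - ((Y.W.apOfModel x : ℤ) : Zbar)
          = (P.p : Zbar) * ((k : ℤ) : Zbar) := by
        rw [← Int.cast_sub, hk]
        push_cast
        ring
      have e : a - ((Y.W.apOfModel x : ℤ) : Zbar)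
          = (a - ((W'.apOfModel x : ℤ) : Zbar)) + (P.p : Zbar) * ((k : ℤ) : Zbar) := by
        rw [← hk']
        ring
      rw [e]
      exact 𝔪.add_mem ha𝔪 (𝔪.mul_mem_right _ hp𝔪)
    · rw [← ha]
      push_cast
      rfl
  have hne' : ((Y.W.apOfModel ℓ₀ : ℤ) : Y.O) - ((ℓ₀ : Y.O) + 1) ∉ maximalIdeal Y.O := by
    intro hmem
    apply hne
    have h0 := (residue_eq_zero_iff _).mpr hmem
    rw [map_sub, map_add, map_one, map_intCast, map_natCast, sub_eq_zero] at h0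
    exact h0
  obtain ⟨φ, hφ, hφ0, hφP, hφ₀, hφl⟩ := k5nz_lc (𝒪 := Y.O) (M := M) (p := P.p) Y.hyp.hp𝒪 f hf 𝔪
    h𝔪max.ne_top hp𝔪 ℓ (fun x => Y.W.apOfModel x) n hn l
    (fun i hi => key (ℓ i) (hl i hi).1 (hl i hi).2) ℓ₀ (key ℓ₀ hℓ₀ hℓ₀S) hne' ν hν
  exact ⟨φ, hφ, hφ0, hφP, hφ₀, hφl⟩

/-- **K5-NZ over a setup, with the auxiliary prime**: outside every finite set there is a prime
`ℓ₀` as in `k5nz_setup`. -/
theorem k5nz_setup_exists (hcheb : Cheb.WeakChebotarev) (Y : KSetup P N q)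
    (hmod : P.ModularRepOfLevel N) :
    ∃ Sbad : Finset ℕ, P.p ∈ Sbad ∧ (∀ ℓ : ℕ, ℓ.Prime → ℓ ∣ N → ℓ ∈ Sbad) ∧
      (∀ ℓ : ℕ, ℓ.Prime → ℓ ∉ Sbad → Y.W.IsGoodPrimeFor ℓ) ∧
      ∀ S₀ : Finset ℕ, ∃ ℓ₀ : ℕ, ℓ₀.Prime ∧ ℓ₀ ∉ S₀ ∧ ℓ₀ ∉ Sbad ∧
        ((Y.W.apOfModel ℓ₀ : ℤ) : ResidueField Y.O) ≠ (ℓ₀ : ResidueField Y.O) + 1 ∧
        ∀ (M : ℕ) [Fact (M ∣ N)] [NeZero ℓ₀] {ι : Type} (ℓ : ι → ℕ) (n : ℕ), 0 < n →
          ∀ l : List ι, (∀ i ∈ l, (ℓ i).Prime ∧ ℓ i ∉ Sbad) → ∀ ν : ℕ, 0 < ν →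
            ∃ φ ∈ etaPart (thetaN
                ((k5lcExpr ℓ (fun i => ((Y.W.apOfModel (ℓ i) : ℤ) : Y.O)) n l).eval N M) ℓ₀
                (Y.O ⧸ maximalIdeal Y.O ^ ν) (⊤ : Subgroup (ZMod M)ˣ)), φ ≠ 0 := by
  obtain ⟨Sbad, h1, h2, h3, h4⟩ := k5nz_setup Y hmod
  refine ⟨Sbad, h1, h2, h3, fun S₀ => ?_⟩
  obtain ⟨ℓ₀, hℓ₀, hℓ₀S, -, -, hne, -⟩ := rthk_r_nonEis Y hcheb (S₀ ∪ Sbad)
  rw [Finset.mem_union, not_or] at hℓ₀S
  refine ⟨ℓ₀, hℓ₀, hℓ₀S.1, hℓ₀S.2, hne, fun M _ _ ι ℓ n hn l hl ν hν => ?_⟩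
  obtain ⟨φ, hφ, hφ0, -⟩ := h4 M ℓ n hn l hl ℓ₀ hℓ₀ hℓ₀S.2 hne ν hν
  exact ⟨φ, hφ, hφ0⟩

end setup

end Fermat.Agent.RT.K5

end
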