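import Fermat.Agent.RT.K5.NoTorsUnit

/-!
# RT-K5 at `p = 3`: the torsion hypothesis `NoTors` from a prime `r ≡ 2 mod 3` of the level
(helper22)

`NoTors Γ A` : `A` has no `2`-torsion, and `A` has no `3`-torsion OR no conjugate of `U = S T`
lies in `Γ`.  For `p ≥ 5` the first alternative holds (`k5nt_noTors`); for `p = 3` the second one
holds as soon as a prime `r ≡ 2 mod 3` (for instance `r = 2`) divides the level:

* `k5nt3_trace_conj` : `tr (g⁻¹ U g) = 1`;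
* `k5nt3_not_mem_gamma0` : no conjugate of `U` lies in `Γ₀(r)`, `r ≡ 2 mod 3` prime
  (`a² − a + 1 ≡ 0 mod r` has no solution);
* `k5nt3_noTors` : `NoTors (gammaH L M H) A` if `r ∣ L` and `A` has no `2`-torsion;
* `k5nt3_noTors_quot` : the case `A = 𝒪 ⧸ 𝔪 ^ n`, `p` odd;
* `k5nt3_freeHyp`, `k5nt3_freeHyp_top` : the structure `FreeHyp` for every odd `p`.
-/

set_option autoImplicit false

namespace Fermat.Agent.RT.K5

open CongruenceSubgroup Matrix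
open scoped MatrixGroups
open Fermat.Agent.ES1 (gammaH diamHom pmH)

/-- the trace of `U = S T` is `1` -/
theorem k5nt3_trace_U : ((S41.PD.U : SL(2, ℤ)) : Matrix (Fin 2) (Fin 2) ℤ).trace = 1 := by
  rw [S41.PD.U_def, Matrix.SpecialLinearGroup.coe_mul, ModularGroup.coe_S, ModularGroup.coe_T]
  simp [Matrix.trace_fin_two]

/-- the trace of a conjugate of `U` is `1` -/
theorem k5nt3_trace_conj (g : SL(2, ℤ)) :
    ((g⁻¹ * S41.PD.U * g : SL(2, ℤ)) : Matrix (Fin 2) (Fin 2) ℤ).trace = 1 := by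
  rw [Matrix.SpecialLinearGroup.coe_mul, Matrix.trace_mul_comm,
    ← Matrix.SpecialLinearGroup.coe_mul, ← mul_assoc, mul_inv_cancel, one_mul]
  exact k5nt3_trace_U

/-- `a² − a + 1 = 0` has no solution modulo a prime `r ≡ 2 mod 3` -/
theorem k5nt3_no_root {r : ℕ} (hr : r.Prime) (hr3 : r % 3 = 2) (a : ZMod r)
    (ha : a ^ 2 - a + 1 = 0) : False := by
  have : Fact r.Prime := ⟨hr⟩
  have h2 : a ^ 2 = a - 1 := by linear_combination ha
  have h3 : a ^ 3 = -1 := by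
    have : a ^ 3 = a * a ^ 2 := by ring
    rw [this, h2]
    linear_combination ha
  have ha0 : a ≠ 0 := by
    intro h0
    rw [h0] at ha
    norm_num at ha
  have hf : a ^ (r - 1) = 1 := ZMod.pow_card_sub_one_eq_one ha0
  obtain ⟨k, hk⟩ : ∃ k, r - 1 = 3 * k + 1 := ⟨r / 3, by omega⟩
  rw [hk, pow_succ, pow_mul, h3] at hf
  -- `(-1)^k * a = 1`, so `a² = 1`
  have hsq : a ^ 2 = 1 := by
    have h1 : ((-1 : ZMod r) ^ k) ^ 2 = 1 := by
      rw [← pow_mul, mul_comm, pow_mul]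
      norm_num
    have h4 : ((-1 : ZMod r) ^ k * a) ^ 2 = 1 := by rw [hf]; norm_num
    rw [mul_pow, h1, one_mul] at h4
    exact h4
  have ha2 : a = 2 := by
    have : a - 1 = 1 := h2.symm.trans hsq
    linear_combination this
  have h30 : (3 : ZMod r) = 0 := by
    rw [ha2] at hsq
    linear_combination hsq
  have h3' : ((3 : ℕ) : ZMod r) = 0 := by exact_mod_cast h30
  rw [ZMod.natCast_eq_zero_iff] at h3'
  have : r = 3 := (Nat.prime_dvd_prime_iff_eq hr Nat.prime_three).mp h3'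
  omega

/-- **no conjugate of `U` lies in `Γ₀(r)`**, `r ≡ 2 mod 3` prime -/
theorem k5nt3_not_mem_gamma0 {r : ℕ} (hr : r.Prime) (hr3 : r % 3 = 2) (g : SL(2, ℤ)) :
    g⁻¹ * S41.PD.U * g ∉ Gamma0 r := by
  intro hmem
  set γ : SL(2, ℤ) := g⁻¹ * S41.PD.U * g with hγ
  have hc : (((γ : Matrix (Fin 2) (Fin 2) ℤ) 1 0 : ℤ) : ZMod r) = 0 := Gamma0_mem.mp hmem
  have htr : (γ : Matrix (Fin 2) (Fin 2) ℤ) 0 0 + (γ : Matrix (Fin 2) (Fin 2) ℤ) 1 1 = 1 := by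
    have := k5nt3_trace_conj g
    rw [Matrix.trace_fin_two] at this
    exact this
  have hdet : (γ : Matrix (Fin 2) (Fin 2) ℤ) 0 0 * (γ : Matrix (Fin 2) (Fin 2) ℤ) 1 1
      - (γ : Matrix (Fin 2) (Fin 2) ℤ) 0 1 * (γ : Matrix (Fin 2) (Fin 2) ℤ) 1 0 = 1 := by
    have := γ.2
    rw [Matrix.det_fin_two] at this
    exact this
  have htr' := congrArg (Int.cast : ℤ → ZMod r) htr
  have hdet' := congrArg (Int.cast : ℤ → ZMod r) hdet
  push_cast at htr' hdet'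
  rw [hc, mul_zero, sub_zero] at hdet'
  refine k5nt3_no_root hr hr3 (((γ : Matrix (Fin 2) (Fin 2) ℤ) 0 0 : ℤ) : ZMod r) ?_
  linear_combination (((γ : Matrix (Fin 2) (Fin 2) ℤ) 0 0 : ℤ) : ZMod r) * htr' - hdet'

/-- `Γ₀(L) ≤ Γ₀(r)` for `r ∣ L` -/
theorem k5nt3_gamma0_le {r L : ℕ} (hrL : r ∣ L) {γ : SL(2, ℤ)} (h : γ ∈ Gamma0 L) :
    γ ∈ Gamma0 r := by
  rw [Gamma0_mem] at h ⊢
  rw [ZMod.intCast_zmod_eq_zero_iff_dvd] at h
  rw [ZMod.intCast_zmod_eq_zero_iff_dvd]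
  exact (Int.natCast_dvd_natCast.mpr hrL).trans h

/-- **the torsion hypothesis from a prime `r ≡ 2 mod 3` of the level** -/
theorem k5nt3_noTors {r L : ℕ} (hr : r.Prime) (hr3 : r % 3 = 2) (hrL : r ∣ L) (M : ℕ)
    (H : Subgroup (ZMod M)ˣ) (A : Type*) [AddCommGroup A] (h2 : ∀ a : A, 2 • a = 0 → a = 0) :
    NoTors (gammaH L M H) A :=
  ⟨h2, Or.inr fun g hg => k5nt3_not_mem_gamma0 hr hr3 g
    (k5nt3_gamma0_le hrL (Fermat.Agent.ES1.gammaH_le_gamma0 L M H hg))⟩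

section quot

variable {𝒪 : Type} [CommRing 𝒪] [IsLocalRing 𝒪] {p : ℕ}

/-- the torsion hypothesis for the coefficients `𝒪 ⧸ 𝔪 ^ n`, `p` odd, from a prime
`r ≡ 2 mod 3` of the level -/
theorem k5nt3_noTors_quot (hp : p.Prime) (hp2 : p ≠ 2)
    (hpm : (p : 𝒪) ∈ IsLocalRing.maximalIdeal 𝒪) {r L : ℕ} (hr : r.Prime) (hr3 : r % 3 = 2)
    (hrL : r ∣ L) (M : ℕ) (H : Subgroup (ZMod M)ˣ) (n : ℕ) :
    NoTors (gammaH L M H) (𝒪 ⧸ IsLocalRing.maximalIdeal 𝒪 ^ n) :=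
  k5nt3_noTors hr hr3 hrL M H _ fun a ha =>
    k5nt_smul_eq_zero hpm ((Nat.coprime_primes Nat.prime_two hp).mpr (Ne.symm hp2)) a ha

/-- **`FreeHyp`** for every odd `p`, from a prime `r ≡ 2 mod 3` of the level -/
theorem k5nt3_freeHyp (hp : p.Prime) (hp2 : p ≠ 2)
    (hpm : (p : 𝒪) ∈ IsLocalRing.maximalIdeal 𝒪) {r : ℕ} (hr : r.Prime) (hr3 : r % 3 = 2)
    (L M ℓ₀ : ℕ) (hrL : r ∣ L) (hℓ₀ : ℓ₀.Prime)
    (hℓ₀L : ¬ ℓ₀ ∣ L) {H' H : Subgroup (ZMod M)ˣ} (hle : H' ≤ H) (k : ℕ)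
    (hidx : ((pmH H').subgroupOf (pmH H)).index = p ^ k) :
    FreeHyp p 𝒪 L M ℓ₀ H' H k where
  p_ne_two := hp2
  p_mem := hpm
  prime := hℓ₀
  not_dvd := hℓ₀L
  le := hle
  index := hidx
  noTors n := k5nt3_noTors_quot hp hp2 hpm hr hr3 hrL M H n

end quot

end Fermat.Agent.RT.K5
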