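import Fermat.Agent.RT.K5.ParHSum
import Fermat.Agent.RT.Base.BdFam

/-!
# RT-K5, PARH (3): the boundary of `Y_H(L)` is Eisenstein up to diamonds

`L` squarefree, `ℓ ∤ L` prime, `g ∈ Γ_H(L)` of trace `2`: there are `u, v ∈ (ℤ/M)ˣ` such that for
all coefficients `A` without `ℓ`-torsion and all `φ ∈ Hom(Γ_H(L), A)`
`(T_ℓ φ)(g) = ℓ (⟨u⟩ φ)(g) + (⟨v⟩ φ)(g)`    (`k5ph_boundary`).
-/

set_option autoImplicit false
set_option linter.style.haveILetI false
set_option linter.unusedSectionVars false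
set_option linter.unusedVariables false

noncomputable section

namespace Fermat.Agent.RT.K5

open CongruenceSubgroup Matrix OnePoint
open scoped MatrixGroups
open Fermat.Agent.ES1 (gammaH diamHom pmH)
open Fermat.Agent.RT.Base

/-- the upper left entry of a conjugate of an upper triangular matrix -/
theorem k5ph_C00 (σ : SL(2, ℤ)) (p q s : ℤ) :
    rtbbC σ !![p, q; 0, s] 0 0
      = p * (σ 0 0 * σ 1 1) - q * (σ 0 0 * σ 1 0) - s * (σ 0 1 * σ 1 0) := by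
  unfold rtbbC
  simp only [Matrix.SpecialLinearGroup.coe_inv, Matrix.adjugate_fin_two, Matrix.mul_apply,
    Fin.sum_univ_two, Matrix.of_apply, Matrix.cons_val', Matrix.cons_val_zero,
    Matrix.cons_val_one, Matrix.empty_val', Matrix.cons_val_fin_one]
  ring

/-- the upper left entry of a matrix of determinant `ℓ` with `M ∣ c` is a unit modulo `M` -/
theorem k5ph_unit {M ℓ : ℕ} (hc : Nat.Coprime ℓ M) (B : Matrix (Fin 2) (Fin 2) ℤ)
    (hdet : B.det = ℓ) (hBM : (M : ℤ) ∣ B 1 0) :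
    ∃ u : (ZMod M)ˣ, ((u : (ZMod M)ˣ) : ZMod M) = ((B 0 0 : ℤ) : ZMod M) := by
  have h10 : ((B 1 0 : ℤ) : ZMod M) = 0 := (ZMod.intCast_zmod_eq_zero_iff_dvd _ _).mpr hBM
  have hd : B 0 0 * B 1 1 - B 0 1 * B 1 0 = ℓ := by rw [← hdet, Matrix.det_fin_two]
  have hd' := congrArg (Int.cast : ℤ → ZMod M) hd
  push_cast at hd'
  rw [h10, mul_zero, sub_zero] at hd'
  have hu : IsUnit ((ℓ : ℕ) : ZMod M) := (ZMod.unitOfCoprime ℓ hc).isUnit
  have h1 : IsUnit (((B 0 0 : ℤ) : ZMod M) * ((B 1 1 : ℤ) : ZMod M)) := by rw [hd']; exact hu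
  obtain ⟨u, hu'⟩ := isUnit_of_mul_isUnit_left h1
  exact ⟨u, hu'⟩

section

variable (L M ℓ : ℕ) [NeZero L] [NeZero ℓ] [hML : Fact (M ∣ L)] (H : Subgroup (ZMod M)ˣ)

/-- **the boundary formula**, trace `2` -/
theorem k5ph_boundary (hL : Squarefree L) (hℓ : ℓ.Prime) (hℓL : ¬ ℓ ∣ L) (g : gammaH L M H)
    (hg : (g : SL(2, ℤ)) 0 0 + (g : SL(2, ℤ)) 1 1 = 2) :
    ∃ u v : (ZMod M)ˣ, ∀ (A : Type) [AddCommGroup A], (∀ a : A, ℓ • a = 0 → a = 0) →
      ∀ φ : HomS (gammaH L M H) A,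
        tS L M ℓ H A φ (Additive.ofMul g)
          = ℓ • diamU L M H A u φ (Additive.ofMul g) + diamU L M H A v φ (Additive.ofMul g) := by
  classical
  haveI : Fact ℓ.Prime := ⟨hℓ⟩
  have hcop : Nat.Coprime ℓ M :=
    Nat.Coprime.coprime_dvd_right hML.out ((Nat.Prime.coprime_iff_not_dvd hℓ).mpr hℓL)
  obtain ⟨σ, m, hgσ, hσL⟩ := rtbb_exists_conj hL (g : SL(2, ℤ)) hg
  have hcoe : ∀ k : ℕ, (((g ^ k : gammaH L M H) : SL(2, ℤ)) : Matrix (Fin 2) (Fin 2) ℤ) =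
      rtbbC σ !![1, m * k; 0, 1] := by
    intro k
    rw [Subgroup.coe_pow]
    exact rtbb_coe_conj σ m k _ hgσ
  have hBM : ∀ y : OnePoint (ZMod ℓ), (M : ℤ) ∣ rtbbC σ (rtbbA ℓ L y) 1 0 := fun y =>
    (Int.natCast_dvd_natCast.mpr hML.out).trans (rtbb_dvd_entry σ hσL y)
  have hdet : ∀ y : OnePoint (ZMod ℓ), (rtbbC σ (rtbbA ℓ L y)).det = ℓ := fun y => by
    rw [rtbbC_det, rtbbA_det]
  choose u hu using fun y : OnePoint (ZMod ℓ) =>
    k5ph_unit hcop (rtbbC σ (rtbbA ℓ L y)) (hdet y) (hBM y)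
  -- the `u (j)` do not depend on `j`
  have huj : ∀ j : ZMod ℓ, u (j : OnePoint (ZMod ℓ)) = u ((0 : ZMod ℓ) : OnePoint (ZMod ℓ)) := by
    intro j
    apply Units.ext
    rw [hu, hu, rtbbA_coe, rtbbA_coe, k5ph_C00, k5ph_C00]
    have hLM : (((L : ℕ) : ℤ) : ZMod M) = 0 := by
      rw [ZMod.intCast_zmod_eq_zero_iff_dvd]
      exact Int.natCast_dvd_natCast.mpr hML.out
    push_cast
    simp only [Int.cast_natCast] at hLM
    rw [hLM]
    simp
  refine ⟨u ∞, u ((0 : ZMod ℓ) : OnePoint (ZMod ℓ)), ?_⟩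
  intro A _ hA φ
  have hcard : Fintype.card (OnePoint (ZMod ℓ)) = ℓ + 1 := by
    show Fintype.card (Option (ZMod ℓ)) = ℓ + 1
    rw [Fintype.card_option, ZMod.card]
  have hsum := k5ph_sum L M ℓ H A hℓ hℓL φ (g ^ ℓ) hcard
    (fun y => rtbbC σ (rtbbA ℓ L y)) hdet (fun y => rtbb_dvd_entry σ hσL y)
    (fun y y' γ h => by
      refine rtbbA_inj hℓL y y' (σ⁻¹ * γ * σ) ?_
      have h1 : rtbbA ℓ L y = ((σ⁻¹ : SL(2, ℤ)) : Matrix (Fin 2) (Fin 2) ℤ) *
          rtbbC σ (rtbbA ℓ L y) * (σ : Matrix (Fin 2) (Fin 2) ℤ) := by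
        unfold rtbbC
        rw [← Matrix.mul_assoc, ← Matrix.mul_assoc, rtbb_coe_inv_mul, Matrix.one_mul,
          Matrix.mul_assoc, rtbb_coe_inv_mul, Matrix.mul_one]
      rw [h1, h]
      unfold rtbbC
      rw [Matrix.SpecialLinearGroup.coe_mul, Matrix.SpecialLinearGroup.coe_mul]
      simp only [Matrix.mul_assoc]
      rw [rtbb_coe_inv_mul, Matrix.mul_one])
    (fun y => g ^ (rtbbE ℓ y))
    (fun y => by rw [hcoe, hcoe, rtbbC_mul, rtbbC_mul, rtbbA_rel])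
    u hu
  have hLHS : tS L M ℓ H A φ (Additive.ofMul (g ^ ℓ))
      = ℓ • tS L M ℓ H A φ (Additive.ofMul g) := by
    rw [ofMul_pow, map_nsmul]
  have hRHS : ∑ y : OnePoint (ZMod ℓ),
      diamU L M H A (u y) φ (Additive.ofMul (g ^ (rtbbE ℓ y)))
      = ℓ • (ℓ • diamU L M H A (u ∞) φ (Additive.ofMul g)
          + diamU L M H A (u ((0 : ZMod ℓ) : OnePoint (ZMod ℓ))) φ (Additive.ofMul g)) := by
    have h1 := Fintype.sum_option (fun y : OnePoint (ZMod ℓ) =>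
      diamU L M H A (u y) φ (Additive.ofMul (g ^ (rtbbE ℓ y))))
    refine h1.trans ?_
    have h2 : ∀ j : ZMod ℓ, diamU L M H A (u (Option.some j)) φ
        (Additive.ofMul (g ^ (rtbbE ℓ (Option.some j))))
        = diamU L M H A (u ((0 : ZMod ℓ) : OnePoint (ZMod ℓ))) φ (Additive.ofMul g) := by
      intro j
      have e : u (Option.some j) = u ((0 : ZMod ℓ) : OnePoint (ZMod ℓ)) := huj j
      rw [e]
      show diamU L M H A _ φ (Additive.ofMul (g ^ 1)) = _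
      rw [pow_one]
    have h3 : diamU L M H A (u (none : Option (ZMod ℓ))) φ
        (Additive.ofMul (g ^ (rtbbE ℓ (none : Option (ZMod ℓ)))))
        = (ℓ ^ 2) • diamU L M H A (u ∞) φ (Additive.ofMul g) := by
      show diamU L M H A (u ∞) φ (Additive.ofMul (g ^ (ℓ ^ 2))) = _
      rw [ofMul_pow, map_nsmul]
    rw [h3, Finset.sum_congr rfl (fun j _ => h2 j), Finset.sum_const, Finset.card_univ,
      ZMod.card, nsmul_add, ← mul_nsmul, pow_two]
  rw [hLHS, hRHS] at hsum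
  have h0 : ℓ • (tS L M ℓ H A φ (Additive.ofMul g)
      - (ℓ • diamU L M H A (u ∞) φ (Additive.ofMul g)
          + diamU L M H A (u ((0 : ZMod ℓ) : OnePoint (ZMod ℓ))) φ (Additive.ofMul g))) = 0 := by
    rw [nsmul_sub, hsum, sub_self]
  exact sub_eq_zero.mp (hA _ h0)

end

end Fermat.Agent.RT.K5
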