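import Fermat.Agent.RT.K5.Plan6
import Fermat.Agent.RT.K5.Idx

/-!
# RT-K5, PARH (1): the coset decomposition for `Γ_H(L)`

An integer matrix `B` of determinant `ℓ` (prime, `ℓ ∤ L`) with `L ∣ B₁₀` is
`B = γ · diag(1, ℓ) · r⁻¹` with `γ ∈ Γ₀(L)` and `r ∈ Γ_H(L)`, `r₀₀ = 1` (`k5ph_decomp`).
-/

set_option autoImplicit false
set_option linter.style.haveILetI false
set_option linter.unusedSectionVars false
set_option linter.unusedVariables false

noncomputable section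

namespace Fermat.Agent.RT.K5

open CongruenceSubgroup Matrix
open scoped MatrixGroups
open Fermat.Agent.ES1 (gammaH diamHom pmH)

/-- the matrix `diag(1, ℓ)` -/
def k5phD (ℓ : ℕ) : Matrix (Fin 2) (Fin 2) ℤ := !![1, 0; 0, (ℓ : ℤ)]

/-- an element of `SL(2, ℤ)` with `a = 1`, `L ∣ c` lies in `Γ_H(L)` -/
theorem k5ph_mem_of_one (L M : ℕ) [hML : Fact (M ∣ L)] (H : Subgroup (ZMod M)ˣ) (r : SL(2, ℤ))
    (h00 : r 0 0 = 1) (h10 : (L : ℤ) ∣ r 1 0) : r ∈ gammaH L M H := by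
  have hL : r ∈ Gamma0 L := S41.mem_Gamma0_of_dvd h10
  have hM : r ∈ Gamma0 M :=
    S41.mem_Gamma0_of_dvd ((Int.natCast_dvd_natCast.mpr hML.out).trans h10)
  refine ⟨hL, hM, ?_⟩
  have h1 : diamHom M ⟨r, hM⟩ = 1 := by
    ext
    rw [Fermat.Agent.ES1.coe_diamHom]
    show ((r 0 0 : ℤ) : ZMod M) = _
    rw [h00]
    simp
  rw [h1]
  exact one_mem _

/-- **coset decomposition** -/
theorem k5ph_decomp (L M ℓ : ℕ) [hML : Fact (M ∣ L)] (H : Subgroup (ZMod M)ˣ)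
    (hℓ : ℓ.Prime) (hℓL : ¬ ℓ ∣ L) (B : Matrix (Fin 2) (Fin 2) ℤ) (hdet : B.det = ℓ)
    (hBL : (L : ℤ) ∣ B 1 0) :
    ∃ r γ : SL(2, ℤ), r ∈ gammaH L M H ∧ γ ∈ Gamma0 L ∧ r 0 0 = 1 ∧
      B * (r : Matrix (Fin 2) (Fin 2) ℤ) = (γ : Matrix (Fin 2) (Fin 2) ℤ) * k5phD ℓ := by
  haveI : Fact ℓ.Prime := ⟨hℓ⟩
  have hℓ0 : (ℓ : ℤ) ≠ 0 := by exact_mod_cast hℓ.ne_zero
  have hcop : IsCoprime (L : ℤ) (ℓ : ℤ) :=
    Nat.isCoprime_iff_coprime.mpr ((Nat.Prime.coprime_iff_not_dvd hℓ).mpr hℓL).symm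
  set a := B 0 0 with ha
  set b := B 0 1 with hb
  set c := B 1 0 with hc
  set d := B 1 1 with hd
  have hB : B = !![a, b; c, d] := by
    ext i j
    fin_cases i <;> fin_cases j <;> rfl
  have hdet' : a * d - b * c = ℓ := by
    rw [← hdet, Matrix.det_fin_two]
  have hdetZ : ((a : ZMod ℓ)) * d - b * c = 0 := by
    have := congrArg (Int.cast : ℤ → ZMod ℓ) hdet'
    push_cast at this
    rw [this]
    exact ZMod.natCast_self ℓ
  by_cases hac : ((a : ℤ) : ZMod ℓ) = 0 ∧ ((c : ℤ) : ZMod ℓ) = 0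
  · -- the case `∞`
    obtain ⟨a', ha'⟩ := (ZMod.intCast_zmod_eq_zero_iff_dvd _ _).mp hac.1
    obtain ⟨c', hc'⟩ := (ZMod.intCast_zmod_eq_zero_iff_dvd _ _).mp hac.2
    have hd1 : a' * d - b * c' = 1 := by
      have : (ℓ : ℤ) * (a' * d - b * c' - 1) = 0 := by
        rw [ha', hc'] at hdet'
        linear_combination hdet'
      rcases mul_eq_zero.mp this with h | h
      · exact absurd h hℓ0
      · linarith
    have hLc' : (L : ℤ) ∣ c' := by
      have h1 : (L : ℤ) ∣ (ℓ : ℤ) * c' := hc' ▸ hBL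
      exact hcop.dvd_of_dvd_mul_left h1
    obtain ⟨c'', hc''⟩ := hLc'
    obtain ⟨w, t, hwt⟩ := S41.ata_bezout ((Nat.Prime.coprime_iff_not_dvd hℓ).mpr hℓL)
    refine ⟨⟨!![1, -1; -((L : ℤ) * t), (ℓ : ℤ) * w], ?_⟩,
      ⟨!![(ℓ : ℤ) * a' - b * ((L : ℤ) * t), -a' + b * w;
          (ℓ : ℤ) * c' - d * ((L : ℤ) * t), -c' + d * w], ?_⟩, ?_, ?_, rfl, ?_⟩
    · rw [Matrix.det_fin_two_of]; linear_combination hwt
    · rw [Matrix.det_fin_two_of]; linear_combination ((ℓ : ℤ) * w - L * t) * hd1 + hwt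
    · refine k5ph_mem_of_one L M H _ rfl ?_
      exact ⟨-t, by show -((L : ℤ) * t) = _; ring⟩
    · apply S41.mem_Gamma0_of_dvd
      show (L : ℤ) ∣ (ℓ : ℤ) * c' - d * ((L : ℤ) * t)
      exact ⟨(ℓ : ℤ) * c'' - d * t, by rw [hc'']; ring⟩
    · rw [hB, ha', hc']
      ext i j
      fin_cases i <;> fin_cases j <;>
        simp [k5phD, Matrix.mul_apply, Fin.sum_univ_two] <;> ring
  · -- the case `j`
    obtain ⟨j, hj1, hj2⟩ : ∃ j : ZMod ℓ, (a : ZMod ℓ) * j = b ∧ (c : ZMod ℓ) * j = d := by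
      by_cases ha0 : ((a : ℤ) : ZMod ℓ) = 0
      · have hc0 : ((c : ℤ) : ZMod ℓ) ≠ 0 := fun h => hac ⟨ha0, h⟩
        refine ⟨(d : ZMod ℓ) / c, ?_, mul_div_cancel₀ _ hc0⟩
        rw [ha0, zero_mul]
        rw [ha0, zero_mul, zero_sub, neg_eq_zero] at hdetZ
        rcases mul_eq_zero.mp hdetZ with h | h
        · exact h.symm
        · exact absurd h hc0
      · refine ⟨(b : ZMod ℓ) / a, mul_div_cancel₀ _ ha0, ?_⟩
        have : (a : ZMod ℓ) * ((c : ZMod ℓ) * ((b : ZMod ℓ) / a) - d) = 0 := by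
          have h1 : (a : ZMod ℓ) * ((b : ZMod ℓ) / a) = b := mul_div_cancel₀ _ ha0
          linear_combination (c : ZMod ℓ) * h1 - hdetZ
        rcases mul_eq_zero.mp this with h | h
        · exact absurd h ha0
        · exact sub_eq_zero.mp h
    obtain ⟨e, he⟩ : (ℓ : ℤ) ∣ b - a * j.val := by
      rw [← ZMod.intCast_zmod_eq_zero_iff_dvd]
      push_cast
      rw [ZMod.natCast_zmod_val, hj1, sub_self]
    obtain ⟨f, hf⟩ : (ℓ : ℤ) ∣ d - c * j.val := by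
      rw [← ZMod.intCast_zmod_eq_zero_iff_dvd]
      push_cast
      rw [ZMod.natCast_zmod_val, hj2, sub_self]
    have hd1 : a * f - e * c = 1 := by
      have : (ℓ : ℤ) * (a * f - e * c - 1) = 0 := by
        linear_combination a * (-hf) + c * he + hdet'
      rcases mul_eq_zero.mp this with h | h
      · exact absurd h hℓ0
      · linarith
    refine ⟨⟨!![1, -(j.val : ℤ); 0, 1], ?_⟩, ⟨!![a, e; c, f], ?_⟩, ?_, ?_, rfl, ?_⟩
    · rw [Matrix.det_fin_two_of]; ring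
    · rw [Matrix.det_fin_two_of]; exact hd1
    · exact k5ph_mem_of_one L M H _ rfl ⟨0, by show (0 : ℤ) = _; ring⟩
    · exact S41.mem_Gamma0_of_dvd hBL
    · rw [hB]
      ext i k
      fin_cases i <;> fin_cases k <;>
        simp [k5phD, Matrix.mul_apply, Fin.sum_univ_two, -ZMod.natCast_val]
      · linear_combination he
      · linear_combination hf

end Fermat.Agent.RT.K5
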