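import Fermat.Agent.RT.K5.ParHDec
import Fermat.Agent.RT.K5.Act
import Fermat.Agent.S41.NewU

/-!
# RT-K5, PARH (2): the Hecke sum on `Γ_H(L)` with an arbitrary system of representatives

`k5ph_sum`: if `B_y` (`y ∈ ι`, `#ι = ℓ + 1`) are integer matrices of determinant `ℓ` with
`L ∣ (B_y)₁₀`, pairwise inequivalent modulo `SL(2, ℤ)`, and `B_y h = g'_y B_y` with
`h, g'_y ∈ Γ_H(L)`, then `(T_ℓ φ)(h) = ∑_y (⟨u_y⟩ φ)(g'_y)`, `u_y ≡ (B_y)₀₀ mod M`.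
-/

set_option autoImplicit false
set_option linter.style.haveILetI false
set_option linter.unusedSectionVars false
set_option linter.unusedVariables false

noncomputable section

namespace Fermat.Agent.RT.K5

open CongruenceSubgroup Matrix
open scoped MatrixGroups
open Fermat.Agent.ES1 (gammaH diamHom pmH)

section

variable (L M ℓ : ℕ) [NeZero L] [NeZero ℓ] [hML : Fact (M ∣ L)] (H : Subgroup (ZMod M)ˣ)

theorem k5ph_dvd_ell (k : gammaH (L * ℓ) M H) : (ℓ : ℤ) ∣ (k : SL(2, ℤ)) 1 0 := by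
  have h1 : ((L * ℓ : ℕ) : ℤ) ∣ (k : SL(2, ℤ)) 1 0 := S41.dvd_of_mem_Gamma0 k.2.1
  exact (Int.natCast_dvd_natCast.mpr (dvd_mul_left ℓ L)).trans h1

/-- `diag(1, ℓ) · (δ k δ⁻¹) = k · diag(1, ℓ)` -/
theorem k5ph_D_conj (k : gammaH (L * ℓ) M H) :
    k5phD ℓ * (((conjDH L M ℓ H hML.out k : gammaH L M H) : SL(2, ℤ)) :
        Matrix (Fin 2) (Fin 2) ℤ)
      = ((k : SL(2, ℤ)) : Matrix (Fin 2) (Fin 2) ℤ) * k5phD ℓ := by
  have hℓ0 : (ℓ : ℤ) ≠ 0 := by exact_mod_cast NeZero.ne ℓ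
  obtain ⟨c, hc⟩ := k5ph_dvd_ell L M ℓ H k
  rw [conjDH_coe, S41.conjD_coe]
  ext i j
  fin_cases i <;> fin_cases j <;>
    simp [k5phD, S41.conjDMat, Matrix.mul_apply, Fin.sum_univ_two]
  · ring
  · show (ℓ : ℤ) * ((k : SL(2, ℤ)) 1 0 / (ℓ : ℤ)) = (k : SL(2, ℤ)) 1 0
    exact Int.mul_ediv_cancel' (k5ph_dvd_ell L M ℓ H k)
  · ring

/-- an element `c ∈ Γ_H(L)` with `diag(1, ℓ) c = κ diag(1, ℓ)` is `δ κ δ⁻¹`, `κ ∈ Γ_H(L ℓ)` -/
theorem k5ph_preimage (c : gammaH L M H) (κ : SL(2, ℤ))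
    (h : k5phD ℓ * ((c : SL(2, ℤ)) : Matrix (Fin 2) (Fin 2) ℤ)
      = (κ : Matrix (Fin 2) (Fin 2) ℤ) * k5phD ℓ) :
    ∃ hκ : κ ∈ gammaH (L * ℓ) M H, conjDH L M ℓ H hML.out ⟨κ, hκ⟩ = c := by
  have hℓ0 : (ℓ : ℤ) ≠ 0 := by exact_mod_cast NeZero.ne ℓ
  have h00 := congrFun (congrFun h 0) 0
  have h01 := congrFun (congrFun h 0) 1
  have h10 := congrFun (congrFun h 1) 0
  have h11 := congrFun (congrFun h 1) 1
  simp [k5phD, Matrix.mul_apply, Fin.sum_univ_two] at h00 h01 h10 h11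
  -- h00 : c 0 0 = κ 0 0, h01 : c 0 1 = κ 0 1 * ℓ, h10 : ℓ * c 1 0 = κ 1 0, h11 : ℓ * c 1 1 = κ 1 1 * ℓ
  have hcL : (L : ℤ) ∣ (c : SL(2, ℤ)) 1 0 := S41.dvd_of_mem_Gamma0 c.2.1
  have hκL : κ ∈ Gamma0 (L * ℓ) := by
    apply S41.mem_Gamma0_of_dvd
    obtain ⟨e, he⟩ := hcL
    refine ⟨e, ?_⟩
    have : κ 1 0 = (ℓ : ℤ) * (c : SL(2, ℤ)) 1 0 := by
      first
        | exact h10.symm
        | linear_combination -h10
    rw [this, he]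
    push_cast
    ring
  have hκM : κ ∈ Gamma0 M := by
    apply S41.mem_Gamma0_of_dvd
    exact (Int.natCast_dvd_natCast.mpr (hML.out.trans (dvd_mul_right L ℓ))).trans
      (S41.dvd_of_mem_Gamma0 hκL)
  have hκ : κ ∈ gammaH (L * ℓ) M H := by
    refine ⟨hκL, hκM, ?_⟩
    have e : diamHom M ⟨κ, hκM⟩ = diamHom M ⟨(c : SL(2, ℤ)), c.2.2.1⟩ := by
      apply k5e_diam_eq_of_entry
      first
        | exact h00.symm
        | linear_combination -h00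
    rw [e]
    exact c.2.2.2
  refine ⟨hκ, ?_⟩
  apply Subtype.ext
  apply Subtype.ext
  rw [conjDH_coe, S41.conjD_coe]
  have e10 : κ 1 0 / (ℓ : ℤ) = (c : SL(2, ℤ)) 1 0 := by
    have : κ 1 0 = (ℓ : ℤ) * (c : SL(2, ℤ)) 1 0 := by
      first
        | exact h10.symm
        | linear_combination -h10
    rw [this, Int.mul_ediv_cancel_left _ hℓ0]
  have e11 : κ 1 1 = (c : SL(2, ℤ)) 1 1 := by
    have : (ℓ : ℤ) * (κ 1 1 - (c : SL(2, ℤ)) 1 1) = 0 := by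
      first
        | linear_combination -h11
        | linear_combination h11
    rcases mul_eq_zero.mp this with h' | h'
    · exact absurd h' hℓ0
    · linarith
  ext i j
  fin_cases i <;> fin_cases j
  · show κ 0 0 = (c : SL(2, ℤ)) 0 0
    first
      | exact h00.symm
      | linear_combination -h00
  · show (ℓ : ℤ) * κ 0 1 = (c : SL(2, ℤ)) 0 1
    first
      | linear_combination -h01
      | linear_combination h01
  · exact e10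
  · exact e11

theorem k5ph_coe_inv_mul (σ : SL(2, ℤ)) :
    ((σ⁻¹ : SL(2, ℤ)) : Matrix (Fin 2) (Fin 2) ℤ) * (σ : Matrix (Fin 2) (Fin 2) ℤ) = 1 := by
  rw [← Matrix.SpecialLinearGroup.coe_mul, inv_mul_cancel, Matrix.SpecialLinearGroup.coe_one]

theorem k5ph_coe_mul_inv (σ : SL(2, ℤ)) :
    (σ : Matrix (Fin 2) (Fin 2) ℤ) * ((σ⁻¹ : SL(2, ℤ)) : Matrix (Fin 2) (Fin 2) ℤ) = 1 := by
  rw [← Matrix.SpecialLinearGroup.coe_mul, mul_inv_cancel, Matrix.SpecialLinearGroup.coe_one]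

/-- the key relation: `D (r⁻¹ h r) = (γ⁻¹ g' γ) D` -/
theorem k5ph_key (B : Matrix (Fin 2) (Fin 2) ℤ) (r γ h g' : SL(2, ℤ))
    (hBr : B * (r : Matrix (Fin 2) (Fin 2) ℤ) = (γ : Matrix (Fin 2) (Fin 2) ℤ) * k5phD ℓ)
    (hrel : B * (h : Matrix (Fin 2) (Fin 2) ℤ) = (g' : Matrix (Fin 2) (Fin 2) ℤ) * B) :
    k5phD ℓ * ((r⁻¹ * h * r : SL(2, ℤ)) : Matrix (Fin 2) (Fin 2) ℤ)
      = ((γ⁻¹ * g' * γ : SL(2, ℤ)) : Matrix (Fin 2) (Fin 2) ℤ) * k5phD ℓ := by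
  have hD : k5phD ℓ = ((γ⁻¹ : SL(2, ℤ)) : Matrix (Fin 2) (Fin 2) ℤ)
      * (B * (r : Matrix (Fin 2) (Fin 2) ℤ)) := by
    rw [hBr, ← Matrix.mul_assoc, k5ph_coe_inv_mul, Matrix.one_mul]
  simp only [Matrix.SpecialLinearGroup.coe_mul]
  calc k5phD ℓ * (((r⁻¹ : SL(2, ℤ)) : Matrix (Fin 2) (Fin 2) ℤ) * (h : Matrix (Fin 2) (Fin 2) ℤ)
          * (r : Matrix (Fin 2) (Fin 2) ℤ))
      = ((γ⁻¹ : SL(2, ℤ)) : Matrix (Fin 2) (Fin 2) ℤ) * (B * (r : Matrix (Fin 2) (Fin 2) ℤ))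
          * (((r⁻¹ : SL(2, ℤ)) : Matrix (Fin 2) (Fin 2) ℤ) * (h : Matrix (Fin 2) (Fin 2) ℤ)
          * (r : Matrix (Fin 2) (Fin 2) ℤ)) := by rw [← hD]
    _ = ((γ⁻¹ : SL(2, ℤ)) : Matrix (Fin 2) (Fin 2) ℤ) * (B *
          ((r : Matrix (Fin 2) (Fin 2) ℤ) * ((r⁻¹ : SL(2, ℤ)) : Matrix (Fin 2) (Fin 2) ℤ))
          * (h : Matrix (Fin 2) (Fin 2) ℤ) * (r : Matrix (Fin 2) (Fin 2) ℤ)) := by
        simp only [Matrix.mul_assoc]
    _ = ((γ⁻¹ : SL(2, ℤ)) : Matrix (Fin 2) (Fin 2) ℤ) * ((g' : Matrix (Fin 2) (Fin 2) ℤ) * B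
          * (r : Matrix (Fin 2) (Fin 2) ℤ)) := by
        rw [k5ph_coe_mul_inv, Matrix.mul_one, hrel]
    _ = ((γ⁻¹ : SL(2, ℤ)) : Matrix (Fin 2) (Fin 2) ℤ) * (g' : Matrix (Fin 2) (Fin 2) ℤ)
          * (B * (r : Matrix (Fin 2) (Fin 2) ℤ)) := by
        simp only [Matrix.mul_assoc]
    _ = ((γ⁻¹ : SL(2, ℤ)) : Matrix (Fin 2) (Fin 2) ℤ) * (g' : Matrix (Fin 2) (Fin 2) ℤ)
          * (γ : Matrix (Fin 2) (Fin 2) ℤ) * k5phD ℓ := by
        rw [hBr]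
        simp only [Matrix.mul_assoc]

/-- the representatives `r_y` are pairwise inequivalent -/
theorem k5ph_reps_inj (B B' : Matrix (Fin 2) (Fin 2) ℤ) (r γ r' γ' : SL(2, ℤ))
    (hBr : B * (r : Matrix (Fin 2) (Fin 2) ℤ) = (γ : Matrix (Fin 2) (Fin 2) ℤ) * k5phD ℓ)
    (hBr' : B' * (r' : Matrix (Fin 2) (Fin 2) ℤ) = (γ' : Matrix (Fin 2) (Fin 2) ℤ) * k5phD ℓ)
    (C K : SL(2, ℤ))
    (hDC : k5phD ℓ * (C : Matrix (Fin 2) (Fin 2) ℤ) = (K : Matrix (Fin 2) (Fin 2) ℤ) * k5phD ℓ)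
    (hr : r' = r * C) :
    B' = ((γ' * (γ * K)⁻¹ : SL(2, ℤ)) : Matrix (Fin 2) (Fin 2) ℤ) * B := by
  have h1 : B * (r' : Matrix (Fin 2) (Fin 2) ℤ)
      = ((γ * K : SL(2, ℤ)) : Matrix (Fin 2) (Fin 2) ℤ) * k5phD ℓ := by
    rw [hr, Matrix.SpecialLinearGroup.coe_mul, ← Matrix.mul_assoc, hBr, Matrix.mul_assoc, hDC,
      ← Matrix.mul_assoc, Matrix.SpecialLinearGroup.coe_mul]
  have h2 : B' * (r' : Matrix (Fin 2) (Fin 2) ℤ)
      = ((γ' * (γ * K)⁻¹ : SL(2, ℤ)) : Matrix (Fin 2) (Fin 2) ℤ) * B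
        * (r' : Matrix (Fin 2) (Fin 2) ℤ) := by
    rw [Matrix.mul_assoc, h1, hBr', Matrix.SpecialLinearGroup.coe_mul (γ')]
    rw [Matrix.mul_assoc, ← Matrix.mul_assoc _ _ (k5phD ℓ), k5ph_coe_inv_mul, Matrix.one_mul]
  have h3 := congrArg (fun X => X * ((r'⁻¹ : SL(2, ℤ)) : Matrix (Fin 2) (Fin 2) ℤ)) h2
  simp only [Matrix.mul_assoc, k5ph_coe_mul_inv, Matrix.mul_one] at h3
  rw [h3]

/-- **The Hecke sum on `Γ_H(L)`** with an arbitrary system of representatives. -/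
theorem k5ph_sum (A : Type) [AddCommGroup A] (hℓ : ℓ.Prime) (hℓL : ¬ ℓ ∣ L)
    (φ : HomS (gammaH L M H) A) (h : gammaH L M H)
    {ι : Type} [Fintype ι] (hcard : Fintype.card ι = ℓ + 1)
    (B : ι → Matrix (Fin 2) (Fin 2) ℤ) (hdet : ∀ y, (B y).det = ℓ)
    (hBL : ∀ y, (L : ℤ) ∣ B y 1 0)
    (hinj : ∀ (y y' : ι) (γ : SL(2, ℤ)), B y = (γ : Matrix (Fin 2) (Fin 2) ℤ) * B y' → y = y')
    (g' : ι → gammaH L M H)
    (hrel : ∀ y, B y * ((h : SL(2, ℤ)) : Matrix (Fin 2) (Fin 2) ℤ)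
      = (((g' y : gammaH L M H) : SL(2, ℤ)) : Matrix (Fin 2) (Fin 2) ℤ) * B y)
    (u : ι → (ZMod M)ˣ) (hu : ∀ y, ((u y : (ZMod M)ˣ) : ZMod M) = ((B y 0 0 : ℤ) : ZMod M)) :
    tS L M ℓ H A φ (Additive.ofMul h)
      = ∑ y, diamU L M H A (u y) φ (Additive.ofMul (g' y)) := by
  classical
  choose r γ hr hγ hr00 hBr using fun y => k5ph_decomp L M ℓ H hℓ hℓL (B y) (hdet y) (hBL y)
  let rG : ι → gammaH L M H := fun y => ⟨r y, hr y⟩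
  -- the elements `κ_y`
  have hkey : ∀ y, k5phD ℓ * ((((rG y)⁻¹ * h * rG y : gammaH L M H) : SL(2, ℤ)) :
        Matrix (Fin 2) (Fin 2) ℤ)
      = (((γ y)⁻¹ * (g' y : SL(2, ℤ)) * γ y : SL(2, ℤ)) : Matrix (Fin 2) (Fin 2) ℤ)
        * k5phD ℓ := fun y =>
    k5ph_key ℓ (B y) (r y) (γ y) (h : SL(2, ℤ)) (g' y : SL(2, ℤ)) (hBr y) (hrel y)
  choose hκ hconj using fun y =>
    k5ph_preimage L M ℓ H ((rG y)⁻¹ * h * rG y) ((γ y)⁻¹ * (g' y : SL(2, ℤ)) * γ y) (hkey y)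
  let κG : ι → gammaH (L * ℓ) M H := fun y => ⟨(γ y)⁻¹ * (g' y : SL(2, ℤ)) * γ y, hκ y⟩
  have hκrel : ∀ y, h * rG (id y) = rG y * conjDH L M ℓ H hML.out (κG y) := by
    intro y
    show h * rG y = rG y * conjDH L M ℓ H hML.out (κG y)
    rw [show conjDH L M ℓ H hML.out (κG y) = (rG y)⁻¹ * h * rG y from hconj y]
    group
  -- bijectivity
  have hinj' : Function.Injective fun y =>
      (QuotientGroup.mk (rG y) : gammaH L M H ⧸ (conjDH L M ℓ H hML.out).range) := by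
    intro y y' hyy
    have h1 : (rG y)⁻¹ * rG y' ∈ (conjDH L M ℓ H hML.out).range := QuotientGroup.eq.mp hyy
    obtain ⟨k, hk⟩ := h1
    have hr' : r y' = r y * ((conjDH L M ℓ H hML.out k : gammaH L M H) : SL(2, ℤ)) := by
      have h2 : rG y' = rG y * conjDH L M ℓ H hML.out k := by rw [hk]; group
      exact congrArg (fun x : gammaH L M H => (x : SL(2, ℤ))) h2
    have h3 := k5ph_reps_inj ℓ (B y) (B y') (r y) (γ y) (r y') (γ y') (hBr y) (hBr y') _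
      (k : SL(2, ℤ)) (k5ph_D_conj L M ℓ H k) hr'
    exact (hinj y' y _ h3).symm
  have hbij : Function.Bijective fun y =>
      (QuotientGroup.mk (rG y) : gammaH L M H ⧸ (conjDH L M ℓ H hML.out).range) := by
    refine Function.Injective.bijective_of_nat_card_le hinj' ?_
    rw [← Subgroup.index_eq_card, (stmtIdxRange L M ℓ H hℓ hℓL).1, Nat.card_eq_fintype_card,
      hcard]
  have hsum := S41.transferAlong_eq_sum_of_reps (conjDH L M ℓ H hML.out)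
    (conjDH_injective L M ℓ H hML.out) A rG hbij h id κG hκrel (resH L M ℓ H A φ)
  have hL : tS L M ℓ H A φ (Additive.ofMul h)
      = S41.transferAlong A (conjDH L M ℓ H hML.out) (conjDH_injective L M ℓ H hML.out)
          (resH L M ℓ H A φ) (Additive.ofMul h) := rfl
  rw [hL, hsum]
  refine Finset.sum_congr rfl fun y _ => ?_
  have hγM : γ y ∈ Gamma0 M := k5i_mem_Gamma0M L M (hγ y)
  have hd : u y = diamHom M ⟨γ y, hγM⟩ := by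
    ext
    rw [Fermat.Agent.ES1.coe_diamHom, hu y]
    have h00 := congrFun (congrFun (hBr y) 0) 0
    simp [k5phD, Matrix.mul_apply, Fin.sum_univ_two, hr00 y] at h00
    have hrM : (((r y) 1 0 : ℤ) : ZMod M) = 0 :=
      (ZMod.intCast_zmod_eq_zero_iff_dvd _ _).mpr (S41.dvd_of_mem_Gamma0 (hr y).2.1)
    have h1 := congrArg (Int.cast : ℤ → ZMod M) h00
    push_cast at h1
    rw [hrM, mul_zero, add_zero] at h1
    exact h1
  rw [hd, k5act_diamU_diamHom_apply L M H A (γ y) (hγ y) hγM φ]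
  rfl

end

end Fermat.Agent.RT.K5
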