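import Fermat.Agent.RT.K5.FitEx

/-!
# K-machine, piece K5, third interface: the Taylor–Wiles step, abstractly

`StmtTWAbs` (Mathlib only + `etaPart`): `X = Hom(Γ₀(N), A)`, `Y = Hom(Γ₀(N q), A)` finite,
`r₁ = res`, `r₂ = res_δ`, `c₁ = cores`, `c₂ = cores_δ`, `T = T_q` on `X`, `U = U_q` on `Y`,
`θ_X`, `θ_Y` a Hecke operator commuting with everything.  If `(q + 1)² − T²` is bijective on the
`θ_X`-part `X₁` of `X`, then `(φ₁, φ₂) ↦ r₁ φ₁ + r₂ φ₂` is a bijection from `X₁ × X₁` onto the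
`θ_Y ∘ (U² − 1)`-part of `Y`.
[`α†α = [[q+1, T], [T, q+1]]`, `U α = α M`, `M = [[T, q], [−1, 0]]`,
`det (M² − 1) = (q+1)² − T² = det α†α`; `U² = 1` on `ker α†`.]
-/

set_option autoImplicit false

noncomputable section

namespace Fermat.Agent.RT.K5

/-- **K5-TW-abs** -/
def StmtTWAbs : Prop :=
  ∀ (X Y : Type) [AddCommGroup X] [AddCommGroup Y] [Finite X] [Finite Y] (q : ℕ)
    (T θX : X →+ X) (U θY : Y →+ Y) (r₁ r₂ : X →+ Y) (c₁ c₂ : Y →+ X),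
    -- `α†α`
    (∀ φ, c₁ (r₁ φ) = (q + 1) • φ) → (∀ φ, c₂ (r₂ φ) = (q + 1) • φ) →
    (∀ φ, c₁ (r₂ φ) = T φ) → (∀ φ, c₂ (r₁ φ) = T φ) →
    -- `U` on the old part
    (∀ φ, U (r₂ φ) = q • r₁ φ) → (∀ φ, U (r₁ φ) = r₁ (T φ) - r₂ φ) →
    (∀ ψ, c₁ (U ψ) = q • c₂ ψ) → (∀ ψ, c₂ (U ψ) = T (c₂ ψ) - c₁ ψ) →
    -- `U² = 1` on the new part
    (∀ ψ, c₁ ψ = 0 → c₂ ψ = 0 → U (U ψ) = ψ) →
    -- `θ` commutes with everything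
    (∀ φ, r₁ (θX φ) = θY (r₁ φ)) → (∀ φ, r₂ (θX φ) = θY (r₂ φ)) →
    (∀ ψ, c₁ (θY ψ) = θX (c₁ ψ)) → (∀ ψ, c₂ (θY ψ) = θX (c₂ ψ)) →
    (∀ φ, T (θX φ) = θX (T φ)) → (∀ ψ, U (θY ψ) = θY (U ψ)) →
    -- `(q + 1)² − T²` is bijective on the `θ_X`-part
    (∀ φ ∈ etaPart θX, (q + 1) • (q + 1) • φ - T (T φ) = 0 → φ = 0) →
    -- conclusion
    (∀ φ₁ ∈ etaPart θX, ∀ φ₂ ∈ etaPart θX,
      r₁ φ₁ + r₂ φ₂ ∈ etaPart (θY.comp (U.comp U - AddMonoidHom.id Y)) ∧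
      (r₁ φ₁ + r₂ φ₂ = 0 → φ₁ = 0 ∧ φ₂ = 0)) ∧
    (∀ ψ ∈ etaPart (θY.comp (U.comp U - AddMonoidHom.id Y)),
      ∃ φ₁ ∈ etaPart θX, ∃ φ₂ ∈ etaPart θX, ψ = r₁ φ₁ + r₂ φ₂) ∧
    Nat.card (etaPart (θY.comp (U.comp U - AddMonoidHom.id Y))) = Nat.card (etaPart θX) ^ 2

end Fermat.Agent.RT.K5
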