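import Fermat.Agent.RT.K5.NatFam
import Fermat.Agent.RT.K5.FitEx
import Fermat.Agent.RT.K5.Lift

/-!
# K-machine, piece K5, fourth interface: change of coefficients for the `Θ`-parts

`X(A) = etaPart (thetaN 𝔲 ℓ₀ A K) ⊆ Hom(Γ_K(L), A)` for an `𝒪`-module `A`.
* `StmtCoeffExact` : `X` is exact on short exact sequences of finite `𝒪`-modules
  (`stmtLift` + `k5fx_surj`, `k5fx_exact`, `k5fx_card`);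
* `StmtCount` : `#X(𝒪/𝔪ⁿ) = #X(𝒪/𝔪)ⁿ`, the reduction `X(𝒪/𝔪ⁿ) → X(𝒪/𝔪)` is onto and its kernel is
  `λ · X(𝒪/𝔪ⁿ)`  (sequences `0 → 𝒪/𝔪 →(λⁿ) 𝒪/𝔪ⁿ⁺¹ → 𝒪/𝔪ⁿ → 0` and
  `0 → 𝒪/𝔪ⁿ →(λ) 𝒪/𝔪ⁿ⁺¹ → 𝒪/𝔪 → 0`).
-/

set_option autoImplicit false

noncomputable section

namespace Fermat.Agent.RT.K5

open CongruenceSubgroup Matrix
open scoped MatrixGroups
open Fermat.Agent.ES1 (gammaH diamHom pmH)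

/-- **K5-COEF** exactness of the `Θ`-part in the coefficients. -/
def StmtCoeffExact : Prop :=
  ∀ (𝒪 : Type) [CommRing 𝒪] (L M ℓ₀ : ℕ) [NeZero L] [NeZero ℓ₀] [Fact (M ∣ L)]
    (𝔲 : NatFam 𝒪 L M) (K : Subgroup (ZMod M)ˣ)
    (A' A A'' : Type) [AddCommGroup A'] [Module 𝒪 A'] [AddCommGroup A] [Module 𝒪 A]
    [AddCommGroup A''] [Module 𝒪 A''] [Finite A'] [Finite A] [Finite A'']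
    (j : A' →ₗ[𝒪] A) (π : A →ₗ[𝒪] A''), Function.Injective j → Function.Surjective π →
    (∀ a, π a = 0 ↔ ∃ a', j a' = a) → NoTors (gammaH L M K) A'' →
    (∀ w ∈ etaPart (thetaN 𝔲 ℓ₀ A'' K), ∃ v ∈ etaPart (thetaN 𝔲 ℓ₀ A K),
      mapS π.toAddMonoidHom v = w) ∧
    (∀ v ∈ etaPart (thetaN 𝔲 ℓ₀ A K), mapS π.toAddMonoidHom v = 0 →
      ∃ u ∈ etaPart (thetaN 𝔲 ℓ₀ A' K), mapS j.toAddMonoidHom u = v) ∧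
    Nat.card (etaPart (thetaN 𝔲 ℓ₀ A K)) =
      Nat.card (etaPart (thetaN 𝔲 ℓ₀ A' K)) * Nat.card (etaPart (thetaN 𝔲 ℓ₀ A'' K))

/-- the reduction `𝒪/Iⁿ → 𝒪/Iᵐ`, `m ≤ n` -/
def redQ {𝒪 : Type} [CommRing 𝒪] (I : Ideal 𝒪) {m n : ℕ} (h : m ≤ n) :
    (𝒪 ⧸ I ^ n) →ₗ[𝒪] (𝒪 ⧸ I ^ m) :=
  Submodule.mapQ (I ^ n) (I ^ m) LinearMap.id (Ideal.pow_le_pow_right h)

/-- **K5-COUNT** the `Θ`-parts with coefficients `𝒪/𝔪ⁿ`. -/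
def StmtCount : Prop :=
  ∀ (𝒪 : Type) [CommRing 𝒪] [IsDomain 𝒪] [IsDiscreteValuationRing 𝒪]
    [Finite (IsLocalRing.ResidueField 𝒪)] (lam : 𝒪),
    IsLocalRing.maximalIdeal 𝒪 = Ideal.span {lam} →
    ∀ (L M ℓ₀ : ℕ) [NeZero L] [NeZero ℓ₀] [Fact (M ∣ L)]
    (𝔲 : NatFam 𝒪 L M) (K : Subgroup (ZMod M)ˣ),
    (∀ n : ℕ, NoTors (gammaH L M K) (𝒪 ⧸ IsLocalRing.maximalIdeal 𝒪 ^ n)) →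
    ∀ n : ℕ,
    Nat.card (etaPart (thetaN 𝔲 ℓ₀ (𝒪 ⧸ IsLocalRing.maximalIdeal 𝒪 ^ n) K)) =
      Nat.card (etaPart (thetaN 𝔲 ℓ₀ (𝒪 ⧸ IsLocalRing.maximalIdeal 𝒪 ^ 1) K)) ^ n ∧
    ∀ h1 : 1 ≤ n,
      (∀ w ∈ etaPart (thetaN 𝔲 ℓ₀ (𝒪 ⧸ IsLocalRing.maximalIdeal 𝒪 ^ 1) K),
        ∃ v ∈ etaPart (thetaN 𝔲 ℓ₀ (𝒪 ⧸ IsLocalRing.maximalIdeal 𝒪 ^ n) K),
          mapS (redQ (IsLocalRing.maximalIdeal 𝒪) h1).toAddMonoidHom v = w) ∧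
      (∀ v ∈ etaPart (thetaN 𝔲 ℓ₀ (𝒪 ⧸ IsLocalRing.maximalIdeal 𝒪 ^ n) K),
        mapS (redQ (IsLocalRing.maximalIdeal 𝒪) h1).toAddMonoidHom v = 0 →
        ∃ v' ∈ etaPart (thetaN 𝔲 ℓ₀ (𝒪 ⧸ IsLocalRing.maximalIdeal 𝒪 ^ n) K), v = lam • v')

end Fermat.Agent.RT.K5
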