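import Mathlib
import Fermat.Agent.RT.K5.CommAbs

/-!
# RT-K5, piece UQ (abstract part): the Mackey formula with TWO double cosets

`f : Hh → G` injective of finite index, `j : Γ' → G`.  Assume `G = j(Γ') f(Hh) ⊔ g f(Hh)`, the
second double coset being the single left coset `g f(Hh)` (so `Γ'` fixes it:
`j x * g = g * f (j₂ x)`), the first one cartesian (`j(Γ') ∩ f(Hh) = j(f₁ K₁)`).  Then

  `(transfer_f χ) ∘ j = transfer_{f₁} (χ ∘ j₁) + χ ∘ j₂`      (`k5uq_mackey`).
-/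

set_option autoImplicit false
set_option linter.style.haveILetI false
set_option linter.unusedSectionVars false
set_option linter.unusedVariables false

noncomputable section

namespace Fermat.Agent.RT.K5

open Fermat.Agent

section mackey2

variable {G Hh Γ' K₁ : Type*} [Group G] [Group Hh] [Group Γ'] [Group K₁]
  (f : Hh →* G) (hf : Function.Injective f) [f.range.FiniteIndex]
  (j : Γ' →* G) (f₁ : K₁ →* Γ') (hf₁ : Function.Injective f₁) [f₁.range.FiniteIndex]
  (j₁ : K₁ →* Hh) (g : G) (j₂ : Γ' →* Hh) (A : Type*) [AddCommGroup A]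

/-- the representatives of `G / f(Hh)`: `g` and `j (r_a)`, `a ∈ Γ' / f₁(K₁)` -/
def k5uqRep (o : Option (Γ' ⧸ f₁.range)) : G :=
  o.elim g (fun a => j (S41.tRep f₁ a))

theorem k5uq_reps_bijective (hcomm₁ : ∀ k, f (j₁ k) = j (f₁ k))
    (hcart₁ : ∀ x : Γ', j x ∈ f.range → x ∈ f₁.range)
    (hdc : ∀ γ : G, (∃ x : Γ', (j x)⁻¹ * γ ∈ f.range) ∨ g⁻¹ * γ ∈ f.range)
    (hne : ∀ x : Γ', (j x)⁻¹ * g ∉ f.range) :
    Function.Bijective fun o : Option (Γ' ⧸ f₁.range) =>
      (QuotientGroup.mk (k5uqRep j f₁ g o) : G ⧸ f.range) := by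
  constructor
  · intro o o' h
    simp only [] at h
    rw [QuotientGroup.eq] at h
    rcases o with _ | a <;> rcases o' with _ | a'
    · rfl
    · exfalso
      have h' : g⁻¹ * j (S41.tRep f₁ a') ∈ f.range := h
      have h2 : (j (S41.tRep f₁ a'))⁻¹ * g ∈ f.range := by
        have e : (j (S41.tRep f₁ a'))⁻¹ * g = (g⁻¹ * j (S41.tRep f₁ a'))⁻¹ := by group
        rw [e]; exact inv_mem h'
      exact hne _ h2
    · exfalso
      have h' : (j (S41.tRep f₁ a))⁻¹ * g ∈ f.range := h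
      exact hne _ h'
    · have h' : (j (S41.tRep f₁ a))⁻¹ * j (S41.tRep f₁ a') ∈ f.range := h
      rw [← map_inv, ← map_mul] at h'
      have h2 := hcart₁ _ h'
      have h3 : (QuotientGroup.mk (S41.tRep f₁ a) : Γ' ⧸ f₁.range)
          = QuotientGroup.mk (S41.tRep f₁ a') := QuotientGroup.eq.mpr h2
      rw [S41.tRep_mk, S41.tRep_mk] at h3
      rw [h3]
  · intro y
    obtain ⟨γ, rfl⟩ := QuotientGroup.mk_surjective y
    rcases hdc γ with ⟨x, hx⟩ | hg
    · refine ⟨some (QuotientGroup.mk x), ?_⟩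
      simp only []
      rw [QuotientGroup.eq]
      show (j (S41.tRep f₁ (QuotientGroup.mk x)))⁻¹ * γ ∈ f.range
      have h1 : (QuotientGroup.mk (S41.tRep f₁ (QuotientGroup.mk x)) : Γ' ⧸ f₁.range)
          = QuotientGroup.mk x := S41.tRep_mk f₁ _
      have h2 : (S41.tRep f₁ (QuotientGroup.mk x))⁻¹ * x ∈ f₁.range := QuotientGroup.eq.mp h1
      obtain ⟨k, hk⟩ := h2
      have h3 : (j (S41.tRep f₁ (QuotientGroup.mk x)))⁻¹ * γ
          = f (j₁ k) * ((j x)⁻¹ * γ) := by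
        rw [hcomm₁, hk, map_mul, map_inv]; group
      rw [h3]
      exact mul_mem ⟨j₁ k, rfl⟩ hx
    · refine ⟨none, ?_⟩
      simp only []
      rw [QuotientGroup.eq]
      exact hg

/-- **Mackey formula with two double cosets**, the second one being a single coset. -/
theorem k5uq_mackey (hcomm₁ : ∀ k, f (j₁ k) = j (f₁ k))
    (hcart₁ : ∀ x : Γ', j x ∈ f.range → x ∈ f₁.range)
    (hcomm₂ : ∀ x : Γ', j x * g = g * f (j₂ x))
    (hdc : ∀ γ : G, (∃ x : Γ', (j x)⁻¹ * γ ∈ f.range) ∨ g⁻¹ * γ ∈ f.range)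
    (hne : ∀ x : Γ', (j x)⁻¹ * g ∉ f.range) (χ : Additive Hh →+ A) :
    (S41.transferAlong A f hf χ).comp (MonoidHom.toAdditive j)
      = S41.transferAlong A f₁ hf₁ (χ.comp (MonoidHom.toAdditive j₁))
        + χ.comp (MonoidHom.toAdditive j₂) := by
  classical
  letI := f₁.range.fintypeQuotientOfFiniteIndex
  refine AddMonoidHom.ext fun x => ?_
  obtain ⟨x, rfl⟩ : ∃ x' : Γ', Additive.ofMul x' = x := ⟨Additive.toMul x, rfl⟩
  show S41.transferAlong A f hf χ (Additive.ofMul (j x)) = _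
  rw [S41.transferAlong_eq_sum_of_reps f hf A (k5uqRep j f₁ g)
      (k5uq_reps_bijective f j f₁ j₁ g hcomm₁ hcart₁ hdc hne) (j x)
      (fun o => o.map (fun a => x⁻¹ • a))
      (fun o => o.elim (j₂ x) (fun a => j₁ (S41.tCoc f₁ hf₁ a x))) ?_ χ]
  · rw [Fintype.sum_option, AddMonoidHom.add_apply, S41.transferAlong_eq_sum f₁ hf₁ A, add_comm]
    rfl
  · intro o
    rcases o with _ | a
    · exact hcomm₂ x
    · show j x * j (S41.tRep f₁ (x⁻¹ • a)) = j (S41.tRep f₁ a) * f (j₁ (S41.tCoc f₁ hf₁ a x))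
      rw [hcomm₁, S41.f_tCoc, ← map_mul, ← map_mul]
      congr 1
      group

/-- the index count behind the Mackey formula: `[G : f Hh] = [Γ' : f₁ K₁] + 1` -/
theorem k5uq_index (hcomm₁ : ∀ k, f (j₁ k) = j (f₁ k))
    (hcart₁ : ∀ x : Γ', j x ∈ f.range → x ∈ f₁.range)
    (hdc : ∀ γ : G, (∃ x : Γ', (j x)⁻¹ * γ ∈ f.range) ∨ g⁻¹ * γ ∈ f.range)
    (hne : ∀ x : Γ', (j x)⁻¹ * g ∉ f.range) :
    f.range.index = f₁.range.index + 1 := by
  classical
  letI := f₁.range.fintypeQuotientOfFiniteIndex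
  have e := Nat.card_congr (Equiv.ofBijective _
    (k5uq_reps_bijective f j f₁ j₁ g hcomm₁ hcart₁ hdc hne))
  rw [Subgroup.index_eq_card, Subgroup.index_eq_card, ← e, Nat.card_eq_fintype_card,
    Fintype.card_option, Nat.card_eq_fintype_card]

end mackey2

end Fermat.Agent.RT.K5
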