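import Fermat.Agent.RT.K5.UQPlan
import Fermat.Agent.RT.K5.UQMackey

/-!
# RT-K5, piece UQ (U2–U4), concrete part: the Atkin–Lehner conjugation `ν`

`q ∤ L`, `q n − L m = 1`.  `g = [[1, m], [L, q n]] ∈ Γ₁(L)`, `g₁ = [[q, m], [L, n]] ∈ Γ₀(L)`
(diamond `q`), `D = diag(q, 1)`, `D g D = q g₁`; `γ₀ = g g₁ ∈ Γ₀(L q)` (diamond `q`).
`K = Γ_H(L q)`, `ι = inclH`, `c = conjDH : K → Γ = Γ_H(L)`.

* `k5uqNu : K →* K` with `c (ν x) = g⁻¹ x g` (`k5uq_conj_nu`), `ν x = g₁⁻¹ c(x) g₁`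
  (`k5uq_nu_coe`), `ν (ν x) = γ₀⁻¹ x γ₀` (`k5uq_nu_nu`).
-/

set_option autoImplicit false
set_option linter.style.haveILetI false
set_option linter.unusedSectionVars false
set_option linter.unusedVariables false

noncomputable section

namespace Fermat.Agent.RT.K5

open CongruenceSubgroup Matrix
open scoped MatrixGroups
open Fermat.Agent.ES1 (gammaH diamHom pmH)

/-! ## matrices -/

/-- `D = diag(q, 1)` -/
def k5uqD (q : ℕ) : Matrix (Fin 2) (Fin 2) ℤ := !![(q : ℤ), 0; 0, 1]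

theorem k5uq_D_mul (q : ℕ) (A : Matrix (Fin 2) (Fin 2) ℤ) (h : (q : ℤ) ∣ A 1 0) :
    k5uqD q * A = S41.conjDMat q A * k5uqD q := by
  have e : A 1 0 / (q : ℤ) * q = A 1 0 := Int.ediv_mul_cancel h
  ext i j
  fin_cases i <;> fin_cases j
  · simp [k5uqD, S41.conjDMat, Matrix.mul_apply, Fin.sum_univ_two]; ring
  · simp [k5uqD, S41.conjDMat, Matrix.mul_apply, Fin.sum_univ_two]
  · simp [k5uqD, S41.conjDMat, Matrix.mul_apply, Fin.sum_univ_two]; exact e.symm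
  · simp [k5uqD, S41.conjDMat, Matrix.mul_apply, Fin.sum_univ_two]

theorem k5uq_D_mul_coe (N q : ℕ) [NeZero q] (k : Gamma0 (N * q)) :
    k5uqD q * ((k : SL(2, ℤ)) : Matrix (Fin 2) (Fin 2) ℤ)
      = (((S41.conjD N q k : Gamma0 N) : SL(2, ℤ)) : Matrix (Fin 2) (Fin 2) ℤ) * k5uqD q := by
  rw [S41.conjD_coe]
  exact k5uq_D_mul q _ (S41.dvd_q_of_mem N q k.2)

/-- entries of `g⁻¹ x g` -/
theorem k5uq_conj_01 (g x : SL(2, ℤ)) :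
    ((g⁻¹ * x * g : SL(2, ℤ)) : Matrix (Fin 2) (Fin 2) ℤ) 0 1
      = (g 1 1 * x 0 0 - g 0 1 * x 1 0) * g 0 1 + (g 1 1 * x 0 1 - g 0 1 * x 1 1) * g 1 1 := by
  rw [Matrix.SpecialLinearGroup.coe_mul, Matrix.SpecialLinearGroup.coe_mul,
    Matrix.SpecialLinearGroup.coe_inv, Matrix.adjugate_fin_two, Matrix.mul_apply,
    Fin.sum_univ_two, Matrix.mul_apply, Fin.sum_univ_two, Matrix.mul_apply, Fin.sum_univ_two]
  simp
  ring

theorem k5uq_conj_10 (g y : SL(2, ℤ)) :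
    ((g * y * g⁻¹ : SL(2, ℤ)) : Matrix (Fin 2) (Fin 2) ℤ) 1 0
      = (g 1 0 * y 0 0 + g 1 1 * y 1 0) * g 1 1 - (g 1 0 * y 0 1 + g 1 1 * y 1 1) * g 1 0 := by
  rw [Matrix.SpecialLinearGroup.coe_mul, Matrix.SpecialLinearGroup.coe_mul,
    Matrix.SpecialLinearGroup.coe_inv, Matrix.adjugate_fin_two, Matrix.mul_apply,
    Fin.sum_univ_two, Matrix.mul_apply, Fin.sum_univ_two, Matrix.mul_apply, Fin.sum_univ_two]
  simp
  ring

theorem k5uq_inv_mul_01 (x γ : SL(2, ℤ)) :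
    ((x⁻¹ * γ : SL(2, ℤ)) : Matrix (Fin 2) (Fin 2) ℤ) 0 1 = x 1 1 * γ 0 1 - x 0 1 * γ 1 1 := by
  rw [Matrix.SpecialLinearGroup.coe_mul, Matrix.SpecialLinearGroup.coe_inv,
    Matrix.adjugate_fin_two, Matrix.mul_apply, Fin.sum_univ_two]
  simp
  ring

/-- `q ∣ g₁₁`, `q ∣ x₁₀` ⇒ `q ∣ (g⁻¹ x g)₀₁` -/
theorem k5uq_dvd_conj_01 {q : ℤ} {g x : SL(2, ℤ)} (hg : q ∣ g 1 1) (hx : q ∣ x 1 0) :
    q ∣ ((g⁻¹ * x * g : SL(2, ℤ)) : Matrix (Fin 2) (Fin 2) ℤ) 0 1 := by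
  rw [k5uq_conj_01]
  exact dvd_add (dvd_mul_of_dvd_left (dvd_sub (dvd_mul_of_dvd_left hg _)
    (dvd_mul_of_dvd_right hx _)) _) (dvd_mul_of_dvd_right hg _)

/-- `q ∣ g₁₁`, `q ∣ y₀₁` ⇒ `q ∣ (g y g⁻¹)₁₀` -/
theorem k5uq_dvd_conj_10 {q : ℤ} {g y : SL(2, ℤ)} (hg : q ∣ g 1 1) (hy : q ∣ y 0 1) :
    q ∣ ((g * y * g⁻¹ : SL(2, ℤ)) : Matrix (Fin 2) (Fin 2) ℤ) 1 0 := by
  rw [k5uq_conj_10]
  exact dvd_sub (dvd_mul_of_dvd_right hg _)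
    (dvd_mul_of_dvd_left (dvd_add (dvd_mul_of_dvd_right hy _) (dvd_mul_of_dvd_left hg _)) _)

/-! ## the flip elements -/

section flip

variable (L q : ℕ) (m n : ℤ) (h : (q : ℤ) * n - L * m = 1)

/-- `g = [[1, m], [L, q n]]` -/
def k5uqG : SL(2, ℤ) :=
  ⟨!![1, m; (L : ℤ), (q : ℤ) * n], by rw [Matrix.det_fin_two_of]; linear_combination h⟩

/-- `g₁ = [[q, m], [L, n]]` -/
def k5uqG1 : SL(2, ℤ) :=
  ⟨!![(q : ℤ), m; (L : ℤ), n], by rw [Matrix.det_fin_two_of]; linear_combination h⟩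

theorem k5uqG_coe : ((k5uqG L q m n h : SL(2, ℤ)) : Matrix (Fin 2) (Fin 2) ℤ)
    = !![1, m; (L : ℤ), (q : ℤ) * n] := rfl

theorem k5uqG1_coe : ((k5uqG1 L q m n h : SL(2, ℤ)) : Matrix (Fin 2) (Fin 2) ℤ)
    = !![(q : ℤ), m; (L : ℤ), n] := rfl

theorem k5uq_DGD :
    k5uqD q * ((k5uqG L q m n h : SL(2, ℤ)) : Matrix (Fin 2) (Fin 2) ℤ) * k5uqD q
      = (q : ℤ) • ((k5uqG1 L q m n h : SL(2, ℤ)) : Matrix (Fin 2) (Fin 2) ℤ) := by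
  rw [k5uqG_coe, k5uqG1_coe]
  ext i j
  fin_cases i <;> fin_cases j <;>
    simp [k5uqD, Matrix.mul_apply, Fin.sum_univ_two]
  all_goals ring

theorem k5uqG_00 : (k5uqG L q m n h) 0 0 = 1 := rfl
theorem k5uqG_01 : (k5uqG L q m n h) 0 1 = m := rfl
theorem k5uqG_10 : (k5uqG L q m n h) 1 0 = (L : ℤ) := rfl
theorem k5uqG_11 : (k5uqG L q m n h) 1 1 = (q : ℤ) * n := rfl
theorem k5uqG1_00 : (k5uqG1 L q m n h) 0 0 = (q : ℤ) := rfl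
theorem k5uqG1_10 : (k5uqG1 L q m n h) 1 0 = (L : ℤ) := rfl

theorem k5uqG_dvd_11 : (q : ℤ) ∣ (k5uqG L q m n h) 1 1 := ⟨n, rfl⟩

include h in
/-- `m` is a unit modulo `q` -/
theorem k5uq_dvd_of_dvd_mul_m {x : ℤ} (hx : (q : ℤ) ∣ x * m) : (q : ℤ) ∣ x := by
  have e : x = (q : ℤ) * (x * n) - (x * m) * L := by linear_combination (-x) * h
  rw [e]
  exact dvd_sub (dvd_mul_right _ _) (dvd_mul_of_dvd_left hx _)

theorem k5uqG_mem_Gamma0 : k5uqG L q m n h ∈ Gamma0 L :=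
  S41.mem_Gamma0_of_dvd (by rw [k5uqG_10])

theorem k5uqG1_mem_Gamma0 : k5uqG1 L q m n h ∈ Gamma0 L :=
  S41.mem_Gamma0_of_dvd (by rw [k5uqG1_10])

theorem k5uqG_mem {M : ℕ} (hML : M ∣ L) (H : Subgroup (ZMod M)ˣ) :
    k5uqG L q m n h ∈ gammaH L M H := by
  have hM : k5uqG L q m n h ∈ Gamma0 M :=
    S41.mem_Gamma0_of_dvd (by rw [k5uqG_10]; exact Int.natCast_dvd_natCast.mpr hML)
  refine ⟨k5uqG_mem_Gamma0 L q m n h, hM, ?_⟩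
  have : diamHom M ⟨k5uqG L q m n h, hM⟩ = 1 := by
    ext
    rw [Fermat.Agent.ES1.coe_diamHom]
    show (((k5uqG L q m n h) 0 0 : ℤ) : ZMod M) = _
    rw [k5uqG_00]
    simp
  rw [this]; exact one_mem _

theorem k5uqG1_diam {M : ℕ} (hM : k5uqG1 L q m n h ∈ Gamma0 M) :
    IsDiamQ M q (k5uqG1 L q m n h) hM := by
  show ((diamHom M ⟨k5uqG1 L q m n h, hM⟩ : (ZMod M)ˣ) : ZMod M) = (q : ZMod M)
  rw [Fermat.Agent.ES1.coe_diamHom]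
  show (((k5uqG1 L q m n h) 0 0 : ℤ) : ZMod M) = _
  rw [k5uqG1_00]
  simp

/-- `γ₀ = g g₁ ∈ Γ₀(L q)` -/
theorem k5uqGam_mem : k5uqG L q m n h * k5uqG1 L q m n h ∈ Gamma0 (L * q) := by
  apply S41.mem_Gamma0_of_dvd
  rw [Matrix.SpecialLinearGroup.coe_mul, k5uqG_coe, k5uqG1_coe]
  refine ⟨1 + n, ?_⟩
  simp [Matrix.mul_apply, Fin.sum_univ_two]
  ring

theorem k5uqGam_diam {M : ℕ} (hML : M ∣ L)
    (hM : k5uqG L q m n h * k5uqG1 L q m n h ∈ Gamma0 M) :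
    IsDiamQ M q (k5uqG L q m n h * k5uqG1 L q m n h) hM := by
  show ((diamHom M ⟨_, hM⟩ : (ZMod M)ˣ) : ZMod M) = (q : ZMod M)
  rw [Fermat.Agent.ES1.coe_diamHom]
  show ((((k5uqG L q m n h * k5uqG1 L q m n h : SL(2, ℤ)) :
    Matrix (Fin 2) (Fin 2) ℤ) 0 0 : ℤ) : ZMod M) = _
  rw [Matrix.SpecialLinearGroup.coe_mul, k5uqG_coe, k5uqG1_coe]
  have hL : (L : ZMod M) = 0 := (ZMod.natCast_eq_zero_iff L M).mpr hML
  simp [Matrix.mul_apply, Fin.sum_univ_two]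
  rw [hL, mul_zero]

end flip

/-! ## the range of `conjDH` -/

section range

variable (L M q : ℕ) [NeZero L] [NeZero q] [hML : Fact (M ∣ L)] (H : Subgroup (ZMod M)ˣ)

/-- `Γ_H(L) ∩ Γ⁰(q)` is the range of `conjDH` -/
theorem k5uq_mem_range (y : gammaH L M H)
    (hy : (q : ℤ) ∣ ((y : SL(2, ℤ)) : Matrix (Fin 2) (Fin 2) ℤ) 0 1) :
    y ∈ (conjDH L M q H hML.out).range := by
  obtain ⟨z, hz, hz00⟩ := k5e_exists_conjD_preimage L q ⟨(y : SL(2, ℤ)), y.2.1⟩ hy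
  have hzL : (z : SL(2, ℤ)) ∈ Gamma0 L := by
    apply S41.mem_Gamma0_of_dvd
    exact (Int.natCast_dvd_natCast.mpr (dvd_mul_right L q)).trans (S41.dvd_of_mem_Gamma0 z.2)
  have hzM : (z : SL(2, ℤ)) ∈ Gamma0 M := k5i_mem_Gamma0M L M hzL
  have hmem : (z : SL(2, ℤ)) ∈ gammaH (L * q) M H := by
    refine ⟨z.2, hzM, ?_⟩
    rw [k5e_diam_eq_of_entry _ _ hzM y.2.2.1 hz00]
    exact y.2.2.2
  refine ⟨⟨(z : SL(2, ℤ)), hmem⟩, ?_⟩
  apply Subtype.ext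
  rw [conjDH_coe]
  have : (⟨(z : SL(2, ℤ)), hmem.1⟩ : Gamma0 (L * q)) = z := rfl
  rw [this, hz]

theorem k5uq_dvd_conjDH (k : gammaH (L * q) M H) :
    (q : ℤ) ∣ (((conjDH L M q H hML.out k : gammaH L M H) : SL(2, ℤ)) :
      Matrix (Fin 2) (Fin 2) ℤ) 0 1 := by
  rw [conjDH_coe, S41.conjD_coe]
  simp [S41.conjDMat]

theorem k5uq_dvd_of_mem_range {y : gammaH L M H} (hy : y ∈ (conjDH L M q H hML.out).range) :
    (q : ℤ) ∣ ((y : SL(2, ℤ)) : Matrix (Fin 2) (Fin 2) ℤ) 0 1 := by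
  obtain ⟨k, rfl⟩ := hy
  exact k5uq_dvd_conjDH L M q H k

/-- `Γ_H(L) ∩ Γ₀(q)` is the range of `inclH` (`q` prime to `L`) -/
theorem k5uq_mem_incl_range (hc : Nat.Coprime q L) (y : gammaH L M H)
    (hy : (q : ℤ) ∣ ((y : SL(2, ℤ)) : Matrix (Fin 2) (Fin 2) ℤ) 1 0) :
    y ∈ (inclH L M q H).range := by
  have hL : (L : ℤ) ∣ ((y : SL(2, ℤ)) : Matrix (Fin 2) (Fin 2) ℤ) 1 0 :=
    S41.dvd_of_mem_Gamma0 y.2.1
  have hcop : IsCoprime (L : ℤ) (q : ℤ) := by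
    rw [Int.isCoprime_iff_gcd_eq_one]
    exact_mod_cast (Nat.coprime_comm.mp hc)
  have hLq : ((L * q : ℕ) : ℤ) ∣ ((y : SL(2, ℤ)) : Matrix (Fin 2) (Fin 2) ℤ) 1 0 := by
    push_cast
    exact hcop.mul_dvd hL hy
  have hmem : (y : SL(2, ℤ)) ∈ gammaH (L * q) M H :=
    ⟨S41.mem_Gamma0_of_dvd hLq, y.2.2⟩
  exact ⟨⟨(y : SL(2, ℤ)), hmem⟩, Subtype.ext rfl⟩

end range

/-! ## the conjugation `ν` -/

section nu

variable (L M q : ℕ) [NeZero L] [NeZero q] [hML : Fact (M ∣ L)] (H : Subgroup (ZMod M)ˣ)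
  (m n : ℤ) (h : (q : ℤ) * n - L * m = 1)

/-- `g` as an element of `Γ = Γ_H(L)` -/
def k5uqGΓ : gammaH L M H := ⟨k5uqG L q m n h, k5uqG_mem L q m n h hML.out H⟩

theorem k5uqGΓ_coe : ((k5uqGΓ L M q H m n h : gammaH L M H) : SL(2, ℤ)) = k5uqG L q m n h := rfl

theorem k5uq_nuAux_mem (x : gammaH (L * q) M H) :
    (k5uqGΓ L M q H m n h)⁻¹ * inclH L M q H x * k5uqGΓ L M q H m n h
      ∈ (conjDH L M q H hML.out).range := by
  apply k5uq_mem_range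
  show (q : ℤ) ∣ (((k5uqG L q m n h)⁻¹ * (x : SL(2, ℤ)) * k5uqG L q m n h : SL(2, ℤ)) :
    Matrix (Fin 2) (Fin 2) ℤ) 0 1
  exact k5uq_dvd_conj_01 (k5uqG_dvd_11 L q m n h) (S41.dvd_q_of_mem L q x.2.1)

/-- `x ↦ g⁻¹ x g`, `K → c(K)` -/
def k5uqNuAux : gammaH (L * q) M H →* (conjDH L M q H hML.out).range where
  toFun x := ⟨(k5uqGΓ L M q H m n h)⁻¹ * inclH L M q H x * k5uqGΓ L M q H m n h,
    k5uq_nuAux_mem L M q H m n h x⟩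
  map_one' := by
    apply Subtype.ext
    show (k5uqGΓ L M q H m n h)⁻¹ * inclH L M q H 1 * k5uqGΓ L M q H m n h = 1
    rw [map_one]; group
  map_mul' a b := by
    apply Subtype.ext
    show (k5uqGΓ L M q H m n h)⁻¹ * inclH L M q H (a * b) * k5uqGΓ L M q H m n h
      = ((k5uqGΓ L M q H m n h)⁻¹ * inclH L M q H a * k5uqGΓ L M q H m n h)
        * ((k5uqGΓ L M q H m n h)⁻¹ * inclH L M q H b * k5uqGΓ L M q H m n h)
    rw [map_mul]; group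

/-- **the Atkin–Lehner conjugation** `ν : K → K`, `ν x = W⁻¹ x W`, `W = g δ` -/
def k5uqNu : gammaH (L * q) M H →* gammaH (L * q) M H :=
  (MonoidHom.ofInjective (conjDH_injective L M q H hML.out)).symm.toMonoidHom.comp
    (k5uqNuAux L M q H m n h)

/-- `c (ν x) = g⁻¹ x g` -/
theorem k5uq_conj_nu (x : gammaH (L * q) M H) :
    conjDH L M q H hML.out (k5uqNu L M q H m n h x)
      = (k5uqGΓ L M q H m n h)⁻¹ * inclH L M q H x * k5uqGΓ L M q H m n h := by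
  have e := (MonoidHom.ofInjective (conjDH_injective L M q H hML.out)).apply_symm_apply
    (k5uqNuAux L M q H m n h x)
  exact congrArg Subtype.val e

theorem k5uq_conj_nu_coe (x : gammaH (L * q) M H) :
    ((conjDH L M q H hML.out (k5uqNu L M q H m n h x) : gammaH L M H) : SL(2, ℤ))
      = (k5uqG L q m n h)⁻¹ * (x : SL(2, ℤ)) * k5uqG L q m n h := by
  rw [k5uq_conj_nu]
  rfl

/-- `g₁ · ν x = c(x) · g₁` -/
theorem k5uq_nu_coe (x : gammaH (L * q) M H) :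
    k5uqG1 L q m n h * ((k5uqNu L M q H m n h x : gammaH (L * q) M H) : SL(2, ℤ))
      = ((conjDH L M q H hML.out x : gammaH L M H) : SL(2, ℤ)) * k5uqG1 L q m n h := by
  have hq0 : (q : ℤ) ≠ 0 := by exact_mod_cast NeZero.ne q
  set Z : Matrix (Fin 2) (Fin 2) ℤ :=
    (((k5uqNu L M q H m n h x : gammaH (L * q) M H) : SL(2, ℤ)) : Matrix (Fin 2) (Fin 2) ℤ)
    with hZ
  set X : Matrix (Fin 2) (Fin 2) ℤ := ((x : SL(2, ℤ)) : Matrix (Fin 2) (Fin 2) ℤ) with hX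
  set Y : Matrix (Fin 2) (Fin 2) ℤ :=
    (((conjDH L M q H hML.out x : gammaH L M H) : SL(2, ℤ)) : Matrix (Fin 2) (Fin 2) ℤ) with hY
  set G : Matrix (Fin 2) (Fin 2) ℤ :=
    ((k5uqG L q m n h : SL(2, ℤ)) : Matrix (Fin 2) (Fin 2) ℤ) with hG
  set G₁ : Matrix (Fin 2) (Fin 2) ℤ :=
    ((k5uqG1 L q m n h : SL(2, ℤ)) : Matrix (Fin 2) (Fin 2) ℤ) with hG₁
  set U : Matrix (Fin 2) (Fin 2) ℤ :=
    (((k5uqG L q m n h)⁻¹ * (x : SL(2, ℤ)) * k5uqG L q m n h : SL(2, ℤ)) :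
      Matrix (Fin 2) (Fin 2) ℤ) with hU
  have hDX : k5uqD q * X = Y * k5uqD q := by
    rw [hX, hY, conjDH_coe]
    exact k5uq_D_mul_coe L q ⟨(x : SL(2, ℤ)), x.2.1⟩
  have hDZ : k5uqD q * Z = U * k5uqD q := by
    rw [hZ, hU, ← k5uq_conj_nu_coe, conjDH_coe]
    exact k5uq_D_mul_coe L q ⟨_, (k5uqNu L M q H m n h x).2.1⟩
  have hGU : G * U = X * G := by
    rw [hG, hU, hX, ← Matrix.SpecialLinearGroup.coe_mul, ← Matrix.SpecialLinearGroup.coe_mul]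
    congr 1
    group
  have hDGD : k5uqD q * G * k5uqD q = (q : ℤ) • G₁ := k5uq_DGD L q m n h
  have key : (q : ℤ) • (G₁ * Z) = (q : ℤ) • (Y * G₁) := by
    calc (q : ℤ) • (G₁ * Z) = (k5uqD q * G * k5uqD q) * Z := by rw [hDGD, Matrix.smul_mul]
      _ = k5uqD q * G * (k5uqD q * Z) := by rw [Matrix.mul_assoc]
      _ = k5uqD q * G * (U * k5uqD q) := by rw [hDZ]
      _ = k5uqD q * (G * U) * k5uqD q := by simp only [Matrix.mul_assoc]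
      _ = k5uqD q * (X * G) * k5uqD q := by rw [hGU]
      _ = (k5uqD q * X) * G * k5uqD q := by simp only [Matrix.mul_assoc]
      _ = (Y * k5uqD q) * G * k5uqD q := by rw [hDX]
      _ = Y * (k5uqD q * G * k5uqD q) := by simp only [Matrix.mul_assoc]
      _ = (q : ℤ) • (Y * G₁) := by rw [hDGD, Matrix.mul_smul]
  have key2 : G₁ * Z = Y * G₁ := smul_right_injective _ hq0 key
  apply Subtype.ext
  rw [Matrix.SpecialLinearGroup.coe_mul, Matrix.SpecialLinearGroup.coe_mul]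
  exact key2

/-- `ν x = g₁⁻¹ c(x) g₁` -/
theorem k5uq_nu_eq (x : gammaH (L * q) M H) :
    ((k5uqNu L M q H m n h x : gammaH (L * q) M H) : SL(2, ℤ))
      = (k5uqG1 L q m n h)⁻¹ * ((conjDH L M q H hML.out x : gammaH L M H) : SL(2, ℤ))
          * k5uqG1 L q m n h := by
  rw [mul_assoc, ← k5uq_nu_coe]
  group

/-- `ν (ν x) = γ₀⁻¹ x γ₀`, `γ₀ = g g₁` -/
theorem k5uq_nu_nu (x : gammaH (L * q) M H) :
    ((k5uqNu L M q H m n h (k5uqNu L M q H m n h x) : gammaH (L * q) M H) : SL(2, ℤ))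
      = (k5uqG L q m n h * k5uqG1 L q m n h)⁻¹ * (x : SL(2, ℤ))
          * (k5uqG L q m n h * k5uqG1 L q m n h) := by
  rw [k5uq_nu_eq, k5uq_conj_nu_coe]
  group

end nu

end Fermat.Agent.RT.K5
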